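import Mathlib
set_option autoImplicit false

/-!
# Continuous ("level") cohomology in degrees 0, 1, 2

`Lev G` : a group topology on `G` given by its open subgroups (all of finite index).
`Z1, B1, H1, Z2, B2, H2` : level cochains, inhomogeneous cocycles, cohomology.
`H1map`, `H2map` : functoriality for a pair `(φ : G' →* G, f : A →+ B)`.
-/

namespace Fermat.Agent.CC

/-- A "level structure" on a group: which subgroups are open. -/
structure Lev (G : Type*) [Group G] where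
  isOpen : Subgroup G → Prop
  top : isOpen ⊤
  inf : ∀ U V, isOpen U → isOpen V → isOpen (U ⊓ V)
  mono : ∀ U V, isOpen U → U ≤ V → isOpen V
  nor : ∀ U, isOpen U → ∃ V : Subgroup G, V.Normal ∧ isOpen V ∧ V ≤ U
  fin : ∀ U, isOpen U → U.FiniteIndex

namespace Lev

variable {G G' G'' : Type*} [Group G] [Group G'] [Group G'']

/-- A homomorphism is continuous for level structures. -/
def Cont (φ : G' →* G) (𝓛' : Lev G') (𝓛 : Lev G) : Prop :=
  ∀ U, 𝓛.isOpen U → 𝓛'.isOpen (U.comap φ)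

/-- Pull back of a level structure. -/
def comap (𝓛 : Lev G) (φ : G' →* G) : Lev G' where
  isOpen U' := ∃ U, 𝓛.isOpen U ∧ U.comap φ ≤ U'
  top := ⟨⊤, 𝓛.top, le_top⟩
  inf := by
    rintro U V ⟨U₁, h₁, h₁'⟩ ⟨V₁, h₂, h₂'⟩
    exact ⟨U₁ ⊓ V₁, 𝓛.inf _ _ h₁ h₂, by
      rw [Subgroup.comap_inf]; exact inf_le_inf h₁' h₂'⟩
  mono := by
    rintro U V ⟨U₁, h₁, h₁'⟩ h
    exact ⟨U₁, h₁, h₁'.trans h⟩
  nor := by
    rintro U ⟨U₁, h₁, h₁'⟩
    obtain ⟨V, hV, hV', hV''⟩ := 𝓛.nor U₁ h₁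
    exact ⟨V.comap φ, hV.comap φ, ⟨V, hV', le_rfl⟩, (Subgroup.comap_mono hV'').trans h₁'⟩
  fin := by
    rintro U ⟨U₁, h₁, h₁'⟩
    haveI := 𝓛.fin U₁ h₁
    haveI : (U₁.comap φ).FiniteIndex := by
      refine ⟨?_⟩
      rw [Subgroup.index_comap]
      haveI := Subgroup.isFiniteRelIndex_of_finiteIndex (H := U₁) (K := φ.range)
      exact Subgroup.relIndex_ne_zero
    exact Subgroup.finiteIndex_of_le h₁'

/-- Restriction of a level structure to a subgroup. -/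
def sub (𝓛 : Lev G) (H : Subgroup G) : Lev H := 𝓛.comap H.subtype

theorem cont_comap (𝓛 : Lev G) (φ : G' →* G) : Cont φ (𝓛.comap φ) 𝓛 :=
  fun U hU => ⟨U, hU, le_rfl⟩

theorem cont_subtype (𝓛 : Lev G) (H : Subgroup G) : Cont H.subtype (𝓛.sub H) 𝓛 :=
  𝓛.cont_comap _

theorem Cont.comp {φ : G' →* G} {ψ : G'' →* G'} {𝓛 : Lev G} {𝓛' : Lev G'} {𝓛'' : Lev G''}
    (hφ : Cont φ 𝓛' 𝓛) (hψ : Cont ψ 𝓛'' 𝓛') : Cont (φ.comp ψ) 𝓛'' 𝓛 := by
  intro U hU
  rw [← Subgroup.comap_comap]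
  exact hψ _ (hφ _ hU)

theorem cont_inclusion (𝓛 : Lev G) {H H' : Subgroup G} (h : H' ≤ H) :
    Cont (Subgroup.inclusion h) (𝓛.sub H') (𝓛.sub H) := by
  rintro U ⟨V, hV, hVU⟩
  refine ⟨V, hV, fun x hx => hVU ?_⟩
  exact hx

/-- Level-constant one-variable functions. -/
def Const1 (𝓛 : Lev G) {X : Type*} (f : G → X) : Prop :=
  ∃ U, 𝓛.isOpen U ∧ ∀ g, ∀ s ∈ U, f (g * s) = f g

/-- Level-constant two-variable functions. -/
def Const2 (𝓛 : Lev G) {X : Type*} (f : G → G → X) : Prop :=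
  ∃ U, 𝓛.isOpen U ∧ ∀ g h, ∀ s ∈ U, ∀ t ∈ U, f (g * s) (h * t) = f g h

/-- `A` is a smooth (discrete) `G`-module. -/
def Smooth (𝓛 : Lev G) (A : Type*) [SMul G A] : Prop :=
  ∀ a : A, ∃ U, 𝓛.isOpen U ∧ ∀ s ∈ U, s • a = a

theorem Const1.comp {𝓛 : Lev G} {X Y : Type*} {f : G → X} (hf : 𝓛.Const1 f) (φ : X → Y) :
    𝓛.Const1 (fun g => φ (f g)) := by
  obtain ⟨U, hU, h⟩ := hf
  exact ⟨U, hU, fun g s hs => by beta_reduce; rw [h g s hs]⟩

theorem Const1.comp₂ {𝓛 : Lev G} {X Y Z : Type*} {f : G → X} {f' : G → Y} (hf : 𝓛.Const1 f)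
    (hf' : 𝓛.Const1 f') (φ : X → Y → Z) : 𝓛.Const1 (fun g => φ (f g) (f' g)) := by
  obtain ⟨U, hU, h⟩ := hf
  obtain ⟨U', hU', h'⟩ := hf'
  exact ⟨U ⊓ U', 𝓛.inf _ _ hU hU', fun g s hs => by
    beta_reduce; rw [h g s hs.1, h' g s hs.2]⟩

theorem Const2.comp {𝓛 : Lev G} {X Y : Type*} {f : G → G → X} (hf : 𝓛.Const2 f) (φ : X → Y) :
    𝓛.Const2 (fun g h => φ (f g h)) := by
  obtain ⟨U, hU, h⟩ := hf
  exact ⟨U, hU, fun g g' s hs t ht => by beta_reduce; rw [h g g' s hs t ht]⟩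

theorem Const2.comp₂ {𝓛 : Lev G} {X Y Z : Type*} {f : G → G → X} {f' : G → G → Y}
    (hf : 𝓛.Const2 f) (hf' : 𝓛.Const2 f') (φ : X → Y → Z) :
    𝓛.Const2 (fun g h => φ (f g h) (f' g h)) := by
  obtain ⟨U, hU, h⟩ := hf
  obtain ⟨U', hU', h'⟩ := hf'
  exact ⟨U ⊓ U', 𝓛.inf _ _ hU hU', fun g g' s hs t ht => by
    beta_reduce; rw [h g g' s hs.1 t ht.1, h' g g' s hs.2 t ht.2]⟩

theorem const1_const (𝓛 : Lev G) {X : Type*} (x : X) : 𝓛.Const1 (fun _ : G => x) :=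
  ⟨⊤, 𝓛.top, fun _ _ _ => rfl⟩

theorem const2_const (𝓛 : Lev G) {X : Type*} (x : X) : 𝓛.Const2 (fun _ _ : G => x) :=
  ⟨⊤, 𝓛.top, fun _ _ _ _ _ _ => rfl⟩

theorem Const1.precomp {𝓛 : Lev G} {𝓛' : Lev G'} {φ : G' →* G} (hφ : Cont φ 𝓛' 𝓛)
    {X : Type*} {f : G → X} (hf : 𝓛.Const1 f) : 𝓛'.Const1 (fun g => f (φ g)) := by
  obtain ⟨U, hU, h⟩ := hf
  exact ⟨U.comap φ, hφ U hU, fun g s hs => by
    beta_reduce; rw [map_mul, h _ _ hs]⟩

theorem Const2.precomp {𝓛 : Lev G} {𝓛' : Lev G'} {φ : G' →* G} (hφ : Cont φ 𝓛' 𝓛)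
    {X : Type*} {f : G → G → X} (hf : 𝓛.Const2 f) :
    𝓛'.Const2 (fun g h => f (φ g) (φ h)) := by
  obtain ⟨U, hU, h⟩ := hf
  exact ⟨U.comap φ, hφ U hU, fun g g' s hs t ht => by
    beta_reduce; rw [map_mul, map_mul, h _ _ _ hs _ ht]⟩

/-- functions of the first variable only -/
theorem Const1.fst {𝓛 : Lev G} {X : Type*} {f : G → X} (hf : 𝓛.Const1 f) :
    𝓛.Const2 (fun g _ => f g) := by
  obtain ⟨U, hU, h⟩ := hf
  exact ⟨U, hU, fun g g' s hs t _ => h g s hs⟩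

theorem Const1.snd {𝓛 : Lev G} {X : Type*} {f : G → X} (hf : 𝓛.Const1 f) :
    𝓛.Const2 (fun _ g => f g) := by
  obtain ⟨U, hU, h⟩ := hf
  exact ⟨U, hU, fun g g' s _ t ht => h g' t ht⟩

/-- A level-constant function takes finitely many values. -/
theorem Const1.finite_range {𝓛 : Lev G} {X : Type*} {f : G → X} (hf : 𝓛.Const1 f) :
    (Set.range f).Finite := by
  obtain ⟨U, hU, h⟩ := hf
  haveI := 𝓛.fin U hU
  have : Finite (G ⧸ U) := inferInstance
  have hf : ∀ g, f g = f (Quotient.out (QuotientGroup.mk g : G ⧸ U)) := by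
    intro g
    obtain ⟨s, hs⟩ := QuotientGroup.mk_out_eq_mul U g
    rw [hs, h _ _ s.2]
  refine (Set.finite_range (fun q : G ⧸ U => f (Quotient.out q))).subset ?_
  rintro _ ⟨g, rfl⟩
  exact ⟨_, (hf g).symm⟩

/-- Common normal level for a finite set of level conditions. -/
theorem exists_normal_le (𝓛 : Lev G) {U V : Subgroup G} (hU : 𝓛.isOpen U) (hV : 𝓛.isOpen V) :
    ∃ W : Subgroup G, W.Normal ∧ 𝓛.isOpen W ∧ W ≤ U ∧ W ≤ V := by
  obtain ⟨W, h1, h2, h3⟩ := 𝓛.nor _ (𝓛.inf _ _ hU hV)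
  exact ⟨W, h1, h2, h3.trans inf_le_left, h3.trans inf_le_right⟩

/-- On a smooth module, finitely many elements are fixed by an open subgroup. -/
theorem Smooth.finite {𝓛 : Lev G} {A : Type*} [SMul G A] (hA : 𝓛.Smooth A) {s : Set A}
    (hs : s.Finite) : ∃ U, 𝓛.isOpen U ∧ ∀ a ∈ s, ∀ u ∈ U, u • a = a := by
  induction s, hs using Set.Finite.induction_on with
  | empty => exact ⟨⊤, 𝓛.top, by simp⟩
  | @insert a s _ _ ih =>
    obtain ⟨U, hU, h⟩ := ih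
    obtain ⟨V, hV, h'⟩ := hA a
    refine ⟨U ⊓ V, 𝓛.inf _ _ hU hV, ?_⟩
    rintro b (rfl | hb) u hu
    · exact h' u hu.2
    · exact h b hb u hu.1

/-- The module function `g ↦ g • f g` etc. stays level-constant. -/
theorem Smooth.const1_smul {𝓛 : Lev G} {A : Type*} [MulAction G A] (hA : 𝓛.Smooth A) (a : A) :
    𝓛.Const1 (fun g : G => g • a) := by
  obtain ⟨U, hU, h⟩ := hA a
  exact ⟨U, hU, fun g s hs => by beta_reduce; rw [mul_smul, h s hs]⟩

theorem Smooth.const2_smul {𝓛 : Lev G} {A : Type*} [MulAction G A] (hA : 𝓛.Smooth A)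
    {f : G → A} (hf : 𝓛.Const1 f) : 𝓛.Const2 (fun g h : G => g • f h) := by
  obtain ⟨V, hV, hV'⟩ := hA.finite hf.finite_range
  obtain ⟨U, hU, h⟩ := hf
  refine ⟨U ⊓ V, 𝓛.inf _ _ hU hV, fun g g' s hs t ht => ?_⟩
  beta_reduce
  rw [h g' t ht.1, mul_smul, hV' _ ⟨g', rfl⟩ s hs.2]

/-- multiplication of the variables: needs a normal level. -/
theorem Const1.mul {𝓛 : Lev G} {X : Type*} {f : G → X} (hf : 𝓛.Const1 f) :
    𝓛.Const2 (fun g h : G => f (g * h)) := by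
  obtain ⟨U, hU, h⟩ := hf
  obtain ⟨V, hn, hV, hVU⟩ := 𝓛.nor U hU
  refine ⟨V, hV, fun g g' s hs t ht => ?_⟩
  have : g * s * (g' * t) = (g * g') * ((g'⁻¹ * s * g') * t) := by group
  beta_reduce
  rw [this, h]
  refine U.mul_mem (hVU ?_) (hVU ht)
  simpa using hn.conj_mem s hs g'⁻¹

end Lev

section Coh

variable {G : Type*} [Group G] (𝓛 : Lev G) (A : Type*) [AddCommGroup A] [DistribMulAction G A]

/-- invariants -/
def H0 (G : Type*) [Group G] (A : Type*) [AddCommGroup A] [DistribMulAction G A] :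
    AddSubgroup A where
  carrier := {a | ∀ g : G, g • a = a}
  add_mem' := by
    intro a b ha hb g
    rw [smul_add, ha g, hb g]
  zero_mem' := fun g => smul_zero g
  neg_mem' := by
    intro a ha g
    rw [smul_neg, ha g]

/-- level one-cocycles -/
def Z1 : AddSubgroup (G → A) where
  carrier := {f | 𝓛.Const1 f ∧ ∀ g h, f (g * h) = f g + g • f h}
  add_mem' := by
    rintro f f' ⟨h1, h2⟩ ⟨h1', h2'⟩
    refine ⟨h1.comp₂ h1' (· + ·), fun g h => ?_⟩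
    simp only [Pi.add_apply, h2, h2', smul_add]
    abel
  zero_mem' := ⟨𝓛.const1_const 0, fun g h => by simp⟩
  neg_mem' := by
    rintro f ⟨h1, h2⟩
    refine ⟨h1.comp (fun x => -x), fun g h => ?_⟩
    simp only [Pi.neg_apply, h2, smul_neg]
    abel

/-- one-coboundaries (automatically level-constant for smooth modules; we intersect anyway) -/
def B1 : AddSubgroup (Z1 𝓛 A) where
  carrier := {f | ∃ a : A, ∀ g, f.1 g = g • a - a}
  add_mem' := by
    rintro f f' ⟨a, ha⟩ ⟨b, hb⟩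
    refine ⟨a + b, fun g => ?_⟩
    simp only [AddSubgroup.coe_add, Pi.add_apply, ha, hb, smul_add]
    abel
  zero_mem' := ⟨0, fun g => by simp⟩
  neg_mem' := by
    rintro f ⟨a, ha⟩
    refine ⟨-a, fun g => ?_⟩
    simp only [AddSubgroup.coe_neg, Pi.neg_apply, ha, smul_neg]
    abel

/-- first cohomology -/
def H1 : Type _ := Z1 𝓛 A ⧸ B1 𝓛 A

noncomputable instance : AddCommGroup (H1 𝓛 A) :=
  inferInstanceAs (AddCommGroup (Z1 𝓛 A ⧸ B1 𝓛 A))

/-- class of a one-cocycle -/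
def H1.mk : Z1 𝓛 A →+ H1 𝓛 A := QuotientAddGroup.mk' (B1 𝓛 A)

/-- The two-cocycle condition. -/
def IsCocycle2 {G : Type*} [Group G] {A : Type*} [AddCommGroup A] [DistribMulAction G A]
    (f : G → G → A) : Prop :=
  ∀ g h j, g • f h j + f g (h * j) = f (g * h) j + f g h

/-- level two-cocycles -/
def Z2 : AddSubgroup (G → G → A) where
  carrier := {f | 𝓛.Const2 f ∧ IsCocycle2 f}
  add_mem' := by
    rintro f f' ⟨h1, h2⟩ ⟨h1', h2'⟩
    refine ⟨h1.comp₂ h1' (· + ·), fun g h j => ?_⟩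
    have e1 := h2 g h j
    have e2 := h2' g h j
    simp only [Pi.add_apply, smul_add]
    calc _ = (g • f h j + f g (h * j)) + (g • f' h j + f' g (h * j)) := by abel
      _ = _ := by rw [e1, e2]; abel
  zero_mem' := ⟨𝓛.const2_const 0, fun g h j => by simp⟩
  neg_mem' := by
    rintro f ⟨h1, h2⟩
    refine ⟨h1.comp (fun x => -x), fun g h j => ?_⟩
    have e1 := h2 g h j
    simp only [Pi.neg_apply, smul_neg]
    calc _ = -(g • f h j + f g (h * j)) := by abel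
      _ = _ := by rw [e1]; abel

/-- coboundary of a one-cochain -/
def d1 {G : Type*} [Group G] {A : Type*} [AddCommGroup A] [DistribMulAction G A]
    (φ : G → A) : G → G → A := fun g h => g • φ h - φ (g * h) + φ g

theorem isCocycle2_d1 {G : Type*} [Group G] {A : Type*} [AddCommGroup A] [DistribMulAction G A]
    (φ : G → A) : IsCocycle2 (d1 φ) := by
  intro g h j
  simp only [d1, smul_add, smul_sub, mul_smul, mul_assoc]
  abel

/-- two-coboundaries: coboundaries of level-constant one-cochains -/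
def B2 : AddSubgroup (Z2 𝓛 A) where
  carrier := {f | ∃ φ : G → A, 𝓛.Const1 φ ∧ ∀ g h, f.1 g h = d1 φ g h}
  add_mem' := by
    rintro f f' ⟨a, ha, ha'⟩ ⟨b, hb, hb'⟩
    refine ⟨a + b, ha.comp₂ hb (· + ·), fun g h => ?_⟩
    simp only [AddSubgroup.coe_add, Pi.add_apply, ha', hb', d1, smul_add]
    abel
  zero_mem' := ⟨0, 𝓛.const1_const 0, fun g h => by simp [d1]⟩
  neg_mem' := by
    rintro f ⟨a, ha, ha'⟩
    refine ⟨-a, ha.comp (fun x => -x), fun g h => ?_⟩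
    simp only [AddSubgroup.coe_neg, Pi.neg_apply, ha', d1, smul_neg]
    abel

/-- second cohomology -/
def H2 : Type _ := Z2 𝓛 A ⧸ B2 𝓛 A

noncomputable instance : AddCommGroup (H2 𝓛 A) :=
  inferInstanceAs (AddCommGroup (Z2 𝓛 A ⧸ B2 𝓛 A))

/-- class of a two-cocycle -/
def H2.mk : Z2 𝓛 A →+ H2 𝓛 A := QuotientAddGroup.mk' (B2 𝓛 A)

variable {𝓛 A}

theorem mem_H0 {a : A} : a ∈ H0 G A ↔ ∀ g : G, g • a = a := Iff.rfl

theorem mem_Z1 {f : G → A} : f ∈ Z1 𝓛 A ↔ 𝓛.Const1 f ∧ ∀ g h, f (g * h) = f g + g • f h :=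
  Iff.rfl

theorem mem_Z2 {f : G → G → A} : f ∈ Z2 𝓛 A ↔ 𝓛.Const2 f ∧ IsCocycle2 f := Iff.rfl

theorem H1.mk_surjective : Function.Surjective (H1.mk 𝓛 A) := QuotientAddGroup.mk'_surjective _

theorem H2.mk_surjective : Function.Surjective (H2.mk 𝓛 A) := QuotientAddGroup.mk'_surjective _

theorem H1.mk_eq_zero {f : Z1 𝓛 A} : H1.mk 𝓛 A f = 0 ↔ ∃ a : A, ∀ g, f.1 g = g • a - a :=
  (QuotientAddGroup.eq_zero_iff f)

theorem H2.mk_eq_zero {f : Z2 𝓛 A} :
    H2.mk 𝓛 A f = 0 ↔ ∃ φ : G → A, 𝓛.Const1 φ ∧ ∀ g h, f.1 g h = d1 φ g h :=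
  (QuotientAddGroup.eq_zero_iff f)

theorem H1.mk_eq_mk {f f' : Z1 𝓛 A} :
    H1.mk 𝓛 A f = H1.mk 𝓛 A f' ↔ ∃ a : A, ∀ g, f.1 g = f'.1 g + (g • a - a) := by
  rw [← sub_eq_zero, ← map_sub, H1.mk_eq_zero]
  refine exists_congr fun a => forall_congr' fun g => ?_
  simp only [AddSubgroup.coe_sub, Pi.sub_apply]
  constructor
  · intro h; rw [← h]; abel
  · intro h; rw [h]; abel

theorem H2.mk_eq_mk {f f' : Z2 𝓛 A} :
    H2.mk 𝓛 A f = H2.mk 𝓛 A f' ↔
      ∃ φ : G → A, 𝓛.Const1 φ ∧ ∀ g h, f.1 g h = f'.1 g h + d1 φ g h := by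
  rw [← sub_eq_zero, ← map_sub, H2.mk_eq_zero]
  refine exists_congr fun a => and_congr_right fun _ => forall_congr' fun g =>
    forall_congr' fun h => ?_
  simp only [AddSubgroup.coe_sub, Pi.sub_apply]
  constructor
  · intro h; rw [← h]; abel
  · intro h; rw [h]; abel

theorem Z1.map_one (f : Z1 𝓛 A) : f.1 1 = 0 := by
  have := f.2.2 1 1
  simpa using this

theorem const2_d1 (hA : 𝓛.Smooth A) {φ : G → A} (hφ : 𝓛.Const1 φ) : 𝓛.Const2 (d1 φ) :=
  ((hA.const2_smul hφ).comp₂ hφ.mul (· - ·)).comp₂ hφ.fst (· + ·)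

/-- A cocycle on a group acting smoothly: coboundary of `a` as an element of `Z1`. -/
def coboundary1 (hA : 𝓛.Smooth A) (a : A) : Z1 𝓛 A :=
  ⟨fun g => g • a - a, (hA.const1_smul a).comp (fun x => x - a), fun g h => by
    simp only [mul_smul, smul_sub]; abel⟩

/-- coboundary of a level one-cochain as an element of `Z2`. -/
def coboundary2 (hA : 𝓛.Smooth A) (φ : G → A) (hφ : 𝓛.Const1 φ) : Z2 𝓛 A :=
  ⟨d1 φ, const2_d1 hA hφ, isCocycle2_d1 φ⟩

end Coh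

section Functoriality

variable {G G' : Type*} [Group G] [Group G'] {𝓛 : Lev G} {𝓛' : Lev G'}
  {A B : Type*} [AddCommGroup A] [AddCommGroup B] [DistribMulAction G A] [DistribMulAction G' B]

/-- compatible pair `(φ : G' → G, f : A → B)` -/
def Compat (φ : G' →* G) (f : A →+ B) : Prop := ∀ (g : G') (a : A), f (φ g • a) = g • f a

variable (φ : G' →* G) (hφ : Lev.Cont φ 𝓛' 𝓛) (f : A →+ B) (hf : Compat φ f)

include hf

/-- functoriality on one-cocycles -/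
def Z1map : Z1 𝓛 A →+ Z1 𝓛' B where
  toFun x := ⟨fun g => f (x.1 (φ g)), (x.2.1.precomp hφ).comp f, fun g h => by
    beta_reduce; rw [map_mul, x.2.2, map_add, hf]⟩
  map_zero' := by ext g; simp
  map_add' x y := by ext g; simp

/-- functoriality on two-cocycles -/
def Z2map : Z2 𝓛 A →+ Z2 𝓛' B where
  toFun x := ⟨fun g h => f (x.1 (φ g) (φ h)), (x.2.1.precomp hφ).comp f, fun g h j => by
    beta_reduce; rw [map_mul, map_mul, ← hf, ← map_add, ← map_add, x.2.2]⟩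
  map_zero' := by ext g h; simp
  map_add' x y := by ext g h; simp

/-- functoriality on `H1` -/
def H1map : H1 𝓛 A →+ H1 𝓛' B :=
  QuotientAddGroup.map _ _ (Z1map φ hφ f hf) (by
    rintro x ⟨a, ha⟩
    refine ⟨f a, fun g => ?_⟩
    change f (x.1 (φ g)) = _
    rw [ha, map_sub, hf])

/-- functoriality on `H2` -/
def H2map : H2 𝓛 A →+ H2 𝓛' B :=
  QuotientAddGroup.map _ _ (Z2map φ hφ f hf) (by
    rintro x ⟨ψ, hψ, hx⟩
    refine ⟨fun g => f (ψ (φ g)), (hψ.precomp hφ).comp f, fun g h => ?_⟩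
    change f (x.1 (φ g) (φ h)) = _
    rw [hx]
    simp only [d1, map_add, map_sub, map_mul]
    rw [hf])

@[simp] theorem Z1map_apply (x : Z1 𝓛 A) (g : G') : (Z1map φ hφ f hf x).1 g = f (x.1 (φ g)) := rfl

@[simp] theorem Z2map_apply (x : Z2 𝓛 A) (g h : G') :
    (Z2map φ hφ f hf x).1 g h = f (x.1 (φ g) (φ h)) := rfl

@[simp] theorem H1map_mk (x : Z1 𝓛 A) :
    H1map φ hφ f hf (H1.mk 𝓛 A x) = H1.mk 𝓛' B (Z1map φ hφ f hf x) := rfl

@[simp] theorem H2map_mk (x : Z2 𝓛 A) :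
    H2map φ hφ f hf (H2.mk 𝓛 A x) = H2.mk 𝓛' B (Z2map φ hφ f hf x) := rfl

end Functoriality

section Special

variable {G : Type*} [Group G] (𝓛 : Lev G)
  {A B : Type*} [AddCommGroup A] [AddCommGroup B] [DistribMulAction G A] [DistribMulAction G B]

theorem Lev.cont_id : Lev.Cont (MonoidHom.id G) 𝓛 𝓛 := fun U hU => by simpa using hU

/-- coefficient change in degree one -/
def H1coef (f : A →+ B) (hf : ∀ (g : G) (a : A), f (g • a) = g • f a) : H1 𝓛 A →+ H1 𝓛 B :=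
  H1map (MonoidHom.id G) 𝓛.cont_id f hf

/-- coefficient change in degree two -/
def H2coef (f : A →+ B) (hf : ∀ (g : G) (a : A), f (g • a) = g • f a) : H2 𝓛 A →+ H2 𝓛 B :=
  H2map (MonoidHom.id G) 𝓛.cont_id f hf

/-- restriction from `H` to a smaller subgroup `H'`, degree one. -/
def H1res (H H' : Subgroup G) (h : H' ≤ H) (A : Type*) [AddCommGroup A] [DistribMulAction H A]
    [DistribMulAction H' A] (hA : ∀ (g : H') (a : A), Subgroup.inclusion h g • a = g • a) :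
    H1 (𝓛.sub H) A →+ H1 (𝓛.sub H') A :=
  H1map (Subgroup.inclusion h) (𝓛.cont_inclusion h) (AddMonoidHom.id A) hA

/-- restriction from `H` to a smaller subgroup `H'`, degree two. -/
def H2res (H H' : Subgroup G) (h : H' ≤ H) (A : Type*) [AddCommGroup A] [DistribMulAction H A]
    [DistribMulAction H' A] (hA : ∀ (g : H') (a : A), Subgroup.inclusion h g • a = g • a) :
    H2 (𝓛.sub H) A →+ H2 (𝓛.sub H') A :=
  H2map (Subgroup.inclusion h) (𝓛.cont_inclusion h) (AddMonoidHom.id A) hA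

end Special

end Fermat.Agent.CC
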