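import Fermat.Agent.CC.PT8
set_option autoImplicit false
set_option maxHeartbeats 400000

/-!
# Inner automorphisms act trivially; restriction of a Shapiro class to conjugate subgroups
-/

namespace Fermat.Agent.CC

noncomputable section

variable {G : Type*} [Group G] {𝓛 : Lev G} {A : Type*} [AddCommGroup A] [DistribMulAction G A]

/-- conjugation by `g⁻¹` -/
def cj (g : G) : G →* G := (MulAut.conj g⁻¹).toMonoidHom

@[simp] theorem cj_apply (g a : G) : cj g a = g⁻¹ * a * g := by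
  change g⁻¹ * a * (g⁻¹)⁻¹ = _
  rw [inv_inv]

theorem cont_cj (g : G) : Lev.Cont (cj g) 𝓛 𝓛 := by
  intro U hU
  obtain ⟨V, hVn, hV, hVU⟩ := 𝓛.nor U hU
  refine 𝓛.mono _ _ hV fun x hx => ?_
  rw [Subgroup.mem_comap, cj_apply]
  apply hVU
  simpa using hVn.conj_mem x hx g⁻¹

/-- multiplication by `g` on coefficients -/
abbrev smH (g : G) (A : Type*) [AddCommGroup A] [DistribMulAction G A] : A →+ A :=
  DistribSMul.toAddMonoidHom A g

theorem compat_cj (g : G) : Compat (cj g) (smH g A) := by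
  intro a x
  change g • (cj g a • x) = a • g • x
  rw [cj_apply, smul_smul, smul_smul]
  congr 1
  group

theorem H1_conj (g : G) (x : H1 𝓛 A) : H1map (cj g) (cont_cj g) (smH g A) (compat_cj g) x = x := by
  obtain ⟨f, rfl⟩ := H1.mk_surjective x
  rw [H1map_mk, H1.mk_eq_mk]
  refine ⟨f.1 g, fun a => ?_⟩
  change g • f.1 (cj g a) = _
  have h1 : f.1 (g * cj g a) = f.1 g + g • f.1 (cj g a) := f.2.2 _ _
  have h2 : g * cj g a = a * g := by rw [cj_apply]; group
  rw [h2, f.2.2] at h1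
  have h3 : g • f.1 (cj g a) = f.1 a + a • f.1 g - f.1 g := by rw [h1]; abel
  rw [h3]
  abel

theorem H2_conj (g : G) (x : H2 𝓛 A) : H2map (cj g) (cont_cj g) (smH g A) (compat_cj g) x = x := by
  obtain ⟨f, rfl⟩ := H2.mk_surjective x
  rw [H2map_mk, H2.mk_eq_mk]
  refine ⟨fun a => f.1 g (cj g a) - f.1 a g, ?_, fun a b => ?_⟩
  · obtain ⟨U, hU, h⟩ := f.2.1
    obtain ⟨V, hVn, hV, hVU⟩ := 𝓛.nor U hU
    refine ⟨V, hV, fun a s hs => ?_⟩
    beta_reduce
    have h1 : f.1 (a * s) g = f.1 a g := by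
      have := h a g s (hVU hs) 1 (one_mem U)
      rwa [mul_one] at this
    have h2 : f.1 g (cj g (a * s)) = f.1 g (cj g a) := by
      rw [map_mul]
      have := h g (cj g a) 1 (one_mem U) (cj g s) (hVU (by
        rw [cj_apply]
        simpa using hVn.conj_mem s hs g⁻¹))
      rwa [mul_one] at this
    rw [h1, h2]
  · change g • f.1 (cj g a) (cj g b) = f.1 a b + (a • (f.1 g (cj g b) - f.1 b g) -
      (f.1 g (cj g (a * b)) - f.1 (a * b) g) + (f.1 g (cj g a) - f.1 a g))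
    have e1 := f.2.2 g (cj g a) (cj g b)
    have e2 := f.2.2 a g (cj g b)
    have e3 := f.2.2 a b g
    have ga : g * cj g a = a * g := by rw [cj_apply]; group
    have gb : g * cj g b = b * g := by rw [cj_apply]; group
    rw [ga, ← map_mul] at e1
    rw [gb] at e2
    -- e1 : g • f(a^g,b^g) + f(g,(ab)^g) = f(ag, b^g) + f(g,a^g)
    have s1 : g • f.1 (cj g a) (cj g b) =
        f.1 (a * g) (cj g b) + f.1 g (cj g a) - f.1 g (cj g (a * b)) := by
      rw [eq_sub_iff_add_eq, e1]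
    have s2 : f.1 (a * g) (cj g b) = a • f.1 g (cj g b) + f.1 a (b * g) - f.1 a g := by
      rw [eq_sub_iff_add_eq, ← e2]
    have s3 : f.1 a (b * g) = f.1 (a * b) g + f.1 a b - a • f.1 b g := by
      rw [eq_sub_iff_add_eq, ← e3]; abel
    rw [s1, s2, s3, smul_sub]
    abel

section Sh

variable {H : Subgroup G} {T : Type*} [AddCommGroup T] [DistribMulAction G T]

/-- evaluation at `g` -/
def evg (H : Subgroup G) (T : Type*) [AddCommGroup T] [DistribMulAction G T] (g : G) :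
    CoInd H T →+ T where
  toFun f := f.1 g
  map_zero' := rfl
  map_add' _ _ := rfl

@[simp] theorem evg_apply (g : G) (f : CoInd H T) : evg H T g f = f.1 g := rfl

variable {D B : Subgroup G} {g : G} (hB : ∀ b ∈ B, cj g b ∈ D) (hBH : B ≤ H)

/-- `B → D`, `b ↦ g⁻¹ b g` -/
def cjD : B →* D := ((cj g).comp B.subtype).codRestrict D fun b => hB b b.2

theorem cjD_coe (b : B) : (cjD hB b : G) = g⁻¹ * b * g := cj_apply _ _

theorem cont_cjD {𝓓 : Lev D} {𝓑 : Lev B} (𝓛₁ : Lev G) (h𝓓 : 𝓓 = 𝓛₁.sub D)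
    (h𝓑 : 𝓑 = 𝓛₁.sub B) : Lev.Cont (cjD hB) 𝓑 𝓓 := by
  subst h𝓓 h𝓑
  rintro U ⟨V, hV, hVU⟩
  exact ⟨V.comap (cj g), cont_cj g V hV, fun b hb => hVU hb⟩

include hBH in
theorem compat_evg : Compat (cjD hB) (evg H T g) := by
  intro b f
  change f.1 (g * (cjD hB b : G)) = (b : G) • f.1 g
  rw [cjD_coe]
  have h1 : g * (g⁻¹ * (b : G) * g) = ((⟨b, hBH b.2⟩ : H) : G) * g := by
    change _ = (b : G) * g
    group
  rw [h1, f.2]
  rfl

variable {𝓓 : Lev D} {𝓑 : Lev B}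

/-- restriction of a Shapiro class to a subgroup `B ≤ H` with `g⁻¹ B g ≤ D`, degree two -/
theorem res_sh2 (hcD : Lev.Cont D.subtype 𝓓 𝓛)
    (hcB : Lev.Cont (Subgroup.inclusion hBH) 𝓑 (𝓛.sub H)) (hcg : Lev.Cont (cjD hB) 𝓑 𝓓)
    (x : H2 𝓛 (CoInd H T)) :
    H2map (Subgroup.inclusion hBH) hcB (AddMonoidHom.id T) (fun _ _ => rfl) (sh2 𝓛 H T x) =
      H2map (cjD hB) hcg (evg H T g) (compat_evg hB hBH) (loc2 hcD _ x) := by
  conv_lhs => rw [← H2_conj g x]
  obtain ⟨f, rfl⟩ := H2.mk_surjective x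
  change H2.mk _ _ _ = H2.mk _ _ _
  congr 1
  apply Subtype.ext
  funext b b'
  change (g • f.1 (cj g b) (cj g b')).1 1 = (f.1 (cjD hB b : G) (cjD hB b' : G)).1 g
  rw [CoInd.smul_apply, one_mul]
  rfl

/-- the same in degree one -/
theorem res_sh1 (hcD : Lev.Cont D.subtype 𝓓 𝓛)
    (hcB : Lev.Cont (Subgroup.inclusion hBH) 𝓑 (𝓛.sub H)) (hcg : Lev.Cont (cjD hB) 𝓑 𝓓)
    (x : H1 𝓛 (CoInd H T)) :
    H1map (Subgroup.inclusion hBH) hcB (AddMonoidHom.id T) (fun _ _ => rfl) (sh1 𝓛 H T x) =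
      H1map (cjD hB) hcg (evg H T g) (compat_evg hB hBH) (loc1 hcD _ x) := by
  conv_lhs => rw [← H1_conj g x]
  obtain ⟨f, rfl⟩ := H1.mk_surjective x
  change H1.mk _ _ _ = H1.mk _ _ _
  congr 1
  apply Subtype.ext
  funext b
  change (g • f.1 (cj g b)).1 1 = (f.1 (cjD hB b : G)).1 g
  rw [CoInd.smul_apply, one_mul]
  rfl

end Sh

end

end Fermat.Agent.CC
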