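import Fermat.Agent.CC.LES
set_option autoImplicit false

/-!
# Cup products in low degrees
-/

namespace Fermat.Agent.CC

variable {G : Type*} [Group G]

noncomputable section

/-- equivariant biadditive pairing -/
def EqPair (G : Type*) [Group G] {A B C : Type*} [AddCommGroup A] [AddCommGroup B] [AddCommGroup C]
    [DistribMulAction G A] [DistribMulAction G B] [DistribMulAction G C] (e : A →+ B →+ C) : Prop :=
  ∀ (g : G) (a : A) (b : B), e (g • a) (g • b) = g • e a b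

section Cup

variable {𝓛 : Lev G} {A B C : Type*} [AddCommGroup A] [AddCommGroup B] [AddCommGroup C]
  [DistribMulAction G A] [DistribMulAction G B] [DistribMulAction G C]
  (e : A →+ B →+ C) (he : EqPair G e)

theorem EqPair.flip {e : A →+ B →+ C} (he : EqPair G e) : EqPair G e.flip :=
  fun g b a => he g a b

include he in
theorem EqPair.left_inv {a : A} (ha : a ∈ H0 G A) (g : G) (b : B) : e a (g • b) = g • e a b := by
  rw [← he, ha g]

include he in
theorem EqPair.right_inv {b : B} (hb : b ∈ H0 G B) (g : G) (a : A) : e (g • a) b = g • e a b := by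
  rw [← he, hb g]

/-- cup product `H⁰ × H² → H²` -/
def cup02 (a : H0 G A) : H2 𝓛 B →+ H2 𝓛 C :=
  H2coef 𝓛 (e a) (fun g b => he.left_inv e a.2 g b)

/-- cup product `H⁰ × H¹ → H¹` -/
def cup01 (a : H0 G A) : H1 𝓛 B →+ H1 𝓛 C :=
  H1coef 𝓛 (e a) (fun g b => he.left_inv e a.2 g b)

/-- cup product `H² × H⁰ → H²` (as a map in the first variable) -/
def cup20 (b : H0 G B) : H2 𝓛 A →+ H2 𝓛 C :=
  H2coef 𝓛 (e.flip b) (fun g a => he.right_inv e b.2 g a)

/-- cup product of one-cocycles -/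
def cupZ (hB : 𝓛.Smooth B) (x : Z1 𝓛 A) (y : Z1 𝓛 B) : Z2 𝓛 C :=
  ⟨fun g h => e (x.1 g) (g • y.1 h),
    (x.2.1.fst.comp₂ (hB.const2_smul y.2.1) (fun a b => e a b)), by
    intro g h k
    beta_reduce
    rw [← he, x.2.2, y.2.2, smul_add, map_add, map_add]
    simp only [mul_smul, AddMonoidHom.add_apply]
    abel⟩

/-- cup product `H¹ × H¹ → H²` -/
def cup11 (hB : 𝓛.Smooth B) : H1 𝓛 A →+ H1 𝓛 B →+ H2 𝓛 C :=
  QuotientAddGroup.lift (B1 𝓛 A)
    { toFun := fun x => QuotientAddGroup.lift (B1 𝓛 B)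
        { toFun := fun y => H2.mk 𝓛 C (cupZ e he hB x y)
          map_zero' := by
            rw [H2.mk_eq_zero]
            refine ⟨0, 𝓛.const1_const 0, fun g h => ?_⟩
            change e (x.1 g) (g • (0 : B)) = d1 0 g h
            simp [d1]
          map_add' := fun y y' => by
            rw [← map_add]
            congr 1
            apply Subtype.ext
            funext g h
            change e (x.1 g) (g • (y.1 h + y'.1 h)) = e (x.1 g) (g • y.1 h) + e (x.1 g) (g • y'.1 h)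
            rw [smul_add, map_add] }
        (by
          rintro y ⟨b, hb⟩
          rw [AddMonoidHom.mem_ker]
          refine H2.mk_eq_zero.mpr ⟨fun g => -e (x.1 g) (g • b), ?_, fun g h => ?_⟩
          · exact x.2.1.comp₂ (hB.const1_smul b) (fun a b => -e a b)
          · change e (x.1 g) (g • y.1 h) = _
            simp only [d1, smul_neg]
            rw [hb, ← he, x.2.2, smul_sub, map_sub, mul_smul]
            simp only [map_add, AddMonoidHom.add_apply]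
            abel)
      map_zero' := by
        ext y
        obtain ⟨y, rfl⟩ := H1.mk_surjective y
        refine H2.mk_eq_zero.mpr ⟨0, 𝓛.const1_const 0, fun g h => ?_⟩
        change e 0 (g • y.1 h) = d1 0 g h
        simp [d1]
      map_add' := fun x x' => by
        ext y
        obtain ⟨y, rfl⟩ := H1.mk_surjective y
        change H2.mk 𝓛 C _ = H2.mk 𝓛 C _ + H2.mk 𝓛 C _
        rw [← map_add]
        congr 1
        apply Subtype.ext
        funext g h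
        change e (x.1 g + x'.1 g) (g • y.1 h) = e (x.1 g) (g • y.1 h) + e (x'.1 g) (g • y.1 h)
        rw [map_add]; rfl }
    (by
      rintro x ⟨a, ha⟩
      rw [AddMonoidHom.mem_ker]
      ext y
      obtain ⟨y, rfl⟩ := H1.mk_surjective y
      refine H2.mk_eq_zero.mpr ⟨fun g => e a (y.1 g), y.2.1.comp _, fun g h => ?_⟩
      change e (x.1 g) (g • y.1 h) = _
      simp only [d1]
      rw [ha, ← he, y.2.2, map_add, map_sub]
      simp only [AddMonoidHom.sub_apply]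
      abel)

theorem cup11_mk (hB : 𝓛.Smooth B) (x : Z1 𝓛 A) (y : Z1 𝓛 B) :
    cup11 e he hB (H1.mk 𝓛 A x) (H1.mk 𝓛 B y) = H2.mk 𝓛 C (cupZ e he hB x y) := rfl

/-- anticommutativity -/
theorem cup11_flip (hA : 𝓛.Smooth A) (hB : 𝓛.Smooth B) (x : H1 𝓛 A) (y : H1 𝓛 B) :
    cup11 e.flip he.flip hA y x = -cup11 e he hB x y := by
  obtain ⟨x, rfl⟩ := H1.mk_surjective x
  obtain ⟨y, rfl⟩ := H1.mk_surjective y
  rw [cup11_mk, cup11_mk, ← map_neg, H2.mk_eq_mk]
  refine ⟨fun g => -e (x.1 g) (y.1 g), x.2.1.comp₂ y.2.1 (fun a b => -e a b), fun g h => ?_⟩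
  change e (g • x.1 h) (y.1 g) = -e (x.1 g) (g • y.1 h) + _
  simp only [d1, smul_neg]
  rw [← he, x.2.2, y.2.2]
  simp only [map_add, AddMonoidHom.add_apply]
  abel

end Cup

section CupNat

variable {G' : Type*} [Group G'] {𝓛 : Lev G} {𝓛' : Lev G'}
  {A B C : Type*} [AddCommGroup A] [AddCommGroup B] [AddCommGroup C]
  [DistribMulAction G A] [DistribMulAction G B] [DistribMulAction G C]
  {A' B' C' : Type*} [AddCommGroup A'] [AddCommGroup B'] [AddCommGroup C']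
  [DistribMulAction G' A'] [DistribMulAction G' B'] [DistribMulAction G' C']
  (e : A →+ B →+ C) (he : EqPair G e) (e' : A' →+ B' →+ C') (he' : EqPair G' e')
  (φ : G' →* G) (hφ : Lev.Cont φ 𝓛' 𝓛)
  (a : A →+ A') (ha : Compat φ a) (b : B →+ B') (hb : Compat φ b) (c : C →+ C') (hc : Compat φ c)
  (hab : ∀ x y, c (e x y) = e' (a x) (b y))

include hab in
/-- naturality of the cup product -/
theorem cup11_natural (hB : 𝓛.Smooth B) (hB' : 𝓛'.Smooth B') (x : H1 𝓛 A) (y : H1 𝓛 B) :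
    H2map φ hφ c hc (cup11 e he hB x y) = cup11 e' he' hB' (H1map φ hφ a ha x) (H1map φ hφ b hb y) := by
  obtain ⟨x, rfl⟩ := H1.mk_surjective x
  obtain ⟨y, rfl⟩ := H1.mk_surjective y
  rw [cup11_mk, H2map_mk, H1map_mk, H1map_mk, cup11_mk]
  congr 1
  apply Subtype.ext
  funext g h
  change c (e (x.1 (φ g)) (φ g • y.1 (φ h))) = e' (a (x.1 (φ g))) (g • b (y.1 (φ h)))
  rw [hab, hb]

include hab in
theorem cup20_natural (x : H2 𝓛 A) (y : H0 G B) (hy : b y ∈ H0 G' B') :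
    H2map φ hφ c hc (cup20 e he y x) = cup20 e' he' ⟨b y, hy⟩ (H2map φ hφ a ha x) := by
  obtain ⟨x, rfl⟩ := H2.mk_surjective x
  change H2.mk _ _ _ = H2.mk _ _ _
  congr 1
  apply Subtype.ext
  funext g h
  exact hab _ _

include hab in
theorem cup02_natural (x : H0 G A) (hx : a x ∈ H0 G' A') (y : H2 𝓛 B) :
    H2map φ hφ c hc (cup02 e he x y) = cup02 e' he' ⟨a x, hx⟩ (H2map φ hφ b hb y) := by
  obtain ⟨y, rfl⟩ := H2.mk_surjective y
  change H2.mk _ _ _ = H2.mk _ _ _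
  congr 1
  apply Subtype.ext
  funext g h
  exact hab _ _

end CupNat

section Delta

/-- Two dual short exact sequences with compatible pairings into `T`. -/
structure DualSES (𝓛 : Lev G) (A B C A' B' C' T : Type*)
    [AddCommGroup A] [AddCommGroup B] [AddCommGroup C]
    [AddCommGroup A'] [AddCommGroup B'] [AddCommGroup C'] [AddCommGroup T]
    [DistribMulAction G A] [DistribMulAction G B] [DistribMulAction G C]
    [DistribMulAction G A'] [DistribMulAction G B'] [DistribMulAction G C']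
    [DistribMulAction G T] where
  E : SES 𝓛 A B C
  E' : SES 𝓛 C' B' A'
  eA : A →+ A' →+ T
  eB : B →+ B' →+ T
  eC : C →+ C' →+ T
  hA : EqPair G eA
  hB : EqPair G eB
  hC : EqPair G eC
  hAB : ∀ a b', eB (E.i a) b' = eA a (E'.j b')
  hBC : ∀ b c', eC (E.j b) c' = eB b (E'.i c')

namespace DualSES

variable {𝓛 : Lev G} {A B C A' B' C' T : Type*}
    [AddCommGroup A] [AddCommGroup B] [AddCommGroup C]
    [AddCommGroup A'] [AddCommGroup B'] [AddCommGroup C'] [AddCommGroup T]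
    [DistribMulAction G A] [DistribMulAction G B] [DistribMulAction G C]
    [DistribMulAction G A'] [DistribMulAction G B'] [DistribMulAction G C']
    [DistribMulAction G T] (D : DualSES 𝓛 A B C A' B' C' T)

/-- `δ0 c ∪ y = - c ∪ δ1 y` -/
theorem cup_δ0 (c : H0 G C) (y : H1 𝓛 A') :
    cup11 D.eA D.hA D.E'.smC (D.E.δ0 c) y = -cup02 D.eC D.hC c (D.E'.δ1 y) := by
  obtain ⟨y, rfl⟩ := H1.mk_surjective y
  set b := D.E.sec (c : C) with hb
  have hbc : D.E.j b = c := D.E.j_sec _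
  set φ : G → B' := fun g => D.E'.sec (y.1 g) with hφ
  have hφc : 𝓛.Const1 φ := y.2.1.comp _
  have hz := D.E'.j_d1_lift y φ (fun g => D.E'.j_sec _)
  have e1 : D.E.δ0 c = H1.mk 𝓛 A (D.E.coc0 b (by rw [hbc]; exact c.2)) := rfl
  have e2 : D.E'.δ1 (H1.mk 𝓛 A' y) = H2.mk 𝓛 C' (D.E'.coc1 φ hφc hz) := rfl
  rw [e1, e2, cup11_mk, cup02, H2coef, H2map_mk, ← map_neg, H2.mk_eq_mk]
  refine ⟨fun g => D.eB b (φ g), hφc.comp _, fun g h => ?_⟩
  change D.eA ((D.E.coc0 b _).1 g) (g • y.1 h) = -D.eC c ((D.E'.coc1 φ hφc hz).1 g h) + _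
  have e3 : D.eC c ((D.E'.coc1 φ hφc hz).1 g h) = D.eB b (d1 φ g h) := by
    rw [← hbc, D.hBC, D.E'.i_coc1]
  have e4 : D.eA ((D.E.coc0 b (by rw [hbc]; exact c.2)).1 g) (g • y.1 h) =
      D.eB (g • b - b) (g • φ h) := by
    rw [← D.E.i_coc0 b (by rw [hbc]; exact c.2), D.hAB, D.E'.hj, D.E'.j_sec]
  have e5 := D.hB g b (φ h)
  rw [e3, e4]
  simp only [d1, map_add, map_sub, AddMonoidHom.sub_apply, e5]
  abel

/-- `δ1 x ∪ c' = x ∪ δ0 c'` -/
theorem cup_δ1 (x : H1 𝓛 C) (c' : H0 G A') :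
    cup20 D.eA D.hA c' (D.E.δ1 x) = cup11 D.eC D.hC D.E'.smA x (D.E'.δ0 c') := by
  obtain ⟨x, rfl⟩ := H1.mk_surjective x
  set b := D.E'.sec (c' : A') with hb
  have hbc : D.E'.j b = c' := D.E'.j_sec _
  set φ : G → B := fun g => D.E.sec (x.1 g) with hφ
  have hφj : ∀ g, D.E.j (φ g) = x.1 g := fun g => D.E.j_sec _
  have hφc : 𝓛.Const1 φ := x.2.1.comp _
  have hz := D.E.j_d1_lift x φ (fun g => D.E.j_sec _)
  have e1 : D.E'.δ0 c' = H1.mk 𝓛 C' (D.E'.coc0 b (by rw [hbc]; exact c'.2)) := rfl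
  have e2 : D.E.δ1 (H1.mk 𝓛 C x) = H2.mk 𝓛 A (D.E.coc1 φ hφc hz) := rfl
  rw [e1, e2, cup11_mk, cup20, H2coef, H2map_mk, H2.mk_eq_mk]
  refine ⟨fun g => D.eB (φ g) (g • b), hφc.comp₂ (D.E'.smB.const1_smul b) (fun u v => D.eB u v),
    fun g h => ?_⟩
  change D.eA ((D.E.coc1 φ hφc hz).1 g h) c' =
    D.eC (x.1 g) (g • (D.E'.coc0 b (by rw [hbc]; exact c'.2)).1 h) + _
  have e3 : D.eA ((D.E.coc1 φ hφc hz).1 g h) c' = D.eB (d1 φ g h) ((g * h) • b) := by
    rw [← D.E.i_coc1 φ hφc hz, D.hAB, D.E'.hj, hbc, c'.2]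
  have e4 : D.eC (x.1 g) (g • (D.E'.coc0 b (by rw [hbc]; exact c'.2)).1 h) =
      D.eB (φ g) (g • (h • b - b)) := by
    rw [← D.E'.i_coc0 b (by rw [hbc]; exact c'.2), ← hφj, D.hBC, D.E'.hi]
  have e5 := D.hB g (φ h) (h • b)
  rw [e3, e4]
  simp only [d1, map_add, map_sub, AddMonoidHom.sub_apply, AddMonoidHom.add_apply, mul_smul,
    smul_sub, e5]
  abel

/-- compatibility in degree (1,1) for the maps -/
theorem cup11_i_j (x : H1 𝓛 A) (y : H1 𝓛 B') :
    cup11 D.eB D.hB D.E'.smB (H1coef 𝓛 D.E.i D.E.hi x) y =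
      cup11 D.eA D.hA D.E'.smC x (H1coef 𝓛 D.E'.j D.E'.hj y) := by
  obtain ⟨x, rfl⟩ := H1.mk_surjective x
  obtain ⟨y, rfl⟩ := H1.mk_surjective y
  change H2.mk _ _ _ = H2.mk _ _ _
  congr 1
  apply Subtype.ext
  funext g h
  change D.eB (D.E.i (x.1 g)) (g • y.1 h) = D.eA (x.1 g) (g • D.E'.j (y.1 h))
  rw [D.hAB, D.E'.hj]

theorem cup11_j_i (x : H1 𝓛 B) (y : H1 𝓛 C') :
    cup11 D.eC D.hC D.E'.smA (H1coef 𝓛 D.E.j D.E.hj x) y =
      cup11 D.eB D.hB D.E'.smB x (H1coef 𝓛 D.E'.i D.E'.hi y) := by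
  obtain ⟨x, rfl⟩ := H1.mk_surjective x
  obtain ⟨y, rfl⟩ := H1.mk_surjective y
  change H2.mk _ _ _ = H2.mk _ _ _
  congr 1
  apply Subtype.ext
  funext g h
  change D.eC (D.E.j (x.1 g)) (g • y.1 h) = D.eB (x.1 g) (g • D.E'.i (y.1 h))
  rw [D.hBC, D.E'.hi]

theorem cup20_i_j (x : H2 𝓛 A) (y : H0 G B') (hy : D.E'.j y ∈ H0 G A') :
    cup20 D.eB D.hB y (H2coef 𝓛 D.E.i D.E.hi x) = cup20 D.eA D.hA ⟨D.E'.j y, hy⟩ x := by
  obtain ⟨x, rfl⟩ := H2.mk_surjective x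
  change H2.mk _ _ _ = H2.mk _ _ _
  congr 1
  apply Subtype.ext
  funext g h
  exact D.hAB _ _

theorem cup20_j_i (x : H2 𝓛 B) (y : H0 G C') (hy : D.E'.i y ∈ H0 G B') :
    cup20 D.eC D.hC y (H2coef 𝓛 D.E.j D.E.hj x) = cup20 D.eB D.hB ⟨D.E'.i y, hy⟩ x := by
  obtain ⟨x, rfl⟩ := H2.mk_surjective x
  change H2.mk _ _ _ = H2.mk _ _ _
  congr 1
  apply Subtype.ext
  funext g h
  exact D.hBC _ _

theorem cup02_i_j (x : H0 G A) (hx : D.E.i x ∈ H0 G B) (y : H2 𝓛 B') :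
    cup02 D.eB D.hB ⟨D.E.i x, hx⟩ y = cup02 D.eA D.hA x (H2coef 𝓛 D.E'.j D.E'.hj y) := by
  obtain ⟨y, rfl⟩ := H2.mk_surjective y
  change H2.mk _ _ _ = H2.mk _ _ _
  congr 1
  apply Subtype.ext
  funext g h
  exact D.hAB _ _

theorem cup02_j_i (x : H0 G B) (hx : D.E.j x ∈ H0 G C) (y : H2 𝓛 C') :
    cup02 D.eC D.hC ⟨D.E.j x, hx⟩ y = cup02 D.eB D.hB x (H2coef 𝓛 D.E'.i D.E'.hi y) := by
  obtain ⟨y, rfl⟩ := H2.mk_surjective y
  change H2.mk _ _ _ = H2.mk _ _ _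
  congr 1
  apply Subtype.ext
  funext g h
  exact D.hBC _ _

end DualSES

end Delta

end

end Fermat.Agent.CC
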