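import Fermat.Agent.CC.Shapiro
import Fermat.Agent.CC.Cup
set_option autoImplicit false

/-!
# Corestriction
-/

namespace Fermat.Agent.CC

variable {G : Type*} [Group G]

noncomputable section

section Maps

variable (H : Subgroup G) (A : Type*) [AddCommGroup A] [DistribMulAction G A]

/-- `A → CoInd H A` -/
def unitMap : A →+ CoInd H A where
  toFun a := ⟨fun x => x • a, fun u x => by
    beta_reduce; rw [mul_smul]; rfl⟩
  map_zero' := CoInd.ext fun x => by simp
  map_add' a b := CoInd.ext fun x => by simp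

@[simp] theorem unitMap_apply (a : A) (x : G) : (unitMap H A a).1 x = x • a := rfl

theorem unitMap_smul (g : G) (a : A) : unitMap H A (g • a) = g • unitMap H A a :=
  CoInd.ext fun x => by rw [CoInd.smul_apply, unitMap_apply, unitMap_apply, mul_smul]

variable {H A}

/-- the function on `G ⧸ H` whose sum is `sumMap` -/
def sumFun (f : CoInd H A) : G ⧸ H → A :=
  Quotient.lift (fun x : G => x • f.1 x⁻¹) (by
    intro a b hab
    have h1 : a⁻¹ * b ∈ H := QuotientGroup.leftRel_apply.mp hab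
    have h2 : b⁻¹ = ((⟨a⁻¹ * b, h1⟩⁻¹ : H) : G) * a⁻¹ := by
      simp
    rw [h2, f.2, Subgroup.smul_def, ← mul_smul]
    simp)

@[simp] theorem sumFun_mk (f : CoInd H A) (x : G) :
    sumFun f (QuotientGroup.mk x : G ⧸ H) = x • f.1 x⁻¹ := rfl

theorem sumFun_smul (g : G) (f : CoInd H A) (q : G ⧸ H) :
    sumFun (g • f) q = g • sumFun f (g⁻¹ • q) := by
  obtain ⟨x, rfl⟩ := QuotientGroup.mk_surjective q
  change x • f.1 (x⁻¹ * g) = g • ((g⁻¹ * x) • f.1 (g⁻¹ * x)⁻¹)
  rw [← mul_smul]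
  simp

theorem sumFun_add (f f' : CoInd H A) (q : G ⧸ H) : sumFun (f + f') q = sumFun f q + sumFun f' q := by
  obtain ⟨x, rfl⟩ := QuotientGroup.mk_surjective q
  simp

variable (H A)

/-- the sum map `CoInd H A → A` -/
def sumMap [Finite (G ⧸ H)] : CoInd H A →+ A where
  toFun f := ∑ᶠ q : G ⧸ H, sumFun f q
  map_zero' := by
    rw [show (fun q : G ⧸ H => sumFun (0 : CoInd H A) q) = fun _ => 0 from ?_, finsum_zero]
    funext q
    obtain ⟨x, rfl⟩ := QuotientGroup.mk_surjective q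
    simp
  map_add' f f' := by
    rw [← finsum_add_distrib (Set.toFinite _) (Set.toFinite _)]
    exact finsum_congr fun q => sumFun_add f f' q

variable {H A}

theorem sumMap_apply [Finite (G ⧸ H)] (f : CoInd H A) :
    sumMap H A f = ∑ᶠ q : G ⧸ H, sumFun f q := rfl

theorem sumMap_smul [Finite (G ⧸ H)] (g : G) (f : CoInd H A) :
    sumMap H A (g • f) = g • sumMap H A f := by
  rw [sumMap_apply, sumMap_apply]
  have h1 : g • ∑ᶠ q : G ⧸ H, sumFun f q = ∑ᶠ q : G ⧸ H, g • sumFun f q := by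
    exact AddMonoidHom.map_finsum (DistribSMul.toAddMonoidHom A g) (Set.toFinite _)
  rw [h1]
  refine (finsum_congr fun q => sumFun_smul g f q).trans ?_
  exact finsum_comp_equiv (MulAction.toPerm (g⁻¹ : G)) (f := fun q : G ⧸ H => g • sumFun f q)

theorem sumMap_unitMap [Finite (G ⧸ H)] (a : A) :
    sumMap H A (unitMap H A a) = Nat.card (G ⧸ H) • a := by
  rw [sumMap_apply]
  have h1 : ∀ q : G ⧸ H, sumFun (unitMap H A a) q = a := by
    intro q
    obtain ⟨x, rfl⟩ := QuotientGroup.mk_surjective q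
    simp
  rw [finsum_congr h1]
  have := Fintype.ofFinite (G ⧸ H)
  rw [finsum_eq_sum_of_fintype, Finset.sum_const, Finset.card_univ, Nat.card_eq_fintype_card]

end Maps

section Cores

variable {𝓛 : Lev G} {H : Subgroup G} (hH : 𝓛.isOpen H)
  (A : Type*) [AddCommGroup A] [DistribMulAction G A]

/-- restriction to a subgroup, degree 1 -/
def resH1 (𝓛 : Lev G) (H : Subgroup G) (A : Type*) [AddCommGroup A] [DistribMulAction G A] :
    H1 𝓛 A →+ H1 (𝓛.sub H) A :=
  H1map H.subtype (𝓛.cont_subtype H) (AddMonoidHom.id A) (fun _ _ => rfl)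

/-- restriction to a subgroup, degree 2 -/
def resH2 (𝓛 : Lev G) (H : Subgroup G) (A : Type*) [AddCommGroup A] [DistribMulAction G A] :
    H2 𝓛 A →+ H2 (𝓛.sub H) A :=
  H2map H.subtype (𝓛.cont_subtype H) (AddMonoidHom.id A) (fun _ _ => rfl)

variable {A}

theorem sh1_unit (x : H1 𝓛 A) :
    sh1 𝓛 H A (H1coef 𝓛 (unitMap H A) (unitMap_smul H A) x) = resH1 𝓛 H A x := by
  obtain ⟨f, rfl⟩ := H1.mk_surjective x
  change H1.mk _ _ _ = H1.mk _ _ _
  congr 1
  apply Subtype.ext
  funext u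
  change (1 : G) • f.1 u = f.1 u
  rw [one_smul]

theorem sh2_unit (x : H2 𝓛 A) :
    sh2 𝓛 H A (H2coef 𝓛 (unitMap H A) (unitMap_smul H A) x) = resH2 𝓛 H A x := by
  obtain ⟨f, rfl⟩ := H2.mk_surjective x
  change H2.mk _ _ _ = H2.mk _ _ _
  congr 1
  apply Subtype.ext
  funext u v
  change (1 : G) • f.1 u v = f.1 u v
  rw [one_smul]

theorem finite_quot (hH : 𝓛.isOpen H) : Finite (G ⧸ H) := by
  have := 𝓛.fin H hH
  infer_instance

/-- Shapiro isomorphism, degree one -/
def shEquiv1 (hH : 𝓛.isOpen H) : H1 𝓛 (CoInd H A) ≃+ H1 (𝓛.sub H) A :=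
  AddEquiv.ofBijective (sh1 𝓛 H A) ⟨sh1_injective, sh1_surjective hH⟩

/-- Shapiro isomorphism, degree two -/
def shEquiv2 (hH : 𝓛.isOpen H) : H2 𝓛 (CoInd H A) ≃+ H2 (𝓛.sub H) A :=
  AddEquiv.ofBijective (sh2 𝓛 H A) ⟨sh2_injective hH, sh2_surjective hH⟩

variable (A)

/-- corestriction in degree one -/
def cores1 (hH : 𝓛.isOpen H) : H1 (𝓛.sub H) A →+ H1 𝓛 A :=
  haveI := finite_quot hH
  (H1coef 𝓛 (sumMap H A) (fun g f => sumMap_smul g f)).comp (shEquiv1 hH).symm.toAddMonoidHom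

/-- corestriction in degree two -/
def cores2 (hH : 𝓛.isOpen H) : H2 (𝓛.sub H) A →+ H2 𝓛 A :=
  haveI := finite_quot hH
  (H2coef 𝓛 (sumMap H A) (fun g f => sumMap_smul g f)).comp (shEquiv2 hH).symm.toAddMonoidHom

variable {A}

theorem cores1_sh1 (x : H1 𝓛 (CoInd H A)) :
    haveI := finite_quot hH
    cores1 A hH (sh1 𝓛 H A x) = H1coef 𝓛 (sumMap H A) (fun g f => sumMap_smul g f) x := by
  have : (shEquiv1 (A := A) hH).symm (sh1 𝓛 H A x) = x := (shEquiv1 hH).symm_apply_apply x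
  change H1coef 𝓛 _ _ ((shEquiv1 (A := A) hH).symm (sh1 𝓛 H A x)) = _
  rw [this]

theorem cores2_sh2 (x : H2 𝓛 (CoInd H A)) :
    haveI := finite_quot hH
    cores2 A hH (sh2 𝓛 H A x) = H2coef 𝓛 (sumMap H A) (fun g f => sumMap_smul g f) x := by
  have : (shEquiv2 (A := A) hH).symm (sh2 𝓛 H A x) = x := (shEquiv2 hH).symm_apply_apply x
  change H2coef 𝓛 _ _ ((shEquiv2 (A := A) hH).symm (sh2 𝓛 H A x)) = _
  rw [this]

/-- `cores ∘ res = [G : H]` in degree one -/
theorem cores1_res (x : H1 𝓛 A) : cores1 A hH (resH1 𝓛 H A x) = Nat.card (G ⧸ H) • x := by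
  have := finite_quot hH
  rw [← sh1_unit, cores1_sh1]
  obtain ⟨f, rfl⟩ := H1.mk_surjective x
  rw [← map_nsmul]
  change H1.mk _ _ _ = H1.mk _ _ _
  congr 1
  apply Subtype.ext
  funext u
  change sumMap H A (unitMap H A (f.1 u)) = _
  rw [sumMap_unitMap]
  rfl

/-- `cores ∘ res = [G : H]` in degree two -/
theorem cores2_res (x : H2 𝓛 A) : cores2 A hH (resH2 𝓛 H A x) = Nat.card (G ⧸ H) • x := by
  have := finite_quot hH
  rw [← sh2_unit, cores2_sh2]
  obtain ⟨f, rfl⟩ := H2.mk_surjective x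
  rw [← map_nsmul]
  change H2.mk _ _ _ = H2.mk _ _ _
  congr 1
  apply Subtype.ext
  funext u v
  change sumMap H A (unitMap H A (f.1 u v)) = _
  rw [sumMap_unitMap]
  rfl

include hH in
/-- restriction to a subgroup of index prime to the exponent is injective -/
theorem resH1_injective {p : ℕ} (hp : ∀ a : A, p • a = 0) (hidx : (Nat.card (G ⧸ H)).Coprime p) :
    Function.Injective (resH1 𝓛 H A) := by
  rw [injective_iff_map_eq_zero]
  intro x hx
  have h1 := cores1_res hH x
  rw [hx, map_zero] at h1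
  have h2 : p • x = 0 := by
    obtain ⟨f, rfl⟩ := H1.mk_surjective x
    rw [← map_nsmul]
    have : p • f = 0 := by
      apply Subtype.ext; funext g
      exact hp _
    rw [this, map_zero]
  have h3 := Nat.isCoprime_iff_coprime.mpr hidx
  obtain ⟨a, b, hab⟩ := h3
  have h4 : x = (a * (Nat.card (G ⧸ H) : ℤ) + b * (p : ℤ)) • x := by rw [hab, one_smul]
  rw [h4, add_smul, mul_smul, mul_smul, natCast_zsmul, natCast_zsmul, ← h1, h2]
  simp

include hH in
theorem resH2_injective {p : ℕ} (hp : ∀ a : A, p • a = 0) (hidx : (Nat.card (G ⧸ H)).Coprime p) :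
    Function.Injective (resH2 𝓛 H A) := by
  rw [injective_iff_map_eq_zero]
  intro x hx
  have h1 := cores2_res hH x
  rw [hx, map_zero] at h1
  have h2 : p • x = 0 := by
    obtain ⟨f, rfl⟩ := H2.mk_surjective x
    rw [← map_nsmul]
    have : p • f = 0 := by
      apply Subtype.ext; funext g h
      exact hp _
    rw [this, map_zero]
  have h3 := Nat.isCoprime_iff_coprime.mpr hidx
  obtain ⟨a, b, hab⟩ := h3
  have h4 : x = (a * (Nat.card (G ⧸ H) : ℤ) + b * (p : ℤ)) • x := by rw [hab, one_smul]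
  rw [h4, add_smul, mul_smul, mul_smul, natCast_zsmul, natCast_zsmul, ← h1, h2]
  simp

end Cores

section Proj

variable {𝓛 : Lev G} {H : Subgroup G} (hH : 𝓛.isOpen H)
  {A B C : Type*} [AddCommGroup A] [AddCommGroup B] [AddCommGroup C]
  [DistribMulAction G A] [DistribMulAction G B] [DistribMulAction G C]
  (e : A →+ B →+ C) (he : EqPair G e)

/-- pairing `CoInd A × B → CoInd C`, `(f, b) ↦ (x ↦ e (f x) (x • b))` -/
def coPair : CoInd H A →+ B →+ CoInd H C where
  toFun f :=
    { toFun := fun b => ⟨fun x => e (f.1 x) (x • b), fun u x => by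
        beta_reduce
        rw [f.2, mul_smul, Subgroup.smul_def, Subgroup.smul_def, he]⟩
      map_zero' := CoInd.ext fun x => by simp
      map_add' := fun b b' => CoInd.ext fun x => by simp }
  map_zero' := by ext b; simp
  map_add' f f' := by ext b; simp

@[simp] theorem coPair_apply (f : CoInd H A) (b : B) (x : G) :
    (coPair e he f b).1 x = e (f.1 x) (x • b) := rfl

theorem coPair_eq : EqPair G (coPair (H := H) e he) := by
  intro g f b
  refine CoInd.ext fun x => ?_
  rw [CoInd.smul_apply, coPair_apply, coPair_apply, CoInd.smul_apply, mul_smul]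

theorem sumMap_coPair [Finite (G ⧸ H)] (f : CoInd H A) (b : B) :
    sumMap H C (coPair e he f b) = e (sumMap H A f) b := by
  rw [sumMap_apply, sumMap_apply]
  have h1 : e (∑ᶠ q : G ⧸ H, sumFun f q) b = ∑ᶠ q : G ⧸ H, e (sumFun f q) b := by
    exact AddMonoidHom.map_finsum (e.flip b) (Set.toFinite _)
  rw [h1]
  refine finsum_congr fun q => ?_
  obtain ⟨x, rfl⟩ := QuotientGroup.mk_surjective q
  rw [sumFun_mk, sumFun_mk, coPair_apply, ← he, smul_inv_smul]

/-- projection formula `cores (x ∪ res y) = cores x ∪ y` -/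
theorem cores_cup_res (hB : 𝓛.Smooth B) (hB' : (𝓛.sub H).Smooth B) (he' : EqPair H e)
    (x : H1 (𝓛.sub H) A) (y : H1 𝓛 B) :
    cores2 C hH (cup11 e he' hB' x (resH1 𝓛 H B y)) = cup11 e he hB (cores1 A hH x) y := by
  have := finite_quot hH
  obtain ⟨z, rfl⟩ := (shEquiv1 (A := A) hH).surjective x
  change cores2 C hH (cup11 e he' hB' (sh1 𝓛 H A z) (resH1 𝓛 H B y)) =
    cup11 e he hB (cores1 A hH (sh1 𝓛 H A z)) y
  have h1 : cup11 e he' hB' (sh1 𝓛 H A z) (resH1 𝓛 H B y) =
      sh2 𝓛 H C (cup11 (coPair e he) (coPair_eq e he) hB z y) := by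
    symm
    refine cup11_natural (coPair e he) (coPair_eq e he) e he' H.subtype (𝓛.cont_subtype H)
      (ev1 H A) ev1_compat (AddMonoidHom.id B) (fun _ _ => rfl) (ev1 H C) ev1_compat ?_ hB hB' z y
    intro f b
    change e (f.1 1) ((1 : G) • b) = e (f.1 1) b
    rw [one_smul]
  rw [h1, cores2_sh2, cores1_sh1]
  refine cup11_natural (coPair e he) (coPair_eq e he) e he (MonoidHom.id G) 𝓛.cont_id
    (sumMap H A) (fun g f => sumMap_smul g f) (AddMonoidHom.id B) (fun _ _ => rfl) (sumMap H C)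
    (fun g f => sumMap_smul g f) ?_ hB hB z y |>.trans ?_
  · intro f b
    exact sumMap_coPair e he f b
  · congr 1
    obtain ⟨y, rfl⟩ := H1.mk_surjective y
    rfl

end Proj

end

end Fermat.Agent.CC
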