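import Fermat.Agent.CC.LocalDual5
set_option autoImplicit false
set_option maxHeartbeats 400000

/-!
# Compatibility of corestriction with connecting maps
-/

namespace Fermat.Agent.CC

noncomputable section

variable {G : Type*} [Group G] {𝓛 : Lev G}
  {A B C : Type*} [AddCommGroup A] [AddCommGroup B] [AddCommGroup C]
  [DistribMulAction G A] [DistribMulAction G B] [DistribMulAction G C]

/-- restriction of a short exact sequence to a subgroup -/
def SES.res (E : SES 𝓛 A B C) (H : Subgroup G) : SES (𝓛.sub H) A B C where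
  i := E.i
  j := E.j
  hi g a := E.hi g a
  hj g a := E.hj g a
  inj := E.inj
  surj := E.surj
  exact := E.exact
  smA := smooth_sub E.smA
  smB := smooth_sub E.smB
  smC := smooth_sub E.smC

/-- coinduction of a short exact sequence -/
def SES.co (E : SES 𝓛 A B C) {H : Subgroup G} (hH : 𝓛.isOpen H) :
    SES 𝓛 (CoInd H A) (CoInd H B) (CoInd H C) where
  i := coMap E.i E.hi H
  j := coMap E.j E.hj H
  hi g f := coMap_smul E.i E.hi g f
  hj g f := coMap_smul E.j E.hj g f
  inj := by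
    intro f f' h
    refine CoInd.ext fun x => E.inj ?_
    exact congrArg (fun F => F.1 x) h
  surj := by
    obtain ⟨κ, hκ, -, -⟩ := exists_kappa H
    intro f
    refine ⟨⟨fun x => κ x • E.sec (f.1 (((κ x)⁻¹ : H) * x)), fun u x => ?_⟩, ?_⟩
    · beta_reduce
      rw [hκ, mul_smul]
      congr 3
      simp [mul_assoc]
    · refine CoInd.ext fun x => ?_
      rw [coMap_apply]
      change E.j (((κ x : H) : G) • E.sec _) = _
      rw [E.hj, E.j_sec, f.2]
      change ((κ x : H) : G) • (((κ x)⁻¹ : H) : G) • f.1 x = f.1 x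
      rw [← mul_smul]
      simp
  exact f := by
    constructor
    · intro h
      have h1 : ∀ x, E.j (f.1 x) = 0 := fun x => congrArg (fun F => F.1 x) h
      refine ⟨⟨fun x => E.pre (f.1 x), fun u x => ?_⟩, CoInd.ext fun x => ?_⟩
      · beta_reduce
        apply E.inj
        rw [E.i_pre (h1 _)]
        change f.1 (u * x) = E.i ((u : G) • E.pre (f.1 x))
        rw [E.hi, E.i_pre (h1 _), f.2]
        rfl
      · exact E.i_pre (h1 x)
    · rintro ⟨a, rfl⟩
      refine CoInd.ext fun x => ?_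
      exact E.j_i _
  smA := CoInd.smooth hH (smooth_sub E.smA)
  smB := CoInd.smooth hH (smooth_sub E.smB)
  smC := CoInd.smooth hH (smooth_sub E.smC)

/-- `cores ∘ δ⁰ = δ⁰ ∘ trace` -/
theorem cores1_δ0 (E : SES 𝓛 A B C) {H : Subgroup G} (hH : 𝓛.isOpen H) [Finite (G ⧸ H)]
    (c : H0 H C) : cores1 A hH ((E.res H).δ0 c) = E.δ0 (cores0 c) := by
  have h1 : sh1 𝓛 H A ((E.co hH).δ0 (constH0 c)) = (E.res H).δ0 c :=
    SES.δ0_natural (E.co hH) (E.res H) H.subtype (𝓛.cont_subtype H)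
      (ev1 H A) ev1_compat (ev1 H B) ev1_compat (ev1 H C) (fun _ => rfl) (fun _ => rfl)
      (constH0 c) c.2
  rw [← h1, cores1_sh1]
  exact SES.δ0_natural (E.co hH) E (MonoidHom.id G) 𝓛.cont_id
    (sumMap H A) (fun g f => sumMap_smul g f) (sumMap H B) (fun g f => sumMap_smul g f)
    (sumMap H C) (fun f => sumMap_coMap E.i E.hi f)
    (fun f => sumMap_coMap E.j E.hj f) (constH0 c) (cores0 c).2

/-- `cores ∘ δ¹ = δ¹ ∘ cores` -/
theorem cores2_δ1 (E : SES 𝓛 A B C) {H : Subgroup G} (hH : 𝓛.isOpen H) [Finite (G ⧸ H)]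
    (x : H1 (𝓛.sub H) C) : cores2 A hH ((E.res H).δ1 x) = E.δ1 (cores1 C hH x) := by
  obtain ⟨z, rfl⟩ := (shEquiv1 (A := C) hH).surjective x
  change cores2 A hH ((E.res H).δ1 (sh1 𝓛 H C z)) = E.δ1 (cores1 C hH (sh1 𝓛 H C z))
  have h1 : sh2 𝓛 H A ((E.co hH).δ1 z) = (E.res H).δ1 (sh1 𝓛 H C z) :=
    SES.δ1_natural (E.co hH) (E.res H) H.subtype (𝓛.cont_subtype H)
      (ev1 H A) ev1_compat (ev1 H B) ev1_compat (ev1 H C) ev1_compat (fun _ => rfl) (fun _ => rfl) z
  rw [← h1, cores2_sh2, cores1_sh1]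
  exact SES.δ1_natural (E.co hH) E (MonoidHom.id G) 𝓛.cont_id
    (sumMap H A) (fun g f => sumMap_smul g f) (sumMap H B) (fun g f => sumMap_smul g f)
    (sumMap H C) (fun g f => sumMap_smul g f) (fun f => sumMap_coMap E.i E.hi f)
    (fun f => sumMap_coMap E.j E.hj f) z

end

end Fermat.Agent.CC
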