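import Fermat.Agent.CC.LocalDual5
set_option autoImplicit false
set_option maxHeartbeats 400000

/-!
# Kernel of restriction to a normal subgroup of index `p` in degree two
-/

namespace Fermat.Agent.CC

noncomputable section

section Car

variable (p : ℕ) [NeZero p]

/-- the carry of the addition of representatives -/
def car (a b : ZMod p) : ℕ := (a.val + b.val) / p

theorem car_spec (a b : ZMod p) : a.val + b.val = (a + b).val + p * car p a b := by
  rw [ZMod.val_add, car, Nat.mod_add_div]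

theorem car_spec_int (a b : ZMod p) : (a.val : ℤ) + b.val = (a + b).val + p * (car p a b : ℤ) := by
  exact_mod_cast car_spec p a b

@[simp] theorem car_zero_left (b : ZMod p) : car p 0 b = 0 := by
  rw [car, ZMod.val_zero, zero_add, Nat.div_eq_of_lt (ZMod.val_lt b)]

theorem val_sub_one (j : ZMod p) (hp : 1 < p) :
    (j.val : ℤ) - (j - 1).val = 1 - (if j = 0 then (p : ℤ) else 0) := by
  have : Fact (1 < p) := ⟨hp⟩
  have h1 := car_spec_int p (j - 1) 1
  rw [ZMod.val_one, sub_add_cancel] at h1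
  by_cases hj : j = 0
  · subst hj
    rw [if_pos rfl]
    rw [zero_sub, ZMod.val_zero]
    have h2 : ((-1 : ZMod p).val : ℤ) = p - 1 := by
      have h3 := ZMod.neg_val (1 : ZMod p)
      rw [if_neg one_ne_zero, ZMod.val_one] at h3
      rw [h3]
      push_cast [hp.le]
      ring
    rw [h2]; push_cast; ring
  · rw [if_neg hj]
    have h2 : car p (j - 1) 1 = 0 := by
      by_contra hne
      have h3 : 1 ≤ car p (j - 1) 1 := Nat.one_le_iff_ne_zero.mpr hne
      have h4 := (ZMod.val_lt (j - 1))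
      have h5 : 0 < j.val := by
        rw [Nat.pos_iff_ne_zero]
        intro h
        exact hj ((ZMod.val_eq_zero j).mp h)
      have h6 : (p : ℤ) ≤ p * (car p (j - 1) 1 : ℤ) := by
        have : (1 : ℤ) ≤ car p (j - 1) 1 := by exact_mod_cast h3
        nlinarith [(Int.natCast_pos.mpr (NeZero.pos p) : (0 : ℤ) < p)]
      push_cast at h1
      omega
    rw [h2] at h1
    push_cast at h1
    omega

theorem car_sub (j c : ZMod p) (hp : 1 < p) :
    (car p j c : ℤ) - car p (j - 1) c = (if j + c = 0 then 1 else 0) - (if j = 0 then 1 else 0) := by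
  have h1 := car_spec_int p j c
  have h2 := car_spec_int p (j - 1) c
  have h3 := val_sub_one p j hp
  have h4 := val_sub_one p (j + c) hp
  have h5 : j - 1 + c = j + c - 1 := by ring
  rw [h5] at h2
  have hp0 : (p : ℤ) ≠ 0 := by exact_mod_cast NeZero.ne p
  apply mul_left_cancel₀ hp0
  have h6 : (p : ℤ) * ((car p j c : ℤ) - car p (j - 1) c) =
      ((j.val : ℤ) - (j - 1).val) - (((j + c).val : ℤ) - (j + c - 1).val) := by
    linear_combination -h1 + h2
  rw [h6, h3, h4]
  split_ifs <;> ring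

end Car

variable {G : Type*} [Group G] {𝓛 : Lev G} {p : ℕ} [Fact p.Prime]

section Setup

variable (χ : G → ZMod p) (hχ : ∀ g h, χ (g * h) = χ g + χ h)

include hχ in
theorem chi_one : χ 1 = 0 := by
  have := hχ 1 1
  rw [mul_one] at this
  simpa using this

include hχ in
theorem chi_inv (g : G) : χ g⁻¹ = -χ g := by
  have := hχ g⁻¹ g
  rw [inv_mul_cancel, chi_one χ hχ] at this
  exact eq_neg_of_add_eq_zero_left this.symm

include hχ in
theorem chi_pow (g : G) (n : ℕ) : χ (g ^ n) = n * χ g := by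
  induction n with
  | zero => simp [chi_one χ hχ]
  | succ n ih => rw [pow_succ, hχ, ih]; push_cast; ring

/-- kernel of a character -/
def chiKer (hχ : ∀ g h, χ (g * h) = χ g + χ h) : Subgroup G where
  carrier := {g | χ g = 0}
  mul_mem' := by
    intro a b ha hb
    change χ (a * b) = 0
    rw [hχ, show χ a = 0 from ha, show χ b = 0 from hb, add_zero]
  one_mem' := chi_one χ hχ
  inv_mem' := by
    intro a ha
    change χ a⁻¹ = 0
    rw [chi_inv χ hχ, show χ a = 0 from ha, neg_zero]

theorem mem_chiKer {g : G} : g ∈ chiKer χ hχ ↔ χ g = 0 := Iff.rfl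

theorem chiKer_open (hc : 𝓛.Const1 χ) : 𝓛.isOpen (chiKer χ hχ) := by
  obtain ⟨U, hU, h⟩ := hc
  refine 𝓛.mono _ _ hU fun u hu => ?_
  have := h 1 u hu
  rw [one_mul, chi_one χ hχ] at this
  exact this

instance chiKer_normal : (chiKer χ hχ).Normal := by
  refine ⟨fun n hn g => ?_⟩
  rw [mem_chiKer] at hn ⊢
  rw [hχ, hχ, hn, chi_inv χ hχ]
  ring

end Setup

section Seq

variable (χ : G → ZMod p) (hχ : ∀ g h, χ (g * h) = χ g + χ h) (t : G) (ht : χ t = 1)
  (M : Type*) [AddCommGroup M] [DistribMulAction G M]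

local notation "HH" => chiKer χ hχ

/-- the operator `f ↦ (x ↦ t • f (t⁻¹ x))` -/
def shiftOp : CoInd (chiKer χ hχ) M →+ CoInd (chiKer χ hχ) M where
  toFun f := ⟨fun x => t • f.1 (t⁻¹ * x), fun u x => by
    beta_reduce
    have h1 : t⁻¹ * (u * x) = ((⟨t⁻¹ * u * t, by
        have := (chiKer_normal χ hχ).conj_mem u.1 u.2 t⁻¹
        rwa [inv_inv] at this⟩ : chiKer χ hχ) : G) * (t⁻¹ * x) := by
      simp only; group
    rw [h1, f.2, Subgroup.smul_def, Subgroup.smul_def, ← mul_smul, ← mul_smul]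
    congr 1
    simp only; group⟩
  map_zero' := CoInd.ext fun x => by simp
  map_add' f f' := CoInd.ext fun x => by simp

variable {M}

theorem shiftOp_apply (f : CoInd (chiKer χ hχ) M) (x : G) :
    (shiftOp χ hχ t M f).1 x = t • f.1 (t⁻¹ * x) := rfl

theorem shiftOp_smul (g : G) (f : CoInd (chiKer χ hχ) M) :
    shiftOp χ hχ t M (g • f) = g • shiftOp χ hχ t M f := by
  refine CoInd.ext fun x => ?_
  rw [CoInd.smul_apply, shiftOp_apply, shiftOp_apply, CoInd.smul_apply, mul_assoc]

include ht in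
theorem chi_ti (x : G) (i : ℕ) (hi : (i : ZMod p) = -χ x) : x * t ^ i ∈ chiKer χ hχ := by
  rw [mem_chiKer, hχ, chi_pow χ hχ, ht, mul_one, hi]
  ring

include ht in
/-- values of an element of the coinduced module -/
theorem coInd_val (f : CoInd (chiKer χ hχ) M) (x : G) (i : ℕ) (hi : (i : ZMod p) = -χ x) :
    f.1 x = x • t ^ i • f.1 (t ^ i)⁻¹ := by
  have h1 := f.2 ⟨x * t ^ i, chi_ti χ hχ t ht x i hi⟩ (t ^ i)⁻¹
  rw [Subgroup.smul_def, mul_smul] at h1
  rw [← h1]
  congr 1
  simp only
  rw [mul_inv_cancel_right]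

/-- the bijection `ZMod p ≃ G ⧸ ker χ` -/
theorem quot_bij (ht : χ t = 1) :
    Function.Bijective (fun j : ZMod p => (QuotientGroup.mk (t ^ j.val) : G ⧸ chiKer χ hχ)) := by
  constructor
  · intro i j hij
    have h1 := (QuotientGroup.eq.mp hij)
    rw [mem_chiKer, hχ, chi_inv χ hχ, chi_pow χ hχ, chi_pow χ hχ, ht] at h1
    simp only [ZMod.natCast_val, ZMod.cast_id', id_eq, mul_one] at h1
    exact (neg_add_eq_zero.mp h1)
  · intro q
    obtain ⟨x, rfl⟩ := QuotientGroup.mk_surjective q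
    refine ⟨χ x, ?_⟩
    beta_reduce
    rw [QuotientGroup.eq, mem_chiKer, hχ, chi_inv χ hχ, chi_pow χ hχ, ht]
    simp

include ht in
theorem sumMap_eq [Finite (G ⧸ chiKer χ hχ)] (f : CoInd (chiKer χ hχ) M) :
    sumMap (chiKer χ hχ) M f = ∑ j ∈ Finset.range p, t ^ j • f.1 (t ^ j)⁻¹ := by
  rw [sumMap_apply]
  rw [← finsum_eq_of_bijective (f := fun j : ZMod p => t ^ j.val • f.1 (t ^ j.val)⁻¹) _
    (quot_bij χ hχ t ht) (fun j => rfl)]
  rw [finsum_eq_sum_of_fintype, Finset.sum_range]
  have hp : p ≠ 0 := (Fact.out : p.Prime).ne_zero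
  refine Finset.sum_bij (fun (j : ZMod p) _ => (⟨j.val, ZMod.val_lt j⟩ : Fin p)) ?_ ?_ ?_ ?_
  · intro j _; exact Finset.mem_univ _
  · intro i _ j _ hij
    exact ZMod.val_injective p (Fin.mk.inj hij)
  · intro j _
    refine ⟨(j.1 : ZMod p), Finset.mem_univ _, ?_⟩
    apply Fin.ext
    exact ZMod.val_natCast_of_lt j.2
  · intro j _; rfl

theorem sumMap_shift [Finite (G ⧸ chiKer χ hχ)] (f : CoInd (chiKer χ hχ) M) :
    sumMap (chiKer χ hχ) M (shiftOp χ hχ t M f) = sumMap (chiKer χ hχ) M f := by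
  rw [sumMap_apply, sumMap_apply]
  -- substitution `x ↦ t⁻¹... ` : `x • t • f (t⁻¹ x⁻¹) = (x t) • f ((x t)⁻¹)`
  have hwd : ∀ a b : G, (QuotientGroup.mk a : G ⧸ chiKer χ hχ) = QuotientGroup.mk b →
      (QuotientGroup.mk (a * t) : G ⧸ chiKer χ hχ) = QuotientGroup.mk (b * t) := by
    intro a b hab
    have h1 := QuotientGroup.eq.mp hab
    rw [mem_chiKer] at h1
    rw [QuotientGroup.eq, mem_chiKer]
    simp only [hχ, chi_inv χ hχ] at h1 ⊢
    linear_combination h1
  let φ : G ⧸ chiKer χ hχ → G ⧸ chiKer χ hχ :=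
    Quotient.lift (fun x : G => (QuotientGroup.mk (x * t) : G ⧸ chiKer χ hχ)) (by
      intro a b hab
      exact hwd a b (Quotient.sound hab))
  have hφ : ∀ x : G, φ (QuotientGroup.mk x) = QuotientGroup.mk (x * t) := fun x => rfl
  have hinj : Function.Injective φ := by
    intro a b hab
    obtain ⟨a, rfl⟩ := QuotientGroup.mk_surjective a
    obtain ⟨b, rfl⟩ := QuotientGroup.mk_surjective b
    rw [hφ, hφ] at hab
    have h1 := QuotientGroup.eq.mp hab
    rw [mem_chiKer] at h1
    rw [QuotientGroup.eq, mem_chiKer]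
    simp only [hχ, chi_inv χ hχ] at h1 ⊢
    linear_combination h1
  have hbij : Function.Bijective φ := Finite.injective_iff_bijective.mp hinj
  refine finsum_eq_of_bijective φ hbij fun q => ?_
  obtain ⟨x, rfl⟩ := QuotientGroup.mk_surjective q
  rw [hφ, sumFun_mk, sumFun_mk, shiftOp_apply, ← mul_smul, mul_inv_rev]

include ht in
theorem shift_eq_iff (f : CoInd (chiKer χ hχ) M) :
    shiftOp χ hχ t M f = f ↔ ∃ a, unitMap (chiKer χ hχ) M a = f := by
  constructor
  · intro h
    refine ⟨f.1 1, CoInd.ext fun x => ?_⟩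
    rw [unitMap_apply]
    have h1 : ∀ i : ℕ, t ^ i • f.1 (t ^ i)⁻¹ = f.1 1 := by
      intro i
      induction i with
      | zero => simp
      | succ i ih =>
        rw [← ih]
        have h2 := congrArg (fun F => F.1 (t ^ i)⁻¹) h
        beta_reduce at h2
        rw [shiftOp_apply] at h2
        rw [← h2, ← mul_smul, ← mul_inv_rev, ← pow_succ]
    rw [coInd_val χ hχ t ht f x (-χ x).val (by simp), h1]
  · rintro ⟨a, rfl⟩
    refine CoInd.ext fun x => ?_
    rw [shiftOp_apply, unitMap_apply, unitMap_apply, ← mul_smul, mul_inv_cancel_left]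

include ht in
theorem exists_shift [Finite (G ⧸ chiKer χ hχ)] (f : CoInd (chiKer χ hχ) M)
    (hf : sumMap (chiKer χ hχ) M f = 0) : ∃ w, shiftOp χ hχ t M w - w = f := by
  have hp : 1 < p := (Fact.out : p.Prime).one_lt
  set W : ℕ → M := fun i => ∑ j ∈ Finset.range i, t ^ j • f.1 (t ^ j)⁻¹ with hW
  refine ⟨⟨fun x => x • W (-χ x).val, fun u x => ?_⟩, ?_⟩
  · beta_reduce
    rw [hχ, show χ u = 0 from u.2, zero_add, mul_smul, Subgroup.smul_def]
  · refine CoInd.ext fun x => ?_
    rw [CoInd.sub_apply, shiftOp_apply]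
    change t • (t⁻¹ * x) • W (-χ (t⁻¹ * x)).val - x • W (-χ x).val = f.1 x
    rw [← mul_smul, mul_inv_cancel_left]
    have h1 : -χ (t⁻¹ * x) = -χ x + 1 := by
      rw [hχ, chi_inv χ hχ, ht]; ring
    rw [h1]
    set i := (-χ x).val with hi
    have hi' : (i : ZMod p) = -χ x := by rw [hi]; simp
    rw [coInd_val χ hχ t ht f x i hi', ← smul_sub]
    congr 1
    have h2 := val_sub_one p (-χ x + 1) hp
    rw [add_sub_cancel_right] at h2
    by_cases h0 : -χ x + 1 = 0
    · rw [if_pos h0] at h2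
      rw [h0] at h2 ⊢
      rw [ZMod.val_zero] at h2 ⊢
      have h3 : p = i + 1 := by
        rw [← hi] at h2
        push_cast at h2
        omega
      have h4 : W p = 0 := by
        rw [hW]; beta_reduce; rw [← sumMap_eq χ hχ t ht f]; exact hf
      rw [h3] at h4
      have h5 : W (i + 1) = W i + t ^ i • f.1 (t ^ i)⁻¹ := Finset.sum_range_succ _ _
      rw [h5] at h4
      have h6 : W 0 = 0 := Finset.sum_range_zero _
      rw [h6, zero_sub]
      exact (neg_eq_of_add_eq_zero_right h4)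
    · rw [if_neg h0] at h2
      have h3 : (-χ x + 1).val = i + 1 := by
        rw [← hi] at h2
        omega
      rw [h3]
      have h5 : W (i + 1) = W i + t ^ i • f.1 (t ^ i)⁻¹ := Finset.sum_range_succ _ _
      rw [h5]; abel

open Classical in
/-- `a` times the indicator function of the kernel -/
def indic (a : M) : CoInd (chiKer χ hχ) M :=
  ⟨fun x => if χ x = 0 then x • a else 0, fun u x => by
    have hu : χ (u : G) = 0 := (mem_chiKer χ hχ).mp u.2
    beta_reduce
    rw [hχ, hu, zero_add, Subgroup.smul_def]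
    split_ifs
    · rw [mul_smul]
    · rw [smul_zero]⟩

open Classical in
theorem indic_apply (a : M) (x : G) :
    (indic χ hχ a).1 x = if χ x = 0 then x • a else 0 := rfl

include ht in
theorem sumMap_indic [Finite (G ⧸ chiKer χ hχ)] (a : M) :
    sumMap (chiKer χ hχ) M (indic χ hχ a) = a := by
  rw [sumMap_eq χ hχ t ht]
  have hp : 0 < p := (Fact.out : p.Prime).pos
  rw [Finset.sum_eq_single 0]
  · rw [pow_zero, inv_one, indic_apply, chi_one χ hχ, if_pos rfl, one_smul, one_smul]
  · intro j hj hj0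
    have : χ (t ^ j)⁻¹ ≠ 0 := by
      rw [chi_inv χ hχ, chi_pow χ hχ, ht, mul_one, neg_ne_zero]
      intro h
      rw [ZMod.natCast_eq_zero_iff] at h
      exact hj0 (Nat.eq_zero_of_dvd_of_lt h (Finset.mem_range.mp hj))
    rw [indic_apply, if_neg this, smul_zero]
  · intro h
    exact absurd (Finset.mem_range.mpr hp) h

end Seq

end

end Fermat.Agent.CC
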