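import Fermat.Agent.CC.Cyclic
set_option autoImplicit false
set_option maxHeartbeats 400000

/-!
# Kernel of restriction to a normal subgroup of index `p` in degree two
-/

namespace Fermat.Agent.CC

noncomputable section

theorem car_cocycle (p : ℕ) [NeZero p] (a b c : ZMod p) :
    car p b c + car p a (b + c) = car p (a + b) c + car p a b := by
  have hp : 0 < p := NeZero.pos p
  have h1 := car_spec p b c
  have h2 := car_spec p a (b + c)
  have h3 := car_spec p (a + b) c
  have h4 := car_spec p a b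
  rw [← add_assoc] at h2
  apply Nat.eq_of_mul_eq_mul_left hp
  rw [mul_add, mul_add]
  omega

variable {G : Type*} [Group G] {𝓛 : Lev G} {p : ℕ} [Fact p.Prime]
  (χ : G → ZMod p) (hχ : ∀ g h, χ (g * h) = χ g + χ h) (hc : 𝓛.Const1 χ)
  (t : G) (ht : χ t = 1)
  {M : Type*} [AddCommGroup M] [DistribMulAction G M]

/-- kernel of the sum map -/
def kerSum (M : Type*) [AddCommGroup M] [DistribMulAction G M] [Finite (G ⧸ chiKer χ hχ)] :
    GSub G (CoInd (chiKer χ hχ) M) :=
  GSub.ker (sumMap (chiKer χ hχ) M) (fun g f => sumMap_smul g f)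

/-- `f ↦ τ f - f` as a map to the kernel of the sum -/
def diffMap (M : Type*) [AddCommGroup M] [DistribMulAction G M] [Finite (G ⧸ chiKer χ hχ)] :
    CoInd (chiKer χ hχ) M →+ (kerSum χ hχ M).S where
  toFun f := (kerSum χ hχ M).mkS (shiftOp χ hχ t M f - f) (by
    change sumMap _ _ _ = 0
    rw [map_sub, sumMap_shift, sub_self])
  map_zero' := (kerSum χ hχ M).incl_injective (by
    change shiftOp χ hχ t M 0 - 0 = 0
    simp)
  map_add' f f' := (kerSum χ hχ M).incl_injective (by
    change shiftOp χ hχ t M (f + f') - (f + f') =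
      (shiftOp χ hχ t M f - f) + (shiftOp χ hχ t M f' - f')
    rw [map_add]; abel)

theorem incl_diffMap [Finite (G ⧸ chiKer χ hχ)] (f : CoInd (chiKer χ hχ) M) :
    (kerSum χ hχ M).incl (diffMap χ hχ t M f) = shiftOp χ hχ t M f - f := rfl

/-- `0 → M → I → K → 0` -/
def sesA [Finite (G ⧸ chiKer χ hχ)] (hH : 𝓛.isOpen (chiKer χ hχ)) (ht : χ t = 1)
    (sm : 𝓛.Smooth M) : SES 𝓛 M (CoInd (chiKer χ hχ) M) (kerSum χ hχ M).S where
  i := unitMap _ M
  j := diffMap χ hχ t M
  hi := unitMap_smul _ M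
  hj g f := (kerSum χ hχ M).incl_injective (by
    rw [GSub.incl_smul, incl_diffMap, incl_diffMap, shiftOp_smul, smul_sub])
  inj := by
    intro a b hab
    have := congrArg (fun F => F.1 1) hab
    simpa using this
  surj := by
    intro k
    obtain ⟨w, hw⟩ := exists_shift χ hχ t ht ((kerSum χ hχ M).incl k) ((kerSum χ hχ M).incl_mem k)
    exact ⟨w, (kerSum χ hχ M).incl_injective hw⟩
  exact f := by
    rw [← shift_eq_iff χ hχ t ht f]
    constructor
    · intro h
      have := congrArg (kerSum χ hχ M).incl h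
      rw [incl_diffMap, map_zero] at this
      exact sub_eq_zero.mp this
    · intro h
      apply (kerSum χ hχ M).incl_injective
      rw [incl_diffMap, map_zero, h, sub_self]
  smA := sm
  smB := CoInd.smooth hH (smooth_sub sm)
  smC := (kerSum χ hχ M).smoothS (CoInd.smooth hH (smooth_sub sm))

/-- `0 → K → I → M → 0` -/
def sesB [Finite (G ⧸ chiKer χ hχ)] (hH : 𝓛.isOpen (chiKer χ hχ)) (ht : χ t = 1)
    (sm : 𝓛.Smooth M) : SES 𝓛 (kerSum χ hχ M).S (CoInd (chiKer χ hχ) M) M where
  i := (kerSum χ hχ M).incl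
  j := sumMap _ M
  hi := (kerSum χ hχ M).incl_smul
  hj g f := sumMap_smul g f
  inj := (kerSum χ hχ M).incl_injective
  surj a := ⟨indic χ hχ a, sumMap_indic χ hχ t ht a⟩
  exact f := by
    constructor
    · intro h
      exact ⟨(kerSum χ hχ M).mkS f h, rfl⟩
    · rintro ⟨k, rfl⟩
      exact (kerSum χ hχ M).incl_mem k
  smA := (kerSum χ hχ M).smoothS (CoInd.smooth hH (smooth_sub sm))
  smB := CoInd.smooth hH (smooth_sub sm)
  smC := sm

include hχ hc in
/-- the carry cocycle `(g,h) ↦ car(χ g, χ h) • a` -/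
def carZ (a : H0 G M) : Z2 𝓛 M :=
  ⟨fun g h => car p (χ g) (χ h) • (a : M),
    (hc.fst.comp₂ hc.snd (fun x y => car p x y • (a : M))), fun g h j => by
      have h1 : g • (car p (χ h) (χ j) • (a : M)) = car p (χ h) (χ j) • (a : M) := by
        change DistribSMul.toAddMonoidHom M g (car p (χ h) (χ j) • (a : M)) = _
        rw [map_nsmul]
        change _ • (g • (a : M)) = _
        rw [a.2 g]
      beta_reduce
      rw [h1, ← add_smul, ← add_smul, hχ, hχ, car_cocycle]⟩

/-- the carry class, additive in `a` -/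
def carC : H0 G M →+ H2 𝓛 M where
  toFun a := H2.mk 𝓛 M (carZ χ hχ hc a)
  map_zero' := by
    rw [show carZ χ hχ hc (0 : H0 G M) = 0 from Subtype.ext (by
      funext g h
      change car p (χ g) (χ h) • (0 : M) = 0
      rw [smul_zero]), map_zero]
  map_add' a b := by
    rw [← map_add]
    congr 1
    apply Subtype.ext
    funext g h
    change car p (χ g) (χ h) • ((a : M) + b) = _
    rw [smul_add]; rfl

theorem carC_apply (a : H0 G M) : carC χ hχ hc a = H2.mk 𝓛 M (carZ χ hχ hc a) := rfl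

/-- the lift used in the computation of the double connecting map -/
def carLift (a : H0 G M) (c : ZMod p) : CoInd (chiKer χ hχ) M :=
  ⟨fun x => -((car p (χ x) c : ℤ) • (a : M)), fun u x => by
    have hu : χ (u : G) = 0 := (mem_chiKer χ hχ).mp u.2
    beta_reduce
    rw [hχ, hu, zero_add, Subgroup.smul_def]
    change _ = DistribSMul.toAddMonoidHom M (u : G) _
    rw [map_neg, map_zsmul]
    change _ = -(_ • ((u : G) • (a : M)))
    rw [a.2]⟩

theorem carLift_apply (a : H0 G M) (c : ZMod p) (x : G) :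
    (carLift χ hχ a c).1 x = -((car p (χ x) c : ℤ) • (a : M)) := rfl

/-- the double connecting map is minus the carry class -/
theorem δ1_δ0 [Finite (G ⧸ chiKer χ hχ)] (hH : 𝓛.isOpen (chiKer χ hχ)) (sm : 𝓛.Smooth M)
    (a : H0 G M) :
    (sesA χ hχ t hH ht sm).δ1 ((sesB χ hχ t hH ht sm).δ0 a) = -carC χ hχ hc a := by
  have hb : (sesB χ hχ t hH ht sm).j (indic χ hχ (a : M)) = a := sumMap_indic χ hχ t ht _
  have hb' : (sesB χ hχ t hH ht sm).j (indic χ hχ (a : M)) ∈ H0 G M := by rw [hb]; exact a.2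
  rw [(sesB χ hχ t hH ht sm).δ0_eq hb
    (fun g => (sesB χ hχ t hH ht sm).i_coc0 (indic χ hχ (a : M)) hb' g)]
  have hp : 1 < p := (Fact.out : p.Prime).one_lt
  rw [carC_apply, ← map_neg]
  refine (sesA χ hχ t hH ht sm).δ1_eq (φ := fun g => carLift χ hχ a (χ g)) (hc.comp _) ?_ ?_
  · intro g
    apply (kerSum χ hχ M).incl_injective
    have h1 := (sesB χ hχ t hH ht sm).i_coc0 (indic χ hχ (a : M)) hb' g
    refine Eq.trans ?_ h1.symm
    change shiftOp χ hχ t M (carLift χ hχ a (χ g)) - carLift χ hχ a (χ g) = _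
    refine CoInd.ext fun x => ?_
    rw [CoInd.sub_apply, CoInd.sub_apply, shiftOp_apply, CoInd.smul_apply, carLift_apply,
      carLift_apply, indic_apply, indic_apply, a.2, a.2, hχ t⁻¹ x, hχ x g, chi_inv χ hχ, ht]
    have h2 := car_sub p (χ x) (χ g) hp
    have h3 : t • -((car p (-1 + χ x) (χ g) : ℤ) • (a : M)) =
        -((car p (χ x - 1) (χ g) : ℤ) • (a : M)) := by
      change DistribSMul.toAddMonoidHom M t _ = _
      rw [map_neg, map_zsmul]
      change -(_ • (t • (a : M))) = _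
      rw [a.2, neg_add_eq_sub]
    rw [h3]
    have h4 : -((car p (χ x - 1) (χ g) : ℤ) • (a : M)) - -((car p (χ x) (χ g) : ℤ) • (a : M)) =
        ((car p (χ x) (χ g) : ℤ) - car p (χ x - 1) (χ g)) • (a : M) := by
      rw [sub_smul]; abel
    rw [h4, h2, sub_smul]
    split_ifs <;> simp
  · intro g h
    refine CoInd.ext fun x => ?_
    change x • (-(car p (χ g) (χ h) • (a : M))) = _
    have h5 : x • (-(car p (χ g) (χ h) • (a : M))) = -(car p (χ g) (χ h) • (a : M)) := by
      change DistribSMul.toAddMonoidHom M x _ = _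
      rw [map_neg, map_nsmul]
      change -(_ • (x • (a : M))) = _
      rw [a.2]
    rw [h5]
    simp only [d1, CoInd.add_apply, CoInd.sub_apply, CoInd.smul_apply, carLift_apply, hχ]
    have h6 := car_cocycle p (χ x) (χ g) (χ h)
    have h7 : (car p (χ x + χ g) (χ h) : ℤ) =
        car p (χ g) (χ h) + car p (χ x) (χ g + χ h) - car p (χ x) (χ g) := by
      have : (car p (χ g) (χ h) : ℤ) + car p (χ x) (χ g + χ h) =
        car p (χ x + χ g) (χ h) + car p (χ x) (χ g) := by exact_mod_cast h6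
      linarith
    rw [h7]
    simp only [sub_smul, add_smul, natCast_zsmul]
    abel

include ht in
/-- **Theorem A**: a class dying on `ker χ` is a carry class, if `H¹(ker χ, M) = 0`. -/
theorem exists_carC (sm : 𝓛.Smooth M)
    (h1 : ∀ z : H1 (𝓛.sub (chiKer χ hχ)) M, z = 0) (x : H2 𝓛 M)
    (hx : resH2 𝓛 (chiKer χ hχ) M x = 0) : ∃ a : H0 G M, x = carC χ hχ hc a := by
  have hH := chiKer_open (𝓛 := 𝓛) χ hχ hc
  have := finite_quot hH
  have h2 : H2coef 𝓛 (unitMap (chiKer χ hχ) M) (unitMap_smul (chiKer χ hχ) M) x = 0 := by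
    apply sh2_injective hH
    rw [sh2_unit, hx, map_zero]
  obtain ⟨z, rfl⟩ := ((sesA χ hχ t hH ht sm).H2_i_eq_zero_iff x).mp h2
  have h3 : H1coef 𝓛 (sesB χ hχ t hH ht sm).i (sesB χ hχ t hH ht sm).hi z = 0 := by
    apply sh1_injective
    rw [map_zero]
    exact h1 _
  obtain ⟨a, rfl⟩ := ((sesB χ hχ t hH ht sm).H1_i_eq_zero_iff z).mp h3
  refine ⟨-a, ?_⟩
  rw [δ1_δ0 χ hχ hc t ht hH sm, map_neg]

include ht in
/-- **Theorem B**: the carry class vanishes iff `a` is a norm. -/
theorem carC_eq_zero_iff [Finite (G ⧸ chiKer χ hχ)] (sm : 𝓛.Smooth M)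
    (h1 : ∀ z : H1 (𝓛.sub (chiKer χ hχ)) M, z = 0) (a : H0 G M) :
    carC χ hχ hc a = 0 ↔ ∃ b : H0 (chiKer χ hχ) M, cores0 b = a := by
  have hH := chiKer_open (𝓛 := 𝓛) χ hχ hc
  have key : carC χ hχ hc a = 0 ↔ (sesB χ hχ t hH ht sm).δ0 a = 0 := by
    rw [← neg_eq_zero, ← δ1_δ0 χ hχ hc t ht hH sm, (sesA χ hχ t hH ht sm).δ1_eq_zero_iff]
    constructor
    · rintro ⟨y, hy⟩
      have h2 : y = 0 := by
        apply sh1_injective
        rw [map_zero]
        exact h1 _
      rw [← hy, h2, map_zero]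
    · intro h
      exact ⟨0, by rw [map_zero, h]⟩
  rw [key, (sesB χ hχ t hH ht sm).δ0_eq_zero_iff]
  constructor
  · rintro ⟨b, hb⟩
    have hconst : ∀ x, (b : CoInd (chiKer χ hχ) M).1 x = (b : CoInd (chiKer χ hχ) M).1 1 := by
      intro x
      have := congrArg (fun F => F.1 1) (b.2 x)
      beta_reduce at this
      rw [CoInd.smul_apply, one_mul] at this
      exact this
    have hb0 : (b : CoInd (chiKer χ hχ) M).1 1 ∈ H0 (chiKer χ hχ) M := by
      intro u
      rw [← (b : CoInd (chiKer χ hχ) M).2 u 1, mul_one, hconst]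
    refine ⟨⟨_, hb0⟩, ?_⟩
    apply Subtype.ext
    rw [← hb]
    change sumMap _ M _ = sumMap _ M _
    congr 1
    refine CoInd.ext fun x => ?_
    rw [hconst x]
    rfl
  · rintro ⟨b, rfl⟩
    exact ⟨constH0 b, rfl⟩

/-- carry classes die on the kernel -/
theorem res_carC (a : H0 G M) : resH2 𝓛 (chiKer χ hχ) M (carC χ hχ hc a) = 0 := by
  refine H2.mk_eq_zero.mpr ⟨0, (𝓛.sub _).const1_const 0, fun g h => ?_⟩
  change car p (χ (g : G)) (χ (h : G)) • (a : M) = _
  rw [(mem_chiKer χ hχ).mp g.2, car_zero_left, zero_smul]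
  simp [d1]

end

end Fermat.Agent.CC
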