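import Fermat.Agent.CC.Cup
set_option autoImplicit false
set_option maxHeartbeats 400000

/-!
# Cohomology of procyclic quotients
-/

noncomputable section

namespace Fermat.Agent.CC

/-- `G / I` is procyclic, topologically generated by `φ`, with all finite quotients -/
structure Procyc {G : Type*} [Group G] (𝓛 : Lev G) (I : Subgroup G) (φ : G) : Prop where
  nor : I.Normal
  gen : ∀ N, 𝓛.isOpen N → ∀ g, ∃ (n : ℕ) (i : G), i ∈ I ∧ (φ ^ n * i)⁻¹ * g ∈ N
  chr : ∀ m : ℕ, 0 < m → ∃ χ : G → ZMod m, (∀ g h, χ (g * h) = χ g + χ h) ∧ 𝓛.Const1 χ ∧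
    (∀ g ∈ I, χ g = 0) ∧ χ φ = 1

section Periodic

variable {M : Type*} [AddCommGroup M] {p : ℕ}

/-- partial sums of a periodic sequence of `p`-torsion elements are periodic -/
theorem sum_periodic (kM : ∀ m : M, p • m = 0) (u : ℕ → M) {n : ℕ} (hu : ∀ i, u (i + n) = u i)
    (k l : ℕ) (h : (k : ZMod (n * p)) = l) :
    ∑ i ∈ Finset.range k, u i = ∑ i ∈ Finset.range l, u i := by
  have h1 : ∀ a b : ℕ, ∑ i ∈ Finset.range (a * n + b), u i =
      a • ∑ i ∈ Finset.range n, u i + ∑ i ∈ Finset.range b, u i := by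
    intro a b
    induction a with
    | zero => simp
    | succ a ih =>
      have h2 : (a + 1) * n + b = n + (a * n + b) := by ring
      rw [h2, Finset.sum_range_add]
      have h3 : ∀ i, u (n + i) = u i := fun i => by rw [add_comm, hu]
      rw [Finset.sum_congr rfl fun i _ => h3 i, ih, add_smul, one_smul]
      abel
  have h2 : ∀ a b : ℕ, ∑ i ∈ Finset.range (a * (n * p) + b), u i = ∑ i ∈ Finset.range b, u i := by
    intro a b
    have h3 : a * (n * p) + b = (a * p) * n + b := by ring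
    rw [h3, h1, mul_smul, kM, smul_zero, zero_add]
  have h3 : ∀ k : ℕ, ∑ i ∈ Finset.range k, u i = ∑ i ∈ Finset.range (k % (n * p)), u i := by
    intro k
    conv_lhs => rw [← Nat.div_add_mod k (n * p), mul_comm (n * p)]
    exact h2 _ _
  rw [h3 k, h3 l, (ZMod.natCast_eq_natCast_iff' k l (n * p)).mp h]

end Periodic

namespace Procyc

variable {G : Type*} [Group G] {𝓛 : Lev G} {I : Subgroup G} {φ : G} (P : Procyc 𝓛 I φ)
  {M : Type*} [AddCommGroup M] [DistribMulAction G M] {p : ℕ}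

include P in
/-- data attached to an open subgroup -/
theorem exists_data {N : Subgroup G} (hN : 𝓛.isOpen N) (hp : 0 < p) :
    ∃ (n : ℕ) (χ : G → ZMod (n * p)), 0 < n ∧ (∀ g h, χ (g * h) = χ g + χ h) ∧ 𝓛.Const1 χ ∧
      (∀ g ∈ I, χ g = 0) ∧ χ φ = 1 ∧ (∃ i ∈ I, ∃ s ∈ N, φ ^ n = i * s) ∧
      ∀ (g : G) (k : ℕ), (k : ZMod (n * p)) = χ g → ∃ i ∈ I, ∃ s ∈ N, g = φ ^ k * i * s := by
  have := P.nor
  obtain ⟨V, hVn, hV, hVN⟩ := 𝓛.nor N hN
  -- the open normal subgroup `I V`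
  set U := I ⊔ V with hU
  have hUo : 𝓛.isOpen U := 𝓛.mono _ _ hV le_sup_right
  have hUn : U.Normal := inferInstance
  have hfin := 𝓛.fin U hUo
  have hmemU : ∀ g ∈ U, ∃ i ∈ I, ∃ s ∈ V, g = i * s := by
    intro g hg
    obtain ⟨i, hi, s, hs, rfl⟩ := Subgroup.mem_sup_of_normal_right.mp hg
    exact ⟨i, hi, s, hs, rfl⟩
  obtain ⟨n, hn0, hn⟩ : ∃ n, 0 < n ∧ φ ^ n ∈ U := by
    have hfq : Finite (G ⧸ U) := inferInstance
    obtain ⟨n, hn, h1⟩ := isOfFinOrder_iff_pow_eq_one.mp (isOfFinOrder_of_finite (QuotientGroup.mk φ : G ⧸ U))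
    refine ⟨n, hn, ?_⟩
    rw [← QuotientGroup.mk_pow, QuotientGroup.eq_one_iff] at h1
    exact h1
  obtain ⟨χ, hχ, hc, hI, h1⟩ := P.chr (n * p) (Nat.mul_pos hn0 hp)
  refine ⟨n, χ, hn0, hχ, hc, hI, h1, ?_, ?_⟩
  · obtain ⟨i, hi, s, hs, he⟩ := hmemU _ hn
    exact ⟨i, hi, s, hVN hs, he⟩
  · intro g k hk
    have hχpow : ∀ j : ℕ, χ (φ ^ j) = j := by
      intro j
      induction j with
      | zero =>
        have h2 := hχ 1 1
        rw [one_mul, left_eq_add] at h2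
        simpa using h2
      | succ j ih => rw [pow_succ, hχ, ih, h1]; push_cast; ring
    obtain ⟨W, hW, hWχ⟩ := hc
    obtain ⟨m, i, hi, hs⟩ := P.gen (V ⊓ W) (𝓛.inf _ _ hV hW) g
    have hg : g = φ ^ m * i * ((φ ^ m * i)⁻¹ * g) := by group
    have hχg : χ g = m := by
      rw [hg, hWχ _ _ hs.2, hχ, hχpow, hI i hi, add_zero]
    -- `φ ^ m ∈ φ ^ k U`
    have h3 : φ ^ m ∈ {x | (φ ^ k)⁻¹ * x ∈ U} := by
      rw [hχg, ZMod.natCast_eq_natCast_iff'] at hk
      have h4 : ∀ a b : ℕ, (φ ^ b)⁻¹ * φ ^ (a * (n * p) + b) ∈ U := by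
        intro a b
        have h5 : (φ ^ b)⁻¹ * φ ^ (a * (n * p) + b) = (φ ^ n) ^ (a * p) := by
          rw [add_comm, pow_add, inv_mul_cancel_left, ← pow_mul]
          congr 1
          ring
        rw [h5]
        exact pow_mem hn _
      have h6 := h4 (m / (n * p)) (m % (n * p))
      have h7 := h4 (k / (n * p)) (k % (n * p))
      rw [mul_comm (m / (n * p)), Nat.div_add_mod] at h6
      rw [mul_comm (k / (n * p)), Nat.div_add_mod, hk] at h7
      have h8 : (φ ^ k)⁻¹ * φ ^ m = ((φ ^ (m % (n * p)))⁻¹ * φ ^ k)⁻¹ *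
          ((φ ^ (m % (n * p)))⁻¹ * φ ^ m) := by group
      change (φ ^ k)⁻¹ * φ ^ m ∈ U
      rw [h8]
      exact mul_mem (inv_mem h7) h6
    have h9 : (φ ^ k)⁻¹ * g ∈ U := by
      have h10 : (φ ^ k)⁻¹ * g = ((φ ^ k)⁻¹ * φ ^ m) * (i * ((φ ^ m * i)⁻¹ * g)) := by group
      rw [h10]
      exact mul_mem h3 (mul_mem (Subgroup.mem_sup_left hi) (Subgroup.mem_sup_right hs.1))
    obtain ⟨i', hi', s', hs', he⟩ := hmemU _ h9
    refine ⟨i', hi', s', hVN hs', ?_⟩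
    rw [mul_assoc, ← he, mul_inv_cancel_left]

include P in
/-- unramified two-cocycles are unramified coboundaries -/
theorem ur2 [Finite M] (hp : 0 < p) (kM : ∀ m : M, p • m = 0) (smM : 𝓛.Smooth M)
    (hI : ∀ i ∈ I, ∀ m : M, i • m = m) (x : Z2 𝓛 M)
    (hx : ∀ g h, ∀ i ∈ I, ∀ j ∈ I, x.1 (g * i) (h * j) = x.1 g h) :
    ∃ ψ : G → M, 𝓛.Const1 ψ ∧ (∀ g, ∀ i ∈ I, ψ (g * i) = ψ g) ∧ ∀ g h, x.1 g h = d1 ψ g h := by
  obtain ⟨N₁, hN₁, hxN⟩ := x.2.1
  obtain ⟨N₂, hN₂, hMN⟩ := smM.finite (Set.toFinite (Set.univ : Set M))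
  obtain ⟨n, χ, hn, hχ, hc, hχI, h1, ⟨i₀, hi₀, s₀, hs₀, hn0⟩, hd⟩ :=
    P.exists_data (𝓛.inf _ _ hN₁ hN₂) hp
  have : NeZero (n * p) := ⟨(Nat.mul_pos hn hp).ne'⟩
  set u : ℕ → M := fun i => x.1 (φ ^ i) φ with hu
  set F : ℕ → M := fun k => ∑ i ∈ Finset.range k, u i with hF
  have hpos : ∀ (k : ℕ) (i s : G), i ∈ I → s ∈ N₁ ⊓ N₂ → ∀ (l : ℕ) (j t : G), j ∈ I →
      t ∈ N₁ ⊓ N₂ → x.1 (φ ^ k * i * s) (φ ^ l * j * t) = x.1 (φ ^ k) (φ ^ l) := by
    intro k i s hi hs l j t hj ht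
    rw [hxN _ _ s hs.1 t ht.1, hx _ _ i hi j hj]
  have hper : ∀ i, u (i + n) = u i := by
    intro i
    have e1 := hpos i i₀ s₀ hi₀ hs₀ 1 1 1 (one_mem _) (one_mem _)
    simp only [mul_one, pow_one] at e1
    change x.1 (φ ^ (i + n)) φ = x.1 (φ ^ i) φ
    rw [pow_add, hn0, ← mul_assoc]
    exact e1
  have hFp : ∀ k l : ℕ, (k : ZMod (n * p)) = l → F k = F l := fun k l h =>
    sum_periodic kM u hper k l h
  have hc1 : ∀ g, x.1 g 1 = g • x.1 1 1 := by
    intro g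
    have e1 := x.2.2 g 1 1
    rw [mul_one, mul_one] at e1
    exact (add_right_cancel e1).symm
  have hck : ∀ j k : ℕ, x.1 (φ ^ j) (φ ^ k) = F (j + k) - F j - φ ^ j • F k + φ ^ j • x.1 1 1 := by
    intro j k
    induction k with
    | zero =>
      rw [pow_zero, hc1, add_zero, show F 0 = 0 from Finset.sum_range_zero _, smul_zero]
      abel
    | succ k ih =>
      have e1 := x.2.2 (φ ^ j) (φ ^ k) φ
      rw [← pow_succ, ← pow_add] at e1
      have e2 : F (k + 1) = F k + x.1 (φ ^ k) φ := Finset.sum_range_succ _ _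
      have e3 : F (j + (k + 1)) = F (j + k) + x.1 (φ ^ (j + k)) φ := Finset.sum_range_succ _ _
      have e4 : x.1 (φ ^ j) (φ ^ (k + 1)) = x.1 (φ ^ (j + k)) φ + x.1 (φ ^ j) (φ ^ k) -
          φ ^ j • x.1 (φ ^ k) φ := by
        rw [← e1]; abel
      rw [e4, ih, e2, e3, smul_add]
      abel
  refine ⟨fun g => -F (χ g).val + x.1 1 1, ?_, ?_, ?_⟩
  · exact hc.comp fun c => -F c.val + x.1 1 1
  · intro g i hi
    beta_reduce
    rw [hχ, hχI i hi, add_zero]
  · intro g h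
    obtain ⟨i, hi, s, hs, hg⟩ := hd g (χ g).val (by simp)
    obtain ⟨j, hj, t, ht, hh⟩ := hd h (χ h).val (by simp)
    have e1 : x.1 g h = x.1 (φ ^ (χ g).val) (φ ^ (χ h).val) := by
      conv_lhs => rw [hg, hh]
      exact hpos _ i s hi hs _ j t hj ht
    have e2 : ∀ m : M, g • m = φ ^ (χ g).val • m := by
      intro m
      conv_lhs => rw [hg]
      rw [mul_smul, hMN m trivial s hs.2, mul_smul, hI i hi]
    have e3 : F (χ (g * h)).val = F ((χ g).val + (χ h).val) := hFp _ _ (by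
      rw [hχ]; simp)
    rw [e1, hck]
    simp only [d1]
    rw [e2, e3, smul_add, smul_neg]
    abel

include P in
/-- unramified one-cocycles with given value at `φ` -/
theorem exists_ur1 [Finite M] (hp : 0 < p) (kM : ∀ m : M, p • m = 0) (smM : 𝓛.Smooth M)
    (hI : ∀ i ∈ I, ∀ m : M, i • m = m) (m : M) :
    ∃ f : Z1 𝓛 M, (∀ i ∈ I, f.1 i = 0) ∧ f.1 φ = m := by
  obtain ⟨N, hN, hMN⟩ := smM.finite (Set.toFinite (Set.univ : Set M))
  obtain ⟨n, χ, hn, hχ, hc, hχI, h1, ⟨i₀, hi₀, s₀, hs₀, hn0⟩, hd⟩ := P.exists_data hN hp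
  have : NeZero (n * p) := ⟨(Nat.mul_pos hn hp).ne'⟩
  set u : ℕ → M := fun i => φ ^ i • m with hu
  set F : ℕ → M := fun k => ∑ i ∈ Finset.range k, u i with hF
  have hper : ∀ i, u (i + n) = u i := by
    intro i
    change φ ^ (i + n) • m = φ ^ i • m
    rw [pow_add, hn0, mul_smul, mul_smul, hMN m trivial s₀ hs₀, hI i₀ hi₀]
  have hFp : ∀ k l : ℕ, (k : ZMod (n * p)) = l → F k = F l := fun k l h =>
    sum_periodic kM u hper k l h
  refine ⟨⟨fun g => F (χ g).val, hc.comp fun c => F c.val, fun g h => ?_⟩, ?_, ?_⟩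
  · obtain ⟨i, hi, s, hs, hg⟩ := hd g (χ g).val (by simp)
    have e2 : ∀ m : M, g • m = φ ^ (χ g).val • m := by
      intro m
      conv_lhs => rw [hg]
      rw [mul_smul, hMN m trivial s hs, mul_smul, hI i hi]
    beta_reduce
    rw [hFp (χ (g * h)).val ((χ g).val + (χ h).val) (by rw [hχ]; simp), e2]
    change ∑ i ∈ Finset.range ((χ g).val + (χ h).val), u i = _
    rw [Finset.sum_range_add, Finset.smul_sum]
    congr 1
    refine Finset.sum_congr rfl fun i _ => ?_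
    change φ ^ ((χ g).val + i) • m = _
    rw [pow_add, mul_smul]
  · intro i hi
    change F (χ i).val = 0
    rw [hχI i hi, ZMod.val_zero]
    exact Finset.sum_range_zero _
  · change F (χ φ).val = m
    rw [hFp (χ φ).val 1 (by rw [h1]; simp)]
    change ∑ i ∈ Finset.range 1, u i = m
    rw [Finset.sum_range_one]
    change φ ^ 0 • m = m
    rw [pow_zero, one_smul]

include P in
/-- unramified one-cocycles are determined by their value at `φ` -/
theorem ur1_ext (f : Z1 𝓛 M) (hf : ∀ i ∈ I, f.1 i = 0) (hφ : f.1 φ = 0) : f = 0 := by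
  obtain ⟨N, hN, hfN⟩ := f.2.1
  apply Subtype.ext
  funext g
  obtain ⟨n, i, hi, hs⟩ := P.gen N hN g
  have h1 : ∀ k : ℕ, f.1 (φ ^ k) = 0 := by
    intro k
    induction k with
    | zero => rw [pow_zero]; exact Z1.map_one f
    | succ k ih => rw [pow_succ, f.2.2, ih, hφ, smul_zero, add_zero]
  have h2 : g = φ ^ n * i * ((φ ^ n * i)⁻¹ * g) := by group
  rw [h2, hfN _ _ hs, f.2.2, h1, hf i hi, smul_zero, add_zero]
  rfl

end Procyc

end Fermat.Agent.CC
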