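import Fermat.Agent.CC.PT10
import Fermat.Agent.CC.Procyc
set_option autoImplicit false
set_option maxHeartbeats 400000

/-!
# Descent from `S'` to `S`: transgression
-/

namespace Fermat.Agent.CC

noncomputable section

section Ext

variable {G : Type*} [Group G] {𝓛 𝓛₀ : Lev G} {N : Subgroup G} {M : Type*} [AddCommGroup M]
  [DistribMulAction G M]

/-- `𝓛₀` consists of the open subgroups of `𝓛` containing `N` -/
structure Coarse (𝓛 𝓛₀ : Lev G) (N : Subgroup G) : Prop where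
  nor : N.Normal
  iff : ∀ U, 𝓛₀.isOpen U ↔ 𝓛.isOpen U ∧ N ≤ U

theorem Coarse.cont (c : Coarse 𝓛 𝓛₀ N) : Lev.Cont (MonoidHom.id G) 𝓛 𝓛₀ :=
  fun U hU => ((c.iff U).mp hU).1

theorem Coarse.le (c : Coarse 𝓛 𝓛₀ N) {U : Subgroup G} (h : 𝓛₀.isOpen U) : 𝓛.isOpen U :=
  ((c.iff U).mp h).1

theorem Coarse.triv (c : Coarse 𝓛 𝓛₀ N) (sm : 𝓛₀.Smooth M) (n : G) (hn : n ∈ N) (m : M) :
    n • m = m := by
  obtain ⟨U, hU, h⟩ := sm m
  exact h n (((c.iff U).mp hU).2 hn)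

theorem Coarse.smooth (c : Coarse 𝓛 𝓛₀ N) (sm : 𝓛₀.Smooth M) : 𝓛.Smooth M := by
  intro m
  obtain ⟨U, hU, h⟩ := sm m
  exact ⟨U, c.le hU, h⟩

theorem Coarse.const1 (c : Coarse 𝓛 𝓛₀ N) {X : Type*} {f : G → X} (h : 𝓛₀.Const1 f) :
    𝓛.Const1 f := by
  obtain ⟨U, hU, h⟩ := h
  exact ⟨U, c.le hU, h⟩

theorem Coarse.const2 (c : Coarse 𝓛 𝓛₀ N) {X : Type*} {f : G → G → X} (h : 𝓛₀.Const2 f) :
    𝓛.Const2 f := by
  obtain ⟨U, hU, h⟩ := h
  exact ⟨U, c.le hU, h⟩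

theorem Coarse.sup (c : Coarse 𝓛 𝓛₀ N) {U : Subgroup G} (h : 𝓛.isOpen U) : 𝓛₀.isOpen (U ⊔ N) :=
  (c.iff _).mpr ⟨𝓛.mono _ _ h le_sup_left, le_sup_right⟩

/-- constant along `𝓛` and along `N` -/
theorem Coarse.const1_of (c : Coarse 𝓛 𝓛₀ N) {X : Type*} {f : G → X} (h : 𝓛.Const1 f)
    (hN : ∀ g, ∀ n ∈ N, f (g * n) = f g) : 𝓛₀.Const1 f := by
  obtain ⟨U, hU, h⟩ := h
  have := c.nor
  refine ⟨U ⊔ N, c.sup hU, fun g s hs => ?_⟩
  obtain ⟨u, hu, n, hn, rfl⟩ := Subgroup.mem_sup_of_normal_right.mp hs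
  rw [← mul_assoc, hN _ n hn, h g u hu]

/-- equivariant level homomorphisms on `N` -/
structure EqHom (𝓛 : Lev G) (N : Subgroup G) (f : G → M) : Prop where
  add : ∀ n ∈ N, ∀ m ∈ N, f (n * m) = f n + f m
  conj : ∀ g, ∀ n ∈ N, f (g * n * g⁻¹) = g • f n
  lev : ∃ W, 𝓛.isOpen W ∧ ∀ n ∈ N, n ∈ W → f n = 0

theorem EqHom.sum {ι : Type*} (s : Finset ι) {f : ι → G → M} (h : ∀ i, EqHom 𝓛 N (f i)) :
    EqHom 𝓛 N (fun g => ∑ i ∈ s, f i g) where
  add n hn m hm := by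
    rw [← Finset.sum_add_distrib]
    exact Finset.sum_congr rfl fun i _ => (h i).add n hn m hm
  conj g n hn := by
    rw [Finset.smul_sum]
    exact Finset.sum_congr rfl fun i _ => (h i).conj g n hn
  lev := by
    classical
    induction s using Finset.induction_on with
    | empty => exact ⟨⊤, 𝓛.top, fun _ _ _ => by simp⟩
    | @insert a s ha ih =>
      obtain ⟨W, hW, h1⟩ := ih
      obtain ⟨W', hW', h2⟩ := (h a).lev
      refine ⟨W ⊓ W', 𝓛.inf _ _ hW hW', fun n hn hnW => ?_⟩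
      rw [Finset.sum_insert ha, h1 n hn hnW.1, h2 n hn hnW.2, add_zero]

/-- extension of an equivariant homomorphism to a cochain with `𝓛₀`-constant coboundary -/
theorem EqHom.extend (c : Coarse 𝓛 𝓛₀ N) [Finite M] (sm : 𝓛₀.Smooth M) {f : G → M}
    (hf : EqHom 𝓛 N f) :
    ∃ φ : G → M, 𝓛.Const1 φ ∧ 𝓛₀.Const2 (d1 φ) ∧ ∀ n ∈ N, φ n - φ 1 = f n := by
  classical
  have := c.nor
  obtain ⟨W₁, hW₁, h1⟩ := hf.lev
  obtain ⟨W₂, hW₂, h2⟩ := (c.smooth sm).finite (Set.toFinite (Set.univ : Set M))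
  obtain ⟨W, hWn, hW, hW1, hW2⟩ := 𝓛.exists_normal_le hW₁ hW₂
  have hf1 : ∀ n ∈ N, n ∈ W → f n = 0 := fun n hn hnW => h1 n hn (hW1 hnW)
  have hact : ∀ s ∈ W, ∀ m : M, s • m = m := fun s hs m => h2 m trivial s (hW2 hs)
  set U := W ⊔ N with hU
  have hUo : 𝓛₀.isOpen U := c.sup hW
  have hUn : U.Normal := inferInstance
  have hmem : ∀ u ∈ U, ∃ w ∈ W, ∃ n ∈ N, w * n = u := by
    intro u hu
    obtain ⟨w, hw, n, hn, h⟩ := Subgroup.mem_sup_of_normal_right.mp hu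
    exact ⟨w, hw, n, hn, h⟩
  have hUact : ∀ u ∈ U, ∀ m : M, u • m = m := by
    intro u hu m
    obtain ⟨w, hw, n, hn, rfl⟩ := hmem u hu
    rw [mul_smul, c.triv sm n hn, hact w hw]
  let F : G → M := fun u => if h : u ∈ U then f (hmem u h).choose_spec.2.choose else 0
  have hF : ∀ w ∈ W, ∀ n ∈ N, F (w * n) = f n := by
    intro w hw n hn
    have hu : w * n ∈ U := mul_mem (Subgroup.mem_sup_left hw) (Subgroup.mem_sup_right hn)
    have e1 : F (w * n) = f (hmem (w * n) hu).choose_spec.2.choose := dif_pos hu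
    set w' := (hmem (w * n) hu).choose with hw'
    set n' := (hmem (w * n) hu).choose_spec.2.choose with hn'
    have hw'W : w' ∈ W := (hmem (w * n) hu).choose_spec.1
    have hn'N : n' ∈ N := (hmem (w * n) hu).choose_spec.2.choose_spec.1
    have he : w' * n' = w * n := (hmem (w * n) hu).choose_spec.2.choose_spec.2
    rw [e1]
    have e2 : n' * n⁻¹ ∈ W := by
      have : n' * n⁻¹ = w'⁻¹ * w := by
        have h3 : n' = w'⁻¹ * (w * n) := by rw [← he]; group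
        rw [h3]; group
      rw [this]
      exact mul_mem (inv_mem hw'W) hw
    have e3 : n' = (n' * n⁻¹) * n := by group
    rw [e3, hf.add _ (mul_mem hn'N (inv_mem hn)) _ hn, hf1 _ (mul_mem hn'N (inv_mem hn)) e2,
      zero_add]
  have hFadd : ∀ u ∈ U, ∀ v ∈ U, F (u * v) = F u + F v := by
    intro u hu v hv
    obtain ⟨w, hw, n, hn, rfl⟩ := hmem u hu
    obtain ⟨w', hw', n', hn', rfl⟩ := hmem v hv
    have e1 : w * n * (w' * n') = (w * (n * w' * n⁻¹)) * (n * n') := by group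
    rw [e1, hF _ (mul_mem hw (hWn.conj_mem w' hw' n)) _ (mul_mem hn hn'), hF w hw n hn,
      hF w' hw' n' hn', hf.add n hn n' hn']
  have hFconj : ∀ g, ∀ u ∈ U, F (g * u * g⁻¹) = g • F u := by
    intro g u hu
    obtain ⟨w, hw, n, hn, rfl⟩ := hmem u hu
    have e1 : g * (w * n) * g⁻¹ = (g * w * g⁻¹) * (g * n * g⁻¹) := by group
    rw [e1, hF _ (hWn.conj_mem w hw g) _ (c.nor.conj_mem n hn g), hF w hw n hn, hf.conj g n hn]
  have hFW : ∀ w ∈ W, F w = 0 := by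
    intro w hw
    have := hF w hw 1 N.one_mem
    rw [mul_one] at this
    rw [this]
    exact hf1 1 N.one_mem W.one_mem
  let r : G → G := fun g => Quotient.out (QuotientGroup.mk g : G ⧸ U)
  have hr : ∀ g, (r g)⁻¹ * g ∈ U := by
    intro g
    rw [← QuotientGroup.eq]
    exact Quotient.out_eq _
  have hru : ∀ g, ∀ u ∈ U, r (g * u) = r g := by
    intro g u hu
    have : (QuotientGroup.mk (g * u) : G ⧸ U) = QuotientGroup.mk g := by
      rw [QuotientGroup.eq]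
      have : (g * u)⁻¹ * g = u⁻¹ := by group
      rw [this]
      exact inv_mem hu
    change Quotient.out _ = Quotient.out _
    rw [this]
  let φ : G → M := fun g => r g • F ((r g)⁻¹ * g)
  have hφ : ∀ g, ∀ u ∈ U, φ (g * u) = φ g + g • F u := by
    intro g u hu
    change r (g * u) • F ((r (g * u))⁻¹ * (g * u)) = r g • F ((r g)⁻¹ * g) + g • F u
    rw [hru g u hu, ← mul_assoc, hFadd _ (hr g) u hu, smul_add]
    congr 1
    have h3 := hUact _ (hr g) (F u)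
    rw [mul_smul] at h3
    conv_lhs => rw [← h3]
    rw [smul_inv_smul]
  refine ⟨φ, ⟨W, hW, fun g s hs => ?_⟩, ⟨U, hUo, fun g h s hs t ht => ?_⟩, fun n hn => ?_⟩
  · rw [hφ g s (Subgroup.mem_sup_left hs), hFW s hs, smul_zero, add_zero]
  · have e1 : g * s * (h * t) = g * h * ((h⁻¹ * s * h⁻¹⁻¹) * t) := by group
    have e2 : h⁻¹ * s * h⁻¹⁻¹ ∈ U := hUn.conj_mem s hs h⁻¹
    simp only [d1]
    rw [e1, hφ (g * h) _ (mul_mem e2 ht), hFadd _ e2 t ht, hφ g s hs, hφ h t ht, hFconj h⁻¹ s hs]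
    have e3 : (g * s) • (φ h + h • F t) = g • φ h + (g * h) • F t := by
      rw [mul_smul, hUact s hs, smul_add, mul_smul]
    have e4 : (g * h) • (h⁻¹ • F s + F t) = g • F s + (g * h) • F t := by
      rw [smul_add, mul_smul g h (h⁻¹ • F s), smul_inv_smul]
    rw [e3, e4]
    abel
  · have h4 := hφ 1 n (Subgroup.mem_sup_right hn)
    rw [one_mul, one_smul] at h4
    have h5 : F n = f n := by
      have := hF 1 W.one_mem n hn
      rwa [one_mul] at this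
    rw [h4, h5]
    abel

/-- conversely -/
theorem eqHom_of_d1 (c : Coarse 𝓛 𝓛₀ N) (sm : 𝓛₀.Smooth M) {φ : G → M} (h1 : 𝓛.Const1 φ)
    (h2 : 𝓛₀.Const2 (d1 φ)) : EqHom 𝓛 N (fun n => φ n - φ 1) ∧
      ∀ g, ∀ n ∈ N, φ (g * n) = φ g + g • (φ n - φ 1) := by
  obtain ⟨U, hU, h⟩ := h2
  have hNU : N ≤ U := ((c.iff U).mp hU).2
  have hA : ∀ g, ∀ n ∈ N, φ (g * n) = φ g + g • (φ n - φ 1) := by
    intro g n hn
    have e1 := h g 1 1 U.one_mem n (hNU hn)
    rw [mul_one, one_mul] at e1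
    simp only [d1, mul_one] at e1
    have e2 : g • φ n - φ (g * n) + φ g = g • φ 1 := by
      rw [e1]; abel
    rw [smul_sub]
    rw [← e2]
    abel
  have hB : ∀ g, ∀ n ∈ N, φ (n * g) = φ g + (φ n - φ 1) := by
    intro g n hn
    have e1 := h 1 g n (hNU hn) 1 U.one_mem
    rw [mul_one, one_mul] at e1
    simp only [d1, one_smul, one_mul, c.triv sm n hn] at e1
    have e2 : φ g - φ (n * g) + φ n = φ 1 := by
      rw [e1]; abel
    rw [← e2]
    abel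
  refine ⟨⟨fun n hn m hm => ?_, fun g n hn => ?_, ?_⟩, hA⟩
  · beta_reduce
    rw [hB m n hn]
    abel
  · beta_reduce
    have e1 := hA g n hn
    have e2 := hB g (g * n * g⁻¹) (c.nor.conj_mem n hn g)
    have e3 : g * n * g⁻¹ * g = g * n := by group
    rw [e3, e1] at e2
    exact (add_left_cancel e2).symm
  · obtain ⟨W, hW, h3⟩ := h1
    refine ⟨W, hW, fun n _ hnW => ?_⟩
    have := h3 1 n hnW
    rw [one_mul] at this
    rw [this, sub_self]

end Ext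

end

end Fermat.Agent.CC
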