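import Fermat.Agent.CC.LocalDual5
set_option autoImplicit false
set_option maxHeartbeats 400000

/-!
# Abstract Poitou–Tate: global-local data
-/

namespace Fermat.Agent.CC

noncomputable section

section Loc

variable {G : Type*} [Group G] {𝓛 : Lev G} {H : Subgroup G} {𝓛' : Lev H}
  (hc : Lev.Cont H.subtype 𝓛' 𝓛)
  {A B C : Type*} [AddCommGroup A] [AddCommGroup B] [AddCommGroup C]
  [DistribMulAction G A] [DistribMulAction G B] [DistribMulAction G C]

/-- restriction of an equivariant pairing -/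
theorem EqPair.sub {e : A →+ B →+ C} (he : EqPair G e) (H : Subgroup G) : EqPair H e :=
  fun g a b => he g a b

include hc in
theorem smooth_loc (sm : 𝓛.Smooth A) : 𝓛'.Smooth A := by
  intro a
  obtain ⟨U, hU, h⟩ := sm a
  exact ⟨U.comap H.subtype, hc U hU, fun s hs => h s hs⟩

/-- localization in degree one -/
def loc1 (A : Type*) [AddCommGroup A] [DistribMulAction G A] : H1 𝓛 A →+ H1 𝓛' A :=
  H1map H.subtype hc (AddMonoidHom.id A) (fun _ _ => rfl)

/-- localization in degree two -/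
def loc2 (A : Type*) [AddCommGroup A] [DistribMulAction G A] : H2 𝓛 A →+ H2 𝓛' A :=
  H2map H.subtype hc (AddMonoidHom.id A) (fun _ _ => rfl)

/-- localization in degree zero -/
def loc0 (H : Subgroup G) (A : Type*) [AddCommGroup A] [DistribMulAction G A] :
    H0 G A →+ H0 H A where
  toFun a := ⟨a, fun g => a.2 g⟩
  map_zero' := rfl
  map_add' _ _ := rfl

@[simp] theorem loc0_coe (a : H0 G A) : ((loc0 H A a : H0 H A) : A) = a := rfl

theorem loc0_injective : Function.Injective (loc0 H A) := by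
  intro a b h
  have h1 : ((loc0 H A a : H0 H A) : A) = (loc0 H A b : H0 H A) := by rw [h]
  exact Subtype.ext h1

theorem loc1_coef (f : A →+ B) (hf : ∀ (g : G) (a : A), f (g • a) = g • f a) (x : H1 𝓛 A) :
    loc1 hc B (H1coef 𝓛 f hf x) = H1coef 𝓛' f (fun g a => hf g a) (loc1 hc A x) := by
  obtain ⟨x, rfl⟩ := H1.mk_surjective x
  rfl

theorem loc2_coef (f : A →+ B) (hf : ∀ (g : G) (a : A), f (g • a) = g • f a) (x : H2 𝓛 A) :
    loc2 hc B (H2coef 𝓛 f hf x) = H2coef 𝓛' f (fun g a => hf g a) (loc2 hc A x) := by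
  obtain ⟨x, rfl⟩ := H2.mk_surjective x
  rfl

theorem loc2_cup11 (e : A →+ B →+ C) (he : EqPair G e) (sm : 𝓛.Smooth B) (x : H1 𝓛 A)
    (y : H1 𝓛 B) :
    loc2 hc C (cup11 e he sm x y) =
      cup11 e (he.sub H) (smooth_loc hc sm) (loc1 hc A x) (loc1 hc B y) :=
  cup11_natural e he e (he.sub H) H.subtype hc (AddMonoidHom.id A) (fun _ _ => rfl)
    (AddMonoidHom.id B) (fun _ _ => rfl) (AddMonoidHom.id C) (fun _ _ => rfl) (fun _ _ => rfl)
    sm (smooth_loc hc sm) x y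

theorem loc2_cup20 (e : A →+ B →+ C) (he : EqPair G e) (x : H2 𝓛 A) (b : H0 G B) :
    loc2 hc C (cup20 e he b x) = cup20 e (he.sub H) (loc0 H B b) (loc2 hc A x) := by
  obtain ⟨x, rfl⟩ := H2.mk_surjective x
  rfl

/-- localization of a short exact sequence -/
def SES.loc (E : SES 𝓛 A B C) : SES 𝓛' A B C where
  i := E.i
  j := E.j
  hi g a := E.hi g a
  hj g a := E.hj g a
  inj := E.inj
  surj := E.surj
  exact := E.exact
  smA := smooth_loc hc E.smA
  smB := smooth_loc hc E.smB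
  smC := smooth_loc hc E.smC

theorem SES.loc_δ0 (E : SES 𝓛 A B C) (c : H0 G C) :
    loc1 hc A (E.δ0 c) = (E.loc hc).δ0 (loc0 H C c) :=
  SES.δ0_natural E (E.loc hc) H.subtype hc (AddMonoidHom.id A) (fun _ _ => rfl)
    (AddMonoidHom.id B) (fun _ _ => rfl) (AddMonoidHom.id C) (fun _ => rfl) (fun _ => rfl) c
    (loc0 H C c).2

theorem SES.loc_δ1 (E : SES 𝓛 A B C) (c : H1 𝓛 C) :
    loc2 hc A (E.δ1 c) = (E.loc hc).δ1 (loc1 hc C c) :=
  SES.δ1_natural E (E.loc hc) H.subtype hc (AddMonoidHom.id A) (fun _ _ => rfl)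
    (AddMonoidHom.id B) (fun _ _ => rfl) (AddMonoidHom.id C) (fun _ _ => rfl) (fun _ => rfl)
    (fun _ => rfl) c

variable {A' B' C' T : Type*} [AddCommGroup A'] [AddCommGroup B'] [AddCommGroup C']
  [AddCommGroup T] [DistribMulAction G A'] [DistribMulAction G B'] [DistribMulAction G C']
  [DistribMulAction G T]

/-- localization of a dual pair of short exact sequences -/
def DualSES.loc (D : DualSES 𝓛 A B C A' B' C' T) : DualSES 𝓛' A B C A' B' C' T where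
  E := D.E.loc hc
  E' := D.E'.loc hc
  eA := D.eA
  eB := D.eB
  eC := D.eC
  hA := D.hA.sub H
  hB := D.hB.sub H
  hC := D.hC.sub H
  hAB := D.hAB
  hBC := D.hBC

end Loc

/-- a finite perfect pair of modules killed by `p` -/
structure Pr (p : ℕ) {G : Type*} [Group G] (𝓛 : Lev G) {A B T : Type*} [AddCommGroup A]
    [AddCommGroup B] [AddCommGroup T] [DistribMulAction G A] [DistribMulAction G B]
    [DistribMulAction G T] (e : A →+ B →+ T) : Prop where
  fA : Finite A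
  fB : Finite B
  he : EqPair G e
  smA : 𝓛.Smooth A
  smB : 𝓛.Smooth B
  kA : ∀ a : A, p • a = 0
  kB : ∀ b : B, p • b = 0
  hl : ∀ a, (∀ b, e a b = 0) → a = 0
  hr : ∀ b, (∀ a, e a b = 0) → b = 0

theorem Pr.flip {p : ℕ} {G : Type*} [Group G] {𝓛 : Lev G} {A B T : Type*} [AddCommGroup A]
    [AddCommGroup B] [AddCommGroup T] [DistribMulAction G A] [DistribMulAction G B]
    [DistribMulAction G T] {e : A →+ B →+ T} (h : Pr p 𝓛 e) : Pr p 𝓛 e.flip where
  fA := h.fB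
  fB := h.fA
  he := h.he.flip
  smA := h.smB
  smB := h.smA
  kA := h.kB
  kB := h.kA
  hl := h.hr
  hr := h.hl

/-- Global-local data. -/
structure GLD (p : ℕ) [Fact p.Prime] (G : Type) [Group G] (T : Type) [AddCommGroup T]
    [DistribMulAction G T] where
  𝓛 : Lev G
  V : Type
  [fV : Fintype V]
  neV : Nonempty V
  D : V → Subgroup G
  L : ∀ v, Lev (D v)
  cont : ∀ v, Lev.Cont (D v).subtype (L v) 𝓛
  τ : T ≃+ ZMod p
  inv : ∀ v, H2 (L v) T ≃+ ZMod p
  ld : ∀ (v : V) (A B : Type) [AddCommGroup A] [AddCommGroup B] [DistribMulAction G A]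
    [DistribMulAction G B] (e : A →+ B →+ T) (h : Pr p 𝓛 e),
      LD (L v) e (h.he.sub (D v)) (smooth_loc (cont v) h.smB)
  recip : ∀ x : H2 𝓛 T, ∑ v, inv v (loc2 (cont v) T x) = 0

attribute [instance] GLD.fV GLD.neV

namespace GLD

variable {p : ℕ} [Fact p.Prime] {G : Type} [Group G] {T : Type} [AddCommGroup T]
  [DistribMulAction G T] (𝒢 : GLD p G T)

/-- localization maps -/
def l0 (A : Type) [AddCommGroup A] [DistribMulAction G A] : H0 G A →+ ∀ v, H0 (𝒢.D v) A :=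
  AddMonoidHom.pi fun v => loc0 (𝒢.D v) A

def l1 (A : Type) [AddCommGroup A] [DistribMulAction G A] : H1 𝒢.𝓛 A →+ ∀ v, H1 (𝒢.L v) A :=
  AddMonoidHom.pi fun v => loc1 (𝒢.cont v) A

def l2 (A : Type) [AddCommGroup A] [DistribMulAction G A] : H2 𝒢.𝓛 A →+ ∀ v, H2 (𝒢.L v) A :=
  AddMonoidHom.pi fun v => loc2 (𝒢.cont v) A

theorem l0_injective (A : Type) [AddCommGroup A] [DistribMulAction G A] :
    Function.Injective (𝒢.l0 A) := by
  intro a b h
  obtain ⟨v⟩ := 𝒢.neV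
  exact loc0_injective (congrFun h v)

section Pairing

variable {A B : Type} [AddCommGroup A] [AddCommGroup B] [DistribMulAction G A]
  [DistribMulAction G B] {e : A →+ B →+ T} (h : Pr p 𝒢.𝓛 e)

/-- local pairing in degrees (2,0) -/
def b20 (v : 𝒢.V) : H2 (𝒢.L v) A →+ H0 (𝒢.D v) B →+ ZMod p :=
  ((cup02h (𝓛 := 𝒢.L v) e.flip (h.he.sub (𝒢.D v)).flip).flip).compr₂ (𝒢.inv v).toAddMonoidHom

theorem b20_apply (v : 𝒢.V) (y : H2 (𝒢.L v) A) (b : H0 (𝒢.D v) B) :
    𝒢.b20 h v y b = 𝒢.inv v (cup20 e (h.he.sub (𝒢.D v)) b y) := rfl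

/-- local pairing in degrees (1,1) -/
def b11 (v : 𝒢.V) : H1 (𝒢.L v) A →+ H1 (𝒢.L v) B →+ ZMod p :=
  (cup11 e (h.he.sub (𝒢.D v)) (smooth_loc (𝒢.cont v) h.smB)).compr₂
    (𝒢.inv v).toAddMonoidHom

theorem b11_apply (v : 𝒢.V) (x : H1 (𝒢.L v) A) (y : H1 (𝒢.L v) B) :
    𝒢.b11 h v x y = 𝒢.inv v (cup11 e (h.he.sub (𝒢.D v))
      (smooth_loc (𝒢.cont v) h.smB) x y) := rfl

/-- sum of local pairings, degrees (2,0) -/
def s20 : (∀ v, H2 (𝒢.L v) A) →+ (∀ v, H0 (𝒢.D v) B) →+ ZMod p where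
  toFun y :=
    { toFun := fun b => ∑ v, 𝒢.b20 h v (y v) (b v)
      map_zero' := by simp
      map_add' := fun b b' => by simp [Finset.sum_add_distrib] }
  map_zero' := by ext b; simp
  map_add' y y' := by ext b; simp [Finset.sum_add_distrib]

theorem s20_apply (y : ∀ v, H2 (𝒢.L v) A) (b : ∀ v, H0 (𝒢.D v) B) :
    𝒢.s20 h y b = ∑ v, 𝒢.b20 h v (y v) (b v) := rfl

/-- sum of local pairings, degrees (1,1) -/
def s11 : (∀ v, H1 (𝒢.L v) A) →+ (∀ v, H1 (𝒢.L v) B) →+ ZMod p where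
  toFun y :=
    { toFun := fun b => ∑ v, 𝒢.b11 h v (y v) (b v)
      map_zero' := by simp
      map_add' := fun b b' => by simp [Finset.sum_add_distrib] }
  map_zero' := by ext b; simp
  map_add' y y' := by ext b; simp [Finset.sum_add_distrib]

theorem s11_apply (y : ∀ v, H1 (𝒢.L v) A) (b : ∀ v, H1 (𝒢.L v) B) :
    𝒢.s11 h y b = ∑ v, 𝒢.b11 h v (y v) (b v) := rfl

/-- reciprocity, degrees (2,0) -/
theorem rec20 (x : H2 𝒢.𝓛 A) (b : H0 G B) : 𝒢.s20 h (𝒢.l2 A x) (𝒢.l0 B b) = 0 := by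
  rw [s20_apply, ← 𝒢.recip (cup20 e h.he b x)]
  refine Finset.sum_congr rfl fun v _ => ?_
  rw [b20_apply, loc2_cup20]
  rfl

/-- reciprocity, degrees (1,1) -/
theorem rec11 (x : H1 𝒢.𝓛 A) (y : H1 𝒢.𝓛 B) : 𝒢.s11 h (𝒢.l1 A x) (𝒢.l1 B y) = 0 := by
  rw [s11_apply, ← 𝒢.recip (cup11 e h.he h.smB x y)]
  refine Finset.sum_congr rfl fun v _ => ?_
  rw [b11_apply, loc2_cup11]
  rfl

include h

theorem fin1A (v : 𝒢.V) : Finite (H1 (𝒢.L v) A) := (𝒢.ld v A B e h).fA1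
theorem fin1B (v : 𝒢.V) : Finite (H1 (𝒢.L v) B) := (𝒢.ld v A B e h).fB1
theorem fin2A (v : 𝒢.V) : Finite (H2 (𝒢.L v) A) := (𝒢.ld v A B e h).fA2
theorem fin2B (v : 𝒢.V) : Finite (H2 (𝒢.L v) B) := (𝒢.ld v A B e h).fB2

theorem finP1A : Finite (∀ v, H1 (𝒢.L v) A) := by
  have := fun v => 𝒢.fin1A h v
  infer_instance
theorem finP1B : Finite (∀ v, H1 (𝒢.L v) B) := by
  have := fun v => 𝒢.fin1B h v
  infer_instance
theorem finP2A : Finite (∀ v, H2 (𝒢.L v) A) := by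
  have := fun v => 𝒢.fin2A h v
  infer_instance
omit h in
theorem finP0 (A : Type) [AddCommGroup A] [DistribMulAction G A] [Finite A] :
    Finite (∀ v, H0 (𝒢.D v) A) := by
  infer_instance

omit h in
theorem pi_killed {V : Type} {X : V → Type*} [∀ v, AddCommGroup (X v)]
    (hX : ∀ v, ∀ x : X v, p • x = 0) (x : ∀ v, X v) : p • x = 0 :=
  funext fun v => hX v (x v)

omit h in
theorem map_pi {V : Type} [Fintype V] {X : V → Type*} [∀ v, AddCommGroup (X v)]
    (Λ : (∀ v, X v) →+ ZMod p) [DecidableEq V] (x : ∀ v, X v) :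
    Λ x = ∑ v, Λ (Pi.single v (x v)) := by
  rw [← map_sum]
  congr 1
  exact (Finset.univ_sum_single x).symm

/-- every functional on `∏ H⁰_v(B)` is represented by `∏ H²_v(A)` -/
theorem repr20 (Λ : (∀ v, H0 (𝒢.D v) B) →+ ZMod p) :
    ∃ y : ∀ v, H2 (𝒢.L v) A, ∀ b, 𝒢.s20 h y b = Λ b := by
  classical
  have key : ∀ v, ∃ y : H2 (𝒢.L v) A, ∀ b, 𝒢.b20 h v y b =
      Λ (Pi.single v b) := by
    intro v
    have hld := 𝒢.ld v A B e h
    have := 𝒢.fin2A h v
    have := h.fB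
    have hf : Finite (H0 (𝒢.D v) B) := inferInstance
    obtain ⟨h1, h2, h3⟩ := fp_isPerfPair (p := p) (H2_killed h.kA) (H0_killed h.kB) (𝒢.b20 h v)
      (fun y hy => hld.a2 y fun b => (𝒢.inv v).injective (by rw [map_zero]; exact hy b))
      (fun b hb => hld.b0 b fun y => (𝒢.inv v).injective (by rw [map_zero]; exact hb y))
    exact h2 (Λ.comp (AddMonoidHom.single (fun v => H0 (𝒢.D v) B) v))
  choose y hy using key
  refine ⟨y, fun b => ?_⟩
  rw [s20_apply, map_pi Λ b]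
  exact Finset.sum_congr rfl fun v _ => hy v _

/-- every functional on `∏ H¹_v(B)` is represented by `∏ H¹_v(A)` -/
theorem repr11 (Λ : (∀ v, H1 (𝒢.L v) B) →+ ZMod p) :
    ∃ y : ∀ v, H1 (𝒢.L v) A, ∀ b, 𝒢.s11 h y b = Λ b := by
  classical
  have key : ∀ v, ∃ y : H1 (𝒢.L v) A, ∀ b, 𝒢.b11 h v y b =
      Λ (Pi.single v b) := by
    intro v
    have hld := 𝒢.ld v A B e h
    have := 𝒢.fin1A h v
    have := 𝒢.fin1B h v
    obtain ⟨h1, h2, h3⟩ := fp_isPerfPair (p := p) (H1_killed h.kA) (H1_killed h.kB) (𝒢.b11 h v)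
      (fun y hy => hld.a1 y fun b => (𝒢.inv v).injective (by rw [map_zero]; exact hy b))
      (fun b hb => hld.b1 b fun y => (𝒢.inv v).injective (by rw [map_zero]; exact hb y))
    exact h2 (Λ.comp (AddMonoidHom.single (fun v => H1 (𝒢.L v) B) v))
  choose y hy using key
  refine ⟨y, fun b => ?_⟩
  rw [s11_apply, map_pi Λ b]
  exact Finset.sum_congr rfl fun v _ => hy v _

theorem s20_single [DecidableEq 𝒢.V] (y : ∀ v, H2 (𝒢.L v) A) (v : 𝒢.V) (b : H0 (𝒢.D v) B) :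
    𝒢.s20 h y (Pi.single v b) = 𝒢.b20 h v (y v) b := by
  rw [s20_apply, Finset.sum_eq_single v]
  · rw [Pi.single_eq_same]
  · intro w _ hw
    rw [Pi.single_eq_of_ne hw, map_zero]
  · intro h; exact absurd (Finset.mem_univ v) h

theorem s11_single [DecidableEq 𝒢.V] (y : ∀ v, H1 (𝒢.L v) A) (v : 𝒢.V) (b : H1 (𝒢.L v) B) :
    𝒢.s11 h y (Pi.single v b) = 𝒢.b11 h v (y v) b := by
  rw [s11_apply, Finset.sum_eq_single v]
  · rw [Pi.single_eq_same]
  · intro w _ hw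
    rw [Pi.single_eq_of_ne hw, map_zero]
  · intro h; exact absurd (Finset.mem_univ v) h

theorem s20_left (y : ∀ v, H2 (𝒢.L v) A) (hy : ∀ b, 𝒢.s20 h y b = 0) : y = 0 := by
  classical
  funext v
  refine (𝒢.ld v A B e h).a2 _ fun b => (𝒢.inv v).injective ?_
  rw [map_zero]
  have := hy (Pi.single v b)
  rw [s20_single] at this
  exact this

theorem s11_left (y : ∀ v, H1 (𝒢.L v) A) (hy : ∀ b, 𝒢.s11 h y b = 0) : y = 0 := by
  classical
  funext v
  refine (𝒢.ld v A B e h).a1 _ fun b => (𝒢.inv v).injective ?_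
  rw [map_zero]
  have := hy (Pi.single v b)
  rw [s11_single] at this
  exact this

theorem s11_flip (x : ∀ v, H1 (𝒢.L v) A) (y : ∀ v, H1 (𝒢.L v) B) :
    𝒢.s11 h.flip y x = -𝒢.s11 h x y := by
  rw [s11_apply, s11_apply, ← Finset.sum_neg_distrib]
  refine Finset.sum_congr rfl fun v _ => ?_
  rw [b11_apply, b11_apply, ← map_neg]
  congr 1
  exact cup11_flip e (h.he.sub (𝒢.D v)) (smooth_loc (𝒢.cont v) h.smA)
    (smooth_loc (𝒢.cont v) h.smB) (x v) (y v)

theorem s11_right (y : ∀ v, H1 (𝒢.L v) B) (hy : ∀ b, 𝒢.s11 h b y = 0) : y = 0 :=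
  𝒢.s11_left h.flip y fun b => by rw [𝒢.s11_flip h, hy, neg_zero]

end Pairing

end GLD

end

end Fermat.Agent.CC
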