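import Fermat.Agent.CC.LocInv
import Fermat.Agent.CC.PT1
import Fermat.Agent.CFT.Ord
set_option autoImplicit false
set_option maxHeartbeats 400000

/-!
# Interface of the global theory (statements only, as `Prop`s)

`Mu p` is the Galois module of `p`-th roots of unity.  `res1S`, `res2S` : restriction from
`G_K` (with the levels unramified outside `S`) to the decomposition group `D_A ∩ G_K` (with all
levels).  `res2Q` : the same from `G_K` with all levels.  `inf2S` : inflation.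
-/

noncomputable section

namespace Fermat.Agent.CC

open IsDedekindDomain NumberField
open scoped Pointwise
open Fermat.Agent.LF (DK ZK DK_le_fix DK_mono)
open Fermat.Agent.TW (NVal Bl Bs)

/-- `μ_p` -/
abbrev Mu (p : ℕ) : Type := TorP p (UL Qb)

/-- the prime `p` as an element of `Nat.Primes` -/
def pP (p : ℕ) [hp : Fact p.Prime] : Nat.Primes := ⟨p, hp.out⟩

theorem cont_levS (S : Finset Nat.Primes) : Lev.Cont (MonoidHom.id GQ) lev (levS S) :=
  fun _ hU => lev_isOpen_of_levS hU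

theorem cont_levS_sub (S : Finset Nat.Primes) (H : Subgroup GQ) :
    Lev.Cont (MonoidHom.id H) (lev.sub H) ((levS S).sub H) := by
  rintro U ⟨V, hV, hVU⟩
  exact ⟨V, lev_isOpen_of_levS hV, hVU⟩

theorem cont_DK (A : ValuationSubring Qb) (K : IntermediateField ℚ Qb) :
    Lev.Cont (Subgroup.inclusion (DK_le_fix (A := A) (K := K))) (lev.sub (DK A K))
      (lev.sub K.fixingSubgroup) :=
  lev.cont_inclusion _

theorem cont_DK_S (S : Finset Nat.Primes) (A : ValuationSubring Qb)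
    (K : IntermediateField ℚ Qb) :
    Lev.Cont (Subgroup.inclusion (DK_le_fix (A := A) (K := K))) (lev.sub (DK A K))
      ((levS S).sub K.fixingSubgroup) := by
  rintro U ⟨V, hV, hVU⟩
  refine ⟨V, lev_isOpen_of_levS hV, fun x hx => hVU ?_⟩
  exact hx

theorem cont_D (S : Finset Nat.Primes) (A : ValuationSubring Qb)
    (K : IntermediateField ℚ Qb) :
    Lev.Cont (DK A K).subtype (lev.sub (DK A K)) (levS S) :=
  fun _ hU => ⟨_, lev_isOpen_of_levS hU, le_rfl⟩

variable (M : Type) [AddCommGroup M] [DistribMulAction GQ M]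

/-- restriction `H¹(G_{K,S}) → H¹(D_A ∩ G_K)` -/
def res1S (S : Finset Nat.Primes) (A : ValuationSubring Qb) (K : IntermediateField ℚ Qb) :
    H1 ((levS S).sub K.fixingSubgroup) M →+ H1 (lev.sub (DK A K)) M :=
  H1map (Subgroup.inclusion DK_le_fix) (cont_DK_S S A K) (AddMonoidHom.id M) (fun _ _ => rfl)

/-- restriction `H²(G_{K,S}) → H²(D_A ∩ G_K)` -/
def res2S (S : Finset Nat.Primes) (A : ValuationSubring Qb) (K : IntermediateField ℚ Qb) :
    H2 ((levS S).sub K.fixingSubgroup) M →+ H2 (lev.sub (DK A K)) M :=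
  H2map (Subgroup.inclusion DK_le_fix) (cont_DK_S S A K) (AddMonoidHom.id M) (fun _ _ => rfl)

/-- restriction `H²(G_K) → H²(D_A ∩ G_K)` -/
def res2Q (A : ValuationSubring Qb) (K : IntermediateField ℚ Qb) :
    H2 (lev.sub K.fixingSubgroup) M →+ H2 (lev.sub (DK A K)) M :=
  H2map (Subgroup.inclusion DK_le_fix) (cont_DK A K) (AddMonoidHom.id M) (fun _ _ => rfl)

/-- inflation `H²(G_{K,S}) → H²(G_K)` -/
def inf2S (S : Finset Nat.Primes) (H : Subgroup GQ) :
    H2 ((levS S).sub H) M →+ H2 (lev.sub H) M :=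
  H2map (MonoidHom.id H) (cont_levS_sub S H) (AddMonoidHom.id M) (fun _ _ => rfl)

variable {M} in
theorem res2Q_inf2S (S : Finset Nat.Primes) (A : ValuationSubring Qb)
    (K : IntermediateField ℚ Qb) (x : H2 ((levS S).sub K.fixingSubgroup) M) :
    res2Q M A K (inf2S M S K.fixingSubgroup x) = res2S M S A K x := by
  obtain ⟨x, rfl⟩ := H2.mk_surjective x
  rfl

/-- (A1) **Hasse principle** for `H²(K, μ_p)` -/
def HassePrinciple (p : ℕ) [Fact p.Prime] : Prop :=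
  ∀ K : IntermediateField ℚ Qb, FiniteDimensional ℚ K → ∀ x : H2 (lev.sub K.fixingSubgroup) (Mu p),
    (∀ (A : ValuationSubring Qb) (q : ℕ), q.Prime → A.LiesOverPrime q →
      res2Q (Mu p) A K x = 0) → x = 0

/-- the `p`-part of the `S`-class group of `K` is trivial -/
def ClTriv (p : ℕ) (S : Finset Nat.Primes) (K : IntermediateField ℚ Qb) : Prop :=
  ∀ _ : NumberField K, ∀ n : HeightOneSpectrum (𝓞 K) →₀ ℤ, ∃ c : (K : Type)ˣ,
    ∀ v : HeightOneSpectrum (𝓞 K), (∀ q ∈ S, (((q : Nat.Primes) : ℕ) : 𝓞 K) ∉ v.asIdeal) →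
      (p : ℤ) ∣ CFT.ordv v c - n v

/-- hypotheses on `(S, K)` : `p ∈ S`, `K` is unramified outside `S` and contains `μ_p` -/
structure SK (p : ℕ) [Fact p.Prime] (S : Finset Nat.Primes) (K : IntermediateField ℚ Qb) :
    Prop where
  pS : pP p ∈ S
  unr : K.IsUnramifiedOutside S
  root : ∃ ζ ∈ K, IsPrimitiveRoot ζ p

/-- `A i` : representatives of the places of `K` above `S` -/
structure Reps (S : Finset Nat.Primes) (K : IntermediateField ℚ Qb) {ι : Type}
    (A : ι → ValuationSubring Qb) : Prop where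
  ov : ∀ i, ∃ q ∈ S, (A i).LiesOverPrime ((q : Nat.Primes) : ℕ)
  surj : ∀ (B : ValuationSubring Qb), ∀ q ∈ S, B.LiesOverPrime ((q : Nat.Primes) : ℕ) →
    ∃ i, ∃ g ∈ K.fixingSubgroup, g • A i = B
  inj : ∀ i j, ∀ g ∈ K.fixingSubgroup, g • A i = A j → i = j

/-- (N3) vanishing of `Ш²` -/
def Sha2Van (p : ℕ) [Fact p.Prime] : Prop :=
  ∀ (S : Finset Nat.Primes) (K : IntermediateField ℚ Qb), SK p S K → ClTriv p S K →
    ∀ x : H2 ((levS S).sub K.fixingSubgroup) (Mu p),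
      (∀ A : ValuationSubring Qb, ∀ q ∈ S, A.LiesOverPrime ((q : Nat.Primes) : ℕ) →
        res2S (Mu p) S A K x = 0) → x = 0

/-- (N5) vanishing of `Ш¹` -/
def Sha1Van (p : ℕ) [Fact p.Prime] : Prop :=
  ∀ (S : Finset Nat.Primes) (K : IntermediateField ℚ Qb), SK p S K → ClTriv p S K →
    ∀ x : H1 ((levS S).sub K.fixingSubgroup) (Mu p),
      (∀ A : ValuationSubring Qb, ∀ q ∈ S, A.LiesOverPrime ((q : Nat.Primes) : ℕ) →
        res1S (Mu p) S A K x = 0) → x = 0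

/-- (N6) the count -/
def CountH1 (p : ℕ) [Fact p.Prime] : Prop :=
  ∀ (S : Finset Nat.Primes) (K : IntermediateField ℚ Qb), SK p S K → ClTriv p S K →
    ∀ (ι : Type) [Fintype ι] (A : ι → ValuationSubring Qb), Reps S K A →
      Nat.card (H1 ((levS S).sub K.fixingSubgroup) (Mu p)) ^ 2 =
        ∏ i, Nat.card (H1 (lev.sub (DK (A i) K)) (Mu p))

/-- (H2LOW) lower bound for the image of `H²(G_{K,S}, μ_p)` in the product of the local groups -/
def H2Low (p : ℕ) [Fact p.Prime] : Prop :=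
  ∀ (S : Finset Nat.Primes) (K F : IntermediateField ℚ Qb), SK p S K → CycExt p K F →
    F.IsUnramifiedOutside S → ∀ (ι : Type) [Fintype ι] (A : ι → ValuationSubring Qb),
      Reps S K A → (∀ i, ¬ DK (A i) K ≤ F.fixingSubgroup) →
      (AddMonoidHom.pi fun i => res2S (Mu p) S (A i) K :
        H2 ((levS S).sub K.fixingSubgroup) (Mu p) →+ ∀ i, H2 (lev.sub (DK (A i) K)) (Mu p)).range.index
          ≤ p

/-- `inv` is the normalised invariant map of `D_A` : `inv (κ_a ∪ χ) = w(a) χ(Frob)` for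
unramified `χ` -/
def IsInv (A : ValuationSubring Qb) (q p : ℕ) [Fact p.Prime]
    (inv : H2 (lev.sub (DK A ⊥)) (Mu p) ≃+ ZMod p) : Prop :=
  ∀ (w : Qb → ℝ), NVal A q w → ∀ (sm : (lev.sub (DK A ⊥)).Smooth (UL Qb))
    (hdiv : ∀ m : UL Qb, ∃ m', p • m' = m) (φ : DK A ⊥), A.IsFrobeniusAt (φ : GQ) q →
    ∀ (χ : DK A ⊥ → ZMod p) (hχ : ∀ g h, χ (g * h) = χ g + χ h)
      (hc : (lev.sub (DK A ⊥)).Const1 χ), (∀ g : DK A ⊥, (g : GQ) ∈ IK A ⊥ → χ g = 0) →
    ∀ (a : H0 (DK A ⊥) (UL Qb)) (n : ℤ), w a.1.val = n →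
      inv (kc sm hdiv χ hχ hc a) = n * χ φ

/-- (R) **Reciprocity** -/
def Recip (p : ℕ) [Fact p.Prime] : Prop :=
  ∀ (S : Finset Nat.Primes), pP p ∈ S → ∀ (A : S → ValuationSubring Qb),
    (∀ q : S, (A q).LiesOverPrime ((q : Nat.Primes) : ℕ)) →
    ∀ (inv : ∀ q : S, H2 (lev.sub (DK (A q) ⊥)) (Mu p) ≃+ ZMod p),
      (∀ q : S, IsInv (A q) ((q : Nat.Primes) : ℕ) p (inv q)) →
      ∀ x : H2 (levS S) (Mu p), ∑ q : S, inv q (loc2 (cont_D S (A q) ⊥) (Mu p) x) = 0

/-- (E) choice of `S' ⊇ S` -/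
def Choice (p : ℕ) [Fact p.Prime] : Prop :=
  ∀ (S₀ : Finset Nat.Primes) (K₁ : IntermediateField ℚ Qb), pP p ∈ S₀ →
    K₁.IsUnramifiedOutside S₀ → ∃ (S : Finset Nat.Primes) (K F K₀ : IntermediateField ℚ Qb),
      S₀ ⊆ S ∧ K₁ ≤ K ∧ K.fixingSubgroup.Normal ∧ SK p S K ∧ CycExt p K F ∧
      F.IsUnramifiedOutside S ∧ K₀ ≤ K ∧ SK p S K₀ ∧ K₀.fixingSubgroup.index.Coprime p ∧
      (∃ n, K.fixingSubgroup.relIndex K₀.fixingSubgroup = p ^ n) ∧
      (∀ A : ValuationSubring Qb, ∀ q ∈ S, A.LiesOverPrime ((q : Nat.Primes) : ℕ) →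
        ¬ DK A K ≤ F.fixingSubgroup) ∧ ClTriv p S K ∧ ClTriv p S K₀

/-- (E0) the same without enlarging `S` (and without class groups) -/
def Choice0 (p : ℕ) [Fact p.Prime] : Prop :=
  ∀ (S : Finset Nat.Primes) (K₁ : IntermediateField ℚ Qb), pP p ∈ S →
    K₁.IsUnramifiedOutside S → ∃ (K F : IntermediateField ℚ Qb),
      K₁ ≤ K ∧ K.fixingSubgroup.Normal ∧ SK p S K ∧ CycExt p K F ∧ F.IsUnramifiedOutside S ∧
      (∀ A : ValuationSubring Qb, ∀ q ∈ S, A.LiesOverPrime ((q : Nat.Primes) : ℕ) →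
        ¬ DK A K ≤ F.fixingSubgroup)

end Fermat.Agent.CC
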