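import Fermat.Agent.CC.Desc9
import Fermat.Agent.CC.Iface3
set_option autoImplicit false
set_option maxHeartbeats 800000

/-!
# Explicit equivariant homomorphisms
-/

namespace Fermat.Agent.CC

open scoped Pointwise
open NumberField IsDedekindDomain
open Fermat.Agent.LF (DK ZK)
open Fermat.Agent.TW (NVal Bl Bs)
open Fermat.Agent.H02M (SL SU)

noncomputable section

theorem val_smul {p : ℕ} [Fact p.Prime] {M : Type*} [AddCommGroup M] (kM : ∀ m : M, p • m = 0)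
    {c : ZMod p} {n : ℕ} (h : c = n) (m : M) : c.val • m = n • m := by
  rw [h, ZMod.val_natCast]
  conv_rhs => rw [← Nat.mod_add_div n p, add_smul, mul_smul, kM, add_zero]

theorem val_add_smul {p : ℕ} [Fact p.Prime] {M : Type*} [AddCommGroup M]
    (kM : ∀ m : M, p • m = 0) (a b : ZMod p) (m : M) :
    (a + b).val • m = a.val • m + b.val • m := by
  rw [val_smul kM (n := a.val + b.val) (by push_cast [ZMod.natCast_val, ZMod.cast_id]; rfl),
    add_smul]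

theorem val_mul_smul {p : ℕ} [Fact p.Prime] {M : Type*} [AddCommGroup M]
    (kM : ∀ m : M, p • m = 0) (a b : ZMod p) (m : M) :
    (a * b).val • m = a.val • (b.val • m) := by
  rw [val_smul kM (n := a.val * b.val) (by push_cast [ZMod.natCast_val, ZMod.cast_id]; rfl),
    mul_smul]

theorem SL.of_bot {S : Finset Nat.Primes} {x : Qb} (hx : x ∈ (⊥ : IntermediateField ℚ Qb)) :
    SL S x := fun _ _ _ _ σ _ => dsc_bot_fix hx σ

/-- `NT` fixes the elements unramified outside `S` -/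
theorem NT_fix {S S' : Finset Nat.Primes} (hS : S ⊆ S') {x : Qb} (hx : SL S x) {σ : GQ}
    (hσ : σ ∈ NT S S') : σ x = x := by
  have h1 : (levS S).isOpen (IntermediateField.adjoin ℚ {x}).fixingSubgroup :=
    ⟨_, hx.unr, le_rfl⟩
  have h2 := ((coarse_levS hS).iff _).mp h1
  exact (IntermediateField.mem_fixingSubgroup_iff _ _).mp (h2.2 hσ) x
    (IntermediateField.mem_adjoin_simple_self ℚ x)

theorem not_dvd_pow {p : ℕ} [hp : Fact p.Prime] {S : Finset Nat.Primes} (hpS : pP p ∈ S) (n : ℕ)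
    (q : Nat.Primes) (hq : q ∉ S) : ¬ (q : ℕ) ∣ p ^ n := by
  intro h
  have h1 := (Nat.prime_dvd_prime_iff_eq q.2 hp.out).mp (q.2.dvd_of_dvd_pow h)
  apply hq
  have h2 : q = pP p := Subtype.ext h1
  rwa [h2]

theorem ne_p {p : ℕ} [hp : Fact p.Prime] {S : Finset Nat.Primes} (hpS : pP p ∈ S)
    {q : Nat.Primes} (hq : q ∉ S) : p ≠ (q : ℕ) := by
  intro h
  apply hq
  have h2 : q = pP p := Subtype.ext h.symm
  rwa [h2]

theorem inertia_conj' {A : ValuationSubring Qb} {g i : GQ} (hi : i ∈ A.inertiaSubgroupIn ℚ) :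
    g⁻¹ * i * g ∈ (g⁻¹ • A).inertiaSubgroupIn ℚ := by
  apply H09.inertia_conj
  rwa [smul_inv_smul]

/-- **Existence of equivariant homomorphisms** with a prescribed restriction to inertia -/
theorem exists_eqHom {p : ℕ} [hp : Fact p.Prime] {S S' : Finset Nat.Primes} (hS : S ⊆ S')
    (hpS : pP p ∈ S) {q : Nat.Primes} (hq : q ∈ S') (hq' : q ∉ S) {A : ValuationSubring Qb}
    (hA : A.LiesOverPrime (q : ℕ)) {M : Type} [AddCommGroup M] [DistribMulAction GQ M] [Finite M]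
    (kM : ∀ m : M, p • m = 0) (sm : (levS S).Smooth M) (z : Z1 (lev.sub (DK A ⊥)) M) :
    ∃ f : GQ → M, EqHom (levS S') (NT S S') f ∧ (∀ i ∈ IA A, f i = z.1 i) ∧
      ∀ q' ∈ S', q' ∉ S → q' ≠ q → ∀ B : ValuationSubring Qb,
        B.LiesOverPrime ((q' : Nat.Primes) : ℕ) → ∀ i ∈ B.inertiaSubgroupIn ℚ, f i = 0 := by
  have hgal := H51.isGalois_Qbar
  have c := coarse_levS hS
  have hpq : p ≠ (q : ℕ) := ne_p hpS hq'
  -- local data at `A`
  obtain ⟨w, hw⟩ := TW.exists_NVal q.2 hA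
  obtain ⟨ϖ, hϖ⟩ := exists_isUnif q.2 hA hw ⊥
  obtain ⟨π, hπ⟩ := IsAlgClosed.exists_pow_nat_eq ϖ hp.out.pos
  have : NeZero (p : Qb) := ⟨Nat.cast_ne_zero.mpr hp.out.ne_zero⟩
  obtain ⟨ζ, hζ⟩ := HasEnoughRootsOfUnity.exists_primitiveRoot Qb p
  have hπ0 : π ≠ 0 := by
    rintro rfl
    rw [zero_pow hp.out.ne_zero] at hπ
    exact hϖ.2.1 hπ.symm
  obtain ⟨g₁, hg₁, hg₁π⟩ := exists_move hw hϖ hπ
  have hg₁D : g₁ ∈ DK A ⊥ := by
    rw [DK_bot]; exact inertia_le_dec A hg₁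
  have hg₀ : (⟨g₁, hg₁D⟩ : DK A ⊥) ∈ IA A := by
    rw [Subgroup.mem_subgroupOf, IK_bot]; exact hg₁
  set a₀ := kapc ζ π p g₁ with ha₀def
  have ha₀ : a₀ ≠ 0 := by
    intro h
    exact hg₁π ((kapc_zero_iff hζ hπ0 hπ (dsc_bot_fix hϖ.1 _)).mp h)
  have hIM : ∀ i ∈ IA A, ∀ m : M, i • m = m := by
    intro i hi m
    refine c.triv sm (i : GQ) ?_ m
    rw [Subgroup.mem_subgroupOf, IK_bot] at hi
    exact inertia_le_NT hq hq' hA hi
  set m₀ : M := z.1 ⟨g₁, hg₁D⟩ with hm₀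
  have hz : ∀ (i : DK A ⊥), i ∈ IA A → z.1 i = (kapc ζ π p (i : GQ) * a₀⁻¹).val • m₀ := by
    intro i hi
    exact tame_eq q.2 hpq hA hζ hw hϖ hπ kM (fun i : IA A => z.1 i) (fun g h => by
      change z.1 (g * h : DK A ⊥) = _
      rw [z.2.2, hIM g g.2]) (z.2.1.precomp ((lev.sub (DK A ⊥)).cont_subtype (IA A)))
      ⟨_, hg₀⟩ ha₀ ⟨i, hi⟩
  -- the decomposition group acts on `m₀` through the cyclotomic character
  have hdm : ∀ d ∈ DK A ⊥, ∀ k : ℕ, d ζ = ζ ^ k → d • m₀ = k • m₀ := by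
    intro d hd k hk
    have h1 := coc_conj hIM z ⟨d, hd⟩ ⟨g₁, hg₁D⟩ hg₀
    have hmem : (⟨d, hd⟩ * ⟨g₁, hg₁D⟩ * (⟨d, hd⟩)⁻¹ : DK A ⊥) ∈ IA A :=
      (IK_normal A ⊥).conj_mem _ hg₀ _
    rw [hz _ hmem] at h1
    have h2 : kapc ζ π p (((⟨d, hd⟩ * ⟨g₁, hg₁D⟩ * (⟨d, hd⟩)⁻¹ : DK A ⊥)) : GQ) = k * a₀ :=
      kapc_conj_pi q.2 hpq hA hζ hϖ.1 hϖ.2.1 hπ hg₁ hk
    rw [h2, mul_assoc, mul_inv_cancel₀ ha₀, mul_one, val_smul kM rfl] at h1
    exact h1.symm
  -- a level acting trivially on `M` and on `ζ`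
  obtain ⟨U₁, hU₁, hU₁M⟩ := sm.finite (Set.toFinite (Set.univ : Set M))
  have hroot : ∀ (j : ℕ) (ξ : Qb), ξ ^ (p ^ j) = 1 → SL S ξ := fun j ξ h =>
    SL.root_unit SL.one one_ne_zero SU.one h (not_dvd_pow hpS j)
  have hζS : SL S ζ := hroot 1 ζ (by rw [pow_one, hζ.pow_eq_one])
  obtain ⟨W, hWn, hW, hW1, hW2⟩ := (levS S).exists_normal_le hU₁ (V :=
    (IntermediateField.adjoin ℚ {ζ}).fixingSubgroup) ⟨_, hζS.unr, le_rfl⟩
  have hWM : ∀ u ∈ W, ∀ m : M, u • m = m := fun u hu m => hU₁M m trivial u (hW1 hu)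
  have hWζ : ∀ u ∈ W, u ζ = ζ := fun u hu =>
    (IntermediateField.mem_fixingSubgroup_iff _ _).mp (hW2 hu) ζ
      (IntermediateField.mem_adjoin_simple_self ℚ ζ)
  set X : Subgroup GQ := DK A ⊥ ⊔ W with hX
  have hXopen : lev.isOpen X := lev.mono _ _ (lev_isOpen_of_levS hW) le_sup_right
  obtain ⟨E, hE, hEX⟩ := exists_field_of_open hXopen
  have hEunr : E.IsUnramifiedOutside S := by
    obtain ⟨F, hF, hFW⟩ := hW
    refine ⟨hE, fun q'' hq'' B hB => ?_⟩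
    rw [hEX]
    exact ((hF.2 q'' hq'' B hB).trans hFW).trans le_sup_right
  have hXm : ∀ g ∈ X, ∀ k : ℕ, g ζ = ζ ^ k → g • m₀ = k • m₀ := by
    intro g hg k hk
    obtain ⟨d, hd, u, hu, rfl⟩ := Subgroup.mem_sup_of_normal_right.mp hg
    rw [AlgEquiv.mul_apply, hWζ u hu] at hk
    rw [mul_smul, hWM u hu]
    exact hdm d hd k hk
  -- the element `a` and its roots
  obtain ⟨a, haE, ha0, haA, hau⟩ := exists_gen q.2 hA E
  have haS : SL S a := SL.of_mem hEunr haE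
  have hafix : ∀ g ∈ X, g a = a := by
    intro g hg
    rw [← hEX] at hg
    exact (IntermediateField.mem_fixingSubgroup_iff _ _).mp hg a haE
  have hwa : 0 < w a := (hw.log.pos_iff ha0).1 ((A.mem_nonunits_iff).mp haA)
  obtain ⟨n, hn⟩ := hϖ.2.2.2 a ha0 (fun g hg => haS q hq' A hA g hg.1)
  have hn0 : 0 < n := by
    have h1 : (0 : ℝ) < n := by
      have h2 := hϖ.2.2.1
      rw [hn] at hwa
      exact (pos_iff_pos_of_mul_pos hwa).mpr h2
    exact_mod_cast h1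
  lift n to ℕ using hn0.le
  have hn0' : n ≠ 0 := by
    rintro rfl
    exact lt_irrefl _ hn0
  obtain ⟨k, m, hpm, hnkm⟩ := Nat.exists_eq_pow_mul_and_not_dvd hn0' p hp.out.ne_one
  obtain ⟨b, hb⟩ := IsAlgClosed.exists_pow_nat_eq a (pow_pos hp.out.pos k)
  have hpk : p ^ k ≠ 0 := pow_ne_zero _ hp.out.ne_zero
  have hb0 : b ≠ 0 := by
    rintro rfl
    rw [zero_pow hpk] at hb
    exact ha0 hb.symm
  have hwb : w b = m * w ϖ := by
    have h1 : w a = (p ^ k : ℕ) * w b := by rw [← hb, hw.w_pow hb0]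
    rw [hn, hnkm] at h1
    have h2 : ((p ^ k : ℕ) : ℝ) ≠ 0 := by exact_mod_cast hpk
    have h3 : ((p ^ k : ℕ) : ℝ) * w b = ((p ^ k : ℕ) : ℝ) * (m * w ϖ) := by
      rw [← h1]; push_cast; ring
    exact mul_left_cancel₀ h2 h3
  have hval1 : ∀ x : Qb, x ≠ 0 → w x = 0 → A.valuation x = 1 := by
    intro x hx h0
    rw [← map_one A.valuation]
    refine (hw.log.eq_iff hx one_ne_zero).2 ?_
    rw [h0, hw.log.one]
  have hϖS : SL S ϖ := SL.of_bot hϖ.1
  have hbS : SL S b := by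
    refine SL.root haS ha0 hb (not_dvd_pow hpS k) fun q'' hq'' B hB => ?_
    by_cases hcase : ∃ g ∈ E.fixingSubgroup, g • A = B
    · obtain ⟨g, hg, rfl⟩ := hcase
      rw [hEX] at hg
      have hγ : ϖ ^ m ∈ (⊥ : IntermediateField ℚ Qb) := pow_mem hϖ.1 m
      have hγ0 : ϖ ^ m ≠ 0 := pow_ne_zero _ hϖ.2.1
      refine ⟨ϖ ^ m, hγ0, SL.of_bot hγ, ?_⟩
      have h1 : g⁻¹ • (a / (ϖ ^ m) ^ p ^ k) = a / (ϖ ^ m) ^ p ^ k := by
        change g⁻¹ (a / (ϖ ^ m) ^ p ^ k) = _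
        rw [map_div₀, map_pow, dsc_bot_fix hγ, hafix _ (inv_mem hg)]
      have h2 : g⁻¹ • (a / (ϖ ^ m) ^ p ^ k)⁻¹ = (a / (ϖ ^ m) ^ p ^ k)⁻¹ := by
        change g⁻¹ ((a / (ϖ ^ m) ^ p ^ k)⁻¹) = _
        rw [map_inv₀]
        exact congrArg _ h1
      rw [ValuationSubring.mem_pointwise_smul_iff_inv_smul_mem,
        ValuationSubring.mem_pointwise_smul_iff_inv_smul_mem, h1, h2]
      have h3 : A.valuation (a / (ϖ ^ m) ^ p ^ k) = 1 := by
        refine hval1 _ (div_ne_zero ha0 (pow_ne_zero _ hγ0)) ?_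
        rw [div_eq_mul_inv, hw.log.map_mul _ _ ha0 (inv_ne_zero (pow_ne_zero _ hγ0)),
          L00.LKum.w_inv hw (pow_ne_zero _ hγ0), hw.w_pow hγ0, hw.w_pow hϖ.2.1, hn, hnkm]
        push_cast
        ring
      constructor
      · rw [← A.valuation_le_one_iff, h3]
      · rw [← A.valuation_le_one_iff, map_inv₀, h3, inv_one]
    · push Not at hcase
      refine ⟨1, one_ne_zero, SL.one, ?_⟩
      rw [one_pow, div_one]
      exact hau B q'' q''.2 hB hcase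
  obtain ⟨β, hβ⟩ := IsAlgClosed.exists_pow_nat_eq b hp.out.pos
  have hβ0 : β ≠ 0 := by
    rintro rfl
    rw [zero_pow hp.out.ne_zero] at hβ
    exact hb0 hβ.symm
  have hβa : β ^ (p ^ (k + 1)) = a := by
    rw [pow_succ, mul_comm, pow_mul, hβ, hb]
  have hβS' : SL S' β := by
    refine SL.root_unit (β := a) (fun q'' hq'' => haS q'' fun h => hq'' (hS h)) ha0 ?_ hβa
      (not_dvd_pow (hS hpS) (k + 1))
    intro q'' hq'' B hB
    refine hau B q'' q''.2 hB fun g hg hgA => ?_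
    have h1 : (g • A).LiesOverPrime (q : ℕ) := (H05.liesOverPrime_smul_iff g A q).mpr hA
    rw [hgA] at h1
    have h2 := H02M.eq_of_liesOver q''.2 q.2 hB h1
    have h3 : q'' = q := Subtype.ext h2
    exact hq'' (h3 ▸ hq)
  have hNb : ∀ σ ∈ NT S S', σ b = b := fun σ hσ => NT_fix hS hbS hσ
  have hNζ : ∀ σ ∈ NT S S', σ ζ = ζ := fun σ hσ => NT_fix hS hζS hσ
  have hm0 : (m : ZMod p) ≠ 0 := by
    rw [Ne, ZMod.natCast_eq_zero_iff]; exact hpm
  set m₁ : M := ((m : ZMod p)⁻¹ * a₀⁻¹).val • m₀ with hm₁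
  have hcomm : ∀ (g : GQ) (j : ℕ) (x : M), g • (j • x) = j • (g • x) := fun g j x =>
    map_nsmul (DistribSMul.toAddMonoidHom M g) j x
  have hXm₁ : ∀ g ∈ X, ∀ k : ℕ, g ζ = ζ ^ k → g • m₁ = k • m₁ := by
    intro g hg k hk
    rw [hm₁, hcomm, hXm g hg k hk, ← mul_smul, ← mul_smul, mul_comm]
  let F : GQ → M := fun σ => (kapc ζ β p σ).val • m₁
  have hF : EqHomOn (levS S') (NT S S') X F := by
    refine ⟨fun n hn m hm => ?_, fun g hg n hn => ?_, ?_⟩
    · change (kapc ζ β p (n * m)).val • m₁ = _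
      rw [kapc_mul hζ hβ0 hβ (hNb n hn) (hNb m hm) (hNζ n hn), val_add_smul kM]
    · obtain ⟨c', hc'⟩ := exists_cyc hζ g
      have hξ : SL S (g⁻¹ β / β) := by
        refine hroot (k + 1) _ ?_
        rw [div_pow, ← map_pow, hβa, hafix _ (inv_mem hg), div_self ha0]
      change (kapc ζ β p (g * n * g⁻¹)).val • m₁ = g • ((kapc ζ β p n).val • m₁)
      rw [kapc_conj hζ hβ0 hβ (hNb n hn) (ξ := g⁻¹ β / β) (div_mul_cancel₀ _ hβ0).symm
        (NT_fix hS hξ hn) hc', val_mul_smul kM, val_smul kM rfl, hcomm, hXm₁ g hg c' hc']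
      exact smul_comm _ _ _
    · refine ⟨(IntermediateField.adjoin ℚ {β}).fixingSubgroup, ⟨_, hβS'.unr, le_rfl⟩,
        fun n hn hnW => ?_⟩
      have h1 : n β = β := (IntermediateField.mem_fixingSubgroup_iff _ _).mp hnW β
        (IntermediateField.mem_adjoin_simple_self ℚ β)
      change (kapc ζ β p n).val • m₁ = 0
      rw [kapc_one hζ hβ0 h1, ZMod.val_zero, zero_smul]
  -- vanishing at the other places
  have hunit : ∀ (q'' : Nat.Primes), q'' ∉ S → ∀ B : ValuationSubring Qb,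
      B.LiesOverPrime ((q'' : Nat.Primes) : ℕ) → (∀ g ∈ E.fixingSubgroup, g • A ≠ B) →
      ∀ i ∈ B.inertiaSubgroupIn ℚ, F i = 0 := by
    intro q'' hq'' B hB hne i hi
    obtain ⟨h1, h2⟩ := hau B q'' q''.2 hB hne
    have h3 : b ∈ B := H02M.mem_of_pow_mem hpk (by rw [hb]; exact h1)
    have h4 : b⁻¹ ∈ B := H02M.mem_of_pow_mem hpk (by rw [inv_pow, hb]; exact h2)
    have h5 : B.valuation b = 1 := by
      apply le_antisymm ((B.valuation_le_one_iff _).mpr h3)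
      have h6 := (B.valuation_le_one_iff _).mpr h4
      rw [map_inv₀] at h6
      exact (inv_le_one₀ (zero_lt_iff.mpr ((Valuation.ne_zero_iff _).mpr hb0))).mp h6
    have h6 : i β = β := CFT.inertia_root q''.2 hp.out (ne_p hpS hq'').symm hB h5 hβ hi
      (hbS q'' hq'' B hB i hi)
    change (kapc ζ β p i).val • m₁ = 0
    rw [kapc_one hζ hβ0 h6, ZMod.val_zero, zero_smul]
  have hfinX : Finite (GQ ⧸ X) := by
    have := lev.fin X hXopen
    infer_instance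
  obtain ⟨f, hf1, hf2, hf3⟩ := hF.ind (NT_normal S S')
  refine ⟨f, hf1, fun i hi => ?_, fun q'' hq'' hq''S hne B hB i hi => ?_⟩
  · have hi' : (i : GQ) ∈ A.inertiaSubgroupIn ℚ := by
      rw [Subgroup.mem_subgroupOf, IK_bot] at hi
      exact hi
    have hiN : (i : GQ) ∈ NT S S' := inertia_le_NT hq hq' hA hi'
    rw [hf2 i hiN ?_]
    · -- the value at `A`
      rw [hz i hi]
      obtain ⟨j, hj⟩ := exists_kapc hζ hπ0 hπ (dsc_bot_fix hϖ.1 (i : GQ))
      have hu : A.valuation (b / ϖ ^ m) = 1 := by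
        refine hval1 _ (div_ne_zero hb0 (pow_ne_zero _ hϖ.2.1)) ?_
        rw [div_eq_mul_inv, hw.log.map_mul _ _ hb0 (inv_ne_zero (pow_ne_zero _ hϖ.2.1)),
          L00.LKum.w_inv hw (pow_ne_zero _ hϖ.2.1), hw.w_pow hϖ.2.1, hwb]
        ring
      have hυ : (β / π ^ m) ^ p = b / ϖ ^ m := by
        rw [div_pow, hβ, ← pow_mul, mul_comm m p, pow_mul, hπ]
      have h1 : (i : GQ) (β / π ^ m) = β / π ^ m := by
        refine CFT.inertia_root q.2 hp.out (Ne.symm hpq) hA hu hυ hi' ?_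
        rw [map_div₀, map_pow, dsc_bot_fix hϖ.1, hNb _ hiN]
      have hπm : π ^ m ≠ 0 := pow_ne_zero _ hπ0
      have h2 : (i : GQ) β = ζ ^ (m * j) * β := by
        have h3 : β = (β / π ^ m) * π ^ m := (div_mul_cancel₀ _ hπm).symm
        conv_lhs => rw [h3]
        rw [map_mul, h1, map_pow, hj, mul_pow, ← pow_mul, mul_comm j m]
        field_simp
      change (kapc ζ β p (i : GQ)).val • m₁ = _
      rw [kapc_eq hζ hβ0 h2, kapc_eq hζ hπ0 hj, hm₁, ← val_mul_smul kM]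
      congr 2
      push_cast
      field_simp
    · intro g hg
      refine hunit q hq' (g⁻¹ • A) ((H05.liesOverPrime_smul_iff g⁻¹ A q).mpr hA) ?_ _
        (inertia_conj' hi')
      intro g' hg' he
      apply hg
      rw [hEX] at hg'
      have h1 : g * g' ∈ DK A ⊥ := by
        rw [DK_bot]
        change (g * g') • A = A
        rw [mul_smul, he, smul_inv_smul]
      have h2 : g = (g * g') * g'⁻¹ := by group
      rw [h2]
      exact mul_mem (Subgroup.mem_sup_left h1) (inv_mem hg')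
  · refine hf3 i (inertia_le_NT hq'' hq''S hB hi) fun g => ?_
    have hB' : (g⁻¹ • B).LiesOverPrime (q'' : ℕ) := (H05.liesOverPrime_smul_iff g⁻¹ B q'').mpr hB
    refine hunit q'' hq''S (g⁻¹ • B) hB' ?_ _ (inertia_conj' hi)
    intro g' hg' he
    have h1 : (g' • A).LiesOverPrime (q : ℕ) := (H05.liesOverPrime_smul_iff g' A q).mpr hA
    rw [he] at h1
    exact hne (Subtype.ext (H02M.eq_of_liesOver q''.2 q.2 hB' h1))

end

end Fermat.Agent.CC
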