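import Fermat.Agent.CC.Inst4
import Fermat.Agent.H16.CH.Choice
set_option autoImplicit false
set_option maxHeartbeats 400000

/-!
# Unconditional forms
-/

noncomputable section

namespace Fermat.Agent.CC

open Fermat.Agent.LF (DK ZK mem_ZK mem_of_fixed DK_mono DK_le_fix)
open scoped Pointwise

variable {p : ℕ} [Fact p.Prime]

/-- **exactness at `P²` for all finite modules** (unconditional) -/
theorem E2all' {S : Finset Nat.Primes} (𝒟 : Dat p S) (hp2 : p ≠ 2) (hpS : pP p ∈ S)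
    {M M' : Type} [AddCommGroup M] [AddCommGroup M'] [DistribMulAction GQ M]
    [DistribMulAction GQ M'] {e : M →+ M' →+ Mu p} (h : Pr p (𝒟.gld hp2 hpS).𝓛 e) :
    (𝒟.gld hp2 hpS).E2 h := E2all 𝒟 hp2 hpS (H16.CH.choice0 hp2) h

theorem SK.mono {S₀ S : Finset Nat.Primes} (h : S₀ ⊆ S) {K : IntermediateField ℚ Qb}
    (hK : SK p S₀ K) : SK p S K := ⟨h hK.pS, hK.unr.mono h, hK.root⟩

/-- `GIn` from the class group conditions for `K` and `K₀` -/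
theorem gin_of {S : Finset Nat.Primes} (𝒟 : Dat p S) (hp2 : p ≠ 2) (hpS : pP p ∈ S)
    {K K₀ : IntermediateField ℚ Qb} (hSK : SK p S K) (hSK₀ : SK p S K₀)
    (hn : K.fixingSubgroup.Normal) (hKK : K₀ ≤ K) (hcop : K₀.fixingSubgroup.index.Coprime p)
    (hrel : ∃ n, K.fixingSubgroup.relIndex K₀.fixingSubgroup = p ^ n) (hcl : ClTriv p S K)
    (hcl₀ : ClTriv p S K₀) [Finite (GQ ⧸ K.fixingSubgroup)] [Finite (GQ ⧸ K₀.fixingSubgroup)] :
    (𝒟.gld hp2 hpS).GIn K.fixingSubgroup K₀.fixingSubgroup :=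
  { hn := hn
    hH := isOpen_fix hSK.unr
    hle := IntermediateField.fixingSubgroup_antitone hKK
    ht := smul_mu_of_root hSK₀.root
    cop := hcop
    rel := hrel
    hE2 := E2all' 𝒟 hp2 hpS _
    sha2 := sha2Z_K 𝒟 hp2 hpS hSK hcl
    sha2' := sha2Z_K 𝒟 hp2 hpS hSK₀ hcl₀
    sha1 := sha1Z_K 𝒟 hp2 hpS hSK hcl
    cnt := cnt_K 𝒟 hp2 hSK hn hcl }

/-- **the hypotheses of the abstract theory over `ℚ`, unconditional**; `K`, `K₀` are unramified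
outside the given set `S₀` -/
theorem exists_gin (hp2 : p ≠ 2) (S₀ : Finset Nat.Primes) (K₁ : IntermediateField ℚ Qb)
    (hpS : pP p ∈ S₀) (hK₁ : K₁.IsUnramifiedOutside S₀) :
    ∃ (S : Finset Nat.Primes) (K K₀ : IntermediateField ℚ Qb) (hS : S₀ ⊆ S)
      (_ : Finite (GQ ⧸ K.fixingSubgroup)) (_ : Finite (GQ ⧸ K₀.fixingSubgroup)),
      K₁ ≤ K ∧ K.fixingSubgroup.Normal ∧ SK p S₀ K ∧ K₀ ≤ K ∧ SK p S₀ K₀ ∧
      ClTriv p S K ∧ ClTriv p S K₀ ∧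
      ∀ 𝒟 : Dat p S, (𝒟.gld hp2 (hS hpS)).GIn K.fixingSubgroup K₀.fixingSubgroup := by
  obtain ⟨S, K, F, K₀, hS, hKK, hn, hSK, -, -, hK₀, hSK₀, hcop, hrel, -, hcl, hcl₀⟩ :=
    H16.CH.choiceStrong hp2 S₀ K₁ hpS hK₁
  have h1 := finite_quot_fix hSK.unr.1
  have h2 := finite_quot_fix hSK₀.unr.1
  exact ⟨S, K, K₀, hS, h1, h2, hKK, hn, hSK, hK₀, hSK₀, hcl, hcl₀, fun 𝒟 =>
    gin_of 𝒟 hp2 (hS hpS) (hSK.mono hS) (hSK₀.mono hS) hn hK₀ hcop hrel hcl hcl₀⟩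

end Fermat.Agent.CC
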