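import Fermat.Agent.CC.Desc10
import Fermat.Agent.CC.Inst5
set_option autoImplicit false
set_option maxHeartbeats 800000

/-!
# Poitou–Tate duality for `Ш` over `ℚ` (cardinality form)
-/

namespace Fermat.Agent.CC

open scoped Pointwise
open Fermat.Agent.LF (DK ZK)

noncomputable section

section Wire

variable {p : ℕ} [hp : Fact p.Prime] {S S' : Finset Nat.Primes} (𝒟 : Dat p S') (hp2 : p ≠ 2)
  (hpS : pP p ∈ S) (hS : S ⊆ S')

theorem mem_IA {A : ValuationSubring Qb} {i : DK A ⊥} :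
    i ∈ IA A ↔ (i : GQ) ∈ A.inertiaSubgroupIn ℚ := by
  rw [Subgroup.mem_subgroupOf, IK_bot]

/-- the inclusion of places -/
def inclS (hS : S ⊆ S') : S → S' := fun q => ⟨q.1, hS q.2⟩

theorem inclS_injective (hS : S ⊆ S') : Function.Injective (inclS hS) := by
  intro a b h
  exact Subtype.ext (congrArg (fun t : S' => t.1) h)

theorem not_mem_range_inclS (hS : S ⊆ S') {v : S'} : v ∉ Set.range (inclS hS) ↔ v.1 ∉ S := by
  constructor
  · intro h hv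
    exact h ⟨⟨v.1, hv⟩, rfl⟩
  · rintro h ⟨w, rfl⟩
    exact h w.2

/-- the descent data -/
theorem din : ((𝒟.gld hp2 (hS hpS)).DIn (levS S) (NT S S') (V₀ := S) (inclS hS)
    (fun q : S' => IA (𝒟.A q))) where
  c := coarse_levS hS
  inN := by
    intro v hv i hi
    exact inertia_le_NT v.2 ((not_mem_range_inclS hS).mp hv) (𝒟.hA v)
      ((mem_IA (A := 𝒟.A v) (i := i)).mp hi)
  gen := by
    intro K hK h
    refine NT_le hK fun q hq hq' => ⟨𝒟.A ⟨q, hq⟩, 𝒟.hA ⟨q, hq⟩, fun i hi => ?_⟩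
    have hiD : i ∈ DK (𝒟.A ⟨q, hq⟩) ⊥ := by
      rw [DK_bot]; exact inertia_le_dec _ hi
    have h1 : (⟨i, hiD⟩ : DK (𝒟.A ⟨q, hq⟩) ⊥) ∈ IA (𝒟.A ⟨q, hq⟩) := mem_IA.mpr hi
    exact h ⟨q, hq⟩ ((not_mem_range_inclS hS).mpr hq') ⟨i, hiD⟩ h1
  pc := by
    intro v hv
    exact exists_procyc v.1.2 (𝒟.hA v) ⊥

theorem tameOut : GLD.TameOut (𝒟.gld hp2 (hS hpS)) (V₀ := S) (inclS hS)
    (fun q : S' => IA (𝒟.A q)) := by
  intro v hv
  exact exists_tameAt v.1.2 (ne_p hpS ((not_mem_range_inclS hS).mp hv)) (𝒟.hA v)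

theorem eqSol {M : Type} [AddCommGroup M] [DistribMulAction GQ M] [Finite M]
    (kM : ∀ m : M, p • m = 0) (sm : (levS S).Smooth M) :
    GLD.EqSol (𝒟.gld hp2 (hS hpS)) (NT S S') (V₀ := S) (inclS hS) (fun q : S' => IA (𝒟.A q)) M := by
  intro v hv z
  obtain ⟨f, h1, h2, h3⟩ := exists_eqHom hS hpS v.2 ((not_mem_range_inclS hS).mp hv) (𝒟.hA v) kM sm z
  refine ⟨f, h1, h2, fun w hw hwv i hi => ?_⟩
  exact h3 w.1 w.2 ((not_mem_range_inclS hS).mp hw) (fun h => hwv (Subtype.ext h)) _ (𝒟.hA w) _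
    ((mem_IA (A := 𝒟.A w) (i := i)).mp hi)

/-- the restricted data are the data of `S` -/
theorem gld_cards {M M' : Type} [AddCommGroup M] [AddCommGroup M'] [DistribMulAction GQ M]
    [DistribMulAction GQ M'] {e : M →+ M' →+ Mu p} (h : Pr p (levS S) e)
    {K K₀ : IntermediateField ℚ Qb} [Finite (GQ ⧸ K.fixingSubgroup)]
    [Finite (GQ ⧸ K₀.fixingSubgroup)]
    (J : (𝒟.gld hp2 (hS hpS)).GIn K.fixingSubgroup K₀.fixingSubgroup)
    (hSK : SK p S K) (htM : ∀ (h : K.fixingSubgroup) (m : M), h • m = m)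
    (htM' : ∀ (h : K.fixingSubgroup) (m : M'), h • m = m) :
    Finite (((𝒟.res hS).gld hp2 hpS).Sh2 M) ∧ Finite (((𝒟.res hS).gld hp2 hpS).Sh1 M') ∧
      Nat.card (((𝒟.res hS).gld hp2 hpS).Sh2 M) = Nat.card (((𝒟.res hS).gld hp2 hpS).Sh1 M') := by
  have Δ := din 𝒟 hp2 hpS hS
  have hne : Nonempty S := ⟨⟨_, hpS⟩⟩
  have hopen : (levS S).isOpen K.fixingSubgroup := isOpen_fix hSK.unr
  have smT : (levS S).Smooth (Mu p) := by
    intro t
    exact ⟨K.fixingSubgroup, hopen, fun s hs => J.htT ⟨s, hs⟩ t⟩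
  have hrec := Δ.recip (inclS_injective hS) smT
  have hE2 : ((𝒟.gld hp2 (hS hpS)).restr Δ.c (inclS hS) hrec).E2
      (((𝒟.gld hp2 (hS hpS)).restr Δ.c (inclS hS) hrec).prT hopen J.htT) :=
    E2all' (𝒟.res hS) hp2 hpS _
  have := h.fA
  exact Δ.card_sha J h htM htM' hrec hopen hE2 (inclS_injective hS)
    (eqSol 𝒟 hp2 hpS hS h.kA h.smA) (Δ.perpUr (tameOut 𝒟 hp2 hpS hS) smT h)

end Wire

variable {p : ℕ} [hp : Fact p.Prime]

theorem sh2_eq {S : Finset Nat.Primes} (𝒟 : Dat p S) (hp2 : p ≠ 2) (hpS : pP p ∈ S) {M : Type}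
    [AddCommGroup M] [DistribMulAction GQ M] :
    ((𝒟.gld hp2 hpS).Sh2 M : AddSubgroup (H2 (levS S) M)) = Sh2S S 𝒟.A M := by
  apply AddSubgroup.ext
  intro x
  have h1 : x ∈ Sh2S S 𝒟.A M ↔ ∀ q, x ∈ (loc2 (cont_D S (𝒟.A q) ⊥) M).ker :=
    AddSubgroup.mem_iInf
  exact Iff.trans funext_iff h1.symm

theorem sh1_eq {S : Finset Nat.Primes} (𝒟 : Dat p S) (hp2 : p ≠ 2) (hpS : pP p ∈ S) {M : Type}
    [AddCommGroup M] [DistribMulAction GQ M] :
    ((𝒟.gld hp2 hpS).Sh1 M : AddSubgroup (H1 (levS S) M)) = Sh1S S 𝒟.A M := by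
  apply AddSubgroup.ext
  intro x
  have h1 : x ∈ Sh1S S 𝒟.A M ↔ ∀ q, x ∈ (loc1 (cont_D S (𝒟.A q) ⊥) M).ker :=
    AddSubgroup.mem_iInf
  exact Iff.trans funext_iff h1.symm

/-- **Poitou–Tate duality for `Ш` over `ℚ`** (cardinality form) -/
theorem ptCard (hp2 : p ≠ 2) : PTcard p := by
  classical
  intro S hpS A hA M M' _ _ _ _ e h
  have := h.fA
  have := h.fB
  obtain ⟨U, hU, hUM⟩ := h.smA.finite (Set.toFinite (Set.univ : Set M))
  obtain ⟨V, hV, hVM⟩ := h.smB.finite (Set.toFinite (Set.univ : Set M'))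
  obtain ⟨K₁, hK₁, hK₁UV⟩ := (levS S).inf _ _ hU hV
  obtain ⟨S', K, K₀, hS, f1, f2, hKK, hn, hSK, -, -, -, -, hJ⟩ := exists_gin hp2 S K₁ hpS hK₁
  have hKUV : K.fixingSubgroup ≤ U ⊓ V := (IntermediateField.fixingSubgroup_antitone hKK).trans hK₁UV
  -- extend the family of places
  let A' : S' → ValuationSubring Qb := fun q => if hq : q.1 ∈ S then A ⟨q.1, hq⟩ else
    (H05.exists_liesOverPrime Qb q.1.2).choose
  have hA' : ∀ q : S', (A' q).LiesOverPrime ((q : Nat.Primes) : ℕ) := by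
    intro q
    by_cases hq : q.1 ∈ S
    · change (if hq : q.1 ∈ S then A ⟨q.1, hq⟩ else _).LiesOverPrime _
      rw [dif_pos hq]
      exact hA ⟨q.1, hq⟩
    · change (if hq : q.1 ∈ S then A ⟨q.1, hq⟩ else _).LiesOverPrime _
      rw [dif_neg hq]
      exact (H05.exists_liesOverPrime Qb q.1.2).choose_spec
  obtain ⟨𝒟, h𝒟⟩ := exists_dat hp2 S' A' hA'
  have hAeq : A = (𝒟.res hS).A := by
    funext q
    change A q = 𝒟.A ⟨q.1, hS q.2⟩
    rw [h𝒟]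
    change A q = if hq : q.1 ∈ S then A ⟨q.1, hq⟩ else _
    rw [dif_pos q.2]
  obtain ⟨h1, h2, h3⟩ := gld_cards 𝒟 hp2 hpS hS h (hJ 𝒟) hSK
    (fun g m => hUM m trivial g (hKUV g.2).1) (fun g m => hVM m trivial g (hKUV g.2).2)
  have e2 : ((𝒟.res hS).gld hp2 hpS).Sh2 M = Sh2S S (𝒟.res hS).A M :=
    sh2_eq _ hp2 hpS
  have e1 : ((𝒟.res hS).gld hp2 hpS).Sh1 M' = Sh1S S (𝒟.res hS).A M' :=
    sh1_eq _ hp2 hpS
  rw [hAeq]
  rw [e2] at h1 h3
  rw [e1] at h2 h3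
  exact ⟨h1, h2, h3⟩

end

end Fermat.Agent.CC
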