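import Fermat.Agent.CC.Desc11
set_option autoImplicit false
set_option maxHeartbeats 800000

/-!
# Extension of the data at `S` to data at `S'`
-/

namespace Fermat.Agent.CC

open scoped Pointwise
open Fermat.Agent.LF (DK ZK)

noncomputable section

variable {p : ℕ} [hp : Fact p.Prime] {S S' : Finset Nat.Primes}

/-- any family of places above `S` extends to data at `S'` -/
theorem exists_dat_ext (hp2 : p ≠ 2) (hS : S ⊆ S') (A : S → ValuationSubring Qb)
    (hA : ∀ q : S, (A q).LiesOverPrime ((q : Nat.Primes) : ℕ)) :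
    ∃ 𝒟 : Dat p S', (𝒟.res hS).A = A := by
  classical
  let A' : S' → ValuationSubring Qb := fun q => if hq : q.1 ∈ S then A ⟨q.1, hq⟩ else
    (H05.exists_liesOverPrime Qb q.1.2).choose
  have hA' : ∀ q : S', (A' q).LiesOverPrime ((q : Nat.Primes) : ℕ) := by
    intro q
    by_cases hq : q.1 ∈ S
    · change (if hq : q.1 ∈ S then A ⟨q.1, hq⟩ else _).LiesOverPrime _
      rw [dif_pos hq]
      exact hA ⟨q.1, hq⟩
    · change (if hq : q.1 ∈ S then A ⟨q.1, hq⟩ else _).LiesOverPrime _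
      rw [dif_neg hq]
      exact (H05.exists_liesOverPrime Qb q.1.2).choose_spec
  obtain ⟨𝒟, h𝒟⟩ := exists_dat hp2 S' A' hA'
  refine ⟨𝒟, ?_⟩
  funext q
  change 𝒟.A ⟨q.1, hS q.2⟩ = A q
  rw [h𝒟]
  change (if hq : q.1 ∈ S then A ⟨q.1, hq⟩ else _) = A q
  rw [dif_pos q.2]

/-- `μ_p` is unramified outside `S ∋ p` -/
theorem smooth_Mu (hpS : pP p ∈ S) : (levS S).Smooth (Mu p) := CFT.smooth_levS hp.out S hpS

/-- reciprocity for the restricted data -/
theorem hrecS (𝒟 : Dat p S') (hp2 : p ≠ 2) (hpS : pP p ∈ S) (hS : S ⊆ S') (x : H2 (levS S) (Mu p)) :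
    ∑ v, (𝒟.gld hp2 (hS hpS)).inv (inclS hS v)
      ((𝒟.gld hp2 (hS hpS)).l2 (Mu p) (infl2 (din 𝒟 hp2 hpS hS).c (Mu p) x) (inclS hS v)) = 0 :=
  (din 𝒟 hp2 hpS hS).recip (inclS_injective hS) (smooth_Mu hpS) x

/-- the restricted data are the data at `S` (definitionally) -/
theorem restr_eq (𝒟 : Dat p S') (hp2 : p ≠ 2) (hpS : pP p ∈ S) (hS : S ⊆ S') [Nonempty S] :
    (𝒟.gld hp2 (hS hpS)).restr (din 𝒟 hp2 hpS hS).c (inclS hS) (hrecS 𝒟 hp2 hpS hS) =
      (𝒟.res hS).gld hp2 hpS := rfl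

end

end Fermat.Agent.CC
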