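import Fermat.Agent.CC.Desc1
set_option autoImplicit false
set_option maxHeartbeats 400000

/-!
# Descent from `S'` to `S`: the order of the kernel of inflation on `H²`
-/

namespace Fermat.Agent.CC

noncomputable section

section Infl

variable {G : Type*} [Group G] {𝓛 𝓛₀ : Lev G} {N : Subgroup G} (c : Coarse 𝓛 𝓛₀ N) (M : Type*)
  [AddCommGroup M] [DistribMulAction G M]

/-- inflation in degree one -/
def infl1 : H1 𝓛₀ M →+ H1 𝓛 M :=
  H1map (MonoidHom.id G) c.cont (AddMonoidHom.id M) (fun _ _ => rfl)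

/-- inflation in degree two -/
def infl2 : H2 𝓛₀ M →+ H2 𝓛 M :=
  H2map (MonoidHom.id G) c.cont (AddMonoidHom.id M) (fun _ _ => rfl)

theorem infl1_injective : Function.Injective (infl1 c M) := by
  rw [injective_iff_map_eq_zero]
  intro x hx
  obtain ⟨z, rfl⟩ := H1.mk_surjective x
  have hx' : H1.mk 𝓛 M (Z1map (MonoidHom.id G) c.cont (AddMonoidHom.id M) (fun _ _ => rfl) z) = 0 :=
    hx
  obtain ⟨a, ha⟩ := H1.mk_eq_zero.mp hx'
  exact H1.mk_eq_zero.mpr ⟨a, ha⟩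

end Infl

/-- unramified classes -/
def HUr {D : Type*} [Group D] (L : Lev D) (I : Subgroup D) (M : Type*) [AddCommGroup M]
    [DistribMulAction D M] : AddSubgroup (H1 L M) where
  carrier := {x | ∃ z : Z1 L M, H1.mk L M z = x ∧ ∀ i ∈ I, z.1 i = 0}
  zero_mem' := ⟨0, map_zero _, fun _ _ => rfl⟩
  add_mem' := by
    rintro _ _ ⟨z, rfl, hz⟩ ⟨w, rfl, hw⟩
    refine ⟨z + w, map_add _ _ _, fun i hi => ?_⟩
    change z.1 i + w.1 i = 0
    rw [hz i hi, hw i hi, add_zero]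
  neg_mem' := by
    rintro _ ⟨z, rfl, hz⟩
    refine ⟨-z, map_neg _ _, fun i hi => ?_⟩
    change -z.1 i = 0
    rw [hz i hi, neg_zero]

theorem mk_mem_HUr {D : Type*} [Group D] {L : Lev D} {I : Subgroup D} {M : Type*} [AddCommGroup M]
    [DistribMulAction D M] (hI : ∀ i ∈ I, ∀ m : M, i • m = m) {z : Z1 L M} :
    H1.mk L M z ∈ HUr L I M ↔ ∀ i ∈ I, z.1 i = 0 := by
  constructor
  · rintro ⟨w, hw, h⟩ i hi
    obtain ⟨a, ha⟩ := H1.mk_eq_mk.mp hw
    have := ha i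
    rw [h i hi, hI i hi, sub_self, add_zero] at this
    exact this.symm
  · intro h
    exact ⟨z, rfl, h⟩

namespace GLD

variable {p : ℕ} [Fact p.Prime] {G : Type} [Group G] {T : Type} [AddCommGroup T]
  [DistribMulAction G T]

/-- the data of a descent -/
structure DIn (𝒢 : GLD p G T) (𝓛₀ : Lev G) (N : Subgroup G) {V₀ : Type} (ι : V₀ → 𝒢.V)
    (I : ∀ v, Subgroup (𝒢.D v)) : Prop where
  c : Coarse 𝒢.𝓛 𝓛₀ N
  inN : ∀ v ∉ Set.range ι, ∀ i ∈ I v, (i : G) ∈ N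
  gen : ∀ K : Subgroup G, K.Normal → (∀ v ∉ Set.range ι, ∀ i ∈ I v, (i : G) ∈ K) → N ≤ K
  pc : ∀ v ∉ Set.range ι, ∃ φ, Procyc (𝒢.L v) (I v) φ

/-- solvability of the embedding problem for homomorphisms on `N` -/
def EqSol (𝒢 : GLD p G T) (N : Subgroup G) {V₀ : Type} (ι : V₀ → 𝒢.V)
    (I : ∀ v, Subgroup (𝒢.D v)) (M : Type) [AddCommGroup M] [DistribMulAction G M] : Prop :=
  ∀ v ∉ Set.range ι, ∀ z : Z1 (𝒢.L v) M, ∃ f : G → M, EqHom 𝒢.𝓛 N f ∧
    (∀ i ∈ I v, f i = z.1 i) ∧ ∀ w ∉ Set.range ι, w ≠ v → ∀ i ∈ I w, f i = 0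

variable {𝒢 : GLD p G T} {𝓛₀ : Lev G} {N : Subgroup G} {V₀ : Type} {ι : V₀ → 𝒢.V}
  {I : ∀ v, Subgroup (𝒢.D v)} (Δ : DIn 𝒢 𝓛₀ N ι I) {M : Type} [AddCommGroup M]
  [DistribMulAction G M]

namespace DIn

include Δ in
theorem trivI (sm : 𝓛₀.Smooth M) {v : 𝒢.V} (hv : v ∉ Set.range ι) (i : 𝒢.D v) (hi : i ∈ I v)
    (m : M) : i • m = m := Δ.c.triv sm _ (Δ.inN v hv i hi) m

include Δ in
/-- an equivariant homomorphism vanishing on all inertia groups is zero -/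
theorem eqHom_zero {f : G → M} (hf : EqHom 𝒢.𝓛 N f)
    (h : ∀ v ∉ Set.range ι, ∀ i ∈ I v, f i = 0) : ∀ n ∈ N, f n = 0 := by
  have h1 : f 1 = 0 := by
    have := hf.add 1 N.one_mem 1 N.one_mem
    rw [one_mul, left_eq_add] at this
    exact this
  let K : Subgroup G :=
    { carrier := {n | n ∈ N ∧ f n = 0}
      one_mem' := ⟨N.one_mem, h1⟩
      mul_mem' := by
        rintro a b ⟨ha, ha'⟩ ⟨hb, hb'⟩
        exact ⟨mul_mem ha hb, by rw [hf.add a ha b hb, ha', hb', add_zero]⟩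
      inv_mem' := by
        rintro a ⟨ha, ha'⟩
        refine ⟨inv_mem ha, ?_⟩
        have := hf.add a ha a⁻¹ (inv_mem ha)
        rw [mul_inv_cancel, h1, ha', zero_add] at this
        exact this.symm }
  have hK : K.Normal := ⟨fun n hn g => ⟨Δ.c.nor.conj_mem n hn.1 g, by
    rw [hf.conj g n hn.1, hn.2, smul_zero]⟩⟩
  intro n hn
  exact (Δ.gen K hK (fun v hv i hi => ⟨Δ.inN v hv i hi, h v hv i hi⟩) hn).2

include Δ in
/-- a cochain with `𝓛₀`-constant coboundary, constant on all inertia groups, is `𝓛₀`-constant -/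
theorem const1 (sm : 𝓛₀.Smooth M) {φ : G → M} (h1 : 𝒢.𝓛.Const1 φ)
    (h2 : 𝓛₀.Const2 (d1 φ)) (h : ∀ v ∉ Set.range ι, ∀ i ∈ I v, φ i = φ 1) : 𝓛₀.Const1 φ := by
  obtain ⟨h3, h4⟩ := eqHom_of_d1 Δ.c sm h1 h2
  have h5 := Δ.eqHom_zero h3 fun v hv i hi => by beta_reduce; rw [h v hv i hi, sub_self]
  refine Δ.c.const1_of h1 fun g n hn => ?_
  rw [h4 g n hn]
  have h6 : φ n - φ 1 = 0 := h5 n hn
  rw [h6, smul_zero, add_zero]

include Δ in
/-- the image of inflation in degree one -/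
theorem infl1_range (sm : 𝓛₀.Smooth M) (x : H1 𝒢.𝓛 M) :
    (∃ y, infl1 Δ.c M y = x) ↔ ∀ v ∉ Set.range ι, 𝒢.l1 M x v ∈ HUr (𝒢.L v) (I v) M := by
  constructor
  · rintro ⟨y, rfl⟩ v hv
    obtain ⟨z, rfl⟩ := H1.mk_surjective y
    change H1.mk (𝒢.L v) M _ ∈ _
    rw [mk_mem_HUr (Δ.trivI sm hv)]
    intro i hi
    change z.1 i = 0
    obtain ⟨U, hU, h⟩ := z.2.1
    have := h 1 i (((Δ.c.iff U).mp hU).2 (Δ.inN v hv i hi))
    rw [one_mul, Z1.map_one] at this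
    exact this
  · intro h
    obtain ⟨z, rfl⟩ := H1.mk_surjective x
    have h1 : ∀ v ∉ Set.range ι, ∀ i ∈ I v, z.1 i = 0 := by
      intro v hv
      exact (mk_mem_HUr (Δ.trivI sm hv)).mp (h v hv)
    have hz : ∀ g h, d1 z.1 g h = 0 := by
      intro g h
      simp only [d1, z.2.2]
      abel
    have h2 : 𝓛₀.Const1 z.1 := by
      refine Δ.const1 sm z.2.1 ⟨⊤, 𝓛₀.top, fun g h s _ t _ => by rw [hz, hz]⟩ fun v hv i hi => ?_
      rw [h1 v hv i hi, Z1.map_one]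
    exact ⟨H1.mk 𝓛₀ M ⟨z.1, h2, z.2.2⟩, rfl⟩

end DIn

variable (𝒢 ι I M) in
/-- families which are unramified outside `ι` -/
def WUr : AddSubgroup (∀ v, H1 (𝒢.L v) M) where
  carrier := {y | ∀ v ∉ Set.range ι, y v ∈ HUr (𝒢.L v) (I v) M}
  zero_mem' _ _ := AddSubgroup.zero_mem _
  add_mem' ha hb v hv := AddSubgroup.add_mem _ (ha v hv) (hb v hv)
  neg_mem' ha v hv := AddSubgroup.neg_mem _ (ha v hv)

theorem mem_WUr {y : ∀ v, H1 (𝒢.L v) M} :
    y ∈ WUr 𝒢 ι I M ↔ ∀ v ∉ Set.range ι, y v ∈ HUr (𝒢.L v) (I v) M := Iff.rfl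

theorem d1_add {G : Type*} [Group G] {A : Type*} [AddCommGroup A] [DistribMulAction G A]
    (φ ψ : G → A) : d1 (φ + ψ) = fun g h => d1 φ g h + d1 ψ g h := by
  funext g h
  simp only [d1, Pi.add_apply, smul_add]
  abel

theorem d1_neg {G : Type*} [Group G] {A : Type*} [AddCommGroup A] [DistribMulAction G A]
    (φ : G → A) : d1 (-φ) = fun g h => -d1 φ g h := by
  funext g h
  simp only [d1, Pi.neg_apply, smul_neg]
  abel

theorem d1_zero {G : Type*} [Group G] {A : Type*} [AddCommGroup A] [DistribMulAction G A] :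
    d1 (0 : G → A) = fun _ _ => 0 := by
  funext g h
  simp [d1]

variable (𝒢 𝓛₀ ι I M) in
/-- cochains with `𝓛₀`-constant coboundary, together with compatible local classes -/
def RR : AddSubgroup ((G → M) × (∀ v, H1 (𝒢.L v) M)) where
  carrier := {x | 𝒢.𝓛.Const1 x.1 ∧ 𝓛₀.Const2 (d1 x.1) ∧ ∀ v ∉ Set.range ι,
    ∃ z : Z1 (𝒢.L v) M, H1.mk (𝒢.L v) M z = x.2 v ∧ ∀ i ∈ I v, z.1 i = x.1 i - x.1 1}
  zero_mem' := by
    refine ⟨𝒢.𝓛.const1_const 0, ?_, fun v _ => ⟨0, map_zero _, fun i _ => by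
      change (0 : M) = 0 - 0
      rw [sub_zero]⟩⟩
    change 𝓛₀.Const2 (d1 0)
    rw [d1_zero]
    exact 𝓛₀.const2_const 0
  add_mem' := by
    rintro ⟨φ, y⟩ ⟨φ', y'⟩ ⟨h1, h2, h3⟩ ⟨h1', h2', h3'⟩
    refine ⟨h1.comp₂ h1' (· + ·), ?_, fun v hv => ?_⟩
    · change 𝓛₀.Const2 (d1 (φ + φ'))
      rw [d1_add]
      exact h2.comp₂ h2' (· + ·)
    · obtain ⟨z, hz, h⟩ := h3 v hv
      obtain ⟨z', hz', h'⟩ := h3' v hv
      refine ⟨z + z', by rw [map_add, hz, hz']; rfl, fun i hi => ?_⟩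
      change z.1 i + z'.1 i = (φ i + φ' i) - (φ 1 + φ' 1)
      rw [h i hi, h' i hi]
      change φ i - φ 1 + (φ' i - φ' 1) = _
      abel
  neg_mem' := by
    rintro ⟨φ, y⟩ ⟨h1, h2, h3⟩
    refine ⟨h1.comp (fun x => -x), ?_, fun v hv => ?_⟩
    · change 𝓛₀.Const2 (d1 (-φ))
      rw [d1_neg]
      exact h2.comp (fun x => -x)
    · obtain ⟨z, hz, h⟩ := h3 v hv
      refine ⟨-z, by rw [map_neg, hz]; rfl, fun i hi => ?_⟩
      change -z.1 i = (-φ i) - (-φ 1)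
      rw [h i hi]
      change -(φ i - φ 1) = _
      abel

variable (𝒢 𝓛₀ ι I M) in
/-- the transgression -/
def tg : RR 𝒢 𝓛₀ ι I M →+ H2 𝓛₀ M where
  toFun x := H2.mk 𝓛₀ M ⟨d1 x.1.1, x.2.2.1, isCocycle2_d1 _⟩
  map_zero' := by
    rw [← map_zero (H2.mk 𝓛₀ M)]
    congr 1
    apply Subtype.ext
    exact d1_zero
  map_add' x y := by
    rw [← map_add]
    congr 1
    apply Subtype.ext
    exact d1_add _ _

namespace DIn

include Δ in
/-- the image of the transgression is the kernel of inflation -/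
theorem range_tg [Finite M] (sm : 𝓛₀.Smooth M) (kM : ∀ m : M, p • m = 0) :
    (tg 𝒢 𝓛₀ ι I M).range = (infl2 Δ.c M).ker := by
  have hp : p.Prime := Fact.out
  ext x
  constructor
  · rintro ⟨y, rfl⟩
    refine H2.mk_eq_zero.mpr ⟨y.1.1, y.2.1, fun g h => rfl⟩
  · intro hx
    obtain ⟨x, rfl⟩ := H2.mk_surjective x
    obtain ⟨φ, hφ, h⟩ := H2.mk_eq_zero.mp hx
    have h' : ∀ g h, x.1 g h = d1 φ g h := h
    have hd : d1 φ = x.1 := by
      funext g h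
      exact (h' g h).symm
    -- local classes
    have key : ∀ v, ∃ y : H1 (𝒢.L v) M, v ∉ Set.range ι →
        ∃ z : Z1 (𝒢.L v) M, H1.mk (𝒢.L v) M z = y ∧ ∀ i ∈ I v, z.1 i = φ i - φ 1 := by
      intro v
      by_cases hv : v ∈ Set.range ι
      · exact ⟨0, fun h => absurd hv h⟩
      · obtain ⟨F, hF⟩ := Δ.pc v hv
        obtain ⟨U, hU, hxU⟩ := x.2.1
        have hNU : N ≤ U := ((Δ.c.iff U).mp hU).2
        let x' : Z2 (𝒢.L v) M := (Z2map (𝒢.D v).subtype (𝒢.cont v) (AddMonoidHom.id M)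
          (fun _ _ => rfl)) (Z2map (MonoidHom.id G) Δ.c.cont (AddMonoidHom.id M) (fun _ _ => rfl) x)
        obtain ⟨ψ, h1, h2, h3⟩ := hF.ur2 hp.pos kM (smooth_loc (𝒢.cont v) (Δ.c.smooth sm))
          (Δ.trivI sm hv) x' (fun g h i hi j hj => by
            change x.1 (g * i : G) (h * j : G) = x.1 g h
            exact hxU _ _ _ (hNU (Δ.inN v hv i hi)) _ (hNU (Δ.inN v hv j hj)))
        have hφv : (𝒢.L v).Const1 (fun g : 𝒢.D v => φ g) := hφ.precomp (𝒢.cont v)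
        have h4 : ∀ g h : 𝒢.D v, d1 ψ g h = d1 (fun g : 𝒢.D v => φ g) g h := by
          intro g h
          rw [← h3]
          exact h' g h
        let z : Z1 (𝒢.L v) M := ⟨fun g => φ g - ψ g, hφv.comp₂ h1 (· - ·), fun g h => by
          have h5 := h4 g h
          simp only [d1] at h5
          have h6 : φ (g * h : 𝒢.D v) - ψ (g * h) = φ g - ψ g + (g • φ h - g • ψ h) := by
            have h7 : φ (g * h : 𝒢.D v) - ψ (g * h) =
                (g • ψ h - ψ (g * h) + ψ g) - (g • φ h - φ (g * h : 𝒢.D v) + φ g) +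
                  (φ g - ψ g + (g • φ h - g • ψ h)) := by abel
            rw [h7, h5]
            abel
          rw [smul_sub]
          exact h6⟩
        refine ⟨H1.mk _ _ z, fun _ => ⟨z, rfl, fun i hi => ?_⟩⟩
        have h8 : z.1 1 = 0 := Z1.map_one z
        change φ (1 : G) - ψ 1 = 0 at h8
        change φ i - ψ i = φ i - φ 1
        have h9 : ψ i = ψ 1 := by
          have := h2 1 i hi
          rwa [one_mul] at this
        rw [h9, ← sub_eq_zero.mp h8]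
    choose y hy using key
    refine ⟨⟨(φ, y), hφ, ?_, hy⟩, ?_⟩
    · change 𝓛₀.Const2 (d1 φ)
      rw [hd]
      exact x.2.1
    · change H2.mk 𝓛₀ M _ = H2.mk 𝓛₀ M x
      congr 1
      exact Subtype.ext hd

include Δ in
/-- the kernel of the transgression -/
theorem ker_tg (sm : 𝓛₀.Smooth M) :
    (tg 𝒢 𝓛₀ ι I M).ker = ((𝒢.l1 M).range ⊔ WUr 𝒢 ι I M).comap
      ((AddMonoidHom.snd _ _).comp (RR 𝒢 𝓛₀ ι I M).subtype) := by
  ext x
  obtain ⟨⟨φ, y⟩, h1, h2, h3⟩ := x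
  constructor
  · intro hx
    obtain ⟨ψ, hψ, h⟩ := H2.mk_eq_zero.mp hx
    have h' : ∀ g h, d1 φ g h = d1 ψ g h := h
    let z : Z1 𝒢.𝓛 M := ⟨fun g => φ g - ψ g, h1.comp₂ (Δ.c.const1 hψ) (· - ·), fun g h => by
          have h5 := h' g h
          simp only [d1] at h5
          have h7 : φ (g * h) - ψ (g * h) =
                (g • ψ h - ψ (g * h) + ψ g) - (g • φ h - φ (g * h) + φ g) +
                  (φ g - ψ g + (g • φ h - g • ψ h)) := by abel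
          beta_reduce
          rw [smul_sub, h7, h5]
          abel⟩
    change y ∈ (𝒢.l1 M).range ⊔ WUr 𝒢 ι I M
    rw [AddSubgroup.mem_sup]
    refine ⟨𝒢.l1 M (H1.mk _ _ z), ⟨_, rfl⟩, y - 𝒢.l1 M (H1.mk _ _ z), ?_, by abel⟩
    intro v hv
    obtain ⟨zv, hzv, h4⟩ := h3 v hv
    have hzv' : H1.mk (𝒢.L v) M zv = y v := hzv
    have h4' : ∀ i ∈ I v, zv.1 i = φ i - φ 1 := h4
    refine ⟨zv - Z1map (𝒢.D v).subtype (𝒢.cont v) (AddMonoidHom.id M) (fun _ _ => rfl) z, ?_,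
      fun i hi => ?_⟩
    · rw [map_sub, hzv']
      rfl
    · change zv.1 i - (φ i - ψ i) = 0
      have h8 : z.1 1 = 0 := Z1.map_one z
      change φ (1 : G) - ψ 1 = 0 at h8
      obtain ⟨U, hU, hψU⟩ := hψ
      have h9 : ψ i = ψ 1 := by
        have := hψU 1 i (((Δ.c.iff U).mp hU).2 (Δ.inN v hv i hi))
        rwa [one_mul] at this
      rw [h4' i hi, h9, sub_eq_zero.mp h8, sub_self]
  · intro hx
    change y ∈ (𝒢.l1 M).range ⊔ WUr 𝒢 ι I M at hx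
    obtain ⟨_, ⟨x, rfl⟩, w, hw, hxw⟩ := AddSubgroup.mem_sup.mp hx
    obtain ⟨z, rfl⟩ := H1.mk_surjective x
    have hz : ∀ g h, d1 z.1 g h = 0 := by
      intro g h
      simp only [d1, z.2.2]
      abel
    have hd : ∀ g h, d1 (fun g => φ g - z.1 g) g h = d1 φ g h := by
      intro g h
      have e1 : d1 (fun g => φ g - z.1 g) g h = d1 φ g h - d1 z.1 g h := by
        simp only [d1, smul_sub]
        abel
      rw [e1, hz, sub_zero]
    have hd' : d1 (fun g => φ g - z.1 g) = d1 φ := by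
      funext g h
      exact hd g h
    refine H2.mk_eq_zero.mpr ⟨fun g => φ g - z.1 g, ?_, fun g h => (hd g h).symm⟩
    refine Δ.const1 sm (h1.comp₂ z.2.1 (· - ·)) (by rw [hd']; exact h2) fun v hv i hi => ?_
    obtain ⟨zv, hzv, h4⟩ := h3 v hv
    have hzv' : H1.mk (𝒢.L v) M zv = y v := hzv
    have h4' : ∀ i ∈ I v, zv.1 i = φ i - φ 1 := h4
    have h5 : H1.mk (𝒢.L v) M (zv - Z1map (𝒢.D v).subtype (𝒢.cont v) (AddMonoidHom.id M)
        (fun _ _ => rfl) z) ∈ HUr (𝒢.L v) (I v) M := by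
      have h6 : H1.mk (𝒢.L v) M (zv - Z1map (𝒢.D v).subtype (𝒢.cont v) (AddMonoidHom.id M)
        (fun _ _ => rfl) z) = w v := by
        rw [map_sub, hzv', ← hxw]
        change 𝒢.l1 M (H1.mk _ _ z) v + w v - 𝒢.l1 M (H1.mk _ _ z) v = w v
        abel
      rw [h6]
      exact hw v hv
    have h7 : zv.1 i - z.1 i = 0 := (mk_mem_HUr (Δ.trivI sm hv)).mp h5 i hi
    rw [h4' i hi] at h7
    have h8 : z.1 1 = 0 := Z1.map_one z
    change φ i - z.1 i = φ 1 - z.1 1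
    rw [h8, sub_zero]
    have h9 : φ i - z.1 i - φ 1 = 0 := by rw [← h7]; abel
    exact sub_eq_zero.mp h9

include Δ in
theorem snd_surj [Finite M] (sm : 𝓛₀.Smooth M) (hE : EqSol 𝒢 N ι I M) :
    Function.Surjective ((AddMonoidHom.snd _ _).comp (RR 𝒢 𝓛₀ ι I M).subtype) := by
  classical
  intro y
  have hz : ∀ v, ∃ z : Z1 (𝒢.L v) M, H1.mk (𝒢.L v) M z = y v := fun v => H1.mk_surjective _
  choose z hz using hz
  have key : ∀ v, ∃ f : G → M, EqHom 𝒢.𝓛 N f ∧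
      (v ∉ Set.range ι → ∀ i ∈ I v, f i = (z v).1 i) ∧
      (∀ w ∉ Set.range ι, w ≠ v → ∀ i ∈ I w, f i = 0) := by
    intro v
    by_cases hv : v ∈ Set.range ι
    · exact ⟨fun _ => 0, ⟨fun _ _ _ _ => by simp, fun _ _ _ => by simp, ⊤, 𝒢.𝓛.top,
        fun _ _ _ => rfl⟩, fun h => absurd hv h, fun _ _ _ _ _ => rfl⟩
    · obtain ⟨f, h1, h2, h3⟩ := hE v hv (z v)
      exact ⟨f, h1, fun _ => h2, h3⟩
  choose f h1 h2 h3 using key
  obtain ⟨φ, hφ1, hφ2, hφ3⟩ := (EqHom.sum Finset.univ h1).extend Δ.c sm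
  refine ⟨⟨(φ, y), hφ1, hφ2, fun v hv => ⟨z v, hz v, fun i hi => ?_⟩⟩, rfl⟩
  change (z v).1 i = φ i - φ 1
  rw [hφ3 i (Δ.inN v hv i hi)]
  rw [Finset.sum_eq_single v, h2 v hv i hi]
  · intro w _ hw
    exact h3 w v hv hw.symm i hi
  · intro h; exact absurd (Finset.mem_univ v) h

include Δ in
/-- the order of the kernel of inflation on `H²` -/
theorem card_ker_infl2 [Finite M] (sm : 𝓛₀.Smooth M) (kM : ∀ m : M, p • m = 0)
    (hE : EqSol 𝒢 N ι I M) :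
    Nat.card (infl2 Δ.c M).ker = ((𝒢.l1 M).range ⊔ WUr 𝒢 ι I M).index := by
  rw [← Δ.range_tg sm kM, ← AddSubgroup.index_ker, Δ.ker_tg sm]
  exact AddSubgroup.index_comap_of_surjective _ (Δ.snd_surj sm hE)

end DIn

end GLD

end

end Fermat.Agent.CC
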