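import Fermat.Agent.CC.Desc2
set_option autoImplicit false
set_option maxHeartbeats 400000

/-!
# Descent from `S'` to `S`: conclusion
-/

namespace Fermat.Agent.CC

noncomputable section

theorem Pr.coarse {p : ℕ} {G : Type*} [Group G] {𝓛 𝓛₀ : Lev G} {N : Subgroup G}
    (c : Coarse 𝓛 𝓛₀ N) {A B T : Type*} [AddCommGroup A]
    [AddCommGroup B] [AddCommGroup T] [DistribMulAction G A] [DistribMulAction G B]
    [DistribMulAction G T] {e : A →+ B →+ T} (h : Pr p 𝓛₀ e) : Pr p 𝓛 e where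
  fA := h.fA
  fB := h.fB
  he := h.he
  smA := c.smooth h.smA
  smB := c.smooth h.smB
  kA := h.kA
  kB := h.kB
  hl := h.hl
  hr := h.hr

namespace GLD

variable {p : ℕ} [Fact p.Prime] {G : Type} [Group G] {T : Type} [AddCommGroup T]
  [DistribMulAction G T]

/-- restriction of global-local data -/
def restr (𝒢 : GLD p G T) {𝓛₀ : Lev G} {N : Subgroup G} (c : Coarse 𝒢.𝓛 𝓛₀ N) {V₀ : Type}
    [Fintype V₀] [Nonempty V₀] (ι : V₀ → 𝒢.V)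
    (hrec : ∀ x : H2 𝓛₀ T, ∑ v, 𝒢.inv (ι v) (𝒢.l2 T (infl2 c T x) (ι v)) = 0) : GLD p G T where
  𝓛 := 𝓛₀
  V := V₀
  fV := inferInstance
  neV := inferInstance
  D v := 𝒢.D (ι v)
  L v := 𝒢.L (ι v)
  cont v := fun U hU => 𝒢.cont (ι v) U (c.le hU)
  τ := 𝒢.τ
  inv v := 𝒢.inv (ι v)
  ld v A B _ _ _ _ e h := 𝒢.ld (ι v) A B e (h.coarse c)
  recip x := by
    rw [← hrec x]
    refine Finset.sum_congr rfl fun v _ => ?_
    obtain ⟨x, rfl⟩ := H2.mk_surjective x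
    rfl

variable {𝒢 : GLD p G T} {𝓛₀ : Lev G} {N : Subgroup G} {V₀ : Type} {ι : V₀ → 𝒢.V}
  {I : ∀ v, Subgroup (𝒢.D v)} (Δ : DIn 𝒢 𝓛₀ N ι I)

namespace DIn

include Δ in
/-- classes coming from `𝓛₀` are locally trivial outside `ι` -/
theorem l2_infl2 {M : Type} [AddCommGroup M] [DistribMulAction G M] [Finite M]
    (sm : 𝓛₀.Smooth M) (kM : ∀ m : M, p • m = 0)
    (x : H2 𝓛₀ M) {v : 𝒢.V} (hv : v ∉ Set.range ι) : 𝒢.l2 M (infl2 Δ.c M x) v = 0 := by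
  have hp : p.Prime := Fact.out
  obtain ⟨x, rfl⟩ := H2.mk_surjective x
  obtain ⟨F, hF⟩ := Δ.pc v hv
  obtain ⟨U, hU, hxU⟩ := x.2.1
  have hNU : N ≤ U := ((Δ.c.iff U).mp hU).2
  let x' : Z2 (𝒢.L v) M := (Z2map (𝒢.D v).subtype (𝒢.cont v) (AddMonoidHom.id M)
    (fun _ _ => rfl)) (Z2map (MonoidHom.id G) Δ.c.cont (AddMonoidHom.id M) (fun _ _ => rfl) x)
  obtain ⟨ψ, h1, -, h3⟩ := hF.ur2 hp.pos kM (smooth_loc (𝒢.cont v) (Δ.c.smooth sm))
    (Δ.trivI sm hv) x' (fun g h i hi j hj => by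
      change x.1 (g * i : G) (h * j : G) = x.1 g h
      exact hxU _ _ _ (hNU (Δ.inN v hv i hi)) _ (hNU (Δ.inN v hv j hj)))
  exact H2.mk_eq_zero.mpr ⟨ψ, h1, h3⟩

theorem sum_range [Fintype V₀] (hι : Function.Injective ι) (f : 𝒢.V → ZMod p)
    (hf : ∀ v ∉ Set.range ι, f v = 0) : ∑ v, f (ι v) = ∑ v, f v := by
  classical
  rw [← Finset.sum_subset (Finset.subset_univ (Finset.univ.image ι))]
  · rw [Finset.sum_image fun a _ b _ h => hι h]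
  · intro v _ hv
    refine hf v fun ⟨w, hw⟩ => hv ?_
    rw [Finset.mem_image]
    exact ⟨w, Finset.mem_univ _, hw⟩

include Δ in
theorem recip [Fintype V₀] (hι : Function.Injective ι) (smT : 𝓛₀.Smooth T) (x : H2 𝓛₀ T) :
    ∑ v, 𝒢.inv (ι v) (𝒢.l2 T (infl2 Δ.c T x) (ι v)) = 0 := by
  have : Finite T := Finite.of_equiv _ 𝒢.τ.symm.toEquiv
  rw [sum_range hι (fun v => 𝒢.inv v (𝒢.l2 T (infl2 Δ.c T x) v)) ?_]
  · exact 𝒢.recip _
  · intro v hv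
    rw [Δ.l2_infl2 smT (killedT 𝒢.τ) x hv, map_zero]

end DIn

section Perp

variable [Fintype V₀] {M M' : Type} [AddCommGroup M] [AddCommGroup M'] [DistribMulAction G M]
  [DistribMulAction G M'] {e : M →+ M' →+ T} (h : Pr p 𝒢.𝓛 e)

variable (𝒢 ι I) in
/-- local orthogonality of unramified classes -/
def PerpUr (h : Pr p 𝒢.𝓛 e) : Prop :=
  ∀ v ∉ Set.range ι, ∀ y : H1 (𝒢.L v) M',
    (∀ x ∈ HUr (𝒢.L v) (I v) M, 𝒢.b11 h v x y = 0) ↔ y ∈ HUr (𝒢.L v) (I v) M'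

variable (𝒢 ι I M) in
/-- families which are unramified outside `ι` and zero on `ι` -/
def WZ : AddSubgroup (∀ v, H1 (𝒢.L v) M) where
  carrier := {y | (∀ v, y (ι v) = 0) ∧ ∀ v ∉ Set.range ι, y v ∈ HUr (𝒢.L v) (I v) M}
  zero_mem' := ⟨fun _ => rfl, fun _ _ => AddSubgroup.zero_mem _⟩
  add_mem' := by
    rintro a b ⟨ha, ha'⟩ ⟨hb, hb'⟩
    refine ⟨fun v => ?_, fun v hv => AddSubgroup.add_mem _ (ha' v hv) (hb' v hv)⟩
    change a (ι v) + b (ι v) = 0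
    rw [ha, hb, add_zero]
  neg_mem' := by
    rintro a ⟨ha, ha'⟩
    refine ⟨fun v => ?_, fun v hv => AddSubgroup.neg_mem _ (ha' v hv)⟩
    change -a (ι v) = 0
    rw [ha, neg_zero]

include h in
omit [Fintype V₀] in
theorem perp_WUr (hp : PerpUr 𝒢 ι I h) :
    perp (𝒢.s11 h.flip) (WUr 𝒢 ι I M) = WZ 𝒢 ι I M' := by
  classical
  ext y
  constructor
  · intro hy
    have key : ∀ v, ∀ x : H1 (𝒢.L v) M, (v ∉ Set.range ι → x ∈ HUr (𝒢.L v) (I v) M) →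
        𝒢.b11 h v x (y v) = 0 := by
      intro v x hx
      have h1 := hy (Pi.single v x) (by
        intro w hw
        by_cases hwv : w = v
        · subst hwv
          rw [Pi.single_eq_same]
          exact hx hw
        · rw [Pi.single_eq_of_ne hwv]
          exact AddSubgroup.zero_mem _)
      rw [𝒢.s11_flip h, neg_eq_zero, s11_apply, Finset.sum_eq_single v] at h1
      · rwa [Pi.single_eq_same] at h1
      · intro w _ hw
        rw [Pi.single_eq_of_ne hw, map_zero]; rfl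
      · intro h; exact absurd (Finset.mem_univ v) h
    refine ⟨fun v => ?_, fun v hv => (hp v hv _).mp fun x hx => key v x fun _ => hx⟩
    refine (𝒢.ld (ι v) M M' e h).b1 _ fun x => (𝒢.inv (ι v)).injective ?_
    rw [map_zero]
    exact key (ι v) x fun hn => absurd ⟨v, rfl⟩ hn
  · rintro ⟨h1, h2⟩ x hx
    rw [𝒢.s11_flip h, neg_eq_zero, s11_apply]
    refine Finset.sum_eq_zero fun v _ => ?_
    by_cases hv : v ∈ Set.range ι
    · obtain ⟨w, rfl⟩ := hv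
      rw [h1 w, map_zero]
    · exact (hp v hv _).mpr (h2 v hv) _ (hx v hv)

theorem perp_sup {X Y : Type*} [AddCommGroup X] [AddCommGroup Y] (e : X →+ Y →+ ZMod p)
    (N₁ N₂ : AddSubgroup Y) : perp e (N₁ ⊔ N₂) = perp e N₁ ⊓ perp e N₂ := by
  ext x
  constructor
  · intro hx
    exact ⟨fun y hy => hx y (AddSubgroup.mem_sup_left hy),
      fun y hy => hx y (AddSubgroup.mem_sup_right hy)⟩
  · rintro ⟨h1, h2⟩ y hy
    obtain ⟨a, ha, b, hb, rfl⟩ := AddSubgroup.mem_sup.mp hy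
    rw [map_add, h1 a ha, h2 b hb, add_zero]

include h in
omit [Fintype V₀] in
theorem index_sup (hp : PerpUr 𝒢 ι I h) (hE : 𝒢.E5 h.flip) :
    ((𝒢.l1 M).range ⊔ WUr 𝒢 ι I M).index =
      Nat.card ((𝒢.l1 M').range ⊓ WZ 𝒢 ι I M' : AddSubgroup (∀ v, H1 (𝒢.L v) M')) := by
  have := 𝒢.finP1A h
  have := 𝒢.finP1B h
  have kPA : ∀ x : (∀ v, H1 (𝒢.L v) M), p • x = 0 := pi_killed fun v => H1_killed h.kA
  have kPB : ∀ x : (∀ v, H1 (𝒢.L v) M'), p • x = 0 := pi_killed fun v => H1_killed h.kB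
  have h1 := card_perp kPB kPA (𝒢.s11 h.flip) (fun y hy => 𝒢.s11_right h.flip y hy)
    ((𝒢.l1 M).range ⊔ WUr 𝒢 ι I M)
  have h2 : perp (𝒢.s11 h.flip) (𝒢.l1 M).range = (𝒢.l1 M').range :=
    le_antisymm (fun y hy => hE y fun b => hy _ ⟨b, rfl⟩) (𝒢.range_le_perp h.flip)
  rw [perp_sup, h2, perp_WUr h hp] at h1
  have h3 : Nat.card (∀ v, H1 (𝒢.L v) M') = Nat.card (∀ v, H1 (𝒢.L v) M) := 𝒢.c1_eq h.flip
  have h4 := AddSubgroup.card_mul_index ((𝒢.l1 M).range ⊔ WUr 𝒢 ι I M)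
  rw [h3, ← h4, mul_comm] at h1
  exact (Nat.eq_of_mul_eq_mul_left Nat.card_pos h1).symm

end Perp

namespace DIn

variable [Fintype V₀] [Nonempty V₀]

include Δ in
theorem card_sh1 {M' : Type} [AddCommGroup M'] [DistribMulAction G M'] (sm : 𝓛₀.Smooth M')
    (hrec : ∀ x : H2 𝓛₀ T, ∑ v, 𝒢.inv (ι v) (𝒢.l2 T (infl2 Δ.c T x) (ι v)) = 0) :
    Nat.card ((𝒢.restr Δ.c ι hrec).Sh1 M') = Nat.card (𝒢.Sh1 M') *
      Nat.card ((𝒢.l1 M').range ⊓ WZ 𝒢 ι I M' : AddSubgroup (∀ v, H1 (𝒢.L v) M')) := by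
  -- the subgroup `Y` of classes unramified outside `ι`, zero on `ι`
  set Y : AddSubgroup (H1 𝒢.𝓛 M') := (WZ 𝒢 ι I M').comap (𝒢.l1 M') with hY
  have e1 : Nat.card ((𝒢.restr Δ.c ι hrec).Sh1 M') = Nat.card Y := by
    have hl : ∀ x : H1 𝓛₀ M', (𝒢.restr Δ.c ι hrec).l1 M' x = fun v => 𝒢.l1 M' (infl1 Δ.c M' x) (ι v) := by
      intro x
      obtain ⟨x, rfl⟩ := H1.mk_surjective x
      rfl
    refine Nat.card_congr (Equiv.ofBijective (fun x : (𝒢.restr Δ.c ι hrec).Sh1 M' =>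
      (⟨infl1 Δ.c M' x.1, ?_⟩ : Y)) ⟨?_, ?_⟩)
    · have h1 := (Δ.infl1_range sm (infl1 Δ.c M' x.1)).mp ⟨_, rfl⟩
      have h2 : (𝒢.restr Δ.c ι hrec).l1 M' x.1 = 0 := x.2
      rw [hl] at h2
      exact ⟨fun v => congrFun h2 v, h1⟩
    · intro a b hab
      exact Subtype.ext (infl1_injective Δ.c M' (congrArg Subtype.val hab))
    · rintro ⟨x, hx1, hx2⟩
      obtain ⟨y, rfl⟩ := (Δ.infl1_range sm x).mpr hx2
      refine ⟨⟨y, ?_⟩, rfl⟩
      change (𝒢.restr Δ.c ι hrec).l1 M' y = 0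
      rw [hl]
      exact funext fun v => hx1 v
  rw [e1]
  have e2 := card_ker_range ((𝒢.l1 M').comp Y.subtype)
  rw [e2]
  congr 1
  · refine Nat.card_congr (Equiv.ofBijective (fun x => (⟨x.1.1, x.2⟩ : 𝒢.Sh1 M')) ⟨?_, ?_⟩)
    · intro a b hab
      have h1 : a.1.1 = b.1.1 := congrArg (fun t : 𝒢.Sh1 M' => t.1) hab
      exact Subtype.ext (Subtype.ext h1)
    · rintro ⟨x, hx⟩
      have hx' : 𝒢.l1 M' x = 0 := hx
      have hxY : x ∈ Y := by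
        rw [hY, AddSubgroup.mem_comap, hx']
        exact AddSubgroup.zero_mem _
      exact ⟨⟨⟨x, hxY⟩, hx'⟩, rfl⟩
  · congr 1
    have : ((𝒢.l1 M').comp Y.subtype).range = (𝒢.l1 M').range ⊓ WZ 𝒢 ι I M' := by
      ext y
      constructor
      · rintro ⟨x, rfl⟩
        exact ⟨⟨_, rfl⟩, x.2⟩
      · rintro ⟨⟨x, rfl⟩, hx⟩
        exact ⟨⟨x, hx⟩, rfl⟩
    rw [this]

theorem s20_of_E2 {A B : Type} [AddCommGroup A]
    [AddCommGroup B] [DistribMulAction G A]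
    [DistribMulAction G B] {e : A →+ B →+ T} (h : Pr p 𝓛₀ e) (hι : Function.Injective ι)
    (hrec : ∀ x : H2 𝓛₀ T, ∑ v, 𝒢.inv (ι v) (𝒢.l2 T (infl2 Δ.c T x) (ι v)) = 0)
    (y : ∀ v, H2 (𝒢.L v) A) (hy : ∀ v ∉ Set.range ι, y v = 0) (b : H0 G B) :
    (𝒢.restr Δ.c ι hrec).s20 h (fun v => y (ι v)) ((𝒢.restr Δ.c ι hrec).l0 B b) =
      𝒢.s20 (h.coarse Δ.c) y (𝒢.l0 B b) := by
  rw [s20_apply, s20_apply]
  exact sum_range hι (fun v => 𝒢.b20 (h.coarse Δ.c) v (y v) (𝒢.l0 B b v)) fun v hv => by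
    rw [hy v hv, map_zero]; rfl

omit [Fintype V₀] [Nonempty V₀] in
/-- adjusting a family in `H²(A)` at the places of `ι` -/
theorem exists_class {A B : Type} [AddCommGroup A] [AddCommGroup B] [DistribMulAction G A]
    [DistribMulAction G B] {e : A →+ B →+ T} (hA : Pr p 𝒢.𝓛 e) (hE : 𝒢.E2 hA)
    (a : ∀ v, H2 (𝒢.L v) A) (v₀ : V₀) :
    ∃ z : H2 𝒢.𝓛 A, ∀ v ∉ Set.range ι, 𝒢.l2 A z v = a v := by
  classical
  let y₁ : ∀ v, H2 (𝒢.L v) A := fun v => if v ∈ Set.range ι then 0 else a v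
  obtain ⟨Λ, hΛ⟩ := fp_extend (p := p) (H0_killed hA.kB) (H0_killed hA.kB)
    (loc0 (𝒢.D (ι v₀)) B) ((𝒢.s20 hA y₁).comp (𝒢.l0 B)) (fun b hb => by
      rw [loc0_injective (a₁ := b) (a₂ := 0) (by rw [hb, map_zero]), map_zero])
  obtain ⟨y₂, hy₂⟩ := 𝒢.repr20 hA (Λ.comp (Pi.evalAddMonoidHom _ (ι v₀)))
  have h2 : ∀ v, v ≠ ι v₀ → y₂ v = 0 := by
    intro v hv
    refine (𝒢.ld v A B e hA).a2 _ fun b => (𝒢.inv v).injective ?_
    rw [map_zero]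
    have h3 := hy₂ (Pi.single v b)
    rw [s20_single] at h3
    have h4 : (Λ.comp (Pi.evalAddMonoidHom (fun v => H0 (𝒢.D v) B) (ι v₀))) (Pi.single v b) = 0 := by
      change Λ ((Pi.single v b : ∀ v, H0 (𝒢.D v) B) (ι v₀)) = 0
      rw [Pi.single_eq_of_ne hv.symm, map_zero]
    rw [h4] at h3
    exact h3
  obtain ⟨z, hz⟩ := hE (y₁ - y₂) (fun b => by
    rw [map_sub, AddMonoidHom.sub_apply, hy₂, sub_eq_zero]
    exact (hΛ b).symm)
  refine ⟨z, fun v hv => ?_⟩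
  rw [hz, Pi.sub_apply, h2 v (fun h => hv ⟨v₀, h.symm⟩), sub_zero]
  exact if_neg hv

end DIn

end GLD

end

end Fermat.Agent.CC
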