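import Fermat.Agent.CC.Desc3
set_option autoImplicit false
set_option maxHeartbeats 400000

/-!
# Descent from `S'` to `S`: comparison of `Ш²`
-/

namespace Fermat.Agent.CC

noncomputable section

namespace GLD

variable {p : ℕ} [Fact p.Prime] {G : Type} [Group G] {T : Type} [AddCommGroup T]
  [DistribMulAction G T]

variable {𝒢 : GLD p G T} {𝓛₀ : Lev G} {N : Subgroup G} {V₀ : Type} {ι : V₀ → 𝒢.V}
  {I : ∀ v, Subgroup (𝒢.D v)} (Δ : DIn 𝒢 𝓛₀ N ι I)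

namespace DIn

variable [Fintype V₀] [Nonempty V₀]

variable {H H₀ : Subgroup G} [Finite (G ⧸ H)] [Finite (G ⧸ H₀)] (J : 𝒢.GIn H H₀)
  {M M' : Type} [AddCommGroup M] [AddCommGroup M'] [DistribMulAction G M] [DistribMulAction G M']
  {e : M →+ M' →+ T} (h : Pr p 𝓛₀ e) (htM : ∀ (h : H) (m : M), h • m = m)
  (htM' : ∀ (h : H) (m : M'), h • m = m)
  (hrec : ∀ x : H2 𝓛₀ T, ∑ v, 𝒢.inv (ι v) (𝒢.l2 T (infl2 Δ.c T x) (ι v)) = 0)
  (hH : 𝓛₀.isOpen H) (hE2 : (𝒢.restr Δ.c ι hrec).E2 ((𝒢.restr Δ.c ι hrec).prT hH J.htT))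

theorem infl2_coef {𝓛 : Lev G} (c : Coarse 𝓛 𝓛₀ N) {A B : Type} [AddCommGroup A] [AddCommGroup B]
    [DistribMulAction G A] [DistribMulAction G B] (f : A →+ B)
    (hf : ∀ (g : G) (a : A), f (g • a) = g • f a) (x : H2 𝓛₀ A) :
    infl2 c B (H2coef 𝓛₀ f hf x) = H2coef 𝓛 f hf (infl2 c A x) := by
  obtain ⟨x, rfl⟩ := H2.mk_surjective x
  rfl

include J h htM htM' hH hE2 in
/-- every class in `Ш²_{S'}(M)` comes from `𝓛₀` -/
theorem lift_sha2 (hι : Function.Injective ι) (x : 𝒢.Sh2 M) :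
    ∃ y : H2 𝓛₀ M, infl2 Δ.c M y = x.1 := by
  have := h.fA
  have h' := h.coarse Δ.c
  have P := resP h' J.hH
  obtain ⟨v₀⟩ := (inferInstance : Nonempty V₀)
  -- lift to the induced module
  obtain ⟨x₁, hx₁⟩ := J.H2_surj (fun f => (𝒢.prM J.hH h').kA f) h.kA
    (CoInd.smooth J.hH (smooth_sub h'.smA)) h'.smA (coInd_triv J.hn htM) htM (sumMap H M)
    sumMap_smul (sumMap_surj h' J.hH) x.1
  have hx2 : 𝒢.l2 M x.1 = 0 := x.2
  obtain ⟨a, ha⟩ := 𝒢.exact2 (D := resD h' J.hH) (𝒢.l2 _ x₁) (by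
    rw [← l2_coef]
    change 𝒢.l2 M (H2coef 𝒢.𝓛 (sumMap H M) sumMap_smul x₁) = 0
    rw [hx₁, hx2])
  have hEA : 𝒢.E2 P.pA := by
    refine J.E2_all P.pA ?_ ?_
    · intro s x
      apply (GSub.ker (sumMap H M) sumMap_smul).incl_injective
      exact coInd_triv J.hn htM s _
    · intro s x
      obtain ⟨x, rfl⟩ := (GSub.range (unitMap H M') (unitMap_smul H M')).proj_surjective x
      exact ((GSub.range (unitMap H M') (unitMap_smul H M')).proj_smul (s : G) x).symm.trans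
        (congrArg _ (coInd_triv J.hn htM' s x))
  obtain ⟨z, hz⟩ := exists_class P.pA hEA a v₀
  set x₂ : H2 𝒢.𝓛 (CoInd H M) := x₁ - H2coef 𝒢.𝓛 (resD h' J.hH).E.i (resD h' J.hH).E.hi z with hx₂
  have h1 : ∀ v ∉ Set.range ι, 𝒢.l2 _ x₂ v = 0 := by
    intro v hv
    rw [hx₂, map_sub, Pi.sub_apply, l2_coef, ← ha]
    change H2coef (𝒢.L v) _ _ (a v) - H2coef (𝒢.L v) _ _ (𝒢.l2 _ z v) = 0
    rw [hz v hv, sub_self]
  have h2 : H2coef 𝒢.𝓛 (sumMap H M) sumMap_smul x₂ = x.1 := by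
    rw [hx₂, map_sub, hx₁]
    have h3 : H2coef 𝒢.𝓛 (resD h' J.hH).E.j (resD h' J.hH).E.hj
        (H2coef 𝒢.𝓛 (resD h' J.hH).E.i (resD h' J.hH).E.hi z) = 0 :=
      ((resD h' J.hH).E.H2_j_eq_zero_iff _).mpr ⟨z, rfl⟩
    change x.1 - H2coef 𝒢.𝓛 (resD h' J.hH).E.j (resD h' J.hH).E.hj
        (H2coef 𝒢.𝓛 (resD h' J.hH).E.i (resD h' J.hH).E.hi z) = x.1
    rw [h3, sub_zero]
  -- descend the class on the induced module
  have hI : Pr p 𝓛₀ (coE (H := H) e (h.he.sub H)) := (h.sub H).co hH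
  have hE2' : (𝒢.restr Δ.c ι hrec).E2 (A := CoInd H M) (B := CoInd H M') hI :=
    (𝒢.restr Δ.c ι hrec).E2_co hH J.htT h htM htM' hE2
  obtain ⟨w, hw⟩ := hE2' (fun v => 𝒢.l2 _ x₂ (ι v)) (fun b => by
    rw [Δ.s20_of_E2 hI hι hrec _ h1 b]
    exact 𝒢.rec20 (hI.coarse Δ.c) x₂ b)
  have hfin := hI.fA
  have h3 : infl2 Δ.c _ w = x₂ := by
    rw [← sub_eq_zero]
    refine 𝒢.sha2_co J.htT h' htM J.sha2 _ ?_
    rw [map_sub]
    funext v
    rw [Pi.sub_apply, Pi.zero_apply, sub_eq_zero]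
    by_cases hv : v ∈ Set.range ι
    · obtain ⟨v, rfl⟩ := hv
      have h4 := congrFun hw v
      refine Eq.trans ?_ h4
      obtain ⟨w, rfl⟩ := H2.mk_surjective w
      rfl
    · rw [h1 v hv]
      exact Δ.l2_infl2 hI.smA hI.kA w hv
  refine ⟨H2coef 𝓛₀ (sumMap H M) sumMap_smul w, ?_⟩
  rw [infl2_coef, h3, h2]

include J h htM htM' hH hE2 in
/-- the order of `Ш²` -/
theorem card_sh2 (hι : Function.Injective ι) :
    Nat.card ((𝒢.restr Δ.c ι hrec).Sh2 M) = Nat.card (infl2 Δ.c M).ker * Nat.card (𝒢.Sh2 M) := by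
  have := h.fA
  have hl : ∀ x : H2 𝓛₀ M, (𝒢.restr Δ.c ι hrec).l2 M x = fun v => 𝒢.l2 M (infl2 Δ.c M x) (ι v) := by
    intro x
    obtain ⟨x, rfl⟩ := H2.mk_surjective x
    rfl
  let Y : AddSubgroup (H2 𝓛₀ M) := (𝒢.restr Δ.c ι hrec).Sh2 M
  have hY : ∀ x, x ∈ Y ↔ ∀ v, 𝒢.l2 M (infl2 Δ.c M x) (ι v) = 0 := by
    intro x
    change (𝒢.restr Δ.c ι hrec).l2 M x = 0 ↔ _
    rw [hl]
    exact funext_iff
  have e2 := card_ker_range ((infl2 Δ.c M).comp Y.subtype)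
  change Nat.card Y = _
  rw [e2]
  congr 1
  · refine Nat.card_congr (Equiv.ofBijective (fun x => (⟨x.1.1, x.2⟩ : (infl2 Δ.c M).ker)) ⟨?_, ?_⟩)
    · intro a b hab
      have h1 : a.1.1 = b.1.1 := congrArg (fun t : (infl2 Δ.c M).ker => t.1) hab
      exact Subtype.ext (Subtype.ext h1)
    · rintro ⟨x, hx⟩
      have hx' : infl2 Δ.c M x = 0 := hx
      have hxY : x ∈ Y := by
        rw [hY]
        intro v
        rw [hx', map_zero]; rfl
      exact ⟨⟨⟨x, hxY⟩, hx'⟩, rfl⟩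
  · have : ((infl2 Δ.c M).comp Y.subtype).range = 𝒢.Sh2 M := by
      ext y
      constructor
      · rintro ⟨x, rfl⟩
        change 𝒢.l2 M (infl2 Δ.c M x.1) = 0
        funext v
        by_cases hv : v ∈ Set.range ι
        · obtain ⟨v, rfl⟩ := hv
          exact (hY x.1).mp x.2 v
        · exact Δ.l2_infl2 h.smA h.kA x.1 hv
      · intro hy
        obtain ⟨x, hx⟩ := Δ.lift_sha2 J h htM htM' hrec hH hE2 hι ⟨y, hy⟩
        have hx' : infl2 Δ.c M x = y := hx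
        refine ⟨⟨x, ?_⟩, hx'⟩
        rw [hY, hx']
        intro v
        exact congrFun (show 𝒢.l2 M y = 0 from hy) (ι v)
    rw [this]

include J h htM htM' hH hE2 in
/-- **Descent**: Poitou–Tate duality for `Ш` descends from `S'` to `S` (cardinality form) -/
theorem card_sha (hι : Function.Injective ι) (hE : EqSol 𝒢 N ι I M)
    (hp : PerpUr 𝒢 ι I (h.coarse Δ.c)) :
    Finite ((𝒢.restr Δ.c ι hrec).Sh2 M) ∧ Finite ((𝒢.restr Δ.c ι hrec).Sh1 M') ∧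
      Nat.card ((𝒢.restr Δ.c ι hrec).Sh2 M) = Nat.card ((𝒢.restr Δ.c ι hrec).Sh1 M') := by
  have := h.fA
  have h' := h.coarse Δ.c
  have f1 := 𝒢.finP1A h'
  have f2 := 𝒢.finP1B h'
  have f3 := J.finite_H1 h'.flip htM'
  have f4 := J.finite_H2 h' htM
  have e1 := Δ.card_sh2 J h htM htM' hrec hH hE2 hι
  have e2 := Δ.card_ker_infl2 h.smA h.kA hE
  have e3 := index_sup h' hp (J.E5_all h'.flip htM' htM)
  have e4 := Δ.card_sh1 h.smB hrec
  have e5 := J.card_sha h' htM htM'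
  have e6 : Nat.card ((𝒢.restr Δ.c ι hrec).Sh2 M) = Nat.card ((𝒢.restr Δ.c ι hrec).Sh1 M') := by
    rw [e1, e2, e3, e4, e5, mul_comm]
  have e7 : Finite ((𝒢.restr Δ.c ι hrec).Sh1 M') := by
    refine Finite.of_injective (fun x => infl1 Δ.c M' x.1) ?_
    intro a b hab
    exact Subtype.ext (infl1_injective Δ.c M' hab)
  refine ⟨?_, e7, e6⟩
  apply Nat.finite_of_card_ne_zero
  rw [e6]
  exact Nat.card_pos.ne'

end DIn

end GLD

end

end Fermat.Agent.CC
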