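import Fermat.Agent.CC.Desc4
set_option autoImplicit false
set_option maxHeartbeats 400000

/-!
# Local orthogonality of unramified classes
-/

namespace Fermat.Agent.CC

noncomputable section

/-- tame inertia -/
structure TameAt {D : Type*} [Group D] (L : Lev D) (I : Subgroup D) (φ : D) (p c : ℕ) (g₀ : D) :
    Prop where
  mem : g₀ ∈ I
  inj : ∀ f : I → ZMod p, (∀ g h, f (g * h) = f g + f h) → (L.sub I).Const1 f →
    f ⟨g₀, mem⟩ = 0 → ∀ g, f g = 0
  conj : ∀ f : I → ZMod p, (∀ g h, f (g * h) = f g + f h) → (L.sub I).Const1 f →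
    ∀ h : φ * g₀ * φ⁻¹ ∈ I, f ⟨φ * g₀ * φ⁻¹, h⟩ = c * f ⟨g₀, mem⟩

section

variable {D : Type*} [Group D] {L : Lev D} {I : Subgroup D} {φ : D} {p : ℕ} [Fact p.Prime]

/-- unramified cocycles -/
def ZUr (L : Lev D) (I : Subgroup D) (M : Type*) [AddCommGroup M] [DistribMulAction D M] :
    AddSubgroup (Z1 L M) where
  carrier := {z | ∀ i ∈ I, z.1 i = 0}
  zero_mem' _ _ := rfl
  add_mem' := by
    intro z w hz hw i hi
    change z.1 i + w.1 i = 0
    rw [hz i hi, hw i hi, add_zero]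
  neg_mem' := by
    intro z hz i hi
    change -z.1 i = 0
    rw [hz i hi, neg_zero]

/-- `φ - c` -/
def subC (φ : D) (c : ℕ) (M : Type*) [AddCommGroup M] [DistribMulAction D M] : M →+ M where
  toFun m := φ • m - c • m
  map_zero' := by simp
  map_add' a b := by rw [smul_add, smul_add]; abel

theorem subC_apply (φ : D) (c : ℕ) {M : Type*} [AddCommGroup M] [DistribMulAction D M] (m : M) :
    subC φ c M m = φ • m - c • m := rfl

variable {M : Type*} [AddCommGroup M] [DistribMulAction D M]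

theorem card_HUr (P : Procyc L I φ) [Finite M] (kM : ∀ m : M, p • m = 0) (sm : L.Smooth M)
    (hI : ∀ i ∈ I, ∀ m : M, i • m = m) :
    Nat.card (HUr L I M) = Nat.card (subC φ 1 M).ker := by
  have hp : p.Prime := Fact.out
  let ev : ZUr L I M →+ M :=
    { toFun := fun z => z.1.1 φ
      map_zero' := rfl
      map_add' := fun _ _ => rfl }
  have hev : Function.Bijective ev := by
    constructor
    · rw [injective_iff_map_eq_zero]
      intro z hz
      exact Subtype.ext (P.ur1_ext z.1 z.2 hz)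
    · intro m
      obtain ⟨f, h1, h2⟩ := P.exists_ur1 hp.pos kM sm hI m
      exact ⟨⟨f, h1⟩, h2⟩
  let mk : ZUr L I M →+ H1 L M := (H1.mk L M).comp (ZUr L I M).subtype
  have h1 : mk.range = HUr L I M := by
    ext x
    constructor
    · rintro ⟨z, rfl⟩
      exact ⟨z.1, rfl, z.2⟩
    · rintro ⟨z, rfl, hz⟩
      exact ⟨⟨z, hz⟩, rfl⟩
  have h2 : mk.ker = (subC φ 1 M).range.comap ev := by
    ext z
    constructor
    · intro hz
      obtain ⟨a, ha⟩ := H1.mk_eq_zero.mp hz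
      refine ⟨a, ?_⟩
      rw [subC_apply, one_smul]
      exact (ha φ).symm
    · rintro ⟨a, ha⟩
      rw [subC_apply, one_smul] at ha
      have h3 : z = ⟨coboundary1 sm a, fun i hi => by
          change i • a - a = 0
          rw [hI i hi, sub_self]⟩ := by
        apply hev.1
        exact ha.symm
      refine H1.mk_eq_zero.mpr ⟨a, fun g => ?_⟩
      rw [h3]
      rfl
  have h3 := card_ker_range mk
  rw [h1, h2] at h3
  have h4 : Nat.card (ZUr L I M) = Nat.card M := Nat.card_congr (Equiv.ofBijective ev hev)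
  have h5 : Nat.card ((subC φ 1 M).range.comap ev) = Nat.card (subC φ 1 M).range := by
    refine Nat.card_congr (Equiv.ofBijective (fun x => (⟨ev x.1, x.2⟩ : (subC φ 1 M).range)) ⟨?_, ?_⟩)
    · intro a b hab
      exact Subtype.ext (hev.1 (congrArg (fun t : (subC φ 1 M).range => t.1) hab))
    · rintro ⟨y, hy⟩
      obtain ⟨x, rfl⟩ := hev.2 y
      exact ⟨⟨x, hy⟩, rfl⟩
  rw [h4, h5, card_ker_range (subC φ 1 M), mul_comm] at h3
  have : 0 < Nat.card (subC φ 1 M).range := Nat.card_pos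
  exact (Nat.eq_of_mul_eq_mul_left this h3).symm

theorem fp_zero (kM : ∀ m : M, p • m = 0) {m : M} (h : ∀ χ : M →+ ZMod p, χ m = 0) : m = 0 := by
  by_contra hm
  obtain ⟨χ, -, h1⟩ := fp_sep kM ⊥ (y := m) (by simpa using hm)
  exact h1 (h χ)

/-- a cocycle vanishing at the tame generator vanishes on inertia -/
theorem TameAt.zero {c : ℕ} {g₀ : D} (t : TameAt L I φ p c g₀) (kM : ∀ m : M, p • m = 0)
    (hI : ∀ i ∈ I, ∀ m : M, i • m = m) (z : Z1 L M) (hz : z.1 g₀ = 0) : ∀ i ∈ I, z.1 i = 0 := by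
  intro i hi
  refine fp_zero kM fun χ => ?_
  refine t.inj (fun g => χ (z.1 g)) (fun g h => ?_) ?_ ?_ ⟨i, hi⟩
  · change χ (z.1 (g * h : D)) = _
    rw [z.2.2, hI g g.2, map_add]
  · exact (z.2.1.precomp (L.cont_subtype I)).comp χ
  · change χ (z.1 g₀) = 0
    rw [hz, map_zero]

theorem coc_conj (hI : ∀ i ∈ I, ∀ m : M, i • m = m) (z : Z1 L M) (g i : D) (hi : i ∈ I) :
    z.1 (g * i * g⁻¹) = g • z.1 i := by
  have h1 := z.2.2 g g⁻¹
  rw [mul_inv_cancel, Z1.map_one] at h1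
  rw [z.2.2 (g * i), z.2.2, mul_smul, hI i hi]
  have h2 : g • z.1 g⁻¹ = -z.1 g := eq_neg_of_add_eq_zero_right h1.symm
  rw [h2]
  abel

theorem TameAt.conj' {c : ℕ} {g₀ : D} (t : TameAt L I φ p c g₀) (hn : I.Normal)
    (kM : ∀ m : M, p • m = 0)
    (hI : ∀ i ∈ I, ∀ m : M, i • m = m) (z : Z1 L M) : φ • z.1 g₀ = c • z.1 g₀ := by
  rw [← coc_conj hI z φ g₀ t.mem, ← sub_eq_zero]
  refine fp_zero kM fun χ => ?_
  rw [map_sub, map_nsmul, sub_eq_zero]
  have := t.conj (fun g => χ (z.1 g)) (fun g h => by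
    change χ (z.1 (g * h : D)) = _
    rw [z.2.2, hI g g.2, map_add]) ((z.2.1.precomp (L.cont_subtype I)).comp χ)
    (hn.conj_mem _ t.mem φ)
  rw [nsmul_eq_mul]
  exact this

theorem card_H1_le {c : ℕ} {g₀ : D} (t : TameAt L I φ p c g₀) (hn : I.Normal) [Finite M]
    (kM : ∀ m : M, p • m = 0) (hI : ∀ i ∈ I, ∀ m : M, i • m = m) [Finite (H1 L M)] :
    Nat.card (H1 L M) ≤ Nat.card (HUr L I M) * Nat.card (subC φ c M).ker := by
  let ρ : H1 L M →+ M := QuotientAddGroup.lift (B1 L M)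
    { toFun := fun z => z.1 g₀
      map_zero' := rfl
      map_add' := fun _ _ => rfl } (by
        rintro z ⟨a, ha⟩
        change z.1 g₀ = 0
        rw [ha, hI g₀ t.mem, sub_self])
  have hρ : ∀ z : Z1 L M, ρ (H1.mk L M z) = z.1 g₀ := fun z => rfl
  have h1 : ρ.ker = HUr L I M := by
    ext x
    obtain ⟨z, rfl⟩ := H1.mk_surjective x
    constructor
    · intro hz
      exact ⟨z, rfl, t.zero kM hI z hz⟩
    · intro hz
      exact (mk_mem_HUr hI).mp hz g₀ t.mem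
  have h2 : ρ.range ≤ (subC φ c M).ker := by
    rintro _ ⟨x, rfl⟩
    obtain ⟨z, rfl⟩ := H1.mk_surjective x
    change φ • z.1 g₀ - c • z.1 g₀ = 0
    rw [t.conj' hn kM hI z, sub_self]
  rw [card_ker_range ρ, h1]
  exact Nat.mul_le_mul_left _ (Nat.card_le_card_of_injective
    (AddSubgroup.inclusion h2) (AddSubgroup.inclusion_injective _))

variable {A B T : Type*} [AddCommGroup A] [AddCommGroup B] [AddCommGroup T]
  [DistribMulAction D A] [DistribMulAction D B] [DistribMulAction D T]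
  {e : A →+ B →+ T} (he : EqPair D e)

theorem card_subC {c : ℕ} (he : EqPair D e) (τ : T ≃+ ZMod p) [Finite A] [Finite B]
    (kA : ∀ a : A, p • a = 0)
    (kB : ∀ b : B, p • b = 0) (hl : ∀ a, (∀ b, e a b = 0) → a = 0)
    (hr : ∀ b, (∀ a, e a b = 0) → b = 0) (hT : ∀ t : T, φ • t = c • t) :
    Nat.card (subC φ c A).ker = Nat.card (subC φ 1 B).ker := by
  let e' : B →+ A →+ ZMod p := (e.compr₂ τ.toAddMonoidHom).flip
  have h1 := card_perp kB kA e' (fun a ha => hl a fun b => τ.injective (by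
    rw [map_zero]; exact ha b)) (subC φ c A).range
  have h2 : perp e' (subC φ c A).range = (subC φ 1 B).ker := by
    ext b
    have key : ∀ a, e (subC φ c A a) b = 0 ↔ e (φ • a) (φ • b - b) = 0 := by
      intro a
      rw [subC_apply, map_sub, map_nsmul, AddMonoidHom.sub_apply, AddMonoidHom.nsmul_apply,
        map_sub, he, ← hT, ← he]
      constructor
      · intro h
        rw [sub_eq_zero] at h ⊢
        exact h.symm
      · intro h
        rw [sub_eq_zero] at h ⊢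
        exact h.symm
    constructor
    · intro hb
      change φ • b - 1 • b = 0
      rw [one_smul]
      refine hr _ fun a => ?_
      have h3 := (key (φ⁻¹ • a)).mp (τ.injective (by
        rw [map_zero]; exact hb _ ⟨φ⁻¹ • a, rfl⟩))
      rwa [smul_inv_smul] at h3
    · rintro hb _ ⟨a, rfl⟩
      have hb' : φ • b - 1 • b = 0 := hb
      rw [one_smul] at hb'
      change τ (e (subC φ c A a) b) = 0
      rw [(key a).mpr (by rw [hb', map_zero]), map_zero]
  rw [h2] at h1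
  have h3 : Nat.card B = Nat.card A := (fpT_perfect τ kA kB e hl hr).2.2.symm
  rw [h3, card_ker_range (subC φ c A)] at h1
  exact (Nat.eq_of_mul_eq_mul_right Nat.card_pos h1).symm

/-- unramified classes are orthogonal -/
theorem cup_ur (P : Procyc L I φ) (smB : L.Smooth B) (smT : L.Smooth T) [Finite T]
    (kT : ∀ t : T, p • t = 0) (hI : ∀ i ∈ I, ∀ t : T, i • t = t)
    (hIB : ∀ i ∈ I, ∀ t : B, i • t = t) (x : H1 L A)
    (y : H1 L B) (hx : x ∈ HUr L I A) (hy : y ∈ HUr L I B) : cup11 e he smB x y = 0 := by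
  have hp : p.Prime := Fact.out
  obtain ⟨x, rfl, hx⟩ := hx
  obtain ⟨y, rfl, hy⟩ := hy
  rw [cup11_mk]
  obtain ⟨ψ, h1, -, h2⟩ := P.ur2 hp.pos kT smT hI (cupZ e he smB x y) (fun g h i hi j hj => by
    change e (x.1 (g * i)) ((g * i) • y.1 (h * j)) = e (x.1 g) (g • y.1 h)
    rw [x.2.2, hx i hi, smul_zero, add_zero, y.2.2, hy j hj, smul_zero, add_zero, mul_smul,
      hIB i hi])
  exact H2.mk_eq_zero.mpr ⟨ψ, h1, h2⟩

end

namespace GLD

variable {p : ℕ} [Fact p.Prime] {G : Type} [Group G] {T : Type} [AddCommGroup T]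
  [DistribMulAction G T]

variable {𝒢 : GLD p G T} {𝓛₀ : Lev G} {N : Subgroup G} {V₀ : Type} {ι : V₀ → 𝒢.V}
  {I : ∀ v, Subgroup (𝒢.D v)} (Δ : DIn 𝒢 𝓛₀ N ι I)

/-- tameness outside `ι` -/
def TameOut (𝒢 : GLD p G T) {V₀ : Type} (ι : V₀ → 𝒢.V) (I : ∀ v, Subgroup (𝒢.D v)) : Prop :=
  ∀ v ∉ Set.range ι, ∃ (φ : 𝒢.D v) (c : ℕ) (g₀ : 𝒢.D v), Procyc (𝒢.L v) (I v) φ ∧
    TameAt (𝒢.L v) (I v) φ p c g₀ ∧ ∀ t : T, φ • t = c • t

include Δ in
theorem DIn.perpUr (ht : TameOut 𝒢 ι I) (smT : 𝓛₀.Smooth T) {M M' : Type} [AddCommGroup M]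
    [AddCommGroup M'] [DistribMulAction G M] [DistribMulAction G M'] {e : M →+ M' →+ T}
    (h : Pr p 𝓛₀ e) : PerpUr 𝒢 ι I (h.coarse Δ.c) := by
  intro v hv
  obtain ⟨φ, c, g₀, P, t, hT⟩ := ht v hv
  have h' := h.coarse Δ.c
  have := h.fA
  have := h.fB
  have fT : Finite T := Finite.of_equiv _ 𝒢.τ.symm.toEquiv
  have f1 := 𝒢.fin1A h' v
  have f2 := 𝒢.fin1B h' v
  have hIM := fun i hi m => Δ.trivI h.smA hv i hi m
  have hIM' := fun i hi m => Δ.trivI h.smB hv i hi m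
  have hIT := fun i hi m => Δ.trivI smT hv i hi m
  -- the annihilator of the unramified classes
  let b : H1 (𝒢.L v) M' →+ H1 (𝒢.L v) M →+ ZMod p := (𝒢.b11 h' v).flip
  have hld := 𝒢.ld v M M' e h'
  have h1 := card_perp (H1_killed h.kB) (H1_killed h.kA) b (fun y hy => hld.a1 _ fun x =>
    (𝒢.inv v).injective (by rw [map_zero]; exact hy x)) (HUr (𝒢.L v) (I v) M)
  have h2 : HUr (𝒢.L v) (I v) M' ≤ perp b (HUr (𝒢.L v) (I v) M) := by
    intro y hy x hx
    change 𝒢.inv v (cup11 e _ _ x y) = 0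
    rw [cup_ur (h'.he.sub (𝒢.D v)) P (smooth_loc (𝒢.cont v) h'.smB)
      (smooth_loc (𝒢.cont v) (Δ.c.smooth smT)) (killedT 𝒢.τ) hIT hIM' x y hx hy, map_zero]
  have h3 := card_H1_le (M := M) t P.nor h.kA hIM
  rw [card_subC (h'.he.sub (𝒢.D v)) 𝒢.τ h.kA h.kB h.hl h.hr hT,
    ← card_HUr P h.kB (smooth_loc (𝒢.cont v) h'.smB) hIM'] at h3
  have h4 : Nat.card (H1 (𝒢.L v) M) = Nat.card (H1 (𝒢.L v) M') :=
    (𝒢.ld v M M' e h').card11 h.kA h.kB (𝒢.inv v)
  rw [h4, ← h1, mul_comm (Nat.card (HUr (𝒢.L v) (I v) M))] at h3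
  have h5 : Nat.card (perp b (HUr (𝒢.L v) (I v) M)) ≤ Nat.card (HUr (𝒢.L v) (I v) M') :=
    Nat.le_of_mul_le_mul_right h3 Nat.card_pos
  have h6 := AddSubgroup.eq_of_le_of_card_ge h2 h5
  intro y
  rw [h6]
  rfl

end GLD

end

end Fermat.Agent.CC
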