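import Fermat.Agent.CC.Desc5
set_option autoImplicit false
set_option maxHeartbeats 400000

/-!
# Induction of equivariant homomorphisms
-/

namespace Fermat.Agent.CC

noncomputable section

variable {G : Type*} [Group G] {𝓛 : Lev G} {N U : Subgroup G} {M : Type*} [AddCommGroup M]
  [DistribMulAction G M]

/-- `U`-equivariant level homomorphisms on `N` -/
structure EqHomOn (𝓛 : Lev G) (N U : Subgroup G) (F : G → M) : Prop where
  add : ∀ n ∈ N, ∀ m ∈ N, F (n * m) = F n + F m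
  conj : ∀ g ∈ U, ∀ n ∈ N, F (g * n * g⁻¹) = g • F n
  lev : ∃ W, 𝓛.isOpen W ∧ ∀ n ∈ N, n ∈ W → F n = 0

/-- induction -/
theorem EqHomOn.ind (hN : N.Normal) [Finite (G ⧸ U)] {F : G → M} (h : EqHomOn 𝓛 N U F) :
    ∃ f : G → M, EqHom 𝓛 N f ∧ (∀ n ∈ N, (∀ g ∉ U, F (g⁻¹ * n * g) = 0) → f n = F n) ∧
      ∀ n ∈ N, (∀ g, F (g⁻¹ * n * g) = 0) → f n = 0 := by
  classical
  have := Fintype.ofFinite (G ⧸ U)
  let Φ : G → G ⧸ U → M := fun n x => x.out • F (x.out⁻¹ * n * x.out)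
  have hconj : ∀ g, ∀ n ∈ N, g⁻¹ * n * g ∈ N := fun g n hn => by
    have := hN.conj_mem n hn g⁻¹
    rwa [inv_inv] at this
  have hΦ : ∀ n ∈ N, ∀ g : G, Φ n (QuotientGroup.mk g) = g • F (g⁻¹ * n * g) := by
    intro n hn g
    obtain ⟨s, hs⟩ := QuotientGroup.mk_out_eq_mul U g
    change (Quotient.out (QuotientGroup.mk g : G ⧸ U)) • F _ = _
    rw [hs]
    have e1 : (g * s : G)⁻¹ * n * (g * s) = (s : G)⁻¹ * (g⁻¹ * n * g) * (s : G)⁻¹⁻¹ := by group
    rw [e1, h.conj _ (inv_mem s.2) _ (hconj g n hn), mul_smul, smul_inv_smul]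
  let f : G → M := fun n => ∑ x, Φ n x
  have hadd : ∀ n ∈ N, ∀ m ∈ N, ∀ x, Φ (n * m) x = Φ n x + Φ m x := by
    intro n hn m hm x
    obtain ⟨g, rfl⟩ := QuotientGroup.mk_surjective x
    rw [hΦ _ (mul_mem hn hm), hΦ _ hn, hΦ _ hm]
    have e1 : g⁻¹ * (n * m) * g = (g⁻¹ * n * g) * (g⁻¹ * m * g) := by group
    rw [e1, h.add _ (hconj g n hn) _ (hconj g m hm), smul_add]
  have hcj : ∀ g, ∀ n ∈ N, ∀ x : G ⧸ U, Φ (g * n * g⁻¹) (g • x) = g • Φ n x := by
    intro g n hn x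
    obtain ⟨y, rfl⟩ := QuotientGroup.mk_surjective x
    change Φ (g * n * g⁻¹) (QuotientGroup.mk (g * y)) = _
    rw [hΦ _ (hN.conj_mem n hn g), hΦ n hn, mul_smul]
    have e1 : (g * y)⁻¹ * (g * n * g⁻¹) * (g * y) = y⁻¹ * n * y := by group
    rw [e1]
  refine ⟨f, ⟨fun n hn m hm => ?_, fun g n hn => ?_, ?_⟩, fun n hn h1 => ?_, fun n hn h1 => ?_⟩
  · change ∑ x, _ = ∑ x, _ + ∑ x, _
    rw [← Finset.sum_add_distrib]
    exact Finset.sum_congr rfl fun x _ => hadd n hn m hm x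
  · change ∑ x, _ = g • ∑ x, _
    rw [Finset.smul_sum]
    refine (Finset.sum_bijective (fun x => g • x) (MulAction.bijective g)
      (fun x => by simp) fun x _ => ?_).symm
    exact (hcj g n hn x).symm
  · obtain ⟨W, hW, h2⟩ := h.lev
    obtain ⟨W', hn', hW', hWW⟩ := 𝓛.nor W hW
    refine ⟨W', hW', fun n hn hnW => Finset.sum_eq_zero fun x _ => ?_⟩
    obtain ⟨g, rfl⟩ := QuotientGroup.mk_surjective x
    rw [hΦ n hn]
    have e1 : g⁻¹ * n * g ∈ W' := by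
      have := hn'.conj_mem n hnW g⁻¹
      rwa [inv_inv] at this
    rw [h2 _ (hconj g n hn) (hWW e1), smul_zero]
  · change ∑ x, _ = _
    rw [Finset.sum_eq_single (QuotientGroup.mk (1 : G) : G ⧸ U)]
    · rw [hΦ n hn, inv_one, one_mul, mul_one, one_smul]
    · intro x _ hx
      obtain ⟨g, rfl⟩ := QuotientGroup.mk_surjective x
      rw [hΦ n hn, h1 g, smul_zero]
      intro hg
      apply hx
      rw [QuotientGroup.eq, mul_one]
      exact inv_mem hg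
    · intro h; exact absurd (Finset.mem_univ _) h
  · refine Finset.sum_eq_zero fun x _ => ?_
    obtain ⟨g, rfl⟩ := QuotientGroup.mk_surjective x
    rw [hΦ n hn, h1 g, smul_zero]

end

end Fermat.Agent.CC
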