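import Fermat.Agent.CC.LocUnr
set_option autoImplicit false
set_option maxHeartbeats 400000

/-!
# The class `κ_a ∪ χ` and unramified norms
-/

noncomputable section

namespace Fermat.Agent.CC

open Fermat.Agent.LF (DK ZK mem_ZK mem_of_fixed DK_mono)
open Fermat.Agent.TW (NVal Bl Bs)
open Fermat.Agent.L00.Unr (nrm)
open scoped Pointwise

section KC

variable {G : Type*} [Group G] {𝓛 : Lev G} {p : ℕ} [Fact p.Prime] {M : Type*} [AddCommGroup M]
  [DistribMulAction G M] (sm : 𝓛.Smooth M) (hdiv : ∀ m : M, ∃ m', p • m' = m)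
  (χ : G → ZMod p) (hχ : ∀ g h, χ (g * h) = χ g + χ h) (hc : 𝓛.Const1 χ)

/-- the class `κ_a ∪ χ` -/
def kc : H0 G M →+ H2 𝓛 (TorP p M) :=
  ((cup11 (scPair (TorP.killed (p := p) (M := M))) (scPair_eq (TorP.killed (p := p) (M := M)))
    (Fp.smooth 𝓛)).flip (H1.mk 𝓛 _ (chiZ χ hχ hc))).comp (kap sm hdiv)

theorem kc_apply (a : H0 G M) : kc sm hdiv χ hχ hc a =
    cup11 (scPair (TorP.killed (p := p) (M := M))) (scPair_eq (TorP.killed (p := p) (M := M)))
      (Fp.smooth 𝓛) (kap sm hdiv a) (H1.mk 𝓛 _ (chiZ χ hχ hc)) := rfl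

/-- cocycle formula -/
theorem kc_mk {a : H0 G M} {b : M} (hb : p • b = a) {f : Z1 𝓛 (TorP p M)}
    (hf : ∀ g, (TorP.incl p M) (f.1 g) = g • b - b) :
    kc sm hdiv χ hχ hc a = H2.mk 𝓛 _ (cupZ (scPair (TorP.killed (p := p) (M := M)))
      (scPair_eq (TorP.killed (p := p) (M := M))) (Fp.smooth 𝓛) f (chiZ χ hχ hc)) := by
  rw [kc_apply, kap_eq sm hdiv hb hf, cup11_mk]

theorem kc_add_chi (χ' : G → ZMod p) (hχ' : ∀ g h, χ' (g * h) = χ' g + χ' h) (hc' : 𝓛.Const1 χ')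
    (hs : ∀ g h, (χ + χ') (g * h) = (χ + χ') g + (χ + χ') h) (hcs : 𝓛.Const1 (χ + χ'))
    (a : H0 G M) :
    kc sm hdiv (χ + χ') hs hcs a = kc sm hdiv χ hχ hc a + kc sm hdiv χ' hχ' hc' a := by
  rw [kc_apply, kc_apply, kc_apply, ← map_add]
  congr 1

theorem kc_nsmul_chi (n : ℕ) (hs : ∀ g h, (n • χ) (g * h) = (n • χ) g + (n • χ) h)
    (hcs : 𝓛.Const1 (n • χ)) (a : H0 G M) :
    kc sm hdiv (n • χ) hs hcs a = n • kc sm hdiv χ hχ hc a := by
  rw [kc_apply, kc_apply, ← map_nsmul, ← map_nsmul]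
  congr 1

/-- restriction of `κ_a ∪ χ` -/
theorem kc_res (H : Subgroup G) (a : H0 G M) (a' : H0 H M) (ha : (a' : M) = a)
    (hs : ∀ g h : H, (χ ∘ (Subtype.val : H → G)) (g * h) = (χ ∘ Subtype.val) g + (χ ∘ Subtype.val) h)
    (hcs : (𝓛.sub H).Const1 (χ ∘ (Subtype.val : H → G))) :
    resH2 𝓛 H _ (kc sm hdiv χ hχ hc a) =
      kc (smooth_sub sm) hdiv (χ ∘ (Subtype.val : H → G)) hs hcs a' := by
  obtain ⟨b, f, hb, hf, -⟩ := exists_kap sm hdiv a
  rw [kc_mk sm hdiv χ hχ hc hb hf]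
  let f' : Z1 (𝓛.sub H) (TorP p M) := Z1map H.subtype (𝓛.cont_subtype H) (AddMonoidHom.id _)
    (fun _ _ => rfl) f
  rw [kc_mk (smooth_sub sm) hdiv (χ ∘ (Subtype.val : H → G)) hs hcs (a := a') (b := b) (f := f')
    (by rw [ha, hb]) (fun g => hf g)]
  rfl

variable (t : G) (ht : χ t = 1)

include ht in
theorem kc_eq_zero_iff [Finite (G ⧸ chiKer χ hχ)] (h1 : ∀ z : H1 𝓛 M, z = 0)
    (h1' : ∀ z : H1 (𝓛.sub (chiKer χ hχ)) M, z = 0) (a : H0 G M) :
    kc sm hdiv χ hχ hc a = 0 ↔ a ∈ (cores0h (chiKer χ hχ) M).range :=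
  cup_kap_eq_zero_iff sm hdiv χ hχ hc t ht h1 h1' a

include ht in
theorem exists_kc (h1 : ∀ z : H1 𝓛 M, z = 0)
    (h1' : ∀ z : H1 (𝓛.sub (chiKer χ hχ)) M, z = 0) (x : H2 𝓛 (TorP p M))
    (hx : resH2 𝓛 (chiKer χ hχ) _ x = 0) : ∃ a : H0 G M, x = kc sm hdiv χ hχ hc a :=
  exists_cup_kap sm hdiv χ hχ hc t ht h1 h1' x hx

end KC

section Unr

variable {A : ValuationSubring Qb} {q p : ℕ} [Fact p.Prime] {K : IntermediateField ℚ Qb}
  {G : Type} [Group G] [MulSemiringAction G Qb] {𝓛 : Lev G} {φ : G →* GQ}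
  (h : Act (DK A K) G 𝓛 φ)
  (χ : G → ZMod p) (hχ : ∀ g h, χ (g * h) = χ g + χ h)

include h in
theorem Act.w_smul {w : Qb → ℝ} (hw : NVal A q w) (g : G) (x : Qb) : w (φ g x) = w x := by
  have h1 : φ g ∈ DK A K := by rw [← h.range]; exact ⟨g, rfl⟩
  exact hw.w_smul h1.1 x

theorem w_prod' {w : Qb → ℝ} (hw : NVal A q w) {ι : Type*} (s : Finset ι) (f : ι → Qb)
    (hf : ∀ i ∈ s, f i ≠ 0) : w (∏ i ∈ s, f i) = ∑ i ∈ s, w (f i) := by
  classical
  induction s using Finset.induction_on with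
  | empty => rw [Finset.prod_empty, Finset.sum_empty]; exact hw.log.one
  | insert a s ha ih =>
    rw [Finset.prod_insert ha, Finset.sum_insert ha,
      hw.log.map_mul _ _ (hf a (Finset.mem_insert_self _ _))
        (Finset.prod_ne_zero_iff.mpr fun i hi => hf i (Finset.mem_insert_of_mem hi)),
      ih fun i hi => hf i (Finset.mem_insert_of_mem hi)]

include h in
/-- valuations of norms from an unramified extension -/
theorem unr_val (t : G) (ht : χ t = 1) [Finite (G ⧸ chiKer χ hχ)] {w : Qb → ℝ} (hw : NVal A q w)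
    {ϖ : Qb} (hϖ : IsUnif A K w ϖ) (hI : ∀ g, φ g ∈ IK A K → χ g = 0)
    (b : H0 (chiKer χ hχ) (UL Qb)) :
    ∃ n : ℤ, w (cores0 (G := G) b : UL Qb).val = (p * n : ℤ) * w ϖ := by
  have hfix : ∀ σ ∈ IK A K, σ b.1.val = b.1.val := by
    intro σ hσ
    have h1 : σ ∈ DK A K := IK_le_DK A K hσ
    rw [← h.range] at h1
    obtain ⟨g, rfl⟩ := h1
    have h2 := congrArg UL.val (b.2 ⟨g, hI g hσ⟩)
    rw [← h.act]
    exact h2
  obtain ⟨n, hn⟩ := hϖ.2.2.2 _ b.1.val_ne_zero hfix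
  refine ⟨n, ?_⟩
  rw [cores0_eq χ hχ t ht, UL.val_sum, w_prod' hw _ _ fun i _ => UL.val_ne_zero _]
  have h3 : ∀ i ∈ Finset.range p, w (t ^ i • (b : UL Qb)).val = n * w ϖ := by
    intro i _
    rw [UL.val_smul, h.act, h.w_smul hw, hn]
  rw [Finset.sum_congr rfl h3, Finset.sum_const, Finset.card_range, nsmul_eq_mul]
  push_cast
  ring

/-- elements with valuation divisible by `p` -/
def valSub {w : Qb → ℝ} (hw : NVal A q w) (p : ℕ) (ϖ : Qb) (G : Type) [Group G] [MulSemiringAction G Qb] :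
    AddSubgroup (H0 G (UL Qb)) where
  carrier := {a | ∃ n : ℤ, w a.1.val = (p * n : ℤ) * w ϖ}
  zero_mem' := ⟨0, by
    change w (1 : Qb) = _
    rw [hw.log.one]; simp⟩
  add_mem' := by
    rintro a b ⟨m, hm⟩ ⟨n, hn⟩
    refine ⟨m + n, ?_⟩
    change w (a.1.val * b.1.val) = _
    rw [hw.log.map_mul _ _ a.1.val_ne_zero b.1.val_ne_zero, hm, hn]
    push_cast
    ring
  neg_mem' := by
    rintro a ⟨m, hm⟩
    refine ⟨-m, ?_⟩
    change w (-a.1 : UL Qb).val = _
    rw [UL.val_neg, L00.LKum.w_inv hw a.1.val_ne_zero, hm]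
    push_cast
    ring

include h in
/-- norms from the unramified extension, in presence of roots of unity -/
theorem unr_norm (hLe : NormIndexLe p) (hGe : NormIndexGe p) (hq : q.Prime)
    (hA : A.LiesOverPrime q) (hc : 𝓛.Const1 χ)
    (hK : FiniteDimensional ℚ K) (hζ : ∃ ζ ∈ K, IsPrimitiveRoot ζ p) (t : G) (ht : χ t = 1)
    [Finite (G ⧸ chiKer χ hχ)] {w : Qb → ℝ} (hw : NVal A q w)
    {ϖ : Qb} (hϖ : IsUnif A K w ϖ) (hI : ∀ g, φ g ∈ IK A K → χ g = 0)
    (a : H0 G (UL Qb)) (n : ℤ) (hn : w a.1.val = (p * n : ℤ) * w ϖ) :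
    a ∈ (cores0h (chiKer χ hχ) (UL Qb)).range := by
  have hp : p.Prime := Fact.out
  have hidx : (cores0h (chiKer χ hχ) (UL Qb)).range.index = p :=
    (locLCF hq hA hLe hGe).norm G 𝓛 ⟨inferInstance, K, φ, hK, hζ, h, rfl⟩ χ hχ hc t ht
  have hle : (cores0h (chiKer χ hχ) (UL Qb)).range ≤ valSub hw p ϖ G := by
    rintro _ ⟨b, rfl⟩
    exact unr_val h χ hχ t ht hw hϖ hI b
  have hϖ0 : UL.mk ϖ hϖ.2.1 ∈ H0 G (UL Qb) := by
    rw [h.mem_H0]
    intro σ hσ
    exact (IntermediateField.mem_fixingSubgroup_iff K σ).mp hσ.2 ϖ hϖ.1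
  have hne : valSub hw p ϖ G ≠ ⊤ := by
    intro htop
    have h1 : (⟨UL.mk ϖ hϖ.2.1, hϖ0⟩ : H0 G (UL Qb)) ∈ valSub hw p ϖ G := by rw [htop]; trivial
    obtain ⟨m, hm⟩ := h1
    change w ϖ = _ at hm
    have h2 : ((p * m : ℤ) : ℝ) = 1 := by
      have := hϖ.2.2.1
      field_simp at hm
      linarith
    have h3 : (p : ℤ) * m = 1 := by exact_mod_cast h2
    have h4 : (p : ℤ) ∣ 1 := ⟨m, h3.symm⟩
    exact hp.one_lt.ne' (by exact_mod_cast Int.eq_one_of_dvd_one (by positivity) h4)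
  have h5 := AddSubgroup.relIndex_mul_index hle
  rw [hidx] at h5
  have h6 : (valSub hw p ϖ G).index ≠ 1 := fun h1 => hne (AddSubgroup.index_eq_one.mp h1)
  have h7 : (valSub hw p ϖ G).index = p := ((Nat.dvd_prime hp).mp ⟨_, (mul_comm _ _).trans h5 |>.symm⟩).resolve_left h6
  rw [h7] at h5
  have h8 : (cores0h (chiKer χ hχ) (UL Qb)).range.relIndex (valSub hw p ϖ G) = 1 := by
    have h9 : (cores0h (chiKer χ hχ) (UL Qb)).range.relIndex (valSub hw p ϖ G) * p = 1 * p := by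
      rw [h5, one_mul]
    exact Nat.eq_of_mul_eq_mul_right hp.pos h9
  exact AddSubgroup.relIndex_eq_one.mp h8 ⟨n, hn⟩

end Unr

/-- generalised heredity: the field can be chosen to contain a given field fixed by `H` -/
theorem Act.exists_DK' {U : Subgroup GQ} {G : Type} [Group G] [MulSemiringAction G Qb] {𝓛 : Lev G}
    {φ : G →* GQ} (h : Act U G 𝓛 φ) {A : ValuationSubring Qb} {K : IntermediateField ℚ Qb}
    (hU : U = DK A K) (hK : FiniteDimensional ℚ K) (H : Subgroup G) (hH : 𝓛.isOpen H)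
    (E : IntermediateField ℚ Qb) (hE : FiniteDimensional ℚ E) (hHE : H.map φ ≤ E.fixingSubgroup) :
    ∃ K' : IntermediateField ℚ Qb, FiniteDimensional ℚ K' ∧ K ≤ K' ∧ E ≤ K' ∧ H.map φ = DK A K' := by
  obtain ⟨K', hK', hKK, hHK⟩ := h.exists_DK hU hK H hH
  have h1 : FiniteDimensional ℚ (K' ⊔ E : IntermediateField ℚ Qb) := inferInstance
  refine ⟨K' ⊔ E, h1, hKK.trans le_sup_left, le_sup_right, ?_⟩
  apply le_antisymm
  · refine le_inf ?_ ?_
    · rw [hHK]; exact inf_le_left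
    · rw [IntermediateField.fixingSubgroup_sup]
      refine le_inf ?_ hHE
      rw [hHK]; exact inf_le_right
  · rw [hHK]; exact DK_mono le_sup_left

/-- `μ_p` has order `p` -/
theorem card_torP (p : ℕ) [Fact p.Prime] : Nat.card (TorP p (UL Qb)) = p := by
  have hp : p.Prime := Fact.out
  have : NeZero p := ⟨hp.ne_zero⟩
  have : NeZero (p : Qb) := ⟨Nat.cast_ne_zero.mpr hp.ne_zero⟩
  obtain ⟨ζ, hζ⟩ := HasEnoughRootsOfUnity.exists_primitiveRoot Qb p
  refine Eq.trans (Nat.card_congr ?_) hζ.card_rootsOfUnity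
  exact
    { toFun := fun x => ⟨Additive.toMul (α := Qbˣ) (TorP.incl p _ x), by
        have h1 : p • (TorP.incl p (UL Qb) x) = 0 := TorP.incl_mem x
        rw [mem_rootsOfUnity]
        exact congrArg (Additive.toMul (α := Qbˣ)) h1⟩
      invFun := fun u => TorP.mk (M := UL Qb) (Additive.ofMul u.1) (by
        have := u.2
        rw [mem_rootsOfUnity] at this
        exact congrArg (Additive.ofMul (α := Qbˣ)) this)
      left_inv := fun x => rfl
      right_inv := fun u => rfl }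

/-- a fixed identification `μ_p ≃ ZMod p` -/
def tauT (p : ℕ) [Fact p.Prime] : TorP p (UL Qb) ≃+ ZMod p :=
  (nonempty_equiv_of_card (card_torP p)).some

/-- the chosen root of unity -/
def zetaT (p : ℕ) [Fact p.Prime] : Qb := (TorP.incl p (UL Qb) ((tauT p).symm 1)).val

theorem zetaT_prim (p : ℕ) [Fact p.Prime] : IsPrimitiveRoot (zetaT p) p := by
  have hp : p.Prime := Fact.out
  rw [IsPrimitiveRoot.iff_orderOf, orderOf_eq_prime_iff]
  constructor
  · have h1 : p • (TorP.incl p (UL Qb) ((tauT p).symm 1)) = 0 := TorP.incl_mem _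
    have h2 := congrArg UL.val h1
    rwa [UL.val_nsmul, UL.val_zero] at h2
  · intro h1
    have h2 : TorP.incl p (UL Qb) ((tauT p).symm 1) = 0 := UL.ext h1
    have h3 : (tauT p).symm 1 = 0 := TorP.incl_injective (by rw [h2, map_zero])
    rw [EmbeddingLike.map_eq_zero_iff] at h3
    exact one_ne_zero h3

/-- a subgroup of index prime to `p` acting trivially on `μ_p` -/
theorem Act.exists_cop {U : Subgroup GQ} {G : Type} [Group G] [MulSemiringAction G Qb] {𝓛 : Lev G}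
    {φ : G →* GQ} (h : Act U G 𝓛 φ) (p : ℕ) [Fact p.Prime] : ∃ H : Subgroup G, 𝓛.isOpen H ∧
      (Nat.card (G ⧸ H)).Coprime p ∧ ∀ s ∈ H, φ s (zetaT p) = zetaT p := by
  have smT : 𝓛.Smooth (TorP p (UL Qb)) := TorP.smooth h.smooth
  have hT : Finite (TorP p (UL Qb)) := Finite.of_equiv _ (tauT p).symm.toEquiv
  obtain ⟨U', hU', hUt⟩ := smT.finite (Set.toFinite (Set.univ : Set (TorP p (UL Qb))))
  obtain ⟨N, hNn, hN, hNU⟩ := 𝓛.nor U' hU'
  have := 𝓛.fin N hN
  obtain ⟨H, n, hNH, hidx, hrel⟩ := exists_sylow_level (p := p) N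
  refine ⟨H, 𝓛.mono _ _ hN hNH, hidx, ?_⟩
  have htriv : ∀ s ∈ H, ∀ t : TorP p (UL Qb), s • t = t := by
    intro s hs
    refine triv_of_pow (tauT p) s n (fun t => ?_)
    refine hUt t trivial _ (hNU ?_)
    have h1 := (N.subgroupOf H).pow_index_mem ⟨s, hs⟩
    have h2 : (N.subgroupOf H).index = p ^ n := hrel
    rw [h2] at h1
    exact Subgroup.mem_subgroupOf.mp h1
  intro s hs
  have h3 := congrArg (fun t => (TorP.incl p (UL Qb) t).val) (htriv s hs ((tauT p).symm 1))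
  beta_reduce at h3
  rw [TorP.incl_smul, UL.val_smul, h.act] at h3
  exact h3

section Unr2

variable {A : ValuationSubring Qb} {q p : ℕ} [Fact p.Prime] {K : IntermediateField ℚ Qb}
  {G : Type} [Group G] [MulSemiringAction G Qb] {𝓛 : Lev G} {φ : G →* GQ}
  (h : Act (DK A K) G 𝓛 φ)
  (χ : G → ZMod p) (hχ : ∀ g h, χ (g * h) = χ g + χ h) (hc : 𝓛.Const1 χ)

/-- divisibility by `p` of the multiplicative group of `Qb` -/
theorem ULdiv (p : ℕ) [Fact p.Prime] (m : UL Qb) : ∃ m', p • m' = m :=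
  UL.divisible (Fact.out : p.Prime).ne_zero m

include h in
/-- unramified symbols of elements with valuation divisible by `p` vanish -/
theorem unr_kc_eq_zero (hLe : NormIndexLe p) (hGe : NormIndexGe p) (hq : q.Prime)
    (hA : A.LiesOverPrime q) (hK : FiniteDimensional ℚ K) {w : Qb → ℝ} (hw : NVal A q w)
    {ϖ : Qb} (hϖ : IsUnif A K w ϖ) (hI : ∀ g, φ g ∈ IK A K → χ g = 0)
    (a : H0 G (UL Qb)) (n : ℤ) (hn : w a.1.val = (p * n : ℤ) * w ϖ) :
    kc h.smooth (ULdiv p) χ hχ hc a = 0 := by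
  have hp : p.Prime := Fact.out
  by_cases h0 : ∃ g, χ g ≠ 0
  swap
  · push Not at h0
    rw [kc_apply]
    have h1 : H1.mk 𝓛 _ (chiZ χ hχ hc) = 0 := by
      rw [H1.mk_eq_zero]
      exact ⟨0, fun g => by
        change χ g = _
        rw [h0, smul_zero, sub_zero]; rfl⟩
    rw [h1, map_zero]
  obtain ⟨g₀, hg₀⟩ := h0
  -- the subgroup fixing the roots of unity
  obtain ⟨H, hH, hcop, hHζ⟩ := h.exists_cop p
  have hint : IsIntegral ℚ (zetaT p) := Algebra.IsIntegral.isIntegral _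
  have hEfd : FiniteDimensional ℚ (IntermediateField.adjoin ℚ {zetaT p}) :=
    IntermediateField.adjoin.finiteDimensional hint
  have hHE : H.map φ ≤ (IntermediateField.adjoin ℚ {zetaT p}).fixingSubgroup := by
    rintro _ ⟨s, hs, rfl⟩
    rw [IntermediateField.mem_fixingSubgroup_iff]
    intro x hx
    have h2 : IntermediateField.adjoin ℚ {zetaT p} ≤
        IntermediateField.fixedField (Subgroup.zpowers (φ s)) := by
      rw [IntermediateField.adjoin_simple_le_iff, IntermediateField.mem_fixedField_iff]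
      intro f hf
      obtain ⟨k, rfl⟩ := Subgroup.mem_zpowers_iff.mp hf
      have h3 : φ s ∈ MulAction.stabilizer GQ (zetaT p) := hHζ s hs
      exact (MulAction.stabilizer GQ (zetaT p)).zpow_mem h3 k
    have h4 := h2 hx
    rw [IntermediateField.mem_fixedField_iff] at h4
    exact h4 _ (Subgroup.mem_zpowers _)
  obtain ⟨K', hK', hKK, hEK, hHK⟩ := h.exists_DK' rfl hK H hH _ hEfd hHE
  have hAct' : Act (DK A K') H (𝓛.sub H) (φ.comp H.subtype) := by rw [← hHK]; exact h.sub H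
  -- a generator inside `H`
  have hHχ : ∃ s ∈ H, χ s ≠ 0 := by
    by_contra hcon
    push Not at hcon
    have hle : H ≤ chiKer χ hχ := fun s hs => hcon s hs
    have h5 : (chiKer χ hχ).index = p := by
      let ψ : G →* Multiplicative (ZMod p) :=
        { toFun := fun g => Multiplicative.ofAdd (χ g)
          map_one' := by rw [chi_one χ hχ]; rfl
          map_mul' := fun g g' => by rw [hχ]; rfl }
      have h6 : ψ.ker = chiKer χ hχ := by
        ext g
        rw [MonoidHom.mem_ker]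
        exact ofAdd_eq_one
      have h7 : Function.Surjective ψ := by
        intro y
        refine ⟨g₀ ^ ((Multiplicative.toAdd y) * (χ g₀)⁻¹).val, ?_⟩
        change Multiplicative.ofAdd (χ _) = y
        rw [chi_pow χ hχ]
        simp [hg₀]
      rw [← h6, Subgroup.index_ker, MonoidHom.range_eq_top.mpr h7,
        Nat.card_congr (Subgroup.topEquiv (G := Multiplicative (ZMod p))).toEquiv,
        Nat.card_congr Multiplicative.toAdd, Nat.card_zmod]
    have h8 : (chiKer χ hχ).index ∣ H.index := Subgroup.index_dvd_of_le hle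
    rw [h5] at h8
    have h9 : H.index.Coprime p := hcop
    exact hp.one_lt.ne' (Nat.eq_one_of_dvd_coprimes h9 h8 dvd_rfl)
  obtain ⟨s, hs, hχs⟩ := hHχ
  let χ' : H → ZMod p := χ ∘ Subtype.val
  have hχ' : ∀ g h : H, χ' (g * h) = χ' g + χ' h := fun g h => hχ g h
  have hc' : (𝓛.sub H).Const1 χ' := hc.precomp (𝓛.cont_subtype H)
  let t' : H := ⟨s, hs⟩ ^ ((χ s)⁻¹).val
  have ht' : χ' t' = 1 := by
    change χ' (⟨s, hs⟩ ^ ((χ s)⁻¹).val) = 1
    rw [chi_pow χ' hχ']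
    change (((χ s)⁻¹).val : ZMod p) * χ s = 1
    simp [hχs]
  have hfin' : Finite (H ⧸ chiKer χ' hχ') := by
    have := (𝓛.sub H).fin _ (chiKer_open χ' hχ' hc')
    infer_instance
  obtain ⟨ϖ', hϖ'⟩ := exists_isUnif hq hA hw K'
  have hIK : IK A K' ≤ IK A K := inf_le_inf_left _ (IntermediateField.fixingSubgroup_antitone hKK)
  obtain ⟨e, he⟩ := hϖ'.2.2.2 ϖ hϖ.2.1 (fun g hg =>
    (IntermediateField.mem_fixingSubgroup_iff K g).mp (hIK hg).2 ϖ hϖ.1)
  let a' : H0 H (UL Qb) := ⟨a, fun g => a.2 g⟩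
  have ha' := unr_norm hAct' χ' hχ' hLe hGe hq hA hc' hK'
    ⟨zetaT p, hEK (IntermediateField.mem_adjoin_simple_self ℚ _), zetaT_prim p⟩ t' ht' hw hϖ'
    (fun g hg => hI g (hIK hg)) a' (n * e) (by
      change w a.1.val = _
      rw [hn, he]; push_cast; ring)
  have hz : resH2 𝓛 H _ (kc h.smooth (ULdiv p) χ hχ hc a) = 0 := by
    rw [kc_res h.smooth (ULdiv p) χ hχ hc H a a' rfl hχ' hc']
    have h1 := (kc_eq_zero_iff hAct'.smooth (ULdiv p) χ' hχ' hc' t' ht' hAct'.h90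
      (hAct'.sub _).h90 a').mpr ha'
    exact h1
  exact resH2_injective hH (p := p) TorP.killed hcop (by rw [hz, map_zero])

end Unr2

end Fermat.Agent.CC
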