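import Fermat.Agent.LF.Dense
set_option autoImplicit false

/-!
# Interface of the local theory (statements only, as `Prop`s; no proofs)

`A : ValuationSubring Qb` lying over the prime `q`, `w` its normalised real valuation (`w q = 1`),
`K` a number field inside `Qb`.
-/

noncomputable section

namespace Fermat.Agent.CC

open IsDedekindDomain NumberField
open scoped Pointwise
open Fermat.Agent.LF (DK ZK)
open Fermat.Agent.TW (NVal Bl Bs)

/-- inertia `I_A ∩ G_K` -/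
def IK (A : ValuationSubring Qb) (K : IntermediateField ℚ Qb) : Subgroup GQ :=
  A.inertiaSubgroupIn ℚ ⊓ K.fixingSubgroup

/-- `ϖ ∈ K` is a uniformizer at `A` (also of the inertia field) -/
def IsUnif (A : ValuationSubring Qb) (K : IntermediateField ℚ Qb) (w : Qb → ℝ) (ϖ : Qb) : Prop :=
  ϖ ∈ K ∧ ϖ ≠ 0 ∧ 0 < w ϖ ∧
    ∀ b : Qb, b ≠ 0 → (∀ g ∈ IK A K, g b = b) → ∃ n : ℤ, w b = n * w ϖ

/-- `φ` is a Frobenius of `D_A ∩ G_K`: it acts as a power of `q` on the residue field and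
generates `D` modulo `I` and any level -/
def IsFrob (A : ValuationSubring Qb) (K : IntermediateField ℚ Qb) (q : ℕ) (φ : GQ) : Prop :=
  φ ∈ DK A K ∧ (∃ f : ℕ, 0 < f ∧ ∀ x ∈ A, φ x - x ^ (q ^ f) ∈ A.nonunits) ∧
    ∀ L : IntermediateField ℚ Qb, FiniteDimensional ℚ L → ∀ g ∈ DK A K,
      ∃ (n : ℕ) (i : GQ), i ∈ IK A K ∧ (φ ^ n * i)⁻¹ * g ∈ L.fixingSubgroup

/-- (Cc0)+(Cc2): uniformizers exist and the inertia field has the same value group -/
def CcUnif : Prop := ∀ (A : ValuationSubring Qb) (q : ℕ) (w : Qb → ℝ), q.Prime →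
  A.LiesOverPrime q → NVal A q w → ∀ K : IntermediateField ℚ Qb, FiniteDimensional ℚ K →
    ∃ ϖ, IsUnif A K w ϖ

/-- (Cc1): Frobenius elements and unramified characters of every order -/
def CcFrob : Prop := ∀ (A : ValuationSubring Qb) (q : ℕ), q.Prime →
  A.LiesOverPrime q → ∀ K : IntermediateField ℚ Qb, FiniteDimensional ℚ K →
    ∃ φ, IsFrob A K q φ ∧ ∀ N : ℕ, 0 < N → ∃ χ : DK A K → ZMod N,
      (∀ g h, χ (g * h) = χ g + χ h) ∧ (lev.sub (DK A K)).Const1 χ ∧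
      (∀ g : DK A K, (g : GQ) ∈ IK A K → χ g = 0) ∧ ∀ h : φ ∈ DK A K, χ ⟨φ, h⟩ = 1

/-- (Cc3): tame inertia -/
def CcTame : Prop := ∀ (A : ValuationSubring Qb) (q p : ℕ) (w : Qb → ℝ), q.Prime → p.Prime →
  p ≠ q → A.LiesOverPrime q → NVal A q w → ∀ K : IntermediateField ℚ Qb, FiniteDimensional ℚ K →
    ∀ ϖ, IsUnif A K w ϖ → ∀ π : Qb, π ^ p = ϖ →
    ∀ f : IK A K → ZMod p, (∀ g h, f (g * h) = f g + f h) → (lev.sub (IK A K)).Const1 f →
    ∀ g : IK A K, (g : GQ) π = π → f g = 0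

/-- (Cb): the order of `Z(A,K)ˣ / p` -/
def CbCard : Prop := ∀ (A : ValuationSubring Qb) (q p : ℕ), q.Prime → p.Prime → p ≠ 2 →
  A.LiesOverPrime q → ∀ K : IntermediateField ℚ Qb, FiniteDimensional ℚ K →
    (∃ ζ ∈ K, IsPrimitiveRoot ζ p) →
    (powMonoidHom p : (ZK A K)ˣ →* (ZK A K)ˣ).range.index =
      p ^ (2 + if q = p then (DK A K).relIndex (DK A ⊥) else 0)

/-- (Ca4): `v` is the prime of `𝓞 K` under `A` -/
def PrimeUnder (A : ValuationSubring Qb) (K : IntermediateField ℚ Qb) [NumberField K]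
    (v : HeightOneSpectrum (𝓞 K)) : Prop :=
  ∀ x : K, (x : Qb) ∈ A ↔ v.valuation K x ≤ 1

/-- (Ca4) -/
def CaPrime : Prop :=
  (∀ (A : ValuationSubring Qb) (q : ℕ), q.Prime → A.LiesOverPrime q →
    ∀ K : IntermediateField ℚ Qb, ∀ _ : NumberField K, ∃ v, PrimeUnder A K v) ∧
  (∀ K : IntermediateField ℚ Qb, ∀ _ : NumberField K, ∀ v : HeightOneSpectrum (𝓞 K),
    ∃ (q : ℕ) (A : ValuationSubring Qb), q.Prime ∧ A.LiesOverPrime q ∧ PrimeUnder A K v) ∧
  (∀ (A B : ValuationSubring Qb) (q : ℕ), q.Prime → A.LiesOverPrime q →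
    ∀ K : IntermediateField ℚ Qb, ∀ _ : NumberField K, ∀ v, PrimeUnder A K v →
    PrimeUnder B K v → ∃ g ∈ K.fixingSubgroup, g • A = B)

end Fermat.Agent.CC
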