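import Fermat.Agent.CC.Basic
import Fermat.Agent.H51.QbarGalois
import Fermat.Agent.H09.Dichotomy
import Fermat.Prelude.Def_GroupCohomology_ContinuousUnramified
set_option autoImplicit false

/-!
# The level structures on `Gal(ℚbar/ℚ)`
-/

open IntermediateField
open scoped Pointwise

namespace Fermat.Agent.CC

/-- algebraic closure of `ℚ` -/
abbrev Qb : Type := AlgebraicClosure ℚ

/-- absolute Galois group of `ℚ` -/
abbrev GQ : Type := Qb ≃ₐ[ℚ] Qb

theorem fixingSubgroup_finiteIndex (F : IntermediateField ℚ Qb) [FiniteDimensional ℚ F] :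
    F.fixingSubgroup.FiniteIndex := by
  have := H51.isGalois_Qbar
  refine ⟨?_⟩
  rw [← IntermediateField.finrank_eq_fixingSubgroup_index]
  exact Module.finrank_pos.ne'

theorem fixingSubgroup_map_eq (F : IntermediateField ℚ Qb) (σ : GQ) :
    (F.map (σ : Qb →ₐ[ℚ] Qb)).fixingSubgroup =
      F.fixingSubgroup.map (MulAut.conj σ).toMonoidHom := by
  ext τ
  simp only [IntermediateField.mem_fixingSubgroup_iff, Subgroup.mem_map]
  constructor
  · intro h
    refine ⟨σ⁻¹ * τ * σ, ?_, by simp [mul_assoc]⟩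
    intro x hx
    have := h (σ x) ⟨x, hx, rfl⟩
    simp only [AlgEquiv.mul_apply, this]
    rw [← AlgEquiv.mul_apply]
    simp
  · rintro ⟨ρ, hρ, rfl⟩ x ⟨y, hy, rfl⟩
    simp only [MulEquiv.toMonoidHom_eq_coe, MonoidHom.coe_coe, MulAut.conj_apply,
      AlgEquiv.mul_apply]
    change σ (ρ (σ⁻¹ (σ y))) = σ y
    rw [← AlgEquiv.mul_apply σ⁻¹ σ, inv_mul_cancel, AlgEquiv.one_apply, hρ y hy]

/-- All number fields as levels. -/
def lev : Lev GQ where
  isOpen U := ∃ F : IntermediateField ℚ Qb, FiniteDimensional ℚ F ∧ F.fixingSubgroup ≤ U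
  top := ⟨⊥, inferInstance, le_top⟩
  inf := by
    rintro U V ⟨F, hF, hFU⟩ ⟨F', hF', hFV⟩
    refine ⟨F ⊔ F', inferInstance, ?_⟩
    rw [IntermediateField.fixingSubgroup_sup]
    exact inf_le_inf hFU hFV
  mono := by
    rintro U V ⟨F, hF, hFU⟩ h
    exact ⟨F, hF, hFU.trans h⟩
  nor := by
    rintro U ⟨F, hF, hFU⟩
    have := H51.isGalois_Qbar
    refine ⟨(normalClosure ℚ F Qb).fixingSubgroup, ?_,
      ⟨normalClosure ℚ F Qb, inferInstance, le_rfl⟩,
      (fixingSubgroup_antitone F.le_normalClosure).trans hFU⟩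
    have hn : Normal ℚ (normalClosure ℚ F Qb) := normalClosure.normal ℚ F Qb
    have : IsGalois ℚ (normalClosure ℚ F Qb) := IsGalois.mk
    infer_instance
  fin := by
    rintro U ⟨F, hF, hFU⟩
    have := fixingSubgroup_finiteIndex F
    exact Subgroup.finiteIndex_of_le hFU

/-- the inertia condition for the conjugate of an `S`-field -/
theorem inertia_le_fixingSubgroup_map {S : Finset Nat.Primes} {F : IntermediateField ℚ Qb}
    (hF : F.IsUnramifiedOutside S) (σ : GQ) (q : Nat.Primes) (hq : q ∉ S)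
    (A : ValuationSubring Qb) (hA : A.LiesOverPrime (q : ℕ)) :
    A.inertiaSubgroupIn ℚ ≤ (F.map (σ : Qb →ₐ[ℚ] Qb)).fixingSubgroup := by
  intro τ hτ
  rw [fixingSubgroup_map_eq]
  refine ⟨σ⁻¹ * τ * σ, ?_, by simp [mul_assoc]⟩
  refine hF.2 q hq (σ⁻¹ • A) ?_ ?_
  · exact (H05.liesOverPrime_smul_iff σ⁻¹ A q).mpr hA
  · apply H09.inertia_conj
    rwa [smul_inv_smul]

/-- conjugate of an `S`-field is an `S`-field -/
theorem isUnramifiedOutside_map {S : Finset Nat.Primes} {F : IntermediateField ℚ Qb}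
    (hF : F.IsUnramifiedOutside S) (σ : GQ) :
    (F.map (σ : Qb →ₐ[ℚ] Qb)).IsUnramifiedOutside S := by
  have := hF.1
  refine ⟨?_, fun q hq A hA => inertia_le_fixingSubgroup_map hF σ q hq A hA⟩
  exact (F.equivMap (σ : Qb →ₐ[ℚ] Qb)).toLinearEquiv.finiteDimensional

/-- Galois closure of an `S`-field is an `S`-field -/
theorem isUnramifiedOutside_normalClosure {S : Finset Nat.Primes} {F : IntermediateField ℚ Qb}
    (hF : F.IsUnramifiedOutside S) :
    (normalClosure ℚ F Qb).IsUnramifiedOutside S := by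
  have := hF.1
  refine ⟨inferInstance, fun q hq A hA => ?_⟩
  have := H51.isGalois_Qbar
  have hn : Normal ℚ Qb := inferInstance
  have h := IntermediateField.normalClosure_def'' (F := ℚ) (L := Qb) F
  rw [← IntermediateField.le_iff_le]
  refine h.le.trans ?_
  refine iSup_le fun σ => ?_
  rw [IntermediateField.le_iff_le]
  exact inertia_le_fixingSubgroup_map hF σ q hq A hA

/-- Number fields unramified outside `S` as levels. -/
def levS (S : Finset Nat.Primes) : Lev GQ where
  isOpen U := ∃ F : IntermediateField ℚ Qb, F.IsUnramifiedOutside S ∧ F.fixingSubgroup ≤ U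
  top := ⟨⊥, IntermediateField.isUnramifiedOutside_bot S, le_top⟩
  inf := by
    rintro U V ⟨F, hF, hFU⟩ ⟨F', hF', hFV⟩
    refine ⟨F ⊔ F', hF.sup hF', ?_⟩
    rw [IntermediateField.fixingSubgroup_sup]
    exact inf_le_inf hFU hFV
  mono := by
    rintro U V ⟨F, hF, hFU⟩ h
    exact ⟨F, hF, hFU.trans h⟩
  nor := by
    rintro U ⟨F, hF, hFU⟩
    have := hF.1
    have := H51.isGalois_Qbar
    refine ⟨(normalClosure ℚ F Qb).fixingSubgroup, ?_,
      ⟨normalClosure ℚ F Qb, isUnramifiedOutside_normalClosure hF, le_rfl⟩,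
      (fixingSubgroup_antitone F.le_normalClosure).trans hFU⟩
    have hn : Normal ℚ (normalClosure ℚ F Qb) := normalClosure.normal ℚ F Qb
    have : IsGalois ℚ (normalClosure ℚ F Qb) := IsGalois.mk
    infer_instance
  fin := by
    rintro U ⟨F, hF, hFU⟩
    have := hF.1
    have := fixingSubgroup_finiteIndex F
    exact Subgroup.finiteIndex_of_le hFU

theorem lev_isOpen_of_levS {S : Finset Nat.Primes} {U : Subgroup GQ} (h : (levS S).isOpen U) :
    lev.isOpen U := by
  obtain ⟨F, hF, hFU⟩ := h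
  exact ⟨F, hF.1, hFU⟩

theorem levS_mono {S S' : Finset Nat.Primes} (h : S ⊆ S') {U : Subgroup GQ}
    (hU : (levS S).isOpen U) : (levS S').isOpen U := by
  obtain ⟨F, hF, hFU⟩ := hU
  exact ⟨F, hF.mono h, hFU⟩

end Fermat.Agent.CC
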