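import Fermat.Agent.CC.PT8
set_option autoImplicit false
set_option maxHeartbeats 400000

/-!
# Abstract Poitou–Tate: exactness at `P¹`
-/

namespace Fermat.Agent.CC

noncomputable section

section Count

theorem card_ker_range {X Y : Type*} [AddCommGroup X] [AddCommGroup Y] (f : X →+ Y) :
    Nat.card X = Nat.card f.ker * Nat.card f.range := by
  rw [AddSubgroup.card_eq_card_quotient_mul_card_addSubgroup f.ker, mul_comm]
  congr 1
  exact Nat.card_congr (QuotientAddGroup.quotientKerEquivRange f).toEquiv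

theorem card_exact {X Y Z : Type*} [AddCommGroup X] [AddCommGroup Y] [AddCommGroup Z]
    (f : X →+ Y) (g : Y →+ Z) (h : ∀ y, g y = 0 ↔ ∃ x, f x = y) :
    Nat.card Y = Nat.card f.range * Nat.card g.range := by
  have h1 : g.ker = f.range := by
    ext y
    exact h y
  rw [card_ker_range g, h1]

theorem SES.euler {G : Type*} [Group G] {𝓛 : Lev G} {A B C : Type*} [AddCommGroup A]
    [AddCommGroup B] [AddCommGroup C] [DistribMulAction G A] [DistribMulAction G B]
    [DistribMulAction G C] (E : SES 𝓛 A B C)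
    (hs : Function.Surjective (H2coef 𝓛 E.j E.hj)) :
    Nat.card (H0 G B) * Nat.card (H1 𝓛 A) * Nat.card (H1 𝓛 C) * Nat.card (H2 𝓛 B) =
      Nat.card (H0 G A) * Nat.card (H0 G C) * Nat.card (H1 𝓛 B) * Nat.card (H2 𝓛 A) *
        Nat.card (H2 𝓛 C) := by
  have e0 : Nat.card (H0 G A) = Nat.card (H0coef G E.i E.hi).range := by
    have hinj : Function.Injective (H0coef G E.i E.hi) := fun a b h =>
      Subtype.ext (E.inj (congrArg Subtype.val h))
    exact Nat.card_congr (AddMonoidHom.ofInjective hinj).toEquiv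
  have e1 : Nat.card (H0 G B) = Nat.card (H0coef G E.i E.hi).range *
      Nat.card (H0coef G E.j E.hj).range := by
    refine card_exact _ _ fun b => ?_
    constructor
    · intro h
      obtain ⟨a, ha⟩ := (E.exact _).mp (congrArg Subtype.val h)
      refine ⟨⟨a, fun g => E.inj ?_⟩, Subtype.ext ha⟩
      rw [E.hi, ha, b.2]
    · rintro ⟨a, rfl⟩
      exact Subtype.ext (E.j_i _)
  have e2 : Nat.card (H0 G C) = Nat.card (H0coef G E.j E.hj).range * Nat.card E.δ0.range := by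
    refine card_exact _ _ fun c => ?_
    rw [E.δ0_eq_zero_iff]
    exact exists_congr fun b => ⟨fun h => Subtype.ext h, fun h => congrArg Subtype.val h⟩
  have e3 : Nat.card (H1 𝓛 A) = Nat.card E.δ0.range * Nat.card (H1coef 𝓛 E.i E.hi).range :=
    card_exact _ _ fun x => E.H1_i_eq_zero_iff x
  have e4 : Nat.card (H1 𝓛 B) = Nat.card (H1coef 𝓛 E.i E.hi).range *
      Nat.card (H1coef 𝓛 E.j E.hj).range :=
    card_exact _ _ fun x => E.H1_j_eq_zero_iff x
  have e5 : Nat.card (H1 𝓛 C) = Nat.card (H1coef 𝓛 E.j E.hj).range * Nat.card E.δ1.range :=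
    card_exact _ _ fun x => E.δ1_eq_zero_iff x
  have e6 : Nat.card (H2 𝓛 A) = Nat.card E.δ1.range * Nat.card (H2coef 𝓛 E.i E.hi).range :=
    card_exact _ _ fun x => E.H2_i_eq_zero_iff x
  have e7 : Nat.card (H2 𝓛 B) = Nat.card (H2coef 𝓛 E.i E.hi).range *
      Nat.card (H2coef 𝓛 E.j E.hj).range :=
    card_exact _ _ fun x => E.H2_j_eq_zero_iff x
  have e8 : Nat.card (H2 𝓛 C) = Nat.card (H2coef 𝓛 E.j E.hj).range := by
    rw [AddMonoidHom.range_eq_top.mpr hs]
    exact (Nat.card_congr AddSubgroup.topEquiv.toEquiv).symm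
  rw [e0, e1, e2, e3, e4, e5, e6, e7, e8]
  ring

variable {p : ℕ} [Fact p.Prime] {X Y : Type*} [AddCommGroup X] [AddCommGroup Y]

/-- annihilator -/
def perp (e : X →+ Y →+ ZMod p) (N : AddSubgroup Y) : AddSubgroup X where
  carrier := {x | ∀ y ∈ N, e x y = 0}
  zero_mem' y _ := by simp
  add_mem' {a b} ha hb y hy := by simp [ha y hy, hb y hy]
  neg_mem' {a} ha y hy := by simp [ha y hy]

theorem mem_perp {e : X →+ Y →+ ZMod p} {N : AddSubgroup Y} {x : X} :
    x ∈ perp e N ↔ ∀ y ∈ N, e x y = 0 := Iff.rfl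

theorem card_perp [Finite X] [Finite Y] (hX : ∀ x : X, p • x = 0) (hY : ∀ y : Y, p • y = 0)
    (e : X →+ Y →+ ZMod p) (hr : ∀ y, (∀ x, e x y = 0) → y = 0) (N : AddSubgroup Y) :
    Nat.card (perp e N) * Nat.card N = Nat.card X := by
  rw [AddSubgroup.card_eq_card_quotient_mul_card_addSubgroup (perp e N), mul_comm]
  congr 1
  let e' : X →+ N →+ ZMod p := e.compl₂ N.subtype
  have he' : ∀ x ∈ perp e N, e' x = 0 := fun x hx => by
    ext n
    exact hx _ n.2
  let E : X ⧸ perp e N →+ N →+ ZMod p := QuotientAddGroup.lift _ e' he'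
  have kQ : ∀ x : X ⧸ perp e N, p • x = 0 := by
    intro x
    obtain ⟨x, rfl⟩ := QuotientAddGroup.mk'_surjective _ x
    rw [← map_nsmul, hX, map_zero]
  have kN : ∀ x : N, p • x = 0 := fun x => Subtype.ext (hY x)
  refine ((fp_isPerfPair kQ kN E ?_ ?_).2.2).symm
  · intro x hx
    obtain ⟨x, rfl⟩ := QuotientAddGroup.mk'_surjective _ x
    exact (QuotientAddGroup.eq_zero_iff x).mpr fun y hy => hx ⟨y, hy⟩
  · intro y hy
    exact Subtype.ext (hr _ fun x => hy (QuotientAddGroup.mk' _ x))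

end Count

namespace GLD

variable {p : ℕ} [Fact p.Prime] {G : Type} [Group G] {T : Type} [AddCommGroup T]
  [DistribMulAction G T] (𝒢 : GLD p G T)

/-- orders of products of local cohomology groups -/
def c0 (A : Type) [AddCommGroup A] [DistribMulAction G A] : ℕ := Nat.card (∀ v, H0 (𝒢.D v) A)
def c1 (A : Type) [AddCommGroup A] [DistribMulAction G A] : ℕ := Nat.card (∀ v, H1 (𝒢.L v) A)
def c2 (A : Type) [AddCommGroup A] [DistribMulAction G A] : ℕ := Nat.card (∀ v, H2 (𝒢.L v) A)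

section

variable {A B : Type} [AddCommGroup A] [AddCommGroup B] [DistribMulAction G A]
  [DistribMulAction G B] {e : A →+ B →+ T} (h : Pr p 𝒢.𝓛 e)

include h

theorem c0_eq : 𝒢.c0 A = 𝒢.c2 B := by
  have := h.fA
  rw [c0, c2, Nat.card_pi, Nat.card_pi]
  exact Finset.prod_congr rfl fun v _ => (𝒢.ld v A B e h).card02 h.kA h.kB (𝒢.inv v)

theorem c1_eq : 𝒢.c1 A = 𝒢.c1 B := by
  rw [c1, c1, Nat.card_pi, Nat.card_pi]
  exact Finset.prod_congr rfl fun v _ => (𝒢.ld v A B e h).card11 h.kA h.kB (𝒢.inv v)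

theorem c0_pos : 0 < 𝒢.c0 A := by
  have := h.fA
  exact Nat.card_pos

theorem c1_pos : 0 < 𝒢.c1 A := by
  have := 𝒢.finP1A h
  exact Nat.card_pos

/-- exactness at `P¹` -/
def E5 {A B : Type} [AddCommGroup A] [AddCommGroup B] [DistribMulAction G A]
    [DistribMulAction G B] {e : A →+ B →+ T} (h : Pr p 𝒢.𝓛 e) : Prop :=
  ∀ y : ∀ v, H1 (𝒢.L v) A, (∀ b : H1 𝒢.𝓛 B, 𝒢.s11 h y (𝒢.l1 B b) = 0) → ∃ x, 𝒢.l1 A x = y

theorem card_E2 (hE : 𝒢.E2 h) : Nat.card (H2 𝒢.𝓛 A) * Nat.card (H0 G B) =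
    Nat.card (𝒢.Sh2 A) * 𝒢.c2 A := by
  have := 𝒢.finP2A h
  have := h.fB
  have kP2 : ∀ x : (∀ v, H2 (𝒢.L v) A), p • x = 0 := pi_killed fun v => H2_killed h.kA
  have kP0 : ∀ x : (∀ v, H0 (𝒢.D v) B), p • x = 0 := pi_killed fun v => H0_killed h.kB
  have h1 : perp (𝒢.s20 h) (𝒢.l0 B).range = (𝒢.l2 A).range := by
    ext y
    constructor
    · intro hy
      exact hE y fun b => hy _ ⟨b, rfl⟩
    · rintro ⟨x, rfl⟩ _ ⟨b, rfl⟩
      exact 𝒢.rec20 h x b
  have h2 := card_perp kP2 kP0 (𝒢.s20 h) (fun b hb => by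
    classical
    funext v
    refine (𝒢.ld v A B e h).b0 _ fun y => (𝒢.inv v).injective ?_
    rw [map_zero]
    have := hb (Pi.single v y)
    rw [s20_apply, Finset.sum_eq_single v] at this
    · rw [Pi.single_eq_same] at this
      exact this
    · intro w _ hw
      rw [Pi.single_eq_of_ne hw, map_zero]; rfl
    · intro h; exact absurd (Finset.mem_univ v) h) (𝒢.l0 B).range
  rw [h1] at h2
  have h3 : Nat.card (𝒢.l0 B).range = Nat.card (H0 G B) :=
    (Nat.card_congr (AddMonoidHom.ofInjective (𝒢.l0_injective B)).toEquiv).symm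
  rw [h3] at h2
  have h4 := card_ker_range (𝒢.l2 A)
  rw [h4, mul_assoc, h2]
  rfl

theorem card_perp11 : Nat.card (perp (𝒢.s11 h) (𝒢.l1 B).range) * Nat.card (𝒢.l1 B).range =
    𝒢.c1 A := by
  have := 𝒢.finP1A h
  have := 𝒢.finP1B h
  have kPA : ∀ x : (∀ v, H1 (𝒢.L v) A), p • x = 0 := pi_killed fun v => H1_killed h.kA
  have kPB : ∀ x : (∀ v, H1 (𝒢.L v) B), p • x = 0 := pi_killed fun v => H1_killed h.kB
  exact card_perp kPA kPB (𝒢.s11 h) (fun y hy => 𝒢.s11_right h y hy) _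

theorem range_le_perp : (𝒢.l1 A).range ≤ perp (𝒢.s11 h) (𝒢.l1 B).range := by
  rintro _ ⟨x, rfl⟩ _ ⟨y, rfl⟩
  exact 𝒢.rec11 h x y

theorem card_le : Nat.card (𝒢.l1 A).range * Nat.card (𝒢.l1 B).range ≤ 𝒢.c1 A := by
  rw [← 𝒢.card_perp11 h]
  have := 𝒢.finP1A h
  exact Nat.mul_le_mul_right _ (Nat.card_le_card_of_injective
    (AddSubgroup.inclusion (𝒢.range_le_perp h)) (AddSubgroup.inclusion_injective _))

theorem E5_iff : 𝒢.E5 h ↔
    Nat.card (𝒢.l1 A).range * Nat.card (𝒢.l1 B).range = 𝒢.c1 A := by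
  have := 𝒢.finP1A h
  have := 𝒢.finP1B h
  have hpos : 0 < Nat.card (𝒢.l1 B).range := Nat.card_pos
  rw [← 𝒢.card_perp11 h]
  constructor
  · intro hE
    have h1 : perp (𝒢.s11 h) (𝒢.l1 B).range = (𝒢.l1 A).range :=
      le_antisymm (fun y hy => hE y fun b => hy _ ⟨b, rfl⟩) (𝒢.range_le_perp h)
    rw [h1]
  · intro hc y hy
    have h2 : Nat.card (𝒢.l1 A).range = Nat.card (perp (𝒢.s11 h) (𝒢.l1 B).range) :=
      Nat.eq_of_mul_eq_mul_right hpos hc
    have h3 : (𝒢.l1 A).range = perp (𝒢.s11 h) (𝒢.l1 B).range :=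
      AddSubgroup.eq_of_le_of_card_ge (𝒢.range_le_perp h) h2.ge
    have h4 : y ∈ perp (𝒢.s11 h) (𝒢.l1 B).range := by
      rintro _ ⟨b, rfl⟩
      exact hy b
    rw [← h3] at h4
    exact h4

end

section Euler

variable {A B C A' B' C' : Type}
    [AddCommGroup A] [AddCommGroup B] [AddCommGroup C] [AddCommGroup A'] [AddCommGroup B']
    [AddCommGroup C'] [DistribMulAction G A] [DistribMulAction G B]
    [DistribMulAction G C] [DistribMulAction G A'] [DistribMulAction G B'] [DistribMulAction G C']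
    {D : DualSES 𝒢.𝓛 A B C A' B' C' T} (P : PSES p D)

include P in
theorem euler_loc : 𝒢.c0 B * 𝒢.c1 A * 𝒢.c1 C * 𝒢.c2 B =
    𝒢.c0 A * 𝒢.c0 C * 𝒢.c1 B * 𝒢.c2 A * 𝒢.c2 C := by
  classical
  rw [c0, c0, c0, c1, c1, c1, c2, c2, c2, Nat.card_pi, Nat.card_pi, Nat.card_pi, Nat.card_pi,
    Nat.card_pi, Nat.card_pi, Nat.card_pi, Nat.card_pi, Nat.card_pi, ← Finset.prod_mul_distrib,
    ← Finset.prod_mul_distrib, ← Finset.prod_mul_distrib, ← Finset.prod_mul_distrib,
    ← Finset.prod_mul_distrib, ← Finset.prod_mul_distrib, ← Finset.prod_mul_distrib]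
  refine Finset.prod_congr rfl fun v _ => ?_
  refine (D.E.loc (𝒢.cont v)).euler fun c => ?_
  obtain ⟨z, hz⟩ := 𝒢.p2_surj P (Pi.single v c)
  refine ⟨z v, ?_⟩
  have := congrFun hz v
  rw [Pi.single_eq_same] at this
  exact this

end Euler

end GLD

end

end Fermat.Agent.CC
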