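import Fermat.Agent.CC.LCF3
import Fermat.Agent.CC.PT9
set_option autoImplicit false
set_option maxHeartbeats 400000

/-!
# Lower bound for the norm index
-/

namespace Fermat.Agent.CC

noncomputable section

section Blocks

variable {p : ℕ} [Fact p.Prime] {V : Type*} [AddCommGroup V]

open Polynomial in
theorem geom_eq_aux [Module (ZMod p) V] (σ : Module.End (ZMod p) V) :
    ∑ i ∈ Finset.range p, σ ^ i = (σ - 1) ^ (p - 1) := by
  have hp : p.Prime := Fact.out
  have key : (∑ i ∈ Finset.range p, (X : (ZMod p)[X]) ^ i) = (X - 1) ^ (p - 1) := by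
    have h1 : (∑ i ∈ Finset.range p, (X : (ZMod p)[X]) ^ i) * (X - 1) =
        (X - 1) ^ (p - 1) * (X - 1) := by
      rw [geom_sum_mul, ← pow_succ, Nat.sub_add_cancel hp.one_le, sub_pow_char, one_pow]
    have h2 : (X - 1 : (ZMod p)[X]) ≠ 0 := by
      have := X_sub_C_ne_zero (1 : ZMod p)
      rwa [C_1] at this
    exact mul_right_cancel₀ h2 h1
  have := congrArg (aeval σ) key
  simpa using this

/-- the geometric sum of an endomorphism -/
def gsum (p : ℕ) (σ : V →+ V) : V →+ V where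
  toFun v := ∑ i ∈ Finset.range p, σ^[i] v
  map_zero' := by
    refine Finset.sum_eq_zero fun i _ => ?_
    exact Function.iterate_fixed (map_zero σ) i
  map_add' a b := by
    rw [← Finset.sum_add_distrib]
    exact Finset.sum_congr rfl fun i _ => iterate_map_add σ i a b

theorem gsum_eq_aux [Module (ZMod p) V] (σ : V →+ V) (v : V) :
    gsum p σ v = (fun x => σ x - x)^[p - 1] v := by
  have h := geom_eq_aux (p := p) (σ.toZModLinearMap p : Module.End (ZMod p) V)
  have h2 := LinearMap.congr_fun h v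
  have h3 : ∀ i : ℕ, ((σ.toZModLinearMap p : Module.End (ZMod p) V) ^ i) v = σ^[i] v := by
    intro i
    rw [Module.End.pow_apply]
    rfl
  have h4 : ∀ i : ℕ, (((σ.toZModLinearMap p : Module.End (ZMod p) V) - 1) ^ i) v =
      (fun x => σ x - x)^[i] v := by
    intro i
    rw [Module.End.pow_apply]
    rfl
  rw [h4, LinearMap.sum_apply, Finset.sum_congr rfl fun i _ => h3 i] at h2
  exact h2

theorem gsum_eq (kV : ∀ v : V, p • v = 0) (σ : V →+ V) (v : V) :
    gsum p σ v = (fun x => σ x - x)^[p - 1] v := by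
  letI : Module (ZMod p) V := AddCommGroup.zmodModule kV
  exact gsum_eq_aux σ v

/-- iterates of an additive endomorphism -/
def itr (δ : V →+ V) (i : ℕ) : V →+ V where
  toFun := δ^[i]
  map_zero' := Function.iterate_fixed (map_zero δ) i
  map_add' a b := iterate_map_add δ i a b

theorem itr_apply (δ : V →+ V) (i : ℕ) (v : V) : itr δ i v = δ^[i] v := rfl

theorem itr_step [Finite V] (δ : V →+ V) {n : ℕ} (hδ : ∀ v, δ^[n + 1] v = 0) {i : ℕ} (hi : i ≤ n) :
    Nat.card (itr δ (i + 1)).range * Nat.card (itr δ n).range ≤ Nat.card (itr δ i).range := by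
  let f : (itr δ i).range →+ V := δ.comp (itr δ i).range.subtype
  have h1 := card_ker_range f
  have h2 : f.range = (itr δ (i + 1)).range := by
    ext y
    constructor
    · rintro ⟨⟨x, ⟨v, rfl⟩⟩, rfl⟩
      exact ⟨v, Function.iterate_succ_apply' δ i v⟩
    · rintro ⟨v, rfl⟩
      exact ⟨⟨_, ⟨v, rfl⟩⟩, (Function.iterate_succ_apply' δ i v).symm⟩
  rw [h1, h2, mul_comm]
  refine Nat.mul_le_mul_right _ ?_
  have h3 : ∀ y ∈ (itr δ n).range, ∃ hy : y ∈ (itr δ i).range,
      (⟨y, hy⟩ : (itr δ i).range) ∈ f.ker := by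
    rintro _ ⟨v, rfl⟩
    refine ⟨⟨δ^[n - i] v, ?_⟩, ?_⟩
    · rw [itr_apply, ← Function.iterate_add_apply]
      congr 2
      omega
    · change δ (δ^[n] v) = 0
      rw [← Function.iterate_succ_apply' δ n v]
      exact hδ v
  refine Nat.card_le_card_of_injective
    (fun y : (itr δ n).range => (⟨⟨y.1, (h3 y.1 y.2).1⟩, (h3 y.1 y.2).2⟩ : f.ker)) ?_
  intro a b hab
  exact Subtype.ext (congrArg (fun z : f.ker => ((z : (itr δ i).range) : V)) hab)

theorem itr_pow [Finite V] (δ : V →+ V) {n : ℕ} (hδ : ∀ v, δ^[n + 1] v = 0) (j : ℕ) (hj : j ≤ n) :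
    Nat.card (itr δ n).range ^ (j + 1) ≤ Nat.card (itr δ (n - j)).range := by
  induction j with
  | zero => rw [zero_add, pow_one, Nat.sub_zero]
  | succ j ih =>
    have h1 := ih (by omega)
    have h2 := itr_step δ hδ (i := n - (j + 1)) (by omega)
    have h3 : n - (j + 1) + 1 = n - j := by omega
    rw [h3] at h2
    rw [pow_succ]
    exact (Nat.mul_le_mul_right _ h1).trans h2

/-- block counting -/
theorem block_count [Finite V] (kV : ∀ v : V, p • v = 0) (σ : V →+ V) (hσ : ∀ v, σ^[p] v = v) :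
    Nat.card (σ - AddMonoidHom.id V).ker * Nat.card (gsum p σ).range ^ (p - 1) ≤ Nat.card V := by
  have hp : p.Prime := Fact.out
  set δ : V →+ V := σ - AddMonoidHom.id V with hδdef
  have hδ : ∀ v, δ v = σ v - v := fun v => rfl
  have hg : ∀ v, gsum p σ v = δ^[p - 1] v := fun v => gsum_eq kV σ v
  have hσg : ∀ v, σ (gsum p σ v) = gsum p σ v := by
    intro v
    change σ (∑ i ∈ Finset.range p, σ^[i] v) = ∑ i ∈ Finset.range p, σ^[i] v
    rw [map_sum]
    have h1 : ∀ i, σ (σ^[i] v) = σ^[i + 1] v := fun i => (Function.iterate_succ_apply' σ i v).symm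
    rw [Finset.sum_congr rfl fun i _ => h1 i]
    have h2 := Finset.sum_range_succ' (fun i => σ^[i] v) p
    have h3 := Finset.sum_range_succ (fun i => σ^[i] v) p
    rw [h2] at h3
    rw [hσ] at h3
    exact add_right_cancel h3
  have hn : ∀ v, δ^[(p - 1) + 1] v = 0 := by
    intro v
    rw [Function.iterate_succ_apply', ← hg, hδ, hσg, sub_self]
  have hr : (gsum p σ).range = (itr δ (p - 1)).range := by
    ext y
    constructor
    · rintro ⟨v, rfl⟩
      exact ⟨v, (hg v).symm⟩
    · rintro ⟨v, rfl⟩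
      exact ⟨v, hg v⟩
  rw [hr, card_ker_range δ]
  refine Nat.mul_le_mul_left _ ?_
  have h1 : δ.range = (itr δ 1).range := rfl
  rw [h1]
  rcases Nat.lt_or_ge (p - 1) 1 with h | h
  · have := hp.two_le
    omega
  · have h2 := itr_pow δ hn (p - 1 - 1) (by omega)
    have e1 : p - 1 - 1 + 1 = p - 1 := by omega
    have e2 : p - 1 - (p - 1 - 1) = 1 := by omega
    rwa [e1, e2] at h2

end Blocks

section Low

variable {G : Type*} [Group G] {𝓛 : Lev G} {p : ℕ} [Fact p.Prime] {M : Type*} [AddCommGroup M]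
  [DistribMulAction G M] (τ : TorP p M ≃+ ZMod p) (sm : 𝓛.Smooth M)
  (h90 : ∀ z : H1 𝓛 M, z = 0) (triv : ∀ (g : G) (m : M), p • m = 0 → g • m = m)
  (χ : G → ZMod p) (hχ : ∀ g h, χ (g * h) = χ g + χ h) (hc : 𝓛.Const1 χ) (t : G) (ht : χ t = 1)
  [Finite (G ⧸ chiKer χ hχ)]

/-- the action of `t` on invariants of `ker χ` -/
def tAct (M : Type*) [AddCommGroup M] [DistribMulAction G M] :
    H0 (chiKer χ hχ) M →+ H0 (chiKer χ hχ) M where
  toFun x := ⟨t • (x : M), fun h => by
    have h1 : (⟨t⁻¹ * h * t, by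
        have := (chiKer_normal χ hχ).conj_mem h.1 h.2 t⁻¹
        rwa [inv_inv] at this⟩ : chiKer χ hχ) • (x : M) = x := x.2 _
    have h2 : (h : G) • t • (x : M) = t • ((t⁻¹ * h * t : G) • (x : M)) := by
      rw [← mul_smul, ← mul_smul]
      congr 1
      group
    exact h2.trans (congrArg (t • ·) h1)⟩
  map_zero' := Subtype.ext (smul_zero t)
  map_add' a b := Subtype.ext (smul_add t _ _)

theorem tAct_coe (x : H0 (chiKer χ hχ) M) : ((tAct χ hχ t M x : H0 (chiKer χ hχ) M) : M) = t • (x : M) :=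
  rfl

theorem tAct_iter (x : H0 (chiKer χ hχ) M) (i : ℕ) :
    (((tAct χ hχ t M)^[i] x : H0 (chiKer χ hχ) M) : M) = t ^ i • (x : M) := by
  induction i with
  | zero => simp
  | succ i ih => rw [Function.iterate_succ_apply', tAct_coe, ih, ← mul_smul, pow_succ']

include ht in
omit [Finite (G ⧸ chiKer χ hχ)] in
theorem tp_mem : t ^ p ∈ chiKer χ hχ := by
  rw [mem_chiKer, chi_pow χ hχ, ht]
  simp

include ht in
theorem cores0_eq (x : H0 (chiKer χ hχ) M) :
    (cores0 (G := G) x : M) = ∑ i ∈ Finset.range p, t ^ i • (x : M) := by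
  change sumMap (chiKer χ hχ) M (constH0 (G := G) x).1 = _
  rw [sumMap_eq χ hχ t ht]
  rfl

include sm h90 hc ht in
/-- Hilbert 90 for the cyclic extension -/
theorem h90_cyc (x : H0 (chiKer χ hχ) M) (hx : (cores0 (G := G) x : M) = 0) :
    ∃ v : H0 (chiKer χ hχ) M, tAct χ hχ t M v - v = x := by
  have hH := chiKer_open χ hχ hc
  let E := sesA χ hχ t hH ht sm
  let cx : CoInd (chiKer χ hχ) M := (constH0 (G := G) x).1
  have hcx : ∀ g : G, g • cx = cx := (constH0 (G := G) x).2
  let c : H0 G (kerSum χ hχ M).S := ⟨(kerSum χ hχ M).mkS cx hx, fun g =>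
    (kerSum χ hχ M).incl_injective (hcx g)⟩
  obtain ⟨⟨b, hbi⟩, hb⟩ := (E.δ0_eq_zero_iff c).mp (h90 _)
  have hb1 : shiftOp χ hχ t M b - b = cx := congrArg (kerSum χ hχ M).incl hb
  have hb2 : ∀ y : G, b.1 y = b.1 1 := by
    intro y
    have h2 := congrArg (fun F : CoInd (chiKer χ hχ) M => F.1 1) (hbi y)
    rw [← h2]
    change b.1 y = b.1 (1 * y)
    rw [one_mul]
  refine ⟨⟨b.1 1, fun h => ?_⟩, ?_⟩
  · have h1 := b.2 h 1
    rw [← h1, hb2]
  · apply Subtype.ext
    have h1 := congrArg (fun F : CoInd (chiKer χ hχ) M => F.1 1) hb1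
    change t • b.1 1 - b.1 1 = (x : M)
    beta_reduce at h1
    rw [CoInd.sub_apply, shiftOp_apply, hb2 (t⁻¹ * 1)] at h1
    exact h1

/-- invariants of `G` inside invariants of `ker χ` -/
def inX (M : Type*) [AddCommGroup M] [DistribMulAction G M] : H0 G M →+ H0 (chiKer χ hχ) M where
  toFun z := ⟨z, fun h => z.2 h⟩
  map_zero' := rfl
  map_add' _ _ := rfl

/-- the group `Zˣ / p` -/
abbrev ModP (p : ℕ) (X : Type*) [AddCommGroup X] : Type _ := X ⧸ (nsmulAddMonoidHom (α := X) p).range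

theorem ModP.killed {X : Type*} [AddCommGroup X] (x : ModP p X) : p • x = 0 := by
  obtain ⟨x, rfl⟩ := QuotientAddGroup.mk'_surjective _ x
  rw [← map_nsmul]
  exact (QuotientAddGroup.eq_zero_iff _).mpr ⟨x, rfl⟩

omit [Finite (G ⧸ chiKer χ hχ)] in
include τ χ hχ t ht in
theorem card_le_of_kummer [Finite (ModP p (H0 (chiKer χ hχ) M))] :
    Nat.card (ModP p (H0 G M)) ≤
      p * Nat.card ((QuotientAddGroup.mk' (nsmulAddMonoidHom (α := H0 (chiKer χ hχ) M) p).range).comp
        (inX χ hχ M)).range := by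
  have hp : p.Prime := Fact.out
  set π := QuotientAddGroup.mk' (nsmulAddMonoidHom (α := H0 (chiKer χ hχ) M) p).range with hπ
  set ψ : H0 G M →+ ModP p (H0 (chiKer χ hχ) M) := π.comp (inX χ hχ M) with hψ
  have h0 : ∀ z ∈ (nsmulAddMonoidHom (α := H0 G M) p).range, ψ z = 0 := by
    rintro _ ⟨z, rfl⟩
    change ψ (p • z) = 0
    rw [map_nsmul, ModP.killed]
  let ψ' : ModP p (H0 G M) →+ ModP p (H0 (chiKer χ hχ) M) := QuotientAddGroup.lift _ ψ h0
  have hr : ψ'.range = ψ.range := by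
    ext y
    constructor
    · rintro ⟨z, rfl⟩
      obtain ⟨z, rfl⟩ := QuotientAddGroup.mk'_surjective _ z
      exact ⟨z, rfl⟩
    · rintro ⟨z, rfl⟩
      exact ⟨QuotientAddGroup.mk' _ z, rfl⟩
  rw [card_ker_range ψ', hr]
  refine Nat.mul_le_mul_right _ ?_
  -- elements of the kernel
  have key : ∀ k : ψ'.ker, ∃ (z : H0 G M) (u : H0 (chiKer χ hχ) M),
      QuotientAddGroup.mk' _ z = k.1 ∧ p • (u : M) = z := by
    rintro ⟨k, hk⟩
    obtain ⟨z, rfl⟩ := QuotientAddGroup.mk'_surjective _ k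
    obtain ⟨u, hu⟩ := (QuotientAddGroup.eq_zero_iff _).mp (show ψ z = 0 from hk)
    exact ⟨z, u, rfl, congrArg Subtype.val hu⟩
  choose z u hz hu using key
  let F : ψ'.ker → TorP p M := fun k => TorP.mk (t • (u k : M) - u k) (by
    rw [smul_sub]
    have h1 : p • t • (u k : M) = t • p • (u k : M) := (map_nsmul (DistribSMul.toAddMonoidHom M t) p _).symm
    rw [h1, hu, (z k).2, sub_self])
  have hF : Function.Injective F := by
    intro k k' hkk
    have h1 : t • (u k : M) - u k = t • (u k' : M) - u k' := congrArg (TorP.incl p M) hkk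
    have h2 : t • ((u k : M) - u k') = u k - u k' := by
      rw [smul_sub]
      have : t • (u k : M) - t • (u k' : M) = ((t • (u k : M) - u k) - (t • (u k' : M) - u k')) +
        (u k - u k') := by abel
      rw [this, h1]; abel
    have h3 : ∀ g : G, g • ((u k : M) - u k') = u k - u k' := by
      intro g
      have h4 : (t ^ (χ g).val)⁻¹ * g ∈ chiKer χ hχ := by
        rw [mem_chiKer, hχ, chi_inv χ hχ, chi_pow χ hχ, ht]
        simp
      have h5 : ∀ n : ℕ, t ^ n • ((u k : M) - u k') = u k - u k' := by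
        intro n
        induction n with
        | zero => simp
        | succ n ih => rw [pow_succ, mul_smul, h2, ih]
      have h6 : ((⟨_, h4⟩ : chiKer χ hχ) : G) • ((u k : M) - u k') = u k - u k' := by
        rw [smul_sub]
        exact congrArg₂ (· - ·) ((u k).2 ⟨_, h4⟩) ((u k').2 ⟨_, h4⟩)
      calc g • ((u k : M) - u k') = (t ^ (χ g).val * ((t ^ (χ g).val)⁻¹ * g)) • ((u k : M) - u k') := by
            rw [mul_inv_cancel_left]
        _ = _ := by rw [mul_smul, h6, h5]
    apply Subtype.ext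
    rw [← hz, ← hz, ← sub_eq_zero, ← map_sub]
    refine (QuotientAddGroup.eq_zero_iff _).mpr ⟨⟨_, h3⟩, Subtype.ext ?_⟩
    change p • ((u k : M) - u k') = (z k : M) - z k'
    rw [smul_sub, hu, hu]
  have : Finite (TorP p M) := Finite.of_equiv _ τ.symm.toEquiv
  have h7 := Nat.card_le_card_of_injective F hF
  rwa [Nat.card_congr τ.toEquiv, Nat.card_zmod] at h7

theorem card_lt_mul {K I : Type*} [AddCommGroup K] [AddCommGroup I] [Finite K] (f : I →+ K)
    (hf : Function.Injective f) (kK : ∀ k : K, p • k = 0) {v : K} (hv : v ∉ f.range) :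
    p * Nat.card I ≤ Nat.card K := by
  have hp : p.Prime := Fact.out
  have h1 : Nat.card I = Nat.card f.range := Nat.card_congr (AddMonoidHom.ofInjective hf).toEquiv
  rw [h1, AddSubgroup.card_eq_card_quotient_mul_card_addSubgroup f.range]
  refine Nat.mul_le_mul_right _ ?_
  have h2 : (QuotientAddGroup.mk' f.range v) ≠ 0 := fun h => hv ((QuotientAddGroup.eq_zero_iff v).mp h)
  have h3 : p • (QuotientAddGroup.mk' f.range v) = 0 := by rw [← map_nsmul, kK, map_zero]
  have h4 : addOrderOf (QuotientAddGroup.mk' f.range v) = p := addOrderOf_eq_prime h3 h2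
  have h5 := addOrderOf_dvd_natCard (QuotientAddGroup.mk' f.range v)
  rw [h4] at h5
  exact Nat.le_of_dvd Nat.card_pos h5

include τ sm h90 triv hc ht in
/-- **Lower bound for the norm index** -/
theorem norm_ne_top [Finite (ModP p (H0 (chiKer χ hχ) M))]
    (hcard : Nat.card (ModP p (H0 (chiKer χ hχ) M)) * p ^ (p - 1) <
      Nat.card (ModP p (H0 G M)) ^ p) : (cores0h (chiKer χ hχ) M).range ≠ ⊤ := by
  have hp : p.Prime := Fact.out
  intro htop
  have hsurj : ∀ z : H0 G M, ∃ y : H0 (chiKer χ hχ) M, cores0 y = z := by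
    intro z
    have : z ∈ (cores0h (chiKer χ hχ) M).range := by rw [htop]; trivial
    exact this
  set P := (nsmulAddMonoidHom (α := H0 (chiKer χ hχ) M) p).range with hP
  set π : H0 (chiKer χ hχ) M →+ ModP p (H0 (chiKer χ hχ) M) := QuotientAddGroup.mk' P with hπ
  have hπs : Function.Surjective π := QuotientAddGroup.mk'_surjective _
  have hπ0 : ∀ x, π x = 0 ↔ ∃ u, p • u = x := fun x => QuotientAddGroup.eq_zero_iff x
  have h0 : ∀ z ∈ P, (π.comp (tAct χ hχ t M)) z = 0 := by
    rintro _ ⟨z, rfl⟩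
    change (π.comp (tAct χ hχ t M)) (p • z) = 0
    rw [map_nsmul, ModP.killed]
  let σ : ModP p (H0 (chiKer χ hχ) M) →+ ModP p (H0 (chiKer χ hχ) M) :=
    QuotientAddGroup.lift _ (π.comp (tAct χ hχ t M)) h0
  have hσπ : ∀ x, σ (π x) = π (tAct χ hχ t M x) := fun x => rfl
  have hσi : ∀ (i : ℕ) x, σ^[i] (π x) = π ((tAct χ hχ t M)^[i] x) := by
    intro i x
    induction i with
    | zero => rfl
    | succ i ih => rw [Function.iterate_succ_apply', ih, hσπ, Function.iterate_succ_apply']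
  have hσp : ∀ v, σ^[p] v = v := by
    intro v
    obtain ⟨x, rfl⟩ := hπs v
    rw [hσi]
    congr 1
    apply Subtype.ext
    rw [tAct_iter]
    exact x.2 ⟨t ^ p, tp_mem χ hχ t ht⟩
  have hcore : ∀ x, ∑ i ∈ Finset.range p, (tAct χ hχ t M)^[i] x = inX χ hχ M (cores0 x) := by
    intro x
    apply Subtype.ext
    rw [AddSubgroup.val_finsetSum, Finset.sum_congr rfl fun i _ => tAct_iter χ hχ t x i]
    exact (cores0_eq χ hχ t ht x).symm
  have hgs : ∀ x, gsum p σ (π x) = π (inX χ hχ M (cores0 x)) := by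
    intro x
    rw [← hcore, map_sum]
    change ∑ i ∈ Finset.range p, σ^[i] (π x) = _
    exact Finset.sum_congr rfl fun i _ => hσi i x
  set ψ : H0 G M →+ ModP p (H0 (chiKer χ hχ) M) := π.comp (inX χ hχ M) with hψ
  have hrange : (gsum p σ).range = ψ.range := by
    ext y
    constructor
    · rintro ⟨v, rfl⟩
      obtain ⟨x, rfl⟩ := hπs v
      exact ⟨cores0 x, (hgs x).symm⟩
    · rintro ⟨z, rfl⟩
      obtain ⟨x, rfl⟩ := hsurj z
      exact ⟨π x, hgs x⟩
  have hbc := block_count (p := p) ModP.killed σ hσp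
  rw [hrange] at hbc
  have hkum := card_le_of_kummer τ χ hχ t ht (M := M)
  rw [← hπ, ← hψ] at hkum
  -- the extra invariant
  have hfix : ∀ z : H0 G M, tAct χ hχ t M (inX χ hχ M z) = inX χ hχ M z := fun z => Subtype.ext (z.2 t)
  obtain ⟨ζ, hζ⟩ : ∃ ζ : TorP p M, ζ ≠ 0 := ⟨τ.symm 1, by
    rw [Ne, EmbeddingLike.map_eq_zero_iff]
    exact one_ne_zero⟩
  let z₀ : H0 G M := ⟨TorP.incl p M ζ, fun g => triv g _ (TorP.incl_mem ζ)⟩
  have hz₀ : z₀ ≠ 0 := by
    intro h
    apply hζ
    apply TorP.incl_injective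
    rw [map_zero]
    exact congrArg Subtype.val h
  obtain ⟨y, hy⟩ := hsurj z₀
  have hcm : ∀ a b : H0 (chiKer χ hχ) M, (cores0 (a + b) : H0 G M) = cores0 a + cores0 b :=
    map_add (cores0h (chiKer χ hχ) M)
  have hcn : ∀ a : H0 (chiKer χ hχ) M, (cores0 (p • a) : H0 G M) = p • cores0 a :=
    map_nsmul (cores0h (chiKer χ hχ) M) p
  have hy0 : (cores0 (G := G) (p • y) : M) = 0 := by
    rw [hcn, hy]
    exact TorP.incl_mem ζ
  obtain ⟨v, hv⟩ := h90_cyc sm h90 χ hχ hc t ht _ hy0
  have hvK : π v ∈ (σ - AddMonoidHom.id _).ker := by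
    change σ (π v) - π v = 0
    rw [hσπ, ← map_sub, hv, map_nsmul, ModP.killed]
  have hvI : π v ∉ ψ.range := by
    rintro ⟨z, hz⟩
    have h1 : π (v - inX χ hχ M z) = 0 := by
      rw [map_sub, sub_eq_zero]; exact hz.symm
    obtain ⟨u, hu⟩ := (hπ0 _).mp h1
    have h2 : tAct χ hχ t M (v - inX χ hχ M z) - (v - inX χ hχ M z) = p • y := by
      rw [map_sub, hfix, ← hv]; abel
    rw [← hu, map_nsmul, ← smul_sub] at h2
    -- `ε = y - (t-1) u` is `p`-torsion
    set ε := y - (tAct χ hχ t M u - u) with hε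
    have h3 : p • ε = 0 := by rw [hε, smul_sub, h2, sub_self]
    have h4 : y = ε + (tAct χ hχ t M u - u) := by rw [hε]; abel
    have h5 : (cores0 (G := G) (tAct χ hχ t M u - u) : M) = 0 := by
      rw [cores0_eq χ hχ t ht]
      have e1 : ∀ i, t ^ i • ((tAct χ hχ t M u - u : H0 (chiKer χ hχ) M) : M) =
          t ^ (i + 1) • (u : M) - t ^ i • (u : M) := by
        intro i
        rw [AddSubgroup.coe_sub, tAct_coe, smul_sub, ← mul_smul, pow_succ]
      rw [Finset.sum_congr rfl fun i _ => e1 i, Finset.sum_range_sub (fun i => t ^ i • (u : M)),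
        pow_zero, one_smul, sub_eq_zero]
      exact u.2 ⟨t ^ p, tp_mem χ hχ t ht⟩
    have h6 : (cores0 (G := G) ε : M) = 0 := by
      rw [cores0_eq χ hχ t ht]
      have h7 : p • (ε : M) = 0 := congrArg Subtype.val h3
      rw [Finset.sum_congr rfl fun i _ => triv (t ^ i) _ h7, Finset.sum_const, Finset.card_range, h7]
    apply hz₀
    rw [← hy, h4, hcm]
    apply Subtype.ext
    rw [AddSubgroup.coe_add, h5, h6, add_zero]
    rfl
  have hψK : ∀ z, ψ z ∈ (σ - AddMonoidHom.id _).ker := by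
    intro z
    change σ (π (inX χ hχ M z)) - π (inX χ hχ M z) = 0
    rw [hσπ, hfix, sub_self]
  have hpK : p * Nat.card ψ.range ≤ Nat.card (σ - AddMonoidHom.id _).ker := by
    let f : ψ.range →+ (σ - AddMonoidHom.id _).ker :=
      AddSubgroup.inclusion (by rintro _ ⟨z, rfl⟩; exact hψK z)
    refine card_lt_mul f (AddSubgroup.inclusion_injective _)
      (fun k => Subtype.ext (ModP.killed _)) (v := ⟨π v, hvK⟩) ?_
    rintro ⟨a, ha⟩
    apply hvI
    have : (a : ModP p (H0 (chiKer χ hχ) M)) = π v := congrArg Subtype.val ha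
    rw [← this]
    exact a.2
  have hfinal : Nat.card (ModP p (H0 G M)) ^ p ≤
      Nat.card (ModP p (H0 (chiKer χ hχ) M)) * p ^ (p - 1) := by
    set I := Nat.card ψ.range
    calc Nat.card (ModP p (H0 G M)) ^ p ≤ (p * I) ^ p := Nat.pow_le_pow_left hkum _
      _ = (p * I) * I ^ (p - 1) * p ^ (p - 1) := by
          have aux : ∀ q k : ℕ, (q * I) ^ (k + 1) = (q * I) * I ^ k * q ^ k := by
            intro q k; ring
          have h8 := aux p (p - 1)
          rwa [Nat.sub_add_cancel hp.one_le] at h8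
      _ ≤ Nat.card (σ - AddMonoidHom.id _).ker * I ^ (p - 1) * p ^ (p - 1) :=
          Nat.mul_le_mul_right _ (Nat.mul_le_mul_right _ hpK)
      _ ≤ _ := Nat.mul_le_mul_right _ hbc
  omega

end Low

end

end Fermat.Agent.CC
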