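import Fermat.Agent.CC.LocAct
import Fermat.Agent.CC.NormLow
import Fermat.Agent.L00.LKum6
set_option autoImplicit false
set_option maxHeartbeats 400000

/-!
# Local class field theory modulo `p` for the groups `D_A ∩ G_K`
-/

noncomputable section

namespace Fermat.Agent.CC

open Fermat.Agent.LF (DK ZK mem_ZK mem_of_fixed)

section

variable {U : Subgroup GQ} {G : Type} [Group G] [MulSemiringAction G Qb] {𝓛 : Lev G}
    {φ : G →* GQ} (h : Act U G 𝓛 φ) {A : ValuationSubring Qb} {K : IntermediateField ℚ Qb}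
    (hU : U = DK A K)

/-- invariants are the units of `Z(A,K)` -/
def h0Equiv : H0 G (UL Qb) ≃+ Additive (ZK A K)ˣ where
  toFun a := Additive.ofMul (Units.mk0 ⟨a.1.val, mem_ZK.mpr (by rw [← hU]; exact h.mem_H0.mp a.2)⟩
    (fun hz => a.1.val_ne_zero (congrArg Subtype.val hz)))
  invFun u := ⟨UL.mk ((Additive.toMul u : (ZK A K)ˣ) : ZK A K) (fun hz => by
      have h1 : ((Additive.toMul u : (ZK A K)ˣ) : ZK A K) = 0 := Subtype.ext hz
      exact Units.ne_zero _ h1), h.mem_H0.mpr (by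
      rw [hU]
      exact mem_ZK.mp ((Additive.toMul u : (ZK A K)ˣ) : ZK A K).2)⟩
  left_inv a := Subtype.ext (UL.ext rfl)
  right_inv u := Additive.toMul.injective (Units.ext (Subtype.ext rfl))
  map_add' a b := Additive.toMul.injective (Units.ext (Subtype.ext rfl))

include h hU in
theorem card_modP (p : ℕ) : Nat.card (ModP p (H0 G (UL Qb))) =
    (powMonoidHom p : (ZK A K)ˣ →* (ZK A K)ˣ).range.index := by
  let e := h0Equiv h hU
  have h1 : (nsmulAddMonoidHom (α := H0 G (UL Qb)) p).range =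
      (Subgroup.toAddSubgroup (powMonoidHom p : (ZK A K)ˣ →* (ZK A K)ˣ).range).comap
        e.toAddMonoidHom := by
    ext a
    constructor
    · rintro ⟨b, rfl⟩
      exact ⟨Additive.toMul (e b), (congrArg Additive.toMul (map_nsmul e p b)).symm⟩
    · rintro ⟨b, hb⟩
      refine ⟨e.symm (Additive.ofMul b), ?_⟩
      apply e.injective
      change e (p • e.symm (Additive.ofMul b)) = e a
      rw [map_nsmul, AddEquiv.apply_symm_apply]
      exact congrArg Additive.ofMul hb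
  have h2 : (nsmulAddMonoidHom (α := H0 G (UL Qb)) p).range.index =
      (Subgroup.toAddSubgroup (powMonoidHom p : (ZK A K)ˣ →* (ZK A K)ˣ).range).index := by
    rw [h1]
    exact AddSubgroup.index_comap_of_surjective _ e.surjective
  exact h2

end

/-- the family of local groups at `A` containing `p`-th roots of unity -/
def QLoc (p : ℕ) (A : ValuationSubring Qb) (G : Type) [Group G] [inst : DistribMulAction G (UL Qb)]
    (𝓛 : Lev G) : Prop :=
  ∃ (act : MulSemiringAction G Qb) (K : IntermediateField ℚ Qb) (φ : G →* GQ),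
    FiniteDimensional ℚ K ∧ (∃ ζ ∈ K, IsPrimitiveRoot ζ p) ∧ @Act (DK A K) G _ act 𝓛 φ ∧
    inst = @UL.instDistribMulAction Qb _ G _ act

theorem UL.divisible {p : ℕ} (hp : p ≠ 0) (m : UL Qb) : ∃ m', p • m' = m := by
  obtain ⟨z, hz⟩ := IsAlgClosed.exists_pow_nat_eq m.val (Nat.pos_of_ne_zero hp)
  have hz0 : z ≠ 0 := by
    rintro rfl
    rw [zero_pow hp] at hz
    exact m.val_ne_zero hz.symm
  exact ⟨UL.mk z hz0, UL.ext (by rw [UL.val_nsmul, UL.val_mk, hz])⟩

theorem triv_of_root {p : ℕ} [Fact p.Prime] {U : Subgroup GQ} {G : Type} [Group G]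
    [MulSemiringAction G Qb] {𝓛 : Lev G} {φ : G →* GQ} (h : Act U G 𝓛 φ)
    {K : IntermediateField ℚ Qb} (hU : U ≤ K.fixingSubgroup) (hζ : ∃ ζ ∈ K, IsPrimitiveRoot ζ p)
    (g : G) (m : UL Qb) (hm : p • m = 0) : g • m = m := by
  obtain ⟨ζ, hζK, hζ⟩ := hζ
  have h1 : m.val ^ p = 1 := by rw [← UL.val_nsmul, hm, UL.val_zero]
  obtain ⟨i, -, hi⟩ := hζ.eq_pow_of_pow_eq_one h1
  apply UL.ext
  rw [UL.val_smul, h.act]
  have h2 : φ g ∈ K.fixingSubgroup := hU (by rw [← h.range]; exact ⟨g, rfl⟩)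
  rw [IntermediateField.mem_fixingSubgroup_iff] at h2
  refine h2 _ ?_
  rw [← hi]
  exact pow_mem hζK i

theorem normal_subgroupOf_of_conj {N M : Subgroup GQ} (h : ∀ m ∈ M, ∀ n ∈ N, m * n * m⁻¹ ∈ N) :
    (N.subgroupOf M).Normal := by
  constructor
  rintro ⟨n, hn⟩ hnN ⟨m, hm⟩
  rw [Subgroup.mem_subgroupOf] at hnN ⊢
  exact h m hm n hnN

/-- the local cyclic extension comes from a global one with the same decomposition groups -/
theorem exists_cycExt {p : ℕ} [Fact p.Prime] {G : Type} [Group G] [MulSemiringAction G Qb]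
    {𝓛 : Lev G} {φ : G →* GQ} {A : ValuationSubring Qb} {K : IntermediateField ℚ Qb}
    (h : Act (DK A K) G 𝓛 φ) (hK : FiniteDimensional ℚ K)
    (χ : G → ZMod p) (hχ : ∀ g h, χ (g * h) = χ g + χ h) (hc : 𝓛.Const1 χ) (t : G) (ht : χ t = 1) :
    ∃ K₁ F₁ : IntermediateField ℚ Qb, CycExt p K₁ F₁ ∧ K ≤ K₁ ∧ DK A K₁ = DK A K ∧
      DK A F₁ = (chiKer χ hχ).map φ ∧ φ t ∈ DK A K₁ ∧ φ t ∉ F₁.fixingSubgroup := by
  set H := chiKer χ hχ with hHdef
  have hH : 𝓛.isOpen H := chiKer_open χ hχ hc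
  have hH' := hH
  rw [h.levEq] at hH'
  obtain ⟨W, hW, hWH⟩ := hH'
  have hWK : lev.isOpen (W ⊓ K.fixingSubgroup) := lev.inf _ _ hW ⟨K, hK, le_rfl⟩
  obtain ⟨L, hL, hLW, hLn⟩ := exists_normal_level hWK
  obtain ⟨K₁, hK₁, hKf⟩ := exists_field_of_open (X := DK A K ⊔ L.fixingSubgroup)
    ⟨L, hL, le_sup_right⟩
  obtain ⟨F₁, hF₁, hFf⟩ := exists_field_of_open (X := H.map φ ⊔ L.fixingSubgroup)
    ⟨L, hL, le_sup_right⟩
  have hHD : H.map φ ≤ DK A K := by
    conv_rhs => rw [← h.range]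
    exact Subgroup.map_le_range φ H
  -- elements of `D ∩ G_L` lie in `φ(H)`
  have hDL : ∀ l ∈ L.fixingSubgroup, l ∈ A.decompositionSubgroup ℚ → l ∈ H.map φ := by
    intro l hl hlA
    have hlU : l ∈ DK A K := ⟨hlA, (hLW hl).2⟩
    rw [← h.range] at hlU
    obtain ⟨g, rfl⟩ := hlU
    exact ⟨g, hWH (hLW hl).1, rfl⟩
  have hDK : DK A K₁ = DK A K := by
    apply le_antisymm
    · rintro σ ⟨hσA, hσK⟩
      change σ ∈ K₁.fixingSubgroup at hσK
      rw [hKf] at hσK
      obtain ⟨τ, hτ, l, hl, rfl⟩ := Subgroup.mem_sup_of_normal_right.mp hσK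
      have hlA : l ∈ A.decompositionSubgroup ℚ := by
        have : l = τ⁻¹ * (τ * l) := by group
        rw [this]
        exact mul_mem (inv_mem hτ.1) hσA
      exact mul_mem hτ ⟨hlA, (hLW hl).2⟩
    · refine le_inf inf_le_left ?_
      rw [hKf]; exact le_sup_left
  have hDF : DK A F₁ = H.map φ := by
    apply le_antisymm
    · rintro σ ⟨hσA, hσK⟩
      change σ ∈ F₁.fixingSubgroup at hσK
      rw [hFf] at hσK
      obtain ⟨τ, hτ, l, hl, rfl⟩ := Subgroup.mem_sup_of_normal_right.mp hσK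
      have hlA : l ∈ A.decompositionSubgroup ℚ := by
        have : l = τ⁻¹ * (τ * l) := by group
        rw [this]
        exact mul_mem (inv_mem (hHD hτ).1) hσA
      exact mul_mem hτ (hDL l hl hlA)
    · refine le_inf (hHD.trans inf_le_left) ?_
      rw [hFf]; exact le_sup_left
  -- the extension of `χ` to `G_{K₁}`
  have hle : F₁.fixingSubgroup ≤ K₁.fixingSubgroup := by
    rw [hKf, hFf]; exact sup_le_sup_right hHD _
  have htD : φ t ∈ DK A K := by rw [← h.range]; exact ⟨t, rfl⟩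
  have htF : φ t ∉ F₁.fixingSubgroup := by
    intro hcon
    have h1 : φ t ∈ DK A F₁ := ⟨htD.1, hcon⟩
    rw [hDF] at h1
    obtain ⟨g, hg, hgt⟩ := h1
    have h2 := h.inj hgt
    rw [h2] at hg
    have h3 : χ t = 0 := hg
    rw [ht] at h3
    exact one_ne_zero h3
  -- coset description
  have hcos : ∀ σ ∈ K₁.fixingSubgroup, ∃ g : G, ∃ l ∈ L.fixingSubgroup, σ = φ g * l := by
    intro σ hσ
    rw [hKf] at hσ
    obtain ⟨τ, hτ, l, hl, rfl⟩ := Subgroup.mem_sup_of_normal_right.mp hσ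
    rw [← h.range] at hτ
    obtain ⟨g, rfl⟩ := hτ
    exact ⟨g, l, hl, rfl⟩
  have hmemF : ∀ (g : G) (l : GQ), l ∈ L.fixingSubgroup → (φ g * l ∈ F₁.fixingSubgroup ↔ χ g = 0) := by
    intro g l hl
    rw [hFf]
    constructor
    · intro hm
      have h1 : φ g ∈ H.map φ ⊔ L.fixingSubgroup := by
        have : φ g = (φ g * l) * l⁻¹ := by group
        rw [this]
        exact mul_mem hm (inv_mem (Subgroup.mem_sup_right hl))
      have h2 : φ g ∈ DK A F₁ := by
        refine ⟨?_, ?_⟩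
        · have : φ g ∈ DK A K := by rw [← h.range]; exact ⟨g, rfl⟩
          exact this.1
        · change φ g ∈ F₁.fixingSubgroup
          rw [hFf]; exact h1
      rw [hDF] at h2
      obtain ⟨g', hg', hgg⟩ := h2
      rw [← h.inj hgg]
      exact hg'
    · intro hg
      exact mul_mem (Subgroup.mem_sup_left ⟨g, hg, rfl⟩) (Subgroup.mem_sup_right hl)
  have hnor : (F₁.fixingSubgroup.subgroupOf K₁.fixingSubgroup).Normal := by
    refine normal_subgroupOf_of_conj fun m hm n hn => ?_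
    obtain ⟨g, l, hl, rfl⟩ := hcos m hm
    obtain ⟨g', l', hl', rfl⟩ := hcos n (hle hn)
    have h1 : χ g' = 0 := (hmemF g' l' hl').mp hn
    have e : φ g * l * (φ g' * l') * (φ g * l)⁻¹ = φ (g * g' * g⁻¹) *
        ((φ g * (((φ g')⁻¹ * l * φ g') * l' * l⁻¹) * (φ g)⁻¹)) := by
      rw [map_mul, map_mul, map_inv]
      group
    rw [e, hmemF]
    · rw [hχ, hχ, chi_inv χ hχ, h1]; ring
    · refine hLn.conj_mem _ (mul_mem (mul_mem ?_ hl') (inv_mem hl)) _
      have := hLn.conj_mem l hl (φ g')⁻¹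
      rwa [inv_inv] at this
  have hidx : F₁.fixingSubgroup.relIndex K₁.fixingSubgroup = p := by
    -- bijection of the quotient with `ZMod p`
    have hψ : ∃ ψ : K₁.fixingSubgroup →* Multiplicative (ZMod p),
        Function.Surjective ψ ∧ ψ.ker = F₁.fixingSubgroup.subgroupOf K₁.fixingSubgroup := by
      choose g l hl hgl using fun σ : K₁.fixingSubgroup => hcos σ.1 σ.2
      have key : ∀ (σ : K₁.fixingSubgroup) (g' : G) (l' : GQ), l' ∈ L.fixingSubgroup →
          σ.1 = φ g' * l' → χ (g σ) = χ g' := by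
        intro σ g' l' hl' he
        have h1 : φ (g'⁻¹ * g σ) * 1 ∈ F₁.fixingSubgroup := by
          have h2 : φ (g'⁻¹ * g σ) = l' * (l σ)⁻¹ := by
            have h3 : φ g' * l' = φ (g σ) * l σ := by rw [← he]; exact hgl σ
            rw [map_mul, map_inv]
            rw [inv_mul_eq_iff_eq_mul, ← mul_assoc, h3, mul_inv_cancel_right]
          rw [mul_one, h2, hFf]
          exact Subgroup.mem_sup_right (mul_mem hl' (inv_mem (hl σ)))
        rw [hmemF _ _ (one_mem _), hχ, chi_inv χ hχ] at h1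
        exact (neg_add_eq_zero.mp h1).symm
      refine ⟨{ toFun := fun σ => Multiplicative.ofAdd (χ (g σ)),
                map_one' := ?_, map_mul' := ?_ }, ?_, ?_⟩
      · rw [key 1 1 1 (one_mem _) (by simp), chi_one χ hχ]; rfl
      · intro σ σ'
        rw [← ofAdd_add, ← hχ]
        congr 1
        refine key (σ * σ') (g σ * g σ') ((φ (g σ'))⁻¹ * l σ * φ (g σ') * l σ') ?_ ?_
        · refine mul_mem ?_ (hl σ')
          have := hLn.conj_mem (l σ) (hl σ) (φ (g σ'))⁻¹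
          rwa [inv_inv] at this
        · rw [Subgroup.coe_mul, hgl σ, hgl σ', map_mul]; group
      · intro y
        refine ⟨⟨φ (t ^ (Multiplicative.toAdd y).val), ?_⟩, ?_⟩
        · rw [map_pow]
          refine pow_mem ?_ _
          rw [hKf]; exact Subgroup.mem_sup_left htD
        · change Multiplicative.ofAdd (χ (g _)) = y
          rw [key _ (t ^ (Multiplicative.toAdd y).val) 1 (one_mem _) (by simp), chi_pow χ hχ, ht]
          simp
      · ext σ
        rw [MonoidHom.mem_ker, Subgroup.mem_subgroupOf]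
        change Multiplicative.ofAdd (χ (g σ)) = 1 ↔ _
        rw [ofAdd_eq_one, ← hmemF (g σ) (l σ) (hl σ), ← hgl σ]
    obtain ⟨ψ, hψs, hψk⟩ := hψ
    change (F₁.fixingSubgroup.subgroupOf K₁.fixingSubgroup).index = p
    rw [← hψk, Subgroup.index_ker, MonoidHom.range_eq_top.mpr hψs]
    rw [Nat.card_congr (Subgroup.topEquiv (G := Multiplicative (ZMod p))).toEquiv,
      Nat.card_congr Multiplicative.toAdd, Nat.card_zmod]
  refine ⟨K₁, F₁, ⟨hK₁, hF₁, ?_, hnor, hidx⟩, ?_, hDK, hDF, ?_, htF⟩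
  · intro x hx
    refine mem_of_fixed F₁ fun σ hσ => ?_
    have := hle hσ
    rw [IntermediateField.mem_fixingSubgroup_iff] at this
    exact this x hx
  · intro x hx
    refine mem_of_fixed K₁ fun σ hσ => ?_
    have h1 : K₁.fixingSubgroup ≤ K.fixingSubgroup := by
      rw [hKf]; exact sup_le inf_le_right (hLW.trans inf_le_right)
    have := h1 hσ
    rw [IntermediateField.mem_fixingSubgroup_iff] at this
    exact this x hx
  · rw [hDK]; exact htD

theorem UL.val_sum {ι : Type*} (s : Finset ι) (f : ι → UL Qb) :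
    (∑ i ∈ s, f i).val = ∏ i ∈ s, (f i).val := by
  classical
  induction s using Finset.induction_on with
  | empty => simp
  | insert a s ha ih => rw [Finset.sum_insert ha, Finset.prod_insert ha, UL.val_add, ih]

theorem mem_range_cores0h {p : ℕ} [Fact p.Prime] {G : Type} [Group G] [MulSemiringAction G Qb]
    {𝓛 : Lev G} {φ : G →* GQ} {A : ValuationSubring Qb} {U : Subgroup GQ}
    (h : Act U G 𝓛 φ)
    (χ : G → ZMod p) (hχ : ∀ g h, χ (g * h) = χ g + χ h) (t : G) (ht : χ t = 1)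
    [Finite (G ⧸ chiKer χ hχ)] {F₁ : IntermediateField ℚ Qb}
    (hF : DK A F₁ = (chiKer χ hχ).map φ) (a : H0 G (UL Qb)) :
    a ∈ (cores0h (chiKer χ hχ) (UL Qb)).range ↔ IsLocNorm p A F₁ (φ t) a.1.val := by
  have hsub := h.sub (chiKer χ hχ)
  have hval : ∀ b : H0 (chiKer χ hχ) (UL Qb), (cores0 (G := G) b : UL Qb).val =
      ∏ i ∈ Finset.range p, ((φ t) ^ i) b.1.val := by
    intro b
    rw [cores0_eq χ hχ t ht, UL.val_sum]
    refine Finset.prod_congr rfl fun i _ => ?_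
    rw [UL.val_smul, h.act, map_pow]
  constructor
  · rintro ⟨b, rfl⟩
    refine ⟨b.1.val, b.1.val_ne_zero, ?_, hval b⟩
    rw [hF]
    exact hsub.mem_H0.mp b.2
  · rintro ⟨b, hb0, hb, hab⟩
    refine ⟨⟨UL.mk b hb0, hsub.mem_H0.mpr ?_⟩, ?_⟩
    · rw [UL.val_mk, ← hF]; exact hb
    · apply Subtype.ext
      apply UL.ext
      rw [cores0h_apply, hval]
      exact hab.symm

theorem index_eq_of {p : ℕ} [Fact p.Prime] {X : Type*} [AddCommGroup X] (R : AddSubgroup X)
    (hA : ∃ s : X, ∀ a : X, ∃ i : ℕ, i < p ∧ a + i • s ∈ R) (hB : ∃ s : X, s ∉ R)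
    (hC : ∀ a : X, p • a ∈ R) : R.index = p := by
  have hp : p.Prime := Fact.out
  obtain ⟨s, hs⟩ := hA
  obtain ⟨s', hs'⟩ := hB
  have hsurj : Function.Surjective (fun i : Fin p => QuotientAddGroup.mk' R (-(i.1 • s))) := by
    intro y
    obtain ⟨a, rfl⟩ := QuotientAddGroup.mk'_surjective R y
    obtain ⟨i, hi, hia⟩ := hs a
    refine ⟨⟨i, hi⟩, ?_⟩
    change QuotientAddGroup.mk' R (-(i • s)) = QuotientAddGroup.mk' R a
    rw [← sub_eq_zero, ← map_sub, ← neg_eq_zero, ← map_neg]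
    refine (QuotientAddGroup.eq_zero_iff _).mpr ?_
    have : -(-(i • s) - a) = a + i • s := by abel
    rw [this]; exact hia
  have hfin : Finite (X ⧸ R) := Finite.of_surjective _ hsurj
  have hle : Nat.card (X ⧸ R) ≤ p := by
    have := Nat.card_le_card_of_surjective _ hsurj
    rwa [Nat.card_fin] at this
  have h2 : (QuotientAddGroup.mk' R s') ≠ 0 := fun h => hs' ((QuotientAddGroup.eq_zero_iff _).mp h)
  have h3 : p • (QuotientAddGroup.mk' R s') = 0 := by
    rw [← map_nsmul]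
    exact (QuotientAddGroup.eq_zero_iff _).mpr (hC s')
  have h4 : addOrderOf (QuotientAddGroup.mk' R s') = p := addOrderOf_eq_prime h3 h2
  have h5 := addOrderOf_dvd_natCard (QuotientAddGroup.mk' R s')
  rw [h4] at h5
  exact le_antisymm hle (Nat.le_of_dvd Nat.card_pos h5)

/-- **local class field theory modulo `p`** -/
theorem locLCF {p : ℕ} [Fact p.Prime] {A : ValuationSubring Qb} {q : ℕ}
    (hq : q.Prime) (hA : A.LiesOverPrime q) (hLe : NormIndexLe p) (hGe : NormIndexGe p) : LCF.{0, 0} p (UL Qb) (QLoc p A) := by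
  have hp : p.Prime := Fact.out
  have hcard : ∀ (G : Type) [Group G] [inst : DistribMulAction G (UL Qb)] (𝓛 : Lev G),
      QLoc p A G 𝓛 → ∃ n, Nat.card (ModP p (H0 G (UL Qb))) = p ^ (2 + n) := by
    rintro G _ inst 𝓛 ⟨act, K, φ, hK, hζ, hAct, rfl⟩
    rw [card_modP hAct rfl p]
    obtain ⟨ζ, hζK, hζ⟩ := hζ
    exact ⟨_, L00.LKum.index_pow_eq A hq hA hp hζ (LF.le_ZK hζK)⟩
  refine
    { div := UL.divisible hp.ne_zero
      sm := ?_
      h90 := ?_
      triv := ?_
      sub := ?_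
      fin := ?_
      big := ?_
      norm := ?_ }
  · rintro G _ inst 𝓛 ⟨act, K, φ, hK, hζ, hAct, rfl⟩
    exact hAct.smooth
  · rintro G _ inst 𝓛 ⟨act, K, φ, hK, hζ, hAct, rfl⟩ z
    exact hAct.h90 z
  · rintro G _ inst 𝓛 ⟨act, K, φ, hK, hζ, hAct, rfl⟩ g m hm
    exact triv_of_root hAct inf_le_right hζ g m hm
  · rintro G _ inst 𝓛 ⟨act, K, φ, hK, ⟨ζ, hζK, hζ⟩, hAct, rfl⟩ H hH
    obtain ⟨K', hK', hKK, hHK⟩ := hAct.exists_DK rfl hK H hH
    refine ⟨inferInstance, K', φ.comp H.subtype, hK', ⟨ζ, hKK hζK, hζ⟩, ?_, rfl⟩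
    rw [← hHK]
    exact hAct.sub H
  · intro G _ inst 𝓛 hQ
    obtain ⟨n, hn⟩ := hcard G 𝓛 hQ
    exact Nat.finite_of_card_ne_zero (by rw [hn]; exact pow_ne_zero _ hp.ne_zero)
  · intro G _ inst 𝓛 hQ
    obtain ⟨n, hn⟩ := hcard G 𝓛 hQ
    rw [hn]
    calc p = p ^ 1 := (pow_one p).symm
      _ < p ^ (2 + n) := Nat.pow_lt_pow_right hp.one_lt (by omega)
  · rintro G _ inst 𝓛 ⟨act, K, φ, hK, hζ, hAct, rfl⟩ χ hχ hc t ht hfin
    obtain ⟨K₁, F₁, hcyc, hKK, hDK, hDF, htD, htF⟩ := exists_cycExt hAct hK χ hχ hc t ht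
    have hmem := fun a => mem_range_cores0h hAct χ hχ t ht hDF a
    refine index_eq_of _ ?_ ?_ ?_
    · obtain ⟨s, hsK, hs0, hs⟩ := hLe A q hq hA K₁ F₁ hcyc (φ t) htD htF
      have hsfix : ∀ σ ∈ DK A K, σ s = s := by
        intro σ hσ
        rw [← hDK] at hσ
        have := hσ.2
        change σ ∈ K₁.fixingSubgroup at this
        rw [IntermediateField.mem_fixingSubgroup_iff] at this
        exact this s hsK
      refine ⟨⟨UL.mk s hs0, hAct.mem_H0.mpr hsfix⟩, fun a => ?_⟩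
      obtain ⟨i, hi, hai⟩ := hs a.1.val a.1.val_ne_zero (by rw [hDK]; exact hAct.mem_H0.mp a.2)
      refine ⟨i, hi, (hmem _).mpr ?_⟩
      have : ((a + i • (⟨UL.mk s hs0, hAct.mem_H0.mpr hsfix⟩ : H0 G (UL Qb)) : H0 G (UL Qb)) :
          UL Qb).val = a.1.val * s ^ i := by
        rw [AddSubgroup.coe_add, AddSubgroup.coe_nsmul, UL.val_add, UL.val_nsmul, UL.val_mk]
      rw [this]
      exact hai
    · obtain ⟨s, hsK, hs0, hs⟩ := hGe A q hq hA K₁ F₁ hcyc (φ t) htD htF
      have hsfix : ∀ σ ∈ DK A K, σ s = s := by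
        intro σ hσ
        rw [← hDK] at hσ
        have := hσ.2
        change σ ∈ K₁.fixingSubgroup at this
        rw [IntermediateField.mem_fixingSubgroup_iff] at this
        exact this s hsK
      exact ⟨⟨UL.mk s hs0, hAct.mem_H0.mpr hsfix⟩, fun h => hs ((hmem _).mp h)⟩
    · intro a
      refine ⟨inX χ hχ (UL Qb) a, ?_⟩
      apply Subtype.ext
      rw [cores0h_apply, cores0_eq χ hχ t ht]
      have : ∀ i ∈ Finset.range p, t ^ i • ((inX χ hχ (UL Qb) a : H0 (chiKer χ hχ) (UL Qb)) : UL Qb) = a :=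
        fun i _ => a.2 _
      rw [Finset.sum_congr rfl this, Finset.sum_const, Finset.card_range]
      rfl

end Fermat.Agent.CC
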