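import Fermat.Agent.CC.Desc6
import Fermat.Agent.CFT.HasseS
import Fermat.Agent.H02M.SPlaces
set_option autoImplicit false
set_option maxHeartbeats 400000

/-!
# Kummer characters and tame inertia
-/

namespace Fermat.Agent.CC

open scoped Pointwise
open Fermat.Agent.LF (DK ZK)
open Fermat.Agent.TW (NVal Bl Bs)
open Fermat.Agent.CFT (vl vl_add vl_zero vl_pow vl_inj vl_ne mem_fix_adjoin)

noncomputable section

open Classical in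
/-- Kummer character -/
def kapc (ζ β : Qb) (p : ℕ) (σ : GQ) : ZMod p :=
  if h : ∃ i : ℕ, σ β = ζ ^ i * β then ((h.choose : ℕ) : ZMod p) else 0

section Kum

variable {p : ℕ} [hp : Fact p.Prime] {ζ : Qb} (hζ : IsPrimitiveRoot ζ p)

include hζ

theorem pow_eq_iff (i j : ℕ) : ζ ^ i = ζ ^ j ↔ (i : ZMod p) = j := by
  have hζ0 : ζ ≠ 0 := hζ.ne_zero hp.out.ne_zero
  have h1 : ζ ^ i = ζ ^ j ↔ ζ ^ ((i : ℤ) - j) = 1 := by
    rw [zpow_sub₀ hζ0, zpow_natCast, zpow_natCast, div_eq_one_iff_eq (pow_ne_zero _ hζ0)]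
  rw [h1, hζ.zpow_eq_one_iff_dvd, ← ZMod.intCast_zmod_eq_zero_iff_dvd, Int.cast_sub,
    Int.cast_natCast, Int.cast_natCast, sub_eq_zero]

theorem pow_val (c : ZMod p) (i : ℕ) (h : c = i) : ζ ^ c.val = ζ ^ i := by
  rw [pow_eq_iff hζ, h, ZMod.natCast_val, ZMod.cast_id]

theorem kapc_eq {β : Qb} (hβ : β ≠ 0) {σ : GQ} {i : ℕ} (h : σ β = ζ ^ i * β) :
    kapc ζ β p σ = i := by
  have h' : ∃ i : ℕ, σ β = ζ ^ i * β := ⟨i, h⟩
  rw [kapc, dif_pos h']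
  have h2 : ζ ^ i * β = ζ ^ h'.choose * β := h.symm.trans h'.choose_spec
  have h3 := mul_right_cancel₀ hβ h2
  exact ((pow_eq_iff hζ _ _).mp h3).symm

theorem exists_kapc {β b : Qb} (hβ : β ≠ 0) (hb : β ^ p = b) {σ : GQ} (hσ : σ b = b) :
    ∃ i : ℕ, σ β = ζ ^ i * β := by
  have h1 : (σ β / β) ^ p = 1 := by
    rw [div_pow, ← map_pow, hb, hσ, div_self]
    rw [← hb]
    exact pow_ne_zero _ hβ
  obtain ⟨i, -, hi⟩ := hζ.eq_pow_of_pow_eq_one h1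
  exact ⟨i, by rw [hi, div_mul_cancel₀ _ hβ]⟩

theorem kapc_spec {β b : Qb} (hβ : β ≠ 0) (hb : β ^ p = b) {σ : GQ} (hσ : σ b = b) :
    σ β = ζ ^ (kapc ζ β p σ).val * β := by
  obtain ⟨i, hi⟩ := exists_kapc hζ hβ hb hσ
  rw [hi, pow_val hζ _ i (kapc_eq hζ hβ hi)]

theorem kapc_one {β : Qb} (hβ : β ≠ 0) {σ : GQ} (hσ : σ β = β) : kapc ζ β p σ = 0 := by
  have := kapc_eq hζ hβ (σ := σ) (i := 0) (by rw [pow_zero, one_mul, hσ])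
  rw [this, Nat.cast_zero]

theorem kapc_zero_iff {β b : Qb} (hβ : β ≠ 0) (hb : β ^ p = b) {σ : GQ} (hσ : σ b = b) :
    kapc ζ β p σ = 0 ↔ σ β = β := by
  constructor
  · intro h
    rw [kapc_spec hζ hβ hb hσ, h, ZMod.val_zero, pow_zero, one_mul]
  · exact kapc_one hζ hβ

theorem kapc_mul {β b : Qb} (hβ : β ≠ 0) (hb : β ^ p = b) {σ τ : GQ} (hσ : σ b = b)
    (hτ : τ b = b) (hσζ : σ ζ = ζ) :
    kapc ζ β p (σ * τ) = kapc ζ β p σ + kapc ζ β p τ := by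
  obtain ⟨i, hi⟩ := exists_kapc hζ hβ hb hσ
  obtain ⟨j, hj⟩ := exists_kapc hζ hβ hb hτ
  rw [kapc_eq hζ hβ hi, kapc_eq hζ hβ hj, kapc_eq hζ hβ (i := i + j), Nat.cast_add]
  rw [AlgEquiv.mul_apply, hj, map_mul, map_pow, hσζ, hi, pow_add]
  ring

/-- conjugation -/
theorem kapc_conj {β b : Qb} (hβ : β ≠ 0) (hb : β ^ p = b) {g n : GQ} (hn : n b = b)
    {ξ : Qb} (hξ : g⁻¹ β = ξ * β) (hnξ : n ξ = ξ) {c : ℕ} (hc : g ζ = ζ ^ c) :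
    kapc ζ β p (g * n * g⁻¹) = c * kapc ζ β p n := by
  obtain ⟨i, hi⟩ := exists_kapc hζ hβ hb hn
  rw [kapc_eq hζ hβ hi, kapc_eq hζ hβ (i := c * i), Nat.cast_mul]
  rw [AlgEquiv.mul_apply, AlgEquiv.mul_apply, hξ, map_mul, hnξ, hi]
  have h1 : ξ * (ζ ^ i * β) = ζ ^ i * (g⁻¹ β) := by rw [hξ]; ring
  rw [h1, map_mul, map_pow, hc, ← pow_mul]
  congr 1
  rw [← AlgEquiv.mul_apply, mul_inv_cancel, AlgEquiv.one_apply]

end Kum

theorem exists_cyc {p : ℕ} [hp : Fact p.Prime] {ζ : Qb} (hζ : IsPrimitiveRoot ζ p) (g : GQ) :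
    ∃ c : ℕ, g ζ = ζ ^ c := by
  obtain ⟨i, -, hi⟩ := hζ.eq_pow_of_pow_eq_one (ξ := g ζ) (by
    rw [← map_pow, hζ.pow_eq_one, map_one])
  exact ⟨i, hi.symm⟩

theorem smul_of_cyc {p : ℕ} [hp : Fact p.Prime] {ζ : Qb} (hζ : IsPrimitiveRoot ζ p) {g : GQ} {c : ℕ}
    (h : g ζ = ζ ^ c) (t : TorP p (UL Qb)) : g • t = c • t := by
  apply vl_inj
  obtain ⟨i, -, hi⟩ := hζ.eq_pow_of_pow_eq_one (vl_pow t)
  have h1 : vl (g • t) = g (vl t) := rfl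
  have h2 : ∀ c : ℕ, vl (c • t) = vl t ^ c := by
    intro c
    induction c with
    | zero => rw [zero_smul, vl_zero, pow_zero]
    | succ c ih => rw [add_smul, one_smul, vl_add, ih, pow_succ]
  rw [h1, h2, ← hi, map_pow, h, ← pow_mul, ← pow_mul, mul_comm]

section Tame

variable {A : ValuationSubring Qb} {q p : ℕ}

theorem dsc_bot_fix {x : Qb} (hx : x ∈ (⊥ : IntermediateField ℚ Qb)) (g : GQ) : g x = x := by
  obtain ⟨r, rfl⟩ := IntermediateField.mem_bot.1 hx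
  exact g.commutes r

theorem IK_bot (A : ValuationSubring Qb) : IK A ⊥ = A.inertiaSubgroupIn ℚ := by
  apply le_antisymm inf_le_left
  intro g hg
  refine ⟨hg, ?_⟩
  change g ∈ (⊥ : IntermediateField ℚ Qb).fixingSubgroup
  rw [IntermediateField.mem_fixingSubgroup_iff]
  intro x hx
  exact dsc_bot_fix hx g

theorem DK_bot (A : ValuationSubring Qb) : DK A ⊥ = A.decompositionSubgroup ℚ := by
  apply le_antisymm inf_le_left
  intro g hg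
  refine ⟨hg, ?_⟩
  change g ∈ (⊥ : IntermediateField ℚ Qb).fixingSubgroup
  rw [IntermediateField.mem_fixingSubgroup_iff]
  intro x hx
  exact dsc_bot_fix hx g

/-- `I_A` inside `D_A` -/
abbrev IA (A : ValuationSubring Qb) : Subgroup (DK A ⊥) := (IK A ⊥).subgroupOf (DK A ⊥)

/-- homomorphisms on inertia are detected by the Kummer character of a uniformizer -/
theorem tame_zero [hp : Fact p.Prime] (hq : q.Prime) (hpq : p ≠ q) (hA : A.LiesOverPrime q)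
    {w : Qb → ℝ} (hw : NVal A q w) {ϖ : Qb} (hϖ : IsUnif A ⊥ w ϖ) {π : Qb} (hπ : π ^ p = ϖ)
    (f : IA A → ZMod p) (hf : ∀ g h, f (g * h) = f g + f h)
    (hc : ((lev.sub (DK A ⊥)).sub (IA A)).Const1 f) (g : IA A) (hg : ((g : DK A ⊥) : GQ) π = π) :
    f g = 0 := by
  let f' : IK A ⊥ → ZMod p := fun g =>
    f ⟨⟨(g : GQ), IK_le_DK A ⊥ g.2⟩, Subgroup.mem_subgroupOf.mpr g.2⟩
  have h1 : ∀ g h, f' (g * h) = f' g + f' h := fun g h =>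
    hf ⟨⟨(g : GQ), IK_le_DK A ⊥ g.2⟩, Subgroup.mem_subgroupOf.mpr g.2⟩
      ⟨⟨(h : GQ), IK_le_DK A ⊥ h.2⟩, Subgroup.mem_subgroupOf.mpr h.2⟩
  have h2 : (lev.sub (IK A ⊥)).Const1 f' := by
    obtain ⟨U, ⟨V, ⟨W, hW, hWV⟩, hVU⟩, h⟩ := hc
    refine ⟨W.comap (IK A ⊥).subtype, ⟨W, hW, le_rfl⟩, fun g s hs => ?_⟩
    exact h ⟨⟨(g : GQ), IK_le_DK A ⊥ g.2⟩, Subgroup.mem_subgroupOf.mpr g.2⟩
      ⟨⟨(s : GQ), IK_le_DK A ⊥ s.2⟩, Subgroup.mem_subgroupOf.mpr s.2⟩ (hVU (hWV hs))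
  exact tame hq hp.out hpq hA hw hϖ hπ f' h1 h2 ⟨g, Subgroup.mem_subgroupOf.mp g.2⟩ hg

theorem zeta_fix [hp : Fact p.Prime] (hq : q.Prime) (hpq : p ≠ q) (hA : A.LiesOverPrime q)
    {ζ : Qb} (hζ : ζ ^ p = 1) {g : GQ} (hg : g ∈ A.inertiaSubgroupIn ℚ) : g ζ = ζ :=
  H05.inertia_apply_rootOfUnity (m := p) hq hA
    (CFT.not_dvd_of_ne hq hp.out (Ne.symm hpq)) hg hζ

/-- some element of inertia moves the `p`-th root of a uniformizer -/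
theorem exists_move [hp : Fact p.Prime] {w : Qb → ℝ} (hw : NVal A q w)
    {ϖ : Qb} (hϖ : IsUnif A ⊥ w ϖ) {π : Qb} (hπ : π ^ p = ϖ) :
    ∃ g ∈ A.inertiaSubgroupIn ℚ, g π ≠ π := by
  by_contra hcon
  push Not at hcon
  have hπ0 : π ≠ 0 := by
    rintro rfl
    rw [zero_pow hp.out.ne_zero] at hπ
    exact hϖ.2.1 hπ.symm
  obtain ⟨n, hn⟩ := hϖ.2.2.2 π hπ0 (fun g hg => hcon g hg.1)
  have h1 : w ϖ = p * w π := by rw [← hπ, hw.w_pow hπ0]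
  rw [hn] at h1
  have h2 : ((p * n : ℤ) : ℝ) = 1 := by
    have h3 := hϖ.2.2.1
    push_cast
    have h4 : w ϖ * 1 = w ϖ * (p * n) := by rw [mul_one]; linarith
    exact (mul_left_cancel₀ h3.ne' h4).symm
  have h3 : (p : ℤ) * n = 1 := by exact_mod_cast h2
  have h4 : (p : ℤ) ∣ 1 := ⟨n, h3.symm⟩
  have h5 := Int.eq_one_of_dvd_one (by positivity) h4
  have h6 : p = 1 := by exact_mod_cast h5
  exact hp.out.one_lt.ne' h6

/-- conjugation formula for the Kummer character of a uniformizer -/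
theorem kapc_conj_pi [hp : Fact p.Prime] (hq : q.Prime) (hpq : p ≠ q) (hA : A.LiesOverPrime q)
    {ζ : Qb} (hζ : IsPrimitiveRoot ζ p) {ϖ : Qb} (hϖ : ϖ ∈ (⊥ : IntermediateField ℚ Qb))
    (hϖ0 : ϖ ≠ 0)
    {π : Qb} (hπ : π ^ p = ϖ) {g n : GQ} (hn : n ∈ A.inertiaSubgroupIn ℚ) {c : ℕ}
    (hc : g ζ = ζ ^ c) : kapc ζ π p (g * n * g⁻¹) = c * kapc ζ π p n := by
  have hπ0 : π ≠ 0 := by
    rintro rfl
    rw [zero_pow hp.out.ne_zero] at hπ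
    exact hϖ0 hπ.symm
  obtain ⟨i, hi⟩ := exists_kapc hζ hπ0 hπ (dsc_bot_fix hϖ g⁻¹)
  exact kapc_conj hζ hπ0 hπ (dsc_bot_fix hϖ n) hi (by
    rw [map_pow, zeta_fix hq hpq hA hζ.pow_eq_one hn]) hc

theorem kapc_const [hp : Fact p.Prime] {ζ : Qb} (hζ : IsPrimitiveRoot ζ p) {β b : Qb}
    (hβ : β ≠ 0) (hb : β ^ p = b) {U : Subgroup GQ} (hU : ∀ σ ∈ U, σ b = b) (hUζ : ∀ σ ∈ U, σ ζ = ζ)
    {σ τ : GQ} (hσ : σ ∈ U) (hτ : τ ∈ U) (hτβ : τ β = β) :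
    kapc ζ β p (σ * τ) = kapc ζ β p σ := by
  rw [kapc_mul hζ hβ hb (hU σ hσ) (hU τ hτ) (hUζ σ hσ), kapc_one hζ hβ hτβ, add_zero]

/-- a homomorphism on inertia with values in a group killed by `p` is a multiple of the Kummer
character -/
theorem tame_eq [hp : Fact p.Prime] (hq : q.Prime) (hpq : p ≠ q) (hA : A.LiesOverPrime q)
    {ζ : Qb} (hζ : IsPrimitiveRoot ζ p)
    {w : Qb → ℝ} (hw : NVal A q w) {ϖ : Qb} (hϖ : IsUnif A ⊥ w ϖ) {π : Qb} (hπ : π ^ p = ϖ)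
    {M : Type*} [AddCommGroup M] (kM : ∀ m : M, p • m = 0)
    (f : IA A → M) (hf : ∀ g h, f (g * h) = f g + f h)
    (hc : ((lev.sub (DK A ⊥)).sub (IA A)).Const1 f) (g₀ : IA A)
    (hg₀ : kapc ζ π p ((g₀ : DK A ⊥) : GQ) ≠ 0) (g : IA A) :
    f g = (kapc ζ π p ((g : DK A ⊥) : GQ) * (kapc ζ π p ((g₀ : DK A ⊥) : GQ))⁻¹).val • f g₀ := by
  have hπ0 : π ≠ 0 := by
    rintro rfl
    rw [zero_pow hp.out.ne_zero] at hπ
    exact hϖ.2.1 hπ.symm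
  have hIb : ∀ σ : IA A, ((σ : DK A ⊥) : GQ) ϖ = ϖ := fun σ => dsc_bot_fix hϖ.1 _
  have hIζ : ∀ σ : IA A, ((σ : DK A ⊥) : GQ) ζ = ζ := fun σ =>
    zeta_fix hq hpq hA hζ.pow_eq_one (Subgroup.mem_subgroupOf.mp σ.2).1
  have kap_add : ∀ σ τ : IA A, kapc ζ π p (((σ * τ : IA A) : DK A ⊥) : GQ) =
      kapc ζ π p ((σ : DK A ⊥) : GQ) + kapc ζ π p ((τ : DK A ⊥) : GQ) := fun σ τ =>
    kapc_mul hζ hπ0 hπ (hIb σ) (hIb τ) (hIζ σ)
  rw [← sub_eq_zero]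
  refine fp_zero kM fun χ => ?_
  rw [map_sub, map_nsmul, nsmul_eq_mul, ZMod.natCast_val, ZMod.cast_id', id]
  -- the scalar-valued homomorphism
  let a₀ := kapc ζ π p ((g₀ : DK A ⊥) : GQ)
  let F : IA A → ZMod p := fun g => χ (f g) - kapc ζ π p ((g : DK A ⊥) : GQ) * a₀⁻¹ * χ (f g₀)
  have hF : ∀ g h, F (g * h) = F g + F h := by
    intro g h
    change χ (f (g * h)) - kapc ζ π p (((g * h : IA A) : DK A ⊥) : GQ) * a₀⁻¹ * χ (f g₀) = _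
    rw [hf, kap_add, map_add]
    change _ = χ (f g) - kapc ζ π p ((g : DK A ⊥) : GQ) * a₀⁻¹ * χ (f g₀) +
      (χ (f h) - kapc ζ π p ((h : DK A ⊥) : GQ) * a₀⁻¹ * χ (f g₀))
    ring
  have hFc : ((lev.sub (DK A ⊥)).sub (IA A)).Const1 F := by
    have h1 : ((lev.sub (DK A ⊥)).sub (IA A)).Const1
        (fun g : IA A => kapc ζ π p ((g : DK A ⊥) : GQ)) := by
      have hfd : FiniteDimensional ℚ (IntermediateField.adjoin ℚ {π}) :=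
        IntermediateField.adjoin.finiteDimensional (Algebra.IsIntegral.isIntegral π)
      refine ⟨((IntermediateField.adjoin ℚ {π}).fixingSubgroup.comap (DK A ⊥).subtype).comap
        (IA A).subtype, ⟨_, ⟨_, ⟨_, hfd, le_rfl⟩, le_rfl⟩, le_rfl⟩, fun g s hs => ?_⟩
      have hs' : ((s : DK A ⊥) : GQ) π = π :=
        (IntermediateField.mem_fixingSubgroup_iff _ _).mp hs π
          (IntermediateField.mem_adjoin_simple_self ℚ π)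
      beta_reduce
      rw [kap_add, kapc_one hζ hπ0 hs', add_zero]
    exact hc.comp₂ h1 (fun x y => χ x - y * a₀⁻¹ * χ (f g₀))
  have hF₀ : F g₀ = 0 := by
    change χ (f g₀) - a₀ * a₀⁻¹ * χ (f g₀) = 0
    rw [mul_inv_cancel₀ hg₀, one_mul, sub_self]
  -- reduce to an element fixing `π`
  obtain ⟨k, hk⟩ : ∃ k : ℕ, kapc ζ π p ((g : DK A ⊥) : GQ) = k * a₀ := by
    refine ⟨(kapc ζ π p ((g : DK A ⊥) : GQ) * a₀⁻¹).val, ?_⟩
    rw [ZMod.natCast_val, ZMod.cast_id', id, inv_mul_cancel_right₀ hg₀]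
  have hFpow : ∀ k : ℕ, F (g₀ ^ k) = 0 := by
    intro k
    induction k with
    | zero =>
      have := hF 1 1
      rw [one_mul, left_eq_add] at this
      rw [pow_zero]
      exact this
    | succ k ih => rw [pow_succ, hF, ih, hF₀, add_zero]
  have hkpow : ∀ k : ℕ, kapc ζ π p (((g₀ ^ k : IA A) : DK A ⊥) : GQ) = k * a₀ := by
    intro k
    induction k with
    | zero =>
      rw [pow_zero, Nat.cast_zero, zero_mul]
      exact kapc_one hζ hπ0 rfl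
    | succ k ih => rw [pow_succ, kap_add, ih]; push_cast; ring
  have h3 : g = g₀ ^ k * ((g₀ ^ k)⁻¹ * g) := by group
  have h4 : kapc ζ π p ((((g₀ ^ k)⁻¹ * g : IA A) : DK A ⊥) : GQ) = 0 := by
    have h5 := kap_add (g₀ ^ k) ((g₀ ^ k)⁻¹ * g)
    rw [← h3, hkpow, hk, left_eq_add] at h5
    exact h5
  have h6 : F ((g₀ ^ k)⁻¹ * g) = 0 :=
    tame_zero hq hpq hA hw hϖ hπ F hF hFc _ ((kapc_zero_iff hζ hπ0 hπ (hIb _)).mp h4)
  have h7 : F g = 0 := by rw [h3, hF, hFpow, h6, add_zero]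
  exact h7

/-- the unramified and tame structure of `D_A` for `q ≠ p` -/
theorem exists_tameAt [hp : Fact p.Prime] (hq : q.Prime) (hpq : p ≠ q) (hA : A.LiesOverPrime q) :
    ∃ (φ : DK A ⊥) (c : ℕ) (g₀ : DK A ⊥), Procyc (lev.sub (DK A ⊥)) (IA A) φ ∧
      TameAt (lev.sub (DK A ⊥)) (IA A) φ p c g₀ ∧ ∀ t : TorP p (UL Qb), φ • t = c • t := by
  obtain ⟨φ, P⟩ := exists_procyc hq hA ⊥
  obtain ⟨w, hw⟩ := TW.exists_NVal hq hA
  obtain ⟨ϖ, hϖ⟩ := exists_isUnif hq hA hw ⊥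
  obtain ⟨π, hπ⟩ := IsAlgClosed.exists_pow_nat_eq ϖ hp.out.pos
  have : NeZero (p : Qb) := ⟨Nat.cast_ne_zero.mpr hp.out.ne_zero⟩
  obtain ⟨ζ, hζ⟩ := HasEnoughRootsOfUnity.exists_primitiveRoot Qb p
  have hπ0 : π ≠ 0 := by
    rintro rfl
    rw [zero_pow hp.out.ne_zero] at hπ
    exact hϖ.2.1 hπ.symm
  obtain ⟨g₁, hg₁, hg₁π⟩ := exists_move hw hϖ hπ
  have hg₁D : g₁ ∈ DK A ⊥ := by
    rw [DK_bot]; exact inertia_le_dec A hg₁
  let g₀ : DK A ⊥ := ⟨g₁, hg₁D⟩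
  have hg₀ : g₀ ∈ IA A := by
    rw [Subgroup.mem_subgroupOf, IK_bot]; exact hg₁
  obtain ⟨c, hc⟩ := exists_cyc hζ (φ : GQ)
  have ha₀ : kapc ζ π p ((⟨g₀, hg₀⟩ : IA A) : DK A ⊥) ≠ 0 := by
    intro h
    exact hg₁π ((kapc_zero_iff hζ hπ0 hπ (dsc_bot_fix hϖ.1 _)).mp h)
  refine ⟨φ, c, g₀, P, ⟨hg₀, fun f hf hfc h0 g => ?_, fun f hf hfc h => ?_⟩,
    fun t => smul_of_cyc hζ hc t⟩
  · rw [tame_eq hq hpq hA hζ hw hϖ hπ (fun m => by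
      rw [nsmul_eq_mul, CharP.cast_eq_zero, zero_mul]) f hf hfc ⟨g₀, hg₀⟩ ha₀ g, h0, smul_zero]
  · rw [tame_eq hq hpq hA hζ hw hϖ hπ (fun m => by
      rw [nsmul_eq_mul, CharP.cast_eq_zero, zero_mul]) f hf hfc ⟨g₀, hg₀⟩ ha₀
        ⟨φ * g₀ * φ⁻¹, h⟩]
    have h1 : kapc ζ π p (((⟨φ * g₀ * φ⁻¹, h⟩ : IA A) : DK A ⊥) : GQ) =
        c * kapc ζ π p ((g₀ : DK A ⊥) : GQ) :=
      kapc_conj_pi hq hpq hA hζ hϖ.1 hϖ.2.1 hπ hg₁ hc
    rw [h1, nsmul_eq_mul, ZMod.natCast_val, ZMod.cast_id', id]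
    have h2 : kapc ζ π p (((⟨g₀, hg₀⟩ : IA A) : DK A ⊥) : GQ) = kapc ζ π p (g₀ : GQ) := rfl
    rw [h2] at ha₀ ⊢
    rw [mul_assoc (c : ZMod p), mul_inv_cancel₀ ha₀, mul_one]

end Tame

end

end Fermat.Agent.CC
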