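import Fermat.Agent.CC.Desc7
set_option autoImplicit false
set_option maxHeartbeats 400000

/-!
# The level structures `levS S ⊆ levS S'`
-/

namespace Fermat.Agent.CC

open scoped Pointwise
open Fermat.Agent.LF (DK ZK)

noncomputable section

/-- the normal subgroup generated by the inertia groups at the primes of `S' \ S` -/
def NT (S S' : Finset Nat.Primes) : Subgroup GQ :=
  Subgroup.normalClosure {σ | ∃ q ∈ S', q ∉ S ∧ ∃ A : ValuationSubring Qb,
    A.LiesOverPrime ((q : Nat.Primes) : ℕ) ∧ σ ∈ A.inertiaSubgroupIn ℚ}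

theorem NT_normal (S S' : Finset Nat.Primes) : (NT S S').Normal := Subgroup.normalClosure_normal

theorem inertia_le_NT {S S' : Finset Nat.Primes} {q : Nat.Primes} (hq : q ∈ S') (hq' : q ∉ S)
    {A : ValuationSubring Qb} (hA : A.LiesOverPrime (q : ℕ)) : A.inertiaSubgroupIn ℚ ≤ NT S S' :=
  fun _ hσ => Subgroup.subset_normalClosure ⟨q, hq, hq', A, hA, hσ⟩

theorem NT_le {S S' : Finset Nat.Primes} {K : Subgroup GQ} (hK : K.Normal)
    (h : ∀ q ∈ S', q ∉ S → ∃ A : ValuationSubring Qb, A.LiesOverPrime ((q : Nat.Primes) : ℕ) ∧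
      A.inertiaSubgroupIn ℚ ≤ K) : NT S S' ≤ K := by
  refine Subgroup.normalClosure_le_normal ?_
  rintro σ ⟨q, hq, hq', B, hB, hσ⟩
  obtain ⟨A, hA, hAK⟩ := h q hq hq'
  obtain ⟨g, rfl⟩ := H05.exists_smul_eq q.2 hA hB
  have h1 : g⁻¹ * σ * g ∈ A.inertiaSubgroupIn ℚ := H09.inertia_conj hσ
  have h2 := hK.conj_mem _ (hAK h1) g
  have h3 : g * (g⁻¹ * σ * g) * g⁻¹ = σ := by group
  rwa [h3] at h2

theorem coarse_levS {S S' : Finset Nat.Primes} (hS : S ⊆ S') :
    Coarse (levS S') (levS S) (NT S S') where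
  nor := NT_normal S S'
  iff U := by
    have hg := H51.isGalois_Qbar
    constructor
    · intro hU
      refine ⟨levS_mono hS hU, ?_⟩
      obtain ⟨V, hVn, ⟨F, hF, hFV⟩, hVU⟩ := (levS S).nor U hU
      refine (NT_le hVn fun q hq hq' => ?_).trans hVU
      obtain ⟨A, hA⟩ := H05.exists_liesOverPrime Qb q.2
      exact ⟨A, hA, (hF.2 q hq' A hA).trans hFV⟩
    · rintro ⟨⟨F, hF, hFU⟩, hN⟩
      have := hF.1
      obtain ⟨F', hF', hF'eq⟩ := exists_field_of_open (X := F.fixingSubgroup ⊔ NT S S')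
        ⟨F, hF.1, le_sup_left⟩
      refine ⟨F', ⟨hF', fun q hq A hA => ?_⟩, by rw [hF'eq]; exact sup_le hFU hN⟩
      rw [hF'eq]
      by_cases hq' : q ∈ S'
      · exact (inertia_le_NT hq' hq hA).trans le_sup_right
      · exact (hF.2 q hq' A hA).trans le_sup_left

end

end Fermat.Agent.CC
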