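import Fermat.Agent.CC.Desc8
set_option autoImplicit false
set_option maxHeartbeats 400000

/-!
# Explicit equivariant homomorphisms: elements with a prescribed support
-/

namespace Fermat.Agent.CC

open scoped Pointwise
open NumberField IsDedekindDomain
open Fermat.Agent.LF (DK ZK)
open Fermat.Agent.TW (NVal Bl Bs)
open Fermat.Agent.H02M (SL SU)

noncomputable section

/-- an element of `E` supported exactly at the place below `A` -/
theorem exists_gen {A : ValuationSubring Qb} {q : ℕ} (hq : q.Prime) (hA : A.LiesOverPrime q)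
    (E : IntermediateField ℚ Qb) [hE : FiniteDimensional ℚ E] :
    ∃ a ∈ E, a ≠ 0 ∧ a ∈ A.nonunits ∧ ∀ (B : ValuationSubring Qb) (q' : ℕ), q'.Prime →
      B.LiesOverPrime q' → (∀ g ∈ E.fixingSubgroup, g • A ≠ B) → a ∈ B ∧ a⁻¹ ∈ B := by
  have hNF : NumberField E := ⟨⟩
  let v := H02L.plc hq hA E
  have hv : PrimeUnder A E v := H02L.primeUnder_plc hq hA E
  have hcl : 0 < Fintype.card (ClassGroup (𝓞 E)) := Fintype.card_pos
  set h := Fintype.card (ClassGroup (𝓞 E)) with hh
  have hprin : (v.asIdeal ^ h).IsPrincipal := by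
    have hne : v.asIdeal ∈ nonZeroDivisors (Ideal (𝓞 E)) :=
      mem_nonZeroDivisors_iff_ne_zero.mpr v.ne_bot
    have h1 : ClassGroup.mk0 (⟨v.asIdeal, hne⟩ ^ h) = 1 := by
      rw [map_pow]
      exact pow_card_eq_one
    have h2 := (ClassGroup.mk0_eq_one_iff (I := v.asIdeal ^ h) (by
      exact pow_mem hne h)).mp (by rw [← h1]; rfl)
    exact h2
  obtain ⟨a₀, ha₀⟩ := hprin.principal
  have ha₀' : v.asIdeal ^ h = Ideal.span {a₀} := ha₀
  have ha₀0 : a₀ ≠ 0 := by
    rintro rfl
    rw [Ideal.span_singleton_zero] at ha₀'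
    exact pow_ne_zero h v.ne_bot ha₀'
  have ha₀v : a₀ ∈ v.asIdeal := by
    have h1 : a₀ ∈ v.asIdeal ^ h := by rw [ha₀']; exact Ideal.mem_span_singleton_self a₀
    exact Ideal.pow_le_self hcl.ne' h1
  refine ⟨((a₀ : E) : Qb), (a₀ : E).2, ?_, ?_, fun B q' hq' hB hgB => ?_⟩
  · intro h0
    apply ha₀0
    have h1 : (a₀ : E) = 0 := Subtype.ext h0
    exact_mod_cast h1
  · rw [← L00.Unr.mem_primeOf, H02L.primeOf_of_primeUnder hv]
    exact ha₀v
  · let v' := H02L.plc hq' hB E
    have hv' : PrimeUnder B E v' := H02L.primeUnder_plc hq' hB E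
    have hne : a₀ ∉ v'.asIdeal := by
      intro hmem
      have h1 : v.asIdeal ^ h ≤ v'.asIdeal := by
        rw [ha₀', Ideal.span_singleton_le_iff_mem]; exact hmem
      have h2 : v.asIdeal ≤ v'.asIdeal := v'.isPrime.le_of_pow_le h1
      have h3 : v.asIdeal = v'.asIdeal := v.isMaximal.eq_of_le v'.isPrime.ne_top h2
      have h4 : v = v' := HeightOneSpectrum.ext h3
      rw [← h4] at hv'
      obtain ⟨g, hg, hgA⟩ := H02L.exists_conj hq hA hv hv'
      exact hgB g hg hgA
    have h5 : B.valuation ((a₀ : E) : Qb) = 1 :=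
      H02L.unit_of_notMem (H02L.primeOf_of_primeUnder hv') hne
    constructor
    · rw [← B.valuation_le_one_iff, h5]
    · rw [← B.valuation_le_one_iff, map_inv₀, h5, inv_one]

end

end Fermat.Agent.CC
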