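import Fermat.Agent.CC.LES
set_option autoImplicit false
set_option maxHeartbeats 400000

/-!
# Stable subgroups and quotient modules
-/

namespace Fermat.Agent.CC

variable {G : Type*} [Group G]

/-- a `G`-stable subgroup -/
structure GSub (G : Type*) [Group G] (A : Type*) [AddCommGroup A] [DistribMulAction G A] where
  N : AddSubgroup A
  stab : ∀ (g : G) (a : A), a ∈ N → g • a ∈ N

namespace GSub

variable {A : Type*} [AddCommGroup A] [DistribMulAction G A] (N : GSub G A)

/-- the submodule as a type -/
def S : Type _ := N.N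

/-- the quotient module as a type -/
def Q : Type _ := A ⧸ N.N

instance : AddCommGroup N.S := inferInstanceAs (AddCommGroup N.N)

instance : AddCommGroup N.Q := inferInstanceAs (AddCommGroup (A ⧸ N.N))

/-- the inclusion -/
def incl : N.S →+ A := N.N.subtype

/-- the projection -/
def proj : A →+ N.Q := QuotientAddGroup.mk' N.N

theorem incl_injective : Function.Injective N.incl := N.N.subtype_injective

theorem proj_surjective : Function.Surjective N.proj := QuotientAddGroup.mk'_surjective _

theorem proj_eq_zero {a : A} : N.proj a = 0 ↔ a ∈ N.N := QuotientAddGroup.eq_zero_iff a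

theorem incl_mem (x : N.S) : N.incl x ∈ N.N := x.2

/-- constructor -/
def mkS (a : A) (ha : a ∈ N.N) : N.S := ⟨a, ha⟩

@[simp] theorem incl_mkS (a : A) (ha : a ∈ N.N) : N.incl (N.mkS a ha) = a := rfl

instance : DistribMulAction G N.S where
  smul g a := ⟨g • a.1, N.stab g a.1 a.2⟩
  one_smul a := Subtype.ext (one_smul G a.1)
  mul_smul g h a := Subtype.ext (mul_smul g h a.1)
  smul_zero g := Subtype.ext (smul_zero g)
  smul_add g a b := Subtype.ext (smul_add g a.1 b.1)

theorem incl_smul (g : G) (x : N.S) : N.incl (g • x) = g • N.incl x := rfl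

/-- the action on the quotient, as an additive map -/
def smulQ (g : G) : N.Q →+ N.Q :=
  QuotientAddGroup.map N.N N.N (DistribSMul.toAddMonoidHom A g) (fun a ha => N.stab g a ha)

theorem smulQ_proj (g : G) (a : A) : N.smulQ g (N.proj a) = N.proj (g • a) := rfl

instance : DistribMulAction G N.Q where
  smul g a := N.smulQ g a
  one_smul a := by
    obtain ⟨a, rfl⟩ := N.proj_surjective a
    exact congrArg N.proj (one_smul G a)
  mul_smul g h a := by
    obtain ⟨a, rfl⟩ := N.proj_surjective a
    exact congrArg N.proj (mul_smul g h a)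
  smul_zero g := map_zero (N.smulQ g)
  smul_add g a b := map_add (N.smulQ g) a b

theorem proj_smul (g : G) (a : A) : N.proj (g • a) = g • N.proj a := rfl

variable {𝓛 : Lev G}

theorem smoothS (hA : 𝓛.Smooth A) : 𝓛.Smooth N.S := by
  intro x
  obtain ⟨U, hU, h⟩ := hA (N.incl x)
  exact ⟨U, hU, fun s hs => N.incl_injective (h s hs)⟩

theorem smoothQ (hA : 𝓛.Smooth A) : 𝓛.Smooth N.Q := by
  intro x
  obtain ⟨a, rfl⟩ := N.proj_surjective x
  obtain ⟨U, hU, h⟩ := hA a
  exact ⟨U, hU, fun s hs => congrArg N.proj (h s hs)⟩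

/-- the tautological short exact sequence -/
def ses (hA : 𝓛.Smooth A) : SES 𝓛 N.S A N.Q where
  i := N.incl
  j := N.proj
  hi := N.incl_smul
  hj := N.proj_smul
  inj := N.incl_injective
  surj := N.proj_surjective
  exact b := by
    rw [proj_eq_zero]
    exact ⟨fun h => ⟨N.mkS b h, rfl⟩, by rintro ⟨a, rfl⟩; exact N.incl_mem a⟩
  smA := N.smoothS hA
  smB := hA
  smC := N.smoothQ hA

/-- kernel of an equivariant map -/
def ker {B : Type*} [AddCommGroup B] [DistribMulAction G B] (f : A →+ B)
    (hf : ∀ (g : G) (a : A), f (g • a) = g • f a) : GSub G A where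
  N := f.ker
  stab g a ha := by
    rw [AddMonoidHom.mem_ker] at ha ⊢
    rw [hf, ha, smul_zero]

/-- range of an equivariant map -/
def range {B : Type*} [AddCommGroup B] [DistribMulAction G B] (f : B →+ A)
    (hf : ∀ (g : G) (b : B), f (g • b) = g • f b) : GSub G A where
  N := f.range
  stab g a ha := by
    obtain ⟨b, rfl⟩ := ha
    exact ⟨g • b, hf g b⟩

theorem mem_ker {B : Type*} [AddCommGroup B] [DistribMulAction G B] (f : A →+ B)
    (hf : ∀ (g : G) (a : A), f (g • a) = g • f a) (a : A) : a ∈ (GSub.ker f hf).N ↔ f a = 0 :=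
  AddMonoidHom.mem_ker

theorem mem_range {B : Type*} [AddCommGroup B] [DistribMulAction G B] (f : B →+ A)
    (hf : ∀ (g : G) (b : B), f (g • b) = g • f b) (a : A) :
    a ∈ (GSub.range f hf).N ↔ ∃ b, f b = a :=
  AddMonoidHom.mem_range

end GSub

end Fermat.Agent.CC
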