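import Fermat.Agent.CC.Hilbert90
set_option autoImplicit false
set_option maxHeartbeats 400000

/-!
# Kummer theory and the cup product with a character
-/

namespace Fermat.Agent.CC

noncomputable section

/-- `ZMod p` with trivial action of every group -/
def Fp (p : ℕ) : Type := ZMod p

namespace Fp

variable {p : ℕ}

instance : AddCommGroup (Fp p) := inferInstanceAs (AddCommGroup (ZMod p))

instance [NeZero p] : Finite (Fp p) := inferInstanceAs (Finite (ZMod p))

/-- identification with `ZMod p` -/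
def toZ (p : ℕ) : Fp p ≃+ ZMod p := AddEquiv.refl _

instance {G : Type*} [Monoid G] : DistribMulAction G (Fp p) where
  smul _ x := x
  one_smul _ := rfl
  mul_smul _ _ _ := rfl
  smul_zero _ := rfl
  smul_add _ _ _ := rfl

@[simp] theorem smul_eq {G : Type*} [Monoid G] (g : G) (x : Fp p) : g • x = x := rfl

end Fp

section Scalar

variable {p : ℕ} [Fact p.Prime] {M : Type*} [AddCommGroup M] (kM : ∀ m : M, p • m = 0)

theorem zs_add {m m' : M} (hm : p • m = 0) (hm' : p • m' = 0) (h : p • (m + m') = 0) (c : ZMod p) :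
    zs (m + m') h c = zs m hm c + zs m' hm' c := by
  obtain ⟨n, rfl⟩ := ZMod.intCast_surjective c
  rw [zs_intCast, zs_intCast, zs_intCast, smul_add]

theorem zs_val (m : M) (hm : p • m = 0) (c : ZMod p) : zs m hm c = c.val • m := by
  have h := zs_intCast m hm c.val
  rw [natCast_zsmul] at h
  rw [← h]
  congr 1
  simp

/-- the pairing `M × F_p → M` -/
def scPair (kM : ∀ m : M, p • m = 0) : M →+ Fp p →+ M where
  toFun m := (zs m (kM m)).comp (Fp.toZ p).toAddMonoidHom
  map_zero' := by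
    ext c
    change zs 0 (kM 0) (Fp.toZ p c) = 0
    rw [zs_val, smul_zero]
  map_add' m m' := by
    ext c
    exact zs_add (kM m) (kM m') (kM _) _

theorem scPair_apply (m : M) (c : Fp p) : scPair kM m c = zs m (kM m) (Fp.toZ p c) := rfl

theorem scPair_eq {G : Type*} [Group G] [DistribMulAction G M] : EqPair G (scPair kM) := by
  intro g m c
  rw [scPair_apply, scPair_apply, Fp.smul_eq, zs_val, zs_val]
  change _ = DistribSMul.toAddMonoidHom M g _
  rw [map_nsmul]
  rfl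

theorem Fp.smooth {G : Type*} [Group G] (𝓛 : Lev G) : 𝓛.Smooth (Fp p) :=
  fun _ => ⟨⊤, 𝓛.top, fun _ _ => rfl⟩

end Scalar

/-- `p`-torsion subgroup as a type -/
def TorP (p : ℕ) (M : Type*) [AddCommGroup M] : Type _ := (nsmulAddMonoidHom (α := M) p).ker

namespace TorP

variable {p : ℕ} {M : Type*} [AddCommGroup M]

instance : AddCommGroup (TorP p M) :=
  inferInstanceAs (AddCommGroup (nsmulAddMonoidHom (α := M) p).ker)

/-- inclusion -/
def incl (p : ℕ) (M : Type*) [AddCommGroup M] : TorP p M →+ M :=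
  (nsmulAddMonoidHom (α := M) p).ker.subtype

theorem incl_injective : Function.Injective (incl p M) := Subtype.val_injective

theorem incl_mem (x : TorP p M) : p • incl p M x = 0 := x.2

/-- constructor -/
def mk (m : M) (hm : p • m = 0) : TorP p M := ⟨m, hm⟩

@[simp] theorem incl_mk (m : M) (hm : p • m = 0) : incl p M (mk m hm) = m := rfl

instance distribMulAction {G : Type*} [Group G] [DistribMulAction G M] :
    DistribMulAction G (TorP p M) where
  smul g x := ⟨g • x.1, by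
    change p • (g • x.1) = 0
    have h1 : p • (g • x.1) = DistribSMul.toAddMonoidHom M g (p • x.1) := by
      rw [map_nsmul]; rfl
    have h2 : p • x.1 = 0 := x.2
    rw [h1, h2, map_zero]⟩
  one_smul x := Subtype.ext (one_smul G x.1)
  mul_smul g h x := Subtype.ext (mul_smul g h x.1)
  smul_zero g := Subtype.ext (smul_zero g)
  smul_add g x y := Subtype.ext (smul_add g x.1 y.1)

theorem incl_smul {G : Type*} [Group G] [DistribMulAction G M] (g : G) (x : TorP p M) :
    incl p M (g • x) = g • incl p M x := rfl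

theorem killed (x : TorP p M) : p • x = 0 := by
  apply incl_injective
  rw [map_nsmul, map_zero]
  exact incl_mem x

theorem smooth {G : Type*} [Group G] [DistribMulAction G M] {𝓛 : Lev G} (sm : 𝓛.Smooth M) :
    𝓛.Smooth (TorP p M) := by
  intro x
  obtain ⟨U, hU, h⟩ := sm (incl p M x)
  exact ⟨U, hU, fun s hs => incl_injective (h s hs)⟩

end TorP

section Div

variable {G : Type*} [Group G] {𝓛 : Lev G} {p : ℕ} [Fact p.Prime]
  {M : Type*} [AddCommGroup M] [DistribMulAction G M]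

/-- the Kummer sequence of a `p`-divisible module -/
def kumSES (sm : 𝓛.Smooth M) (hdiv : ∀ m : M, ∃ m', p • m' = m) :
    SES 𝓛 (TorP p M) M M where
  i := TorP.incl p M
  j := nsmulAddMonoidHom p
  hi := TorP.incl_smul
  hj g m := by
    change p • g • m = DistribSMul.toAddMonoidHom M g (p • m)
    rw [map_nsmul]; rfl
  inj := TorP.incl_injective
  surj := hdiv
  exact m := by
    constructor
    · intro h
      exact ⟨TorP.mk m h, rfl⟩
    · rintro ⟨m, rfl⟩
      exact TorP.incl_mem m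
  smA := TorP.smooth sm
  smB := sm
  smC := sm

variable (sm : 𝓛.Smooth M) (hdiv : ∀ m : M, ∃ m', p • m' = m)

/-- the Kummer map -/
def kap : H0 G M →+ H1 𝓛 (TorP p M) := (kumSES sm hdiv).δ0

theorem kap_surjective (h1 : ∀ z : H1 𝓛 M, z = 0) : Function.Surjective (kap (𝓛 := 𝓛) sm hdiv) := by
  intro x
  exact ((kumSES sm hdiv).H1_i_eq_zero_iff x).mp (h1 _)

theorem kap_eq_zero_iff (a : H0 G M) : kap sm hdiv a = 0 ↔ ∃ b : H0 G M, p • (b : M) = a :=
  (kumSES sm hdiv).δ0_eq_zero_iff a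

theorem kap_eq {a : H0 G M} {b : M} (hb : p • b = a) {f : Z1 𝓛 (TorP p M)}
    (hf : ∀ g, (TorP.incl p M) (f.1 g) = g • b - b) : kap sm hdiv a = H1.mk 𝓛 _ f :=
  (kumSES sm hdiv).δ0_eq hb hf

theorem exists_kap (a : H0 G M) : ∃ (b : M) (f : Z1 𝓛 (TorP p M)), p • b = (a : M) ∧
    (∀ g, (TorP.incl p M) (f.1 g) = g • b - b) ∧ kap sm hdiv a = H1.mk 𝓛 _ f := by
  obtain ⟨b, hb⟩ := hdiv a
  have hb' : (kumSES sm hdiv).j b ∈ H0 G M := by
    change p • b ∈ H0 G M
    rw [hb]; exact a.2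
  exact ⟨b, (kumSES sm hdiv).coc0 b hb', hb, fun g => (kumSES sm hdiv).i_coc0 b hb' g,
    kap_eq sm hdiv hb fun g => (kumSES sm hdiv).i_coc0 b hb' g⟩

include sm hdiv in
/-- `H²(M[p]) → H²(M)` is injective if `H¹(M) = 0` -/
theorem incl2_injective (h1 : ∀ z : H1 𝓛 M, z = 0) :
    Function.Injective (H2coef 𝓛 (TorP.incl p M) TorP.incl_smul) := by
  rw [injective_iff_map_eq_zero]
  intro x hx
  obtain ⟨z, rfl⟩ := ((kumSES sm hdiv).H2_i_eq_zero_iff x).mp hx
  rw [h1 z, map_zero]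

include sm hdiv in
/-- the image of `H²(M[p]) → H²(M)` is the `p`-torsion -/
theorem exists_incl2 (x : H2 𝓛 M) (hx : p • x = 0) :
    ∃ y, H2coef 𝓛 (TorP.incl p M) TorP.incl_smul y = x := by
  refine ((kumSES sm hdiv).H2_j_eq_zero_iff x).mp ?_
  obtain ⟨f, rfl⟩ := H2.mk_surjective x
  rw [← hx, ← map_nsmul]
  rfl

variable (χ : G → ZMod p) (hχ : ∀ g h, χ (g * h) = χ g + χ h) (hc : 𝓛.Const1 χ)

/-- the cocycle of a character -/
def chiZ : Z1 𝓛 (Fp p) := ⟨χ, hc, fun g h => hχ g h⟩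

/-- `κ_a ∪ χ` maps to minus the carry class of `a` -/
theorem incl_cup_kap (a : H0 G M) :
    H2coef 𝓛 (TorP.incl p M) TorP.incl_smul
      (cup11 (scPair (TorP.killed (p := p) (M := M))) (scPair_eq (TorP.killed (p := p) (M := M))) (Fp.smooth 𝓛)
        (kap sm hdiv a) (H1.mk 𝓛 _ (chiZ χ hχ hc))) = -carC χ hχ hc a := by
  obtain ⟨b, f, hb, hf, hk⟩ := exists_kap sm hdiv a
  rw [hk, cup11_mk, carC_apply, ← map_neg]
  change H2.mk 𝓛 M _ = _
  rw [H2.mk_eq_mk]
  refine ⟨fun g => (χ g).val • b, hc.comp (fun c => c.val • b), fun g h => ?_⟩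
  change (TorP.incl p M) (scPair (TorP.killed (p := p) (M := M)) (f.1 g) (χ h)) =
    -(car p (χ g) (χ h) • (a : M)) + _
  rw [scPair_apply, zs_val, map_nsmul, hf]
  simp only [d1]
  have h1 : g • ((χ h).val • b) = (χ h).val • (g • b) := by
    change DistribSMul.toAddMonoidHom M g _ = _
    rw [map_nsmul]; rfl
  rw [h1, hχ, ← hb, smul_sub]
  have h2 := car_spec p (χ g) (χ h)
  have h3 : ((χ g).val + (χ h).val) • b = ((χ g + χ h).val + p * car p (χ g) (χ h)) • b := by
    rw [h2]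
  rw [add_smul, add_smul] at h3
  have h4 : car p (χ g) (χ h) • p • b = (p * car p (χ g) (χ h)) • b := by
    rw [← mul_smul, mul_comm]
  rw [h4]
  change (χ h).val • g • b - (χ h).val • b = _
  have h5 : (χ g).val • b = (χ g + χ h).val • b + (p * car p (χ g) (χ h)) • b - (χ h).val • b := by
    rw [← h3]; abel
  rw [h5]
  abel

variable (t : G) (ht : χ t = 1)

include ht in
/-- `κ_a ∪ χ = 0` iff `a` is a norm from the kernel of `χ` -/
theorem cup_kap_eq_zero_iff [Finite (G ⧸ chiKer χ hχ)] (h1 : ∀ z : H1 𝓛 M, z = 0)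
    (h1' : ∀ z : H1 (𝓛.sub (chiKer χ hχ)) M, z = 0) (a : H0 G M) :
    cup11 (scPair (TorP.killed (p := p) (M := M))) (scPair_eq (TorP.killed (p := p) (M := M))) (Fp.smooth 𝓛)
        (kap sm hdiv a) (H1.mk 𝓛 _ (chiZ χ hχ hc)) = 0 ↔
      ∃ b : H0 (chiKer χ hχ) M, cores0 b = a := by
  rw [← carC_eq_zero_iff χ hχ hc t ht sm h1' a]
  have h2 := incl_cup_kap sm hdiv χ hχ hc a
  constructor
  · intro h
    rw [h, map_zero] at h2
    exact (neg_eq_zero.mp h2.symm)
  · intro h
    apply incl2_injective sm hdiv h1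
    rw [h2, h, neg_zero, map_zero]

include ht in
/-- a class of `H²(G, M[p])` dying on `ker χ` is `κ_a ∪ χ` -/
theorem exists_cup_kap (h1 : ∀ z : H1 𝓛 M, z = 0)
    (h1' : ∀ z : H1 (𝓛.sub (chiKer χ hχ)) M, z = 0) (x : H2 𝓛 (TorP p M))
    (hx : resH2 𝓛 (chiKer χ hχ) _ x = 0) :
    ∃ a : H0 G M, x = cup11 (scPair (TorP.killed (p := p) (M := M))) (scPair_eq (TorP.killed (p := p) (M := M)))
      (Fp.smooth 𝓛) (kap sm hdiv a) (H1.mk 𝓛 _ (chiZ χ hχ hc)) := by
  have h2 : resH2 𝓛 (chiKer χ hχ) M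
      (H2coef 𝓛 (TorP.incl p M) TorP.incl_smul x) = 0 := by
    obtain ⟨x, rfl⟩ := H2.mk_surjective x
    have h3 : resH2 𝓛 (chiKer χ hχ) M
      (H2coef 𝓛 (TorP.incl p M) TorP.incl_smul (H2.mk 𝓛 _ x)) =
      H2coef (𝓛.sub (chiKer χ hχ)) (TorP.incl p M) (fun g a => TorP.incl_smul g a)
        (resH2 𝓛 (chiKer χ hχ) _ (H2.mk 𝓛 _ x)) := rfl
    rw [h3, hx, map_zero]
  obtain ⟨a, ha⟩ := exists_carC χ hχ hc t ht sm h1' _ h2
  refine ⟨-a, ?_⟩
  apply incl2_injective sm hdiv h1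
  rw [incl_cup_kap, ha, map_neg, neg_neg]

/-- cup products with `χ` die on the kernel of `χ` -/
theorem res_cup_kap (x : H1 𝓛 (TorP p M)) :
    resH2 𝓛 (chiKer χ hχ) _ (cup11 (scPair (TorP.killed (p := p) (M := M)))
      (scPair_eq (TorP.killed (p := p) (M := M))) (Fp.smooth 𝓛) x (H1.mk 𝓛 _ (chiZ χ hχ hc))) = 0 := by
  obtain ⟨x, rfl⟩ := H1.mk_surjective x
  refine H2.mk_eq_zero.mpr ⟨0, (𝓛.sub _).const1_const 0, fun g h => ?_⟩
  change scPair (TorP.killed (p := p) (M := M)) (x.1 g) (χ (h : G)) = _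
  rw [show χ (h : G) = 0 from (mem_chiKer χ hχ).mp h.2]
  simp only [d1, Pi.zero_apply, smul_zero, sub_zero, add_zero]
  exact map_zero (scPair (TorP.killed (p := p) (M := M)) (x.1 g))

end Div

end

end Fermat.Agent.CC
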