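import Fermat.Agent.CFT.EC.Data
import Fermat.Agent.CFT.EC.Defs2
import Fermat.Agent.CC.Inst5
import Fermat.Agent.H02M.CountH1b
set_option autoImplicit false
set_option maxHeartbeats 400000

/-!
# The data for the global Euler characteristic over `ℚ`
-/

noncomputable section

namespace Fermat.Agent.CC.ECQ

open Fermat.Agent.LF (DK mem_of_fixed)
open Fermat.Agent.CFT.EC (AddF LP ESK Tv Pm SfK SooK UnitEq ECData)
open scoped Pointwise

variable {p : ℕ} [Fact p.Prime] {S : Finset Nat.Primes} {K : IntermediateField ℚ Qb}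

theorem mem_of_normal (hn : K.fixingSubgroup.Normal) (g : GQ) {x : Qb} (hx : x ∈ K) :
    g x ∈ K := by
  refine mem_of_fixed K fun σ hσ => ?_
  have h1 : g⁻¹ * σ * g ∈ K.fixingSubgroup := by
    have := hn.conj_mem σ hσ g⁻¹
    rwa [inv_inv] at this
  have h2 := (IntermediateField.mem_fixingSubgroup_iff K _).mp h1 x hx
  have h3 := congrArg g h2
  rw [← AlgEquiv.mul_apply] at h3
  have h4 : g * (g⁻¹ * σ * g) = σ * g := by group
  rw [h4, AlgEquiv.mul_apply] at h3
  exact h3

/-- the Galois action on the `S`-units of `K` -/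
@[reducible] def actG (hn : K.fixingSubgroup.Normal) : DistribMulAction GQ (ESK S K) where
  smul g a := ⟨g • a.1, ⟨mem_of_normal hn g a.2.1, a.2.2.smul g⟩⟩
  one_smul a := Subtype.ext (one_smul _ _)
  mul_smul g h a := Subtype.ext (mul_smul _ _ _)
  smul_zero g := Subtype.ext (smul_zero g)
  smul_add g a b := Subtype.ext (smul_add g a.1 b.1)

/-- the action of the quotient on a module with trivial action of the normal subgroup -/
@[reducible] def quotAct {G : Type} [Group G] (N : Subgroup G) [N.Normal] (M : Type)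
    [AddCommGroup M] [DistribMulAction G M] (h : ∀ g ∈ N, ∀ m : M, g • m = m) :
    DistribMulAction (G ⧸ N) M :=
  DistribMulAction.compHom M (QuotientGroup.lift N (DistribMulAction.toAddMonoidEnd G M)
    (fun g hg => AddMonoidHom.ext (h g hg)))

theorem quotAct_smul {G : Type} [Group G] (N : Subgroup G) [N.Normal] (M : Type)
    [AddCommGroup M] [DistribMulAction G M] (h : ∀ g ∈ N, ∀ m : M, g • m = m) (g : G) (m : M) :
    letI := quotAct N M h
    (g : G ⧸ N) • m = g • m := rfl

/-- the action of `Gal(K/ℚ)` on the `S`-units -/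
@[reducible] def actQ [hn : K.fixingSubgroup.Normal] :
    DistribMulAction (GQ ⧸ K.fixingSubgroup) (ESK S K) :=
  letI := actG (S := S) hn
  quotAct K.fixingSubgroup (ESK S K) (fun g hg a => Subtype.ext (UL.ext
    ((IntermediateField.mem_fixingSubgroup_iff K _).mp hg _ a.2.1)))

theorem actQ_smul [hn : K.fixingSubgroup.Normal] (g : GQ) (a : ESK S K) :
    letI := actQ (S := S) (K := K)
    (((g : GQ ⧸ K.fixingSubgroup) • a : ESK S K) : UL Qb) = g • (a : UL Qb) := rfl

/-! ### The Kummer map -/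

theorem notdvd (hSK : SK p S K) : ∀ q : Nat.Primes, q ∉ S → ¬ (q : ℕ) ∣ p := by
  intro q hq hd
  have hp : p.Prime := Fact.out
  have h3 : q = pP p := Nat.Primes.coe_nat_injective
    ((Nat.prime_dvd_prime_iff_eq q.2 hp).mp hd)
  exact hq (by rw [h3]; exact hSK.pS)

theorem fix_ESK (a : ESK S K) (g : K.fixingSubgroup) : (g : GQ) • (a : UL Qb) = a :=
  UL.ext ((IntermediateField.mem_fixingSubgroup_iff K _).mp g.2 _ a.2.1)

theorem nsmul_gsmul (g : GQ) (a : UL Qb) : p • (g • a) = g • (p • a) := by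
  rw [show g • (p • a) = DistribSMul.toAddMonoidHom (UL Qb) g (p • a) from rfl, map_nsmul]
  rfl

theorem kcoc_mem {a : ESK S K} {α : UL Qb} (hα : p • α = (a : UL Qb)) (g : K.fixingSubgroup) :
    p • ((g : GQ) • α - α) = 0 := by
  rw [smul_sub, nsmul_gsmul, hα, fix_ESK, sub_self]

theorem root_SL (hSK : SK p S K) {a : ESK S K} {α : UL Qb} (hα : p • α = (a : UL Qb)) :
    H02M.SL S α.val := by
  refine H02M.SL.root_unit (H02M.SL.of_mem hSK.unr a.2.1) (a : UL Qb).val_ne_zero a.2.2
    (n := p) ?_ (notdvd hSK)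
  rw [← UL.val_nsmul, hα]

/-- the Kummer cocycle of a root `α` of `a` -/
def kcoc (hSK : SK p S K) {a : ESK S K} {α : UL Qb} (hα : p • α = (a : UL Qb)) :
    Z1 ((levS S).sub K.fixingSubgroup) (Mu p) :=
  ⟨fun g => TorP.mk ((g : GQ) • α - α) (kcoc_mem hα g), by
    constructor
    · refine ⟨(IntermediateField.adjoin ℚ {α.val}).fixingSubgroup.comap
        K.fixingSubgroup.subtype, ⟨_, ⟨_, (root_SL hSK hα).unr, le_rfl⟩, le_rfl⟩,
        fun g s hs => ?_⟩
      apply TorP.incl_injective
      have hs' : (s : GQ) ∈ (IntermediateField.adjoin ℚ {α.val}).fixingSubgroup := hs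
      rw [IntermediateField.mem_fixingSubgroup_iff] at hs'
      have h3 : (s : GQ) • α = α :=
        UL.ext (hs' _ (IntermediateField.mem_adjoin_simple_self ℚ _))
      change ((g : GQ) * (s : GQ)) • α - α = (g : GQ) • α - α
      rw [mul_smul, h3]
    · intro g h
      apply TorP.incl_injective
      change ((g : GQ) * (h : GQ)) • α - α = ((g : GQ) • α - α) + (g : GQ) • ((h : GQ) • α - α)
      rw [mul_smul, smul_sub]
      abel⟩

theorem incl_kcoc (hSK : SK p S K) {a : ESK S K} {α : UL Qb} (hα : p • α = (a : UL Qb))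
    (g : K.fixingSubgroup) : TorP.incl p (UL Qb) ((kcoc hSK hα).1 g) = (g : GQ) • α - α := rfl

theorem tor_fixed (hSK : SK p S K) {x : UL Qb} (hx : p • x = 0) (g : K.fixingSubgroup) :
    (g : GQ) • x = x :=
  congrArg (TorP.incl p (UL Qb)) (smul_mu_of_root hSK.root g g.2 (TorP.mk x hx))

/-- the Kummer map -/
def kum (hSK : SK p S K) : ESK S K →+ Z1 ((levS S).sub K.fixingSubgroup) (Mu p) where
  toFun a := kcoc hSK (H02M.divp p (a : UL Qb)).choose_spec
  map_zero' := by
    apply Subtype.ext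
    funext g
    apply TorP.incl_injective
    rw [incl_kcoc]
    have h1 : p • (H02M.divp p ((0 : ESK S K) : UL Qb)).choose = 0 :=
      (H02M.divp p ((0 : ESK S K) : UL Qb)).choose_spec
    rw [tor_fixed hSK h1 g, sub_self]
    rfl
  map_add' a b := by
    apply Subtype.ext
    funext g
    apply TorP.incl_injective
    have h0 := (H02M.divp p ((a + b : ESK S K) : UL Qb)).choose_spec
    have h1 := (H02M.divp p (a : UL Qb)).choose_spec
    have h2 := (H02M.divp p (b : UL Qb)).choose_spec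
    set α := (H02M.divp p ((a + b : ESK S K) : UL Qb)).choose
    set β := (H02M.divp p (a : UL Qb)).choose
    set γ := (H02M.divp p (b : UL Qb)).choose
    change (g : GQ) • α - α = ((g : GQ) • β - β) + ((g : GQ) • γ - γ)
    have h3 : p • (α - (β + γ)) = 0 := by
      rw [smul_sub, smul_add, h0, h1, h2]
      exact sub_self _
    have h4 := tor_fixed hSK h3 g
    rw [smul_sub, smul_add] at h4
    have h5 : (g : GQ) • α = α - (β + γ) + ((g : GQ) • β + (g : GQ) • γ) := by
      rw [← h4]; abel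
    rw [h5]
    abel

theorem incl_kum (hSK : SK p S K) {a : ESK S K} {α : UL Qb} (hα : p • α = (a : UL Qb))
    (g : K.fixingSubgroup) : TorP.incl p (UL Qb) ((kum hSK a).1 g) = (g : GQ) • α - α := by
  have h1 := (H02M.divp p (a : UL Qb)).choose_spec
  set β := (H02M.divp p (a : UL Qb)).choose
  change (g : GQ) • β - β = _
  have h3 : p • (β - α) = 0 := by rw [smul_sub, h1, hα, sub_self]
  have h4 := tor_fixed hSK h3 g
  rw [smul_sub] at h4
  have h5 : (g : GQ) • β = β - α + (g : GQ) • α := by rw [← h4]; abel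
  rw [h5]
  abel

theorem kum_eq_zero_iff (hSK : SK p S K) (a : ESK S K) :
    kum hSK a = 0 ↔ ∃ b : ESK S K, p • b = a := by
  have hp : p.Prime := Fact.out
  constructor
  · intro h
    obtain ⟨α, hα⟩ := H02M.divp p (a : UL Qb)
    have hfix : ∀ g ∈ K.fixingSubgroup, g α.val = α.val := by
      intro g hg
      have h1 := incl_kum hSK hα ⟨g, hg⟩
      rw [h] at h1
      have h2 : g • α = α := by
        rw [← sub_eq_zero]
        exact h1.symm
      exact congrArg UL.val h2
    refine ⟨⟨α, mem_of_fixed K hfix, ?_⟩, Subtype.ext hα⟩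
    apply H02M.SU.of_pow hp.ne_zero
    rw [← UL.val_nsmul, hα]
    exact a.2.2
  · rintro ⟨b, rfl⟩
    apply Subtype.ext
    funext g
    apply TorP.incl_injective
    have h1 : p • (b : UL Qb) = ((p • b : ESK S K) : UL Qb) := rfl
    rw [incl_kum hSK h1 g, fix_ESK, sub_self]
    rfl

theorem kum_surjective (hSK : SK p S K) (hcl : ClTriv p S K) :
    Function.Surjective (kum (S := S) hSK) := by
  have hfd := hSK.unr.1
  have hnf : NumberField K := ⟨⟩
  intro f
  obtain ⟨x, hx⟩ := H02M.kK_surjective (p := p) (K := K)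
    (Multiplicative.ofAdd (H02M.infl1 S K.fixingSubgroup (Mu p) (H1.mk _ _ f)))
  have h1 : x ∈ H02M.BS S K p := by
    rw [← H02M.comap_range_infl1 hSK, Subgroup.mem_comap, hx]
    exact ⟨H1.mk _ _ f, rfl⟩
  rw [H02M.BS_eq hcl, Subgroup.mem_sup] at h1
  obtain ⟨u, hu, _, ⟨c, rfl⟩, huc⟩ := h1
  have h2 : H02M.kK K p u =
      Multiplicative.ofAdd (H02M.infl1 S K.fixingSubgroup (Mu p) (H1.mk _ _ f)) := by
    rw [← hx, ← huc, map_mul]
    have h3 : H02M.kK K p ((powMonoidHom p : (K : Type)ˣ →* (K : Type)ˣ) c) = 1 := by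
      rw [← MonoidHom.mem_ker, H02M.ker_kK]
      exact ⟨c, rfl⟩
    rw [h3, mul_one]
  have hu0 : ((u : K) : Qb) ≠ 0 := by exact_mod_cast u.ne_zero
  let a : ESK S K := ⟨UL.mk _ hu0, (u : K).2, (H02M.SU_iff (S := S) u).mpr hu⟩
  refine ⟨a, ?_⟩
  obtain ⟨b, f', hb, hf', hk⟩ := exists_kap (H02M.smH K.fixingSubgroup) (H02M.divp p)
      (H02M.toH0 (le_refl K.fixingSubgroup) u).toAdd
  have hb' : p • b = (a : UL Qb) := hb
  have h4 : H1.mk (lev.sub K.fixingSubgroup) (Mu p) _ =
      kap (H02M.smH K.fixingSubgroup) (H02M.divp p)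
        (H02M.toH0 (le_refl K.fixingSubgroup) u).toAdd :=
    (congrArg Multiplicative.toAdd h2).symm
  rw [hk, H1.mk_eq_mk] at h4
  obtain ⟨m, hm⟩ := h4
  apply Subtype.ext
  funext g
  have h3 := hm g
  rw [H02M.triv_mu hSK.root le_rfl, sub_self, add_zero] at h3
  apply TorP.incl_injective
  rw [incl_kum hSK hb']
  exact (hf' g).symm.trans (congrArg (TorP.incl p (UL Qb)) h3.symm)

/-- the Kummer isomorphism -/
def kumE (hSK : SK p S K) (hcl : ClTriv p S K) :
    LP p (ESK S K) ≃+ Z1 ((levS S).sub K.fixingSubgroup) (Mu p) :=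
  AddEquiv.ofBijective (QuotientAddGroup.lift (nsmulAddMonoidHom (α := ESK S K) p).range
    (kum hSK) (by
      rintro _ ⟨b, rfl⟩
      exact (kum_eq_zero_iff hSK _).mpr ⟨b, rfl⟩)) (by
    constructor
    · rw [injective_iff_map_eq_zero]
      intro x hx
      obtain ⟨a, rfl⟩ := LP.mk_surjective x
      exact LP.mk_eq_zero.mpr ((kum_eq_zero_iff hSK a).mp hx)
    · intro f
      obtain ⟨a, ha⟩ := kum_surjective hSK hcl f
      exact ⟨LP.mk p _ a, ha⟩)

theorem kumE_mk (hSK : SK p S K) (hcl : ClTriv p S K) (a : ESK S K) :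
    kumE hSK hcl (LP.mk p _ a) = kum hSK a := rfl

/-! ### Complex conjugation -/

theorem cc_smul (t : Mu p) : (complexConjugation : GQ) • t = -t := by
  have hp : p.Prime := Fact.out
  apply TorP.incl_injective
  rw [TorP.incl_smul, map_neg]
  apply UL.ext
  rw [UL.val_neg]
  set x := (TorP.incl p (UL Qb) t).val with hx
  have hxp : x ^ p = 1 := by
    rw [hx, ← UL.val_nsmul, TorP.incl_mem, UL.val_zero]
  change complexConjugation x = x⁻¹
  have hinj : Function.Injective complexEmbedding := complexEmbedding.injective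
  apply hinj
  rw [complexEmbedding_complexConjugation, map_inv₀]
  have h1 : (complexEmbedding x) ^ p = 1 := by rw [← map_pow, hxp, map_one]
  have h2 : ‖complexEmbedding x‖ = 1 := Complex.norm_eq_one_of_pow_eq_one h1 hp.ne_zero
  rw [Complex.inv_def, Complex.normSq_eq_norm_sq, h2]
  simp

theorem DK_bot_eq (A : ValuationSubring Qb) : DK A ⊥ = A.decompositionSubgroup ℚ := by
  ext σ
  exact mem_DK_bot

theorem finite_Z1 (hSK : SK p S K) (hcl : ClTriv p S K) :
    Finite (Z1 ((levS S).sub K.fixingSubgroup) (Mu p)) := by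
  have hp : p.Prime := Fact.out
  have hfd := hSK.unr.1
  have hnf : NumberField K := ⟨⟩
  have := (H02M.SK_finite S K).to_subtype
  have := Fintype.ofFinite (H02M.SK S K)
  have h1 : Finite (H1 ((levS S).sub K.fixingSubgroup) (Mu p)) := by
    apply Nat.finite_of_card_ne_zero
    rw [H02M.card_H1S hSK hcl]
    exact pow_ne_zero _ hp.ne_zero
  refine Finite.of_injective (H1.mk ((levS S).sub K.fixingSubgroup) (Mu p)) ?_
  intro f f' h
  rw [H1.mk_eq_mk] at h
  obtain ⟨m, hm⟩ := h
  apply Subtype.ext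
  funext g
  have h3 := hm g
  rwa [H02M.triv_mu hSK.root le_rfl, sub_self, add_zero] at h3

theorem equi_aux (hSK : SK p S K) (hcl : ClTriv p S K) [hn : K.fixingSubgroup.Normal] (g : GQ)
    (f f' : Z1 ((levS S).sub K.fixingSubgroup) (Mu p))
    (hff : ∀ h h' : K.fixingSubgroup, (h' : GQ) = g⁻¹ * h * g → f'.1 h = g • f.1 h') :
    letI := actQ (S := S) (K := K)
    (kumE hSK hcl).symm f' = (g : GQ ⧸ K.fixingSubgroup) • (kumE hSK hcl).symm f := by
  letI := actQ (S := S) (K := K)
  obtain ⟨y, rfl⟩ := (kumE hSK hcl).surjective f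
  rw [AddEquiv.symm_apply_apply, AddEquiv.symm_apply_eq]
  obtain ⟨a, rfl⟩ := LP.mk_surjective y
  rw [LP.smul_mk, kumE_mk]
  obtain ⟨α, hα⟩ := H02M.divp p (a : UL Qb)
  have hα' : p • (g • α) = (((g : GQ ⧸ K.fixingSubgroup) • a : ESK S K) : UL Qb) := by
    rw [actQ_smul, nsmul_gsmul, hα]
  apply Subtype.ext
  funext h
  have hh : g⁻¹ * (h : GQ) * g ∈ K.fixingSubgroup := by
    have := hn.conj_mem h h.2 g⁻¹
    rwa [inv_inv] at this
  rw [hff h ⟨_, hh⟩ rfl]
  apply TorP.incl_injective
  rw [incl_kum hSK hα', TorP.incl_smul, kumE_mk, incl_kum hSK hα, smul_sub]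
  change g • (g⁻¹ * (h : GQ) * g) • α - g • α = _
  rw [← mul_smul, ← mul_smul]
  congr 2
  group

theorem unit_aux (𝒟 : Dat p S) [hn : K.fixingSubgroup.Normal] (hSK : SK p S K)
    (hU : UnitEq p) [DistribMulAction (GQ ⧸ K.fixingSubgroup) (Mu p)]
    (hM : ∀ (g : GQ) (t : Mu p), (g : GQ ⧸ K.fixingSubgroup) • t = g • t)
    (E : AddF p (GQ ⧸ K.fixingSubgroup)) (D' : S → Subgroup GQ)
    (hD : D' = fun q => (𝒟.A q).decompositionSubgroup ℚ) :
    letI := actQ (S := S) (K := K)
    E.d (LP p (ESK S K)) + E.d (Tv (ZMod p)) = E.d (Mu p) +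
      E.d (Pm (Σ v : S, (GQ ⧸ K.fixingSubgroup) ⧸ ((D' v).map
        (QuotientGroup.mk' K.fixingSubgroup))) (ZMod p)) +
      E.d (Pm ((GQ ⧸ K.fixingSubgroup) ⧸ (Subgroup.zpowers
        (QuotientGroup.mk' K.fixingSubgroup CFT.EC.cc))) (ZMod p)) := by
  subst hD
  letI := actQ (S := S) (K := K)
  exact hU S K hSK 𝒟.A 𝒟.hA (fun g x => rfl) hM E

/-- **the data for the global Euler characteristic over `ℚ`** -/
theorem exists_ecdata (𝒟 : Dat p S) (hp2 : p ≠ 2) (hpS : pP p ∈ S)
    {K₀ : IntermediateField ℚ Qb} [K.fixingSubgroup.Normal]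
    [Finite (GQ ⧸ K.fixingSubgroup)] [Finite (GQ ⧸ K₀.fixingSubgroup)]
    (I : (𝒟.gld hp2 hpS).GIn K.fixingSubgroup K₀.fixingSubgroup) (hSK : SK p S K)
    (hcl : ClTriv p S K) (hU : UnitEq p) :
    ∃ D : ECData p (𝒟.gld hp2 hpS) K.fixingSubgroup K₀.fixingSubgroup,
      D.c = CFT.EC.cc ∧ Function.Surjective D.ι := by
  have hfin : Finite (Z1 ((levS S).sub K.fixingSubgroup) (Mu p)) := finite_Z1 hSK hcl
  refine ⟨{ I := I
            odd := hp2
            c := CFT.EC.cc
            cc := complexConjugation_mul_self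
            cT := cc_smul
            Y := LP p (ESK S K)
            act := letI := actQ (S := S) (K := K); inferInstance
            fY := Finite.of_equiv _ (kumE hSK hcl).symm.toEquiv
            kY := LP.killed
            ι := (kumE hSK hcl).symm.toAddMonoidHom
            inj := (kumE hSK hcl).symm.injective
            equi := fun g f f' h => equi_aux hSK hcl g f f' h
            unit := fun h E => unit_aux 𝒟 hSK hU h E _ (funext fun q => DK_bot_eq _) },
    rfl, (kumE hSK hcl).symm.surjective⟩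

end Fermat.Agent.CC.ECQ

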