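import Mathlib
set_option autoImplicit false

/-!
# Linear algebra over `ZMod p` for abelian groups killed by `p`
-/

namespace Fermat.Agent.CC

section Aux

variable {F : Type*} [Field F] {X Y : Type*} [AddCommGroup X] [AddCommGroup Y] [Module F X]
  [Module F Y]

theorem lin_extend (j : X →ₗ[F] Y) (l : X →ₗ[F] F) (h : ∀ x, j x = 0 → l x = 0) :
    ∃ m : Y →ₗ[F] F, ∀ x, m (j x) = l x := by
  have hker : LinearMap.ker j ≤ LinearMap.ker l := by
    intro x hx
    rw [LinearMap.mem_ker] at hx ⊢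
    exact h x hx
  let q : LinearMap.range j →ₗ[F] F :=
    (Submodule.liftQ (LinearMap.ker j) l hker).comp j.quotKerEquivRange.symm.toLinearMap
  obtain ⟨m, hm⟩ := LinearMap.exists_extend q
  refine ⟨m, fun x => ?_⟩
  have h1 : m (j x) = q ⟨j x, ⟨x, rfl⟩⟩ := by rw [← hm]; rfl
  rw [h1]
  change (Submodule.liftQ (LinearMap.ker j) l hker)
    (j.quotKerEquivRange.symm ⟨j x, ⟨x, rfl⟩⟩) = _
  have h2 : j.quotKerEquivRange.symm ⟨j x, ⟨x, rfl⟩⟩ = Submodule.Quotient.mk x := by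
    rw [LinearEquiv.symm_apply_eq]
    rfl
  rw [h2]
  rfl

theorem lin_perfect [FiniteDimensional F X] [FiniteDimensional F Y] (B : X →ₗ[F] Y →ₗ[F] F)
    (hl : ∀ x, (∀ y, B x y = 0) → x = 0) (hr : ∀ y, (∀ x, B x y = 0) → y = 0) :
    (∀ l : X →ₗ[F] F, ∃ y, ∀ x, B x y = l x) ∧ (∀ l : Y →ₗ[F] F, ∃ x, ∀ y, B x y = l y) ∧
      Module.finrank F X = Module.finrank F Y := by
  have h1 : Function.Injective B := by
    rw [injective_iff_map_eq_zero]
    intro x hx
    exact hl x fun y => LinearMap.congr_fun hx y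
  have h2 : Function.Injective B.flip := by
    rw [injective_iff_map_eq_zero]
    intro y hy
    exact hr y fun x => LinearMap.congr_fun hy x
  haveI := LinearMap.IsPerfPair.of_injective h1 h2
  have b1 : Function.Bijective B := LinearMap.IsPerfPair.bijective_left B
  have b2 : Function.Bijective B.flip := LinearMap.IsPerfPair.bijective_right B
  refine ⟨fun l => ?_, fun l => ?_, ?_⟩
  · obtain ⟨y, hy⟩ := b2.2 l
    exact ⟨y, fun x => LinearMap.congr_fun hy x⟩
  · obtain ⟨x, hx⟩ := b1.2 l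
    exact ⟨x, fun y => LinearMap.congr_fun hx y⟩
  · have e1 := LinearEquiv.finrank_eq (LinearEquiv.ofBijective B b1)
    rw [e1]
    exact Subspace.dual_finrank_eq

end Aux

variable {p : ℕ} [Fact p.Prime]

section

variable {X Y : Type*} [AddCommGroup X] [AddCommGroup Y]

theorem fp_extend (hX : ∀ x : X, p • x = 0) (hY : ∀ y : Y, p • y = 0) (j : X →+ Y)
    (l : X →+ ZMod p) (h : ∀ x, j x = 0 → l x = 0) : ∃ m : Y →+ ZMod p, ∀ x, m (j x) = l x := by
  letI : Module (ZMod p) X := AddCommGroup.zmodModule hX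
  letI : Module (ZMod p) Y := AddCommGroup.zmodModule hY
  obtain ⟨m, hm⟩ := lin_extend (j.toZModLinearMap p) (l.toZModLinearMap p) h
  exact ⟨m.toAddMonoidHom, hm⟩

theorem fp_sep_aux [Module (ZMod p) Y] (N : AddSubgroup Y) {y : Y} (hy : y ∉ N) :
    ∃ m : Y →+ ZMod p, (∀ n ∈ N, m n = 0) ∧ m y ≠ 0 := by
  have hy' : y ∉ AddSubgroup.toZModSubmodule p N := by
    rw [AddSubgroup.mem_toZModSubmodule]; exact hy
  obtain ⟨f, hf, hN⟩ := Submodule.exists_le_ker_of_notMem hy'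
  refine ⟨f.toAddMonoidHom, fun n hn => ?_, hf⟩
  have : n ∈ AddSubgroup.toZModSubmodule p N := by
    rw [AddSubgroup.mem_toZModSubmodule]; exact hn
  exact hN this

theorem fp_sep (hY : ∀ y : Y, p • y = 0) (N : AddSubgroup Y) {y : Y} (hy : y ∉ N) :
    ∃ m : Y →+ ZMod p, (∀ n ∈ N, m n = 0) ∧ m y ≠ 0 := by
  letI : Module (ZMod p) Y := AddCommGroup.zmodModule hY
  exact fp_sep_aux N hy

theorem fp_isPerfPair_aux [Finite X] [Finite Y] [Module (ZMod p) X] [Module (ZMod p) Y]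
    (e : X →+ Y →+ ZMod p)
    (hl : ∀ x, (∀ y, e x y = 0) → x = 0) (hr : ∀ y, (∀ x, e x y = 0) → y = 0) :
    (∀ l : X →+ ZMod p, ∃ y, ∀ x, e x y = l x) ∧ (∀ l : Y →+ ZMod p, ∃ x, ∀ y, e x y = l y) ∧
      Nat.card X = Nat.card Y := by
  haveI : Module.Finite (ZMod p) X := Module.Finite.of_finite
  haveI : Module.Finite (ZMod p) Y := Module.Finite.of_finite
  let B : X →ₗ[ZMod p] Y →ₗ[ZMod p] ZMod p :=
    LinearMap.mk₂ (ZMod p) (fun x y => e x y) (fun x x' y => by simp)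
      (fun c x y => ZMod.map_smul (e.flip y) c x) (fun x y y' => by simp)
      (fun c x y => ZMod.map_smul (e x) c y)
  obtain ⟨h1, h2, h3⟩ := lin_perfect B hl hr
  refine ⟨fun l => h1 (l.toZModLinearMap p), fun l => h2 (l.toZModLinearMap p), ?_⟩
  rw [Module.natCard_eq_pow_finrank (K := ZMod p), Module.natCard_eq_pow_finrank (K := ZMod p)
      (V := Y), h3]

theorem fp_isPerfPair [Finite X] [Finite Y]
    (hX : ∀ x : X, p • x = 0) (hY : ∀ y : Y, p • y = 0) (e : X →+ Y →+ ZMod p)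
    (hl : ∀ x, (∀ y, e x y = 0) → x = 0) (hr : ∀ y, (∀ x, e x y = 0) → y = 0) :
    (∀ l : X →+ ZMod p, ∃ y, ∀ x, e x y = l x) ∧ (∀ l : Y →+ ZMod p, ∃ x, ∀ y, e x y = l y) ∧
      Nat.card X = Nat.card Y := by
  letI : Module (ZMod p) X := AddCommGroup.zmodModule hX
  letI : Module (ZMod p) Y := AddCommGroup.zmodModule hY
  exact fp_isPerfPair_aux e hl hr

end

section T

variable {X Y T : Type*} [AddCommGroup X] [AddCommGroup Y] [AddCommGroup T]
  (τ : T ≃+ ZMod p)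

theorem fpT_perfect [Finite X] [Finite Y] (hX : ∀ x : X, p • x = 0) (hY : ∀ y : Y, p • y = 0)
    (e : X →+ Y →+ T)
    (hl : ∀ x, (∀ y, e x y = 0) → x = 0) (hr : ∀ y, (∀ x, e x y = 0) → y = 0) :
    (∀ l : X →+ ZMod p, ∃ y, ∀ x, τ (e x y) = l x) ∧
      (∀ l : Y →+ ZMod p, ∃ x, ∀ y, τ (e x y) = l y) ∧ Nat.card X = Nat.card Y := by
  have := fp_isPerfPair hX hY (e.compr₂ τ.toAddMonoidHom)
    (fun x hx => hl x fun y => by simpa using hx y)
    (fun y hy => hr y fun x => by simpa using hy x)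
  exact this

end T

end Fermat.Agent.CC
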