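import Fermat.Agent.CC.Cyclic2
set_option autoImplicit false
set_option maxHeartbeats 400000

/-!
# Hilbert 90 for level cohomology
-/

namespace Fermat.Agent.CC

noncomputable section

/-- the multiplicative group of a field, written additively -/
def UL (L : Type*) [Field L] : Type _ := Additive Lˣ

namespace UL

variable {L : Type*} [Field L]

instance : AddCommGroup (UL L) := inferInstanceAs (AddCommGroup (Additive Lˣ))

/-- underlying element -/
def val (a : UL L) : L := ((Additive.toMul (α := Lˣ) a : Lˣ) : L)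

/-- constructor -/
def mk (x : L) (hx : x ≠ 0) : UL L := Additive.ofMul (Units.mk0 x hx)

@[simp] theorem val_mk (x : L) (hx : x ≠ 0) : (mk x hx).val = x := rfl

theorem val_ne_zero (a : UL L) : a.val ≠ 0 := Units.ne_zero _

theorem ext {a b : UL L} (h : a.val = b.val) : a = b :=
  Additive.toMul.injective (Units.ext h)

@[simp] theorem mk_val (a : UL L) : mk a.val a.val_ne_zero = a := ext rfl

@[simp] theorem val_add (a b : UL L) : (a + b).val = a.val * b.val := rfl

@[simp] theorem val_zero : (0 : UL L).val = 1 := rfl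

@[simp] theorem val_neg (a : UL L) : (-a).val = a.val⁻¹ :=
  Units.val_inv_eq_inv_val (Additive.toMul (α := Lˣ) a)

@[simp] theorem val_sub (a b : UL L) : (a - b).val = a.val / b.val := by
  rw [sub_eq_add_neg, val_add, val_neg, div_eq_mul_inv]

@[simp] theorem val_nsmul (n : ℕ) (a : UL L) : (n • a).val = a.val ^ n := by
  induction n with
  | zero => simp
  | succ n ih => rw [succ_nsmul, val_add, ih, pow_succ]

@[simp] theorem val_zsmul (n : ℤ) (a : UL L) : (n • a).val = a.val ^ n := by
  cases n with
  | ofNat n => simp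
  | negSucc n => rw [negSucc_zsmul, val_neg, val_nsmul, zpow_negSucc]

variable {G : Type*} [Group G] [MulSemiringAction G L]

instance : DistribMulAction G (UL L) where
  smul g a := mk (g • a.val) (by
    rw [Ne, smul_eq_zero_iff_eq]; exact a.val_ne_zero)
  one_smul a := ext (one_smul G a.val)
  mul_smul g h a := ext (mul_smul g h a.val)
  smul_zero g := ext (smul_one g)
  smul_add g a b := ext (smul_mul' g a.val b.val)

@[simp] theorem val_smul (g : G) (a : UL L) : (g • a).val = g • a.val := rfl

end UL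

variable {G : Type*} [Group G]

/-- enough open normal subgroups are determined by their fixed points in `L` -/
def Faith (𝓛 : Lev G) (L : Type*) [Field L] [MulSemiringAction G L] : Prop :=
  ∀ U, 𝓛.isOpen U → ∃ V : Subgroup G, V ≤ U ∧ 𝓛.isOpen V ∧ V.Normal ∧
    ∀ g : G, (∀ x : L, (∀ v ∈ V, v • x = x) → g • x = x) → g ∈ V

theorem Faith.sub {𝓛 : Lev G} {L : Type*} [Field L] [MulSemiringAction G L] (h : Faith 𝓛 L)
    (H : Subgroup G) : Faith (𝓛.sub H) L := by
  rintro U ⟨W, hW, hWU⟩
  obtain ⟨V, hVW, hV, hVn, hVf⟩ := h W hW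
  refine ⟨V.comap H.subtype, (Subgroup.comap_mono hVW).trans hWU, ⟨V, hV, le_rfl⟩,
    hVn.comap _, fun g hg => ?_⟩
  exact hVf g fun x hx => hg x fun v hv => hx _ hv

section H90

variable {𝓛 : Lev G} {L : Type*} [Field L] [MulSemiringAction G L]

theorem hilbert90 (hF : Faith 𝓛 L) (x : H1 𝓛 (UL L)) : x = 0 := by
  classical
  obtain ⟨f, rfl⟩ := H1.mk_surjective x
  obtain ⟨U, hU, hUf⟩ := f.2.1
  obtain ⟨V, hVU, hV, hVn, hVf⟩ := hF U hU
  have := 𝓛.fin V hV
  have hfin : Finite (G ⧸ V) := inferInstance
  have := Fintype.ofFinite (G ⧸ V)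
  set c : G → L := fun g => (f.1 g).val with hcdef
  have hc0 : ∀ g, c g ≠ 0 := fun g => UL.val_ne_zero _
  have hcm : ∀ g h, c (g * h) = c g * g • c h := by
    intro g h
    simp only [hcdef]
    rw [f.2.2 g h, UL.val_add, UL.val_smul]
  have hcv : ∀ g, ∀ v ∈ V, c (g * v) = c g := by
    intro g v hv
    simp only [hcdef]
    rw [hUf g v (hVU hv)]
  -- the monoid of fixed points
  let E : Submonoid L :=
    { carrier := {x | ∀ v ∈ V, v • x = x}
      mul_mem' := fun {a b} ha hb v hv => by rw [smul_mul', ha v hv, hb v hv]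
      one_mem' := fun v _ => smul_one v }
  let φ : G ⧸ V → (E →* L) := fun q =>
    { toFun := fun x => (Quotient.out q : G) • (x : L)
      map_one' := smul_one _
      map_mul' := fun a b => smul_mul' _ _ _ }
  have hφ : Function.Injective φ := by
    intro q r hqr
    have h1 : (Quotient.out q : G)⁻¹ * Quotient.out r ∈ V := by
      apply hVf
      intro x hx
      have h2 := DFunLike.congr_fun hqr (⟨x, hx⟩ : E)
      change (Quotient.out q : G) • x = (Quotient.out r : G) • x at h2
      rw [mul_smul, ← h2, inv_smul_smul]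
    rw [← QuotientGroup.out_eq' q, ← QuotientGroup.out_eq' r]
    exact QuotientGroup.eq.mpr h1
  have hli := (linearIndependent_monoidHom E L).comp φ hφ
  have hex : ∃ a : L, (∀ v ∈ V, v • a = a) ∧
      ∑ q : G ⧸ V, c (Quotient.out q) * (Quotient.out q : G) • a ≠ 0 := by
    by_contra hcon
    push Not at hcon
    have h1 : ∑ q : G ⧸ V, c (Quotient.out q) • (φ q : E → L) = 0 := by
      funext x
      rw [Finset.sum_apply]
      exact hcon x x.2
    have h2 := Fintype.linearIndependent_iff.mp hli (fun q => c (Quotient.out q)) h1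
      (QuotientGroup.mk 1)
    exact hc0 _ h2
  obtain ⟨a, ha, hb⟩ := hex
  set b := ∑ q : G ⧸ V, c (Quotient.out q) * (Quotient.out q : G) • a with hbdef
  have hFinv : ∀ g, ∀ v ∈ V, c (g * v) * (g * v) • a = c g * g • a := by
    intro g v hv
    rw [hcv g v hv, mul_smul, ha v hv]
  have hFq : ∀ g : G, c (Quotient.out (QuotientGroup.mk g : G ⧸ V)) *
      (Quotient.out (QuotientGroup.mk g : G ⧸ V) : G) • a = c g * g • a := by
    intro g
    obtain ⟨v, hv⟩ := QuotientGroup.mk_out_eq_mul V g
    rw [hv, hFinv g v v.2]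
  have hsm : ∀ h : G, c h * h • b = b := by
    intro h
    rw [hbdef, Finset.smul_sum, Finset.mul_sum]
    have h1 : ∀ q : G ⧸ V, c h * h • (c (Quotient.out q) * (Quotient.out q : G) • a) =
        c (Quotient.out (h • q)) * (Quotient.out (h • q) : G) • a := by
      intro q
      rw [smul_mul', ← mul_assoc, ← hcm, ← mul_smul]
      have h2 : h • q = QuotientGroup.mk (h * Quotient.out q) := by
        conv_lhs => rw [← QuotientGroup.out_eq' q]
        rfl
      rw [h2, hFq]
    rw [Finset.sum_congr rfl fun q _ => h1 q]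
    exact Equiv.sum_comp (MulAction.toPerm h)
      (fun q : G ⧸ V => c (Quotient.out q) * (Quotient.out q : G) • a)
  rw [H1.mk_eq_zero]
  refine ⟨-UL.mk b hb, fun g => UL.ext ?_⟩
  have h3 := hsm g
  have hgb : g • b ≠ 0 := by
    intro h
    rw [h, mul_zero] at h3
    exact hb h3.symm
  have h4 : c g = b * (g • b)⁻¹ := by
    rw [eq_mul_inv_iff_mul_eq₀ hgb]; exact h3
  change c g = _
  rw [h4, UL.val_sub, UL.val_smul, UL.val_neg, UL.val_mk, smul_inv'', div_inv_eq_mul, mul_comm]

end H90

end

end Fermat.Agent.CC
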