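import Fermat.Agent.CC.Iface
set_option autoImplicit false

/-!
# Interface of the local-global theory (statements only, as `Prop`s; no proofs)
-/

noncomputable section

namespace Fermat.Agent.CC

open Fermat.Agent.LF (DK ZK)

/-- `F / K` is Galois of degree `p` (number fields inside `Qb`) -/
structure CycExt (p : ℕ) (K F : IntermediateField ℚ Qb) : Prop where
  fK : FiniteDimensional ℚ K
  fF : FiniteDimensional ℚ F
  le : K ≤ F
  nor : (F.fixingSubgroup.subgroupOf K.fixingSubgroup).Normal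
  idx : F.fixingSubgroup.relIndex K.fixingSubgroup = p

/-- `a` is a norm from `Z(A,F)` (`t` a generator of `D(A,K)` modulo `D(A,F)`) -/
def IsLocNorm (p : ℕ) (A : ValuationSubring Qb) (F : IntermediateField ℚ Qb) (t : GQ) (a : Qb) :
    Prop :=
  ∃ b : Qb, b ≠ 0 ∧ (∀ σ ∈ DK A F, σ b = b) ∧ a = ∏ i ∈ Finset.range p, (t ^ i) b

/-- the local norm index is `p`: `≤ p` -/
def NormIndexLe (p : ℕ) : Prop := ∀ (A : ValuationSubring Qb) (q : ℕ), q.Prime →
  A.LiesOverPrime q → ∀ K F : IntermediateField ℚ Qb, CycExt p K F → ∀ t ∈ DK A K,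
    t ∉ F.fixingSubgroup → ∃ s : Qb, s ∈ K ∧ s ≠ 0 ∧ ∀ a : Qb, a ≠ 0 → (∀ σ ∈ DK A K, σ a = a) →
      ∃ i : ℕ, i < p ∧ IsLocNorm p A F t (a * s ^ i)

/-- the local norm index is `p`: not everything is a norm (a global non-norm) -/
def NormIndexGe (p : ℕ) : Prop := ∀ (A : ValuationSubring Qb) (q : ℕ), q.Prime →
  A.LiesOverPrime q → ∀ K F : IntermediateField ℚ Qb, CycExt p K F → ∀ t ∈ DK A K,
    t ∉ F.fixingSubgroup → ∃ s : Qb, s ∈ K ∧ s ≠ 0 ∧ ¬ IsLocNorm p A F t s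

/-- Hasse norm theorem -/
def HasseNorm (p : ℕ) : Prop := ∀ K F : IntermediateField ℚ Qb, CycExt p K F →
  ∀ a ∈ K, a ≠ 0 →
  (∀ (A : ValuationSubring Qb) (q : ℕ), q.Prime → A.LiesOverPrime q → ∀ t ∈ DK A K,
    t ∉ F.fixingSubgroup → IsLocNorm p A F t a) →
  ∀ s ∈ K.fixingSubgroup, s ∉ F.fixingSubgroup → ∃ b ∈ F, b ≠ 0 ∧ a = ∏ i ∈ Finset.range p, (s ^ i) b

end Fermat.Agent.CC
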