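import Fermat.Agent.CC.Iface3
set_option autoImplicit false
set_option maxHeartbeats 400000

/-!
# Interface: Poitou–Tate duality of `Ш` over `ℚ` in terms of cardinalities
-/

noncomputable section

namespace Fermat.Agent.CC

open Fermat.Agent.LF (DK)

/-- `Ш¹_S(M)` over `ℚ` -/
def Sh1S (S : Finset Nat.Primes) (A : S → ValuationSubring Qb) (M : Type) [AddCommGroup M]
    [DistribMulAction GQ M] : AddSubgroup (H1 (levS S) M) :=
  ⨅ q : S, (loc1 (cont_D S (A q) ⊥) M).ker

/-- `Ш²_S(M)` over `ℚ` -/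
def Sh2S (S : Finset Nat.Primes) (A : S → ValuationSubring Qb) (M : Type) [AddCommGroup M]
    [DistribMulAction GQ M] : AddSubgroup (H2 (levS S) M) :=
  ⨅ q : S, (loc2 (cont_D S (A q) ⊥) M).ker

/-- **Poitou–Tate duality** (cardinality form). `Pr p 𝓛 e` : `M, M'` finite, smooth, killed by
`p`, `e` equivariant and perfect. -/
def PTcard (p : ℕ) [Fact p.Prime] : Prop :=
  ∀ (S : Finset Nat.Primes), pP p ∈ S → ∀ (A : S → ValuationSubring Qb),
    (∀ q : S, (A q).LiesOverPrime ((q : Nat.Primes) : ℕ)) →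
    ∀ (M M' : Type) [AddCommGroup M] [AddCommGroup M'] [DistribMulAction GQ M]
      [DistribMulAction GQ M'] (e : M →+ M' →+ Mu p), Pr p (levS S) e →
      Finite (Sh2S S A M) ∧ Finite (Sh1S S A M') ∧
        Nat.card (Sh2S S A M) = Nat.card (Sh1S S A M')

end Fermat.Agent.CC
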