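import Fermat.Agent.CC.Iface4
import Fermat.Agent.L00.CIface
set_option autoImplicit false
set_option maxHeartbeats 400000

/-!
# Interface: choice of `S`, Euler characteristics
-/

noncomputable section

namespace Fermat.Agent.CC

open Fermat.Agent.LF (DK)

/-- (E1) choice of `S` and `K` : all relevant class groups become trivial modulo `p` -/
def Choice1 (p : ℕ) [Fact p.Prime] : Prop :=
  ∀ (S₀ : Finset Nat.Primes) (K₁ : IntermediateField ℚ Qb), pP p ∈ S₀ →
    K₁.IsUnramifiedOutside S₀ → ∃ (S : Finset Nat.Primes) (K : IntermediateField ℚ Qb),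
      S₀ ⊆ S ∧ K₁ ≤ K ∧ K.fixingSubgroup.Normal ∧ SK p S K ∧
      ∀ K₀ : IntermediateField ℚ Qb, K₀ ≤ K → (∃ ζ ∈ K₀, IsPrimitiveRoot ζ p) → ClTriv p S K₀

/-- local Euler characteristic -/
def EulerLoc (p : ℕ) [Fact p.Prime] : Prop :=
  ∀ (A : ValuationSubring Qb) (q : ℕ), q.Prime → A.LiesOverPrime q →
    ∀ K : IntermediateField ℚ Qb, FiniteDimensional ℚ K →
    ∀ (M : Type) [AddCommGroup M] [DistribMulAction (DK A K) M] [Finite M],
      (∀ m : M, p • m = 0) → (lev.sub (DK A K)).Smooth M →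
      Nat.card (H1 (lev.sub (DK A K)) M) =
        Nat.card (H0 (DK A K) M) * Nat.card (H2 (lev.sub (DK A K)) M) *
          (if q = p then Nat.card M ^ (L00.LKum.locDeg A K) else 1)

/-- `c` is a complex conjugation -/
def IsCC (c : GQ) : Prop := ∃ τ : Qb →+* ℂ, ∀ x, τ (c x) = starRingEnd ℂ (τ x)

/-- global Euler characteristic, for `S` large -/
def EulerGlob (p : ℕ) [Fact p.Prime] : Prop :=
  ∀ (S : Finset Nat.Primes) (K : IntermediateField ℚ Qb), K.fixingSubgroup.Normal → SK p S K →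
    (∀ K₀ : IntermediateField ℚ Qb, K₀ ≤ K → (∃ ζ ∈ K₀, IsPrimitiveRoot ζ p) → ClTriv p S K₀) →
    ∀ (M : Type) [AddCommGroup M] [DistribMulAction GQ M] [Finite M], (∀ m : M, p • m = 0) →
      (∀ h ∈ K.fixingSubgroup, ∀ m : M, h • m = m) → ∀ c : GQ, IsCC c →
      Nat.card (H1 (levS S) M) * Nat.card {m : M // c • m = m} =
        Nat.card (H0 GQ M) * Nat.card (H2 (levS S) M) * Nat.card M

end Fermat.Agent.CC
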