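import Fermat.Agent.CC.LocInv2
import Fermat.Agent.L00.CIface
set_option autoImplicit false
set_option maxHeartbeats 400000

/-!
# Existence of the normalised invariant map
-/

noncomputable section

namespace Fermat.Agent.CC

open Fermat.Agent.LF (DK ZK mem_ZK mem_of_fixed DK_mono DK_le_fix)
open Fermat.Agent.TW (NVal Bl Bs)
open Fermat.Agent.L00.Unr (nrm)
open scoped Pointwise NumberField

section

variable {p : ℕ} [Fact p.Prime] (hp2 : p ≠ 2) {A : ValuationSubring Qb} {q : ℕ} (hq : q.Prime)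
  (hA : A.LiesOverPrime q)

include hq hA in
theorem nrm_bot : nrm A (⊥ : IntermediateField ℚ Qb) = q := by
  have hg := H51.isGalois_Qbar
  have hn : NumberField (⊥ : IntermediateField ℚ Qb) := ⟨⟩
  have h1 := L00.locDeg_bot hq hA
  rw [L00.LKum.locDeg] at h1
  have h2 : (L00.Unr.primeOf A (⊥ : IntermediateField ℚ Qb)).inertiaDeg ℤ = 1 :=
    Nat.eq_one_of_mul_eq_one_left h1
  obtain ⟨w, hw⟩ := TW.exists_NVal hq hA
  obtain ⟨π, u⟩ := L00.LKum.exists_unif hq hA hw (⊥ : IntermediateField ℚ Qb)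
  rw [L00.LKum.nrm_eq A hq hA hw u, h2, pow_one]

/-- unramified characters of `D_A ∩ G_K` are determined by the value at `φ` -/
theorem chi_eq_of_unr {G : Type*} [Group G] {𝓛 : Lev G} {I : Subgroup G} {φ : G}
    (P : Procyc 𝓛 I φ) {χ χ' : G → ZMod p} (hχ : ∀ g h, χ (g * h) = χ g + χ h)
    (hχ' : ∀ g h, χ' (g * h) = χ' g + χ' h) (hc : 𝓛.Const1 χ) (hc' : 𝓛.Const1 χ')
    (hI : ∀ i ∈ I, χ i = 0) (hI' : ∀ i ∈ I, χ' i = 0) (hφ : χ φ = χ' φ) : χ = χ' := by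
  have h1 := P.ur1_ext (M := Fp p) (chiZ χ hχ hc - chiZ χ' hχ' hc') (fun i hi => by
    change χ i - χ' i = 0
    rw [hI i hi, hI' i hi, sub_zero]) (by
    change χ φ - χ' φ = 0
    rw [hφ, sub_self])
  have h2 : chiZ χ hχ hc = chiZ χ' hχ' hc' := sub_eq_zero.mp h1
  exact congrArg (fun f : Z1 𝓛 (Fp p) => f.1) h2

/-- `q` is a uniformizer over `ℚ` -/
theorem isUnif_q (hq : q.Prime) (hA : A.LiesOverPrime q) {w : Qb → ℝ} (hw : NVal A q w) :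
    IsUnif A ⊥ w (q : Qb) := by
  have hg := H51.isGalois_Qbar
  have hq0 : (q : Qb) ≠ 0 := Nat.cast_ne_zero.mpr hq.ne_zero
  refine ⟨natCast_mem _ q, hq0, by rw [hw.norm]; exact one_pos, fun b hb hbf => ?_⟩
  obtain ⟨n, hn⟩ := H12.exists_valuation_eq_zpow hq hA b hb (fun σ hσ => hbf σ ⟨hσ, by
    change σ ∈ (⊥ : IntermediateField ℚ Qb).fixingSubgroup
    rw [IntermediateField.fixingSubgroup_bot]
    exact Subgroup.mem_top σ⟩)
  exact ⟨n, L00.zpow_w hw hq0 hb hn⟩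

/-- two Frobenius elements differ by inertia -/
theorem frob_inertia {φ φ' : GQ} (hφ : A.IsFrobeniusAt φ q) (hφ' : A.IsFrobeniusAt φ' q) :
    φ⁻¹ * φ' ∈ A.inertiaSubgroupIn ℚ := by
  obtain ⟨h1, h2⟩ := hφ
  obtain ⟨h1', h2'⟩ := hφ'
  rw [H05.mem_inertiaSubgroupIn_iff]
  refine ⟨mul_mem (inv_mem h1) h1', fun x => ?_⟩
  have h3 : (⟨φ⁻¹ * φ', mul_mem (inv_mem h1) h1'⟩ : A.decompositionSubgroup ℚ) =
      (⟨φ, h1⟩ : A.decompositionSubgroup ℚ)⁻¹ * ⟨φ', h1'⟩ := rfl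
  rw [h3, mul_smul, h2', ← h2, inv_smul_smul]

theorem mem_bot_fix (σ : GQ) : σ ∈ (⊥ : IntermediateField ℚ Qb).fixingSubgroup := by
  rw [IntermediateField.fixingSubgroup_bot]
  exact Subgroup.mem_top σ

include hp2 hq hA in
/-- **the normalised invariant map exists** -/
theorem exists_isInv : ∃ inv : H2 (lev.sub (DK A ⊥)) (Mu p) ≃+ ZMod p, IsInv A q p inv := by
  have hp : p.Prime := Fact.out
  have hg := H51.isGalois_Qbar
  have hfd : FiniteDimensional ℚ (⊥ : IntermediateField ℚ Qb) := inferInstance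
  obtain ⟨φ₀, hφK, hφ₀⟩ := L00.Unr.exists_frob hq hA (⊥ : IntermediateField ℚ Qb)
  have P := procyc hq hA hφK hφ₀
  obtain ⟨χ₁, hχ₁, hc₁, hI₁, h1⟩ := P.chr p hp.pos
  have hI₁' : ∀ g : DK A ⊥, (g : GQ) ∈ IK A ⊥ → χ₁ g = 0 :=
    fun g hg => hI₁ g (Subgroup.mem_subgroupOf.mpr hg)
  obtain ⟨w₀, hw₀⟩ := TW.exists_NVal hq hA
  obtain ⟨ι⟩ := exists_inv hp2 hq hA (⊥ : IntermediateField ℚ Qb)
  let aq : H0 (DK A ⊥) (UL Qb) := ⟨UL.mk (q : Qb) (isUnif_q hq hA hw₀).2.1, (isUnif_q hq hA hw₀).mem_H0⟩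
  let sm₀ := (Act.self (DK A ⊥)).smooth
  set c : ZMod p := ι (kc sm₀ (ULdiv p) χ₁ hχ₁ hc₁ aq) with hc
  have hc0 : c ≠ 0 := by
    rw [hc]
    intro h0
    rw [EmbeddingLike.map_eq_zero_iff] at h0
    exact kc_unif_ne_zero _ hw₀ (isUnif_q hq hA hw₀) χ₁ hχ₁ hc₁ hI₁' _ h1 sm₀ (ULdiv p) aq rfl h0
  let μ : ZMod p ≃+ ZMod p :=
    { toFun := fun x => c⁻¹ * x
      invFun := fun x => c * x
      left_inv := fun x => by
        change c * (c⁻¹ * x) = x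
        rw [← mul_assoc, mul_inv_cancel₀ hc0, one_mul]
      right_inv := fun x => by
        change c⁻¹ * (c * x) = x
        rw [← mul_assoc, inv_mul_cancel₀ hc0, one_mul]
      map_add' := fun x y => mul_add _ _ _ }
  refine ⟨ι.trans μ, ?_⟩
  intro w hw sm hdiv φ hφ χ hχ hcc hI a n hn
  change c⁻¹ * ι (kc sm hdiv χ hχ hcc a) = n * χ φ
  -- `χ₁ φ = 1`
  have hφφ : χ₁ φ = 1 := by
    rw [nrm_bot hq hA] at hφ₀
    have h2 := frob_inertia hφ₀ hφ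
    let φ' : DK A ⊥ := ⟨φ₀, hφ₀.1, hφK⟩
    have h3 : χ₁ (φ'⁻¹ * φ) = 0 := hI₁' _ ⟨h2, mem_bot_fix _⟩
    have h4 : φ = φ' * (φ'⁻¹ * φ) := by group
    rw [h4, hχ₁, h3, add_zero]
    exact h1
  have hPφ : Procyc (lev.sub (DK A ⊥)) ((IK A ⊥).subgroupOf (DK A ⊥)) φ := by
    have h5 : A.IsFrobeniusAt (φ : GQ) (nrm A (⊥ : IntermediateField ℚ Qb)) := by
      rw [nrm_bot hq hA]; exact hφ
    exact procyc hq hA φ.2.2 h5
  obtain ⟨k, hk⟩ : ∃ k : ℕ, (k : ZMod p) = χ φ := ⟨(χ φ).val, by simp⟩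
  have hkχ : ∀ g h : DK A ⊥, (k • χ₁) (g * h) = (k • χ₁) g + (k • χ₁) h := by
    intro g h
    simp only [Pi.smul_apply, hχ₁, smul_add]
  have hkc : (lev.sub (DK A ⊥)).Const1 (k • χ₁) := hc₁.comp (fun x => k • x)
  have hχeq : χ = k • χ₁ := by
    refine chi_eq_of_unr hPφ hχ hkχ hcc hkc (fun i hi => hI i (Subgroup.mem_subgroupOf.mp hi))
      (fun i hi => ?_) ?_
    · rw [Pi.smul_apply, hI₁ i hi, smul_zero]
    · rw [Pi.smul_apply, hφφ, ← hk, nsmul_one]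
  subst hχeq
  rw [kc_nsmul_chi sm hdiv χ₁ hχ₁ hc₁ k hχ hcc a]
  -- decompose `a`
  have hu : kc sm hdiv χ₁ hχ₁ hc₁ (a - n • aq) = 0 := by
    refine unr_kc_eq_zero (Act.self (DK A ⊥)) χ₁ hχ₁ hc₁ (CFT.normIndexLe hp hp2)
      (CFT.normIndexGe hp hp2) hq hA hfd hw (isUnif_q hq hA hw) hI₁' _ 0 ?_
    have h6 : ((a - n • aq : H0 (DK A ⊥) (UL Qb)) : UL Qb).val = a.1.val * ((q : Qb) ^ n)⁻¹ := by
      rw [AddSubgroup.coe_sub, sub_eq_add_neg, UL.val_add, UL.val_neg]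
      congr 2
      rw [AddSubgroup.coe_zsmul]
      exact UL.val_zsmul _ _
    have hq0 : (q : Qb) ≠ 0 := Nat.cast_ne_zero.mpr hq.ne_zero
    rw [h6, hw.log.map_mul _ _ a.1.val_ne_zero (inv_ne_zero (zpow_ne_zero _ hq0)),
      L00.LKum.w_inv hw (zpow_ne_zero _ hq0), L00.LKum.w_zpow hw hq0, hw.norm, hn]
    simp
  have ha : kc sm hdiv χ₁ hχ₁ hc₁ a = n • kc sm hdiv χ₁ hχ₁ hc₁ aq := by
    rw [map_sub, sub_eq_zero, map_zsmul] at hu
    exact hu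
  rw [ha, map_nsmul, map_zsmul]
  have h7 : ι (kc sm hdiv χ₁ hχ₁ hc₁ aq) = c := rfl
  rw [h7, Pi.smul_apply, hφφ, nsmul_eq_mul, zsmul_eq_mul, nsmul_eq_mul]
  field_simp

end

end Fermat.Agent.CC
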