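import Fermat.Agent.CC.PT9
set_option autoImplicit false
set_option maxHeartbeats 400000

/-!
# Abstract Poitou–Tate: exactness at `P¹`, conclusion
-/

namespace Fermat.Agent.CC

noncomputable section

namespace GLD

variable {p : ℕ} [Fact p.Prime] {G : Type} [Group G] {T : Type} [AddCommGroup T]
  [DistribMulAction G T] {𝒢 : GLD p G T}

section E5co

variable {H : Subgroup G} (hH : 𝒢.𝓛.isOpen H) [Finite (G ⧸ H)]
  (htT : ∀ (h : H) (t : T), h • t = t)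
  {M M' : Type} [AddCommGroup M] [AddCommGroup M'] [DistribMulAction G M] [DistribMulAction G M']
  {e : M →+ M' →+ T} (h : Pr p 𝒢.𝓛 e) (htM : ∀ (h : H) (m : M), h • m = m)
  (htM' : ∀ (h : H) (m : M'), h • m = m)

theorem s11_adj {A B A₁ B₁ : Type} [AddCommGroup A] [AddCommGroup B] [AddCommGroup A₁]
    [AddCommGroup B₁] [DistribMulAction G A] [DistribMulAction G B] [DistribMulAction G A₁]
    [DistribMulAction G B₁] {e : A →+ B →+ T} {e₁ : A₁ →+ B₁ →+ T} (h : Pr p 𝒢.𝓛 e)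
    (h₁ : Pr p 𝒢.𝓛 e₁) (f : A →+ A₁) (hf : ∀ (g : G) (a : A), f (g • a) = g • f a)
    (f' : B₁ →+ B) (hf' : ∀ (g : G) (b : B₁), f' (g • b) = g • f' b)
    (adj : ∀ a b, e₁ (f a) b = e a (f' b)) (y : ∀ v, H1 (𝒢.L v) A) (b : ∀ v, H1 (𝒢.L v) B₁) :
    𝒢.s11 h₁ (𝒢.p1 f hf y) b = 𝒢.s11 h y (𝒢.p1 f' hf' b) := by
  rw [s11_apply, s11_apply]
  refine Finset.sum_congr rfl fun v _ => ?_
  rw [b11_apply, b11_apply]
  congr 1
  change cup11 e₁ _ _ (H1coef _ f _ (y v)) (b v) = cup11 e _ _ (y v) (H1coef _ f' _ (b v))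
  obtain ⟨z, hz⟩ := H1.mk_surjective (y v)
  obtain ⟨w, hw⟩ := H1.mk_surjective (b v)
  rw [← hz, ← hw]
  change H2.mk _ _ _ = H2.mk _ _ _
  congr 1
  apply Subtype.ext
  funext s s'
  change e₁ (f (z.1 s)) ((s : G) • w.1 s') = e (z.1 s) ((s : G) • f' (w.1 s'))
  rw [adj, hf']

include htM htM' in
theorem E5_co (hT : 𝒢.E5 (𝒢.prT hH htT)) : 𝒢.E5 (𝒢.prM hH h) := by
  have := h.fA
  have := h.fB
  obtain ⟨n, g, l, hgl⟩ := exists_partition (T := T) h.kA 𝒢.τ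
  have hgH : ∀ i (s : H) t, g i (s • t) = s • g i t := fun i s t => by rw [htT, htM]
  have hlH : ∀ i (s : H) m, l i (s • m) = s • l i m := fun i s m => by rw [htT, htM]
  have hadj : ∀ i, ∃ m' : M', ∀ m, e m m' = l i m := by
    intro i
    obtain ⟨m', hm'⟩ := (fpT_perfect 𝒢.τ h.kA h.kB e h.hl h.hr).1 (𝒢.τ.toAddMonoidHom.comp (l i))
    exact ⟨m', fun m => 𝒢.τ.injective (hm' m)⟩
  choose m' hm' using hadj
  let l' : Fin n → (T →+ M') := fun i => lineMap 𝒢.τ (m' i) (h.kB _)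
  have hl'H : ∀ i (s : H) t, l' i (s • t) = s • l' i t := fun i s t => by rw [htT, htM']
  have hadj2 : ∀ i (m : M) (t : T), mulPair 𝒢.τ (l i m) t = e m (l' i t) := by
    intro i m t
    have h1 := map_zs 𝒢.τ (m' i) (h.kB _) (e m) (𝒢.τ t)
    change _ = e m (zs (m' i) (h.kB _) (𝒢.τ t))
    rw [h1, hm', mulPair_apply, mul_comm]
  intro y hy
  have key : ∀ i, ∃ x : H1 𝒢.𝓛 (CoInd H T), 𝒢.l1 _ x =
      𝒢.p1 (coMapH (l i) (hlH i)) (fun s b => coMapH_smul _ _ s b) y := by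
    intro i
    apply hT
    intro b
    rw [s11_adj (𝒢.prM hH h) (𝒢.prT hH htT) (coMapH (l i) (hlH i))
      (fun s b => coMapH_smul _ _ s b) (coMapH (l' i) (hl'H i)) (fun s b => coMapH_smul _ _ s b)]
    · rw [← l1_coef]
      exact hy (H1coef 𝒢.𝓛 (coMapH (l' i) (hl'H i)) (fun s b => coMapH_smul _ _ s b) b)
    · intro f f'
      rw [coE_apply, coE_apply]
      congr 1
      refine CoInd.ext fun x => ?_
      exact hadj2 i _ _
  choose x hx using key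
  refine ⟨∑ i, H1coef 𝒢.𝓛 (coMapH (g i) (hgH i)) (fun s b => coMapH_smul _ _ s b) (x i), ?_⟩
  rw [map_sum]
  have h1 : ∀ i, 𝒢.l1 _ (H1coef 𝒢.𝓛 (coMapH (g i) (hgH i)) (fun s b => coMapH_smul _ _ s b) (x i)) =
      𝒢.p1 (coMapH (g i) (hgH i)) (fun s b => coMapH_smul _ _ s b)
        (𝒢.p1 (coMapH (l i) (hlH i)) (fun s b => coMapH_smul _ _ s b) y) := by
    intro i
    rw [l1_coef, hx]
  rw [Finset.sum_congr rfl fun i _ => h1 i]
  funext v
  rw [Finset.sum_apply]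
  refine (H1_partition (𝓛 := 𝒢.L v) (fun i => coMapH (g i) (hgH i))
    (fun i => coMapH (l i) (hlH i)) (fun i s b => coMapH_smul _ _ (s : G) b)
    (fun i s b => coMapH_smul _ _ (s : G) b) ?_ (y v)).symm
  intro f
  refine CoInd.ext fun x => ?_
  rw [AddSubgroup.val_finsetSum, Finset.sum_apply]
  exact hgl _

end E5co

section

variable {H H₀ : Subgroup G} [Finite (G ⧸ H)] [Finite (G ⧸ H₀)] (I : 𝒢.GIn H H₀)
  {M M' : Type} [AddCommGroup M] [AddCommGroup M'] [DistribMulAction G M] [DistribMulAction G M']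
  {e : M →+ M' →+ T} (h : Pr p 𝒢.𝓛 e) (htM : ∀ (h : H) (m : M), h • m = m)
  (htM' : ∀ (h : H) (m : M'), h • m = m)

namespace GIn

include I in
theorem E5_T : 𝒢.E5 (𝒢.prT I.hH I.htT) := by
  rw [E5_iff]
  have h1 : Function.Injective (𝒢.l1 (CoInd H T)) := by
    rw [injective_iff_map_eq_zero]
    exact I.sha1
  have h2 : Nat.card (𝒢.l1 (CoInd H T)).range = Nat.card (H1 𝒢.𝓛 (CoInd H T)) :=
    (Nat.card_congr (AddMonoidHom.ofInjective h1).toEquiv).symm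
  rw [h2, ← sq]
  exact I.cnt

include I h htM in
theorem finite_H2 : Finite (H2 𝒢.𝓛 M) := by
  have := h.fA
  have h1 : Finite (H2 𝒢.𝓛 (CoInd H M)) := by
    have := 𝒢.finP2A (𝒢.prM I.hH h)
    refine Finite.of_injective (𝒢.l2 (CoInd H M)) ?_
    rw [injective_iff_map_eq_zero]
    exact 𝒢.sha2_co I.htT h htM I.sha2
  exact Finite.of_surjective _
    (I.H2_surj (fun f => (𝒢.prM I.hH h).kA f) h.kA (CoInd.smooth I.hH (smooth_sub h.smA)) h.smA
      (coInd_triv I.hn htM) htM (sumMap H M) sumMap_smul (sumMap_surj h I.hH))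

include I h htM in
theorem finite_H1 : Finite (H1 𝒢.𝓛 M) := by
  have := h.fA
  have h1 : Finite (H1 𝒢.𝓛 (CoInd H M)) := by
    have := 𝒢.finP1A (𝒢.prM I.hH h)
    refine Finite.of_injective (𝒢.l1 (CoInd H M)) ?_
    rw [injective_iff_map_eq_zero]
    exact 𝒢.sha1_co I.htT h htM I.sha1
  have hf := h.flip
  have P := resP hf I.hH
  have hfin : Finite (GSub.range (unitMap H M) (unitMap_smul H M)).Q := P.pA.fB
  have hfin0 : Finite (H0 G (GSub.range (unitMap H M) (unitMap_smul H M)).Q) := inferInstance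
  exact finite_of_exact ((resD hf I.hH).E'.δ0) (H1coef 𝒢.𝓛 (resD hf I.hH).E'.i
    (resD hf I.hH).E'.hi) (fun y hy => ((resD hf I.hH).E'.H1_i_eq_zero_iff y).mp hy)

include I h htM htM' in
theorem card_sha : Nat.card (𝒢.Sh2 M) = Nat.card (𝒢.Sh1 M') := by
  have := I.finite_H2 h htM
  have := I.finite_H1 h.flip htM'
  obtain ⟨e, he1, he2⟩ := I.sha_dual h htM htM'
  exact (fp_isPerfPair (fun x => Subtype.ext (H2_killed h.kA _))
    (fun x => Subtype.ext (H1_killed h.kB _)) e he1 he2).2.2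


include I h htM htM' in
/-- the product formula for orders -/
theorem card_all : Nat.card (H0 G M) * Nat.card (H0 G M') * Nat.card (H2 𝒢.𝓛 M) *
    Nat.card (H2 𝒢.𝓛 M') = Nat.card (𝒢.Sh1 M) * Nat.card (𝒢.Sh1 M') * (𝒢.c0 M * 𝒢.c2 M) := by
  have h1 := 𝒢.card_E2 h (I.E2_all h htM htM')
  have h2 := 𝒢.card_E2 h.flip (I.E2_all h.flip htM' htM)
  rw [I.card_sha h htM htM'] at h1
  rw [I.card_sha h.flip htM' htM, ← 𝒢.c0_eq h] at h2
  calc _ = (Nat.card (H2 𝒢.𝓛 M) * Nat.card (H0 G M')) *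
        (Nat.card (H2 𝒢.𝓛 M') * Nat.card (H0 G M)) := by ring
    _ = _ := by rw [h1, h2]; ring

end GIn

end

section

variable {H H₀ : Subgroup G} [Finite (G ⧸ H)] [Finite (G ⧸ H₀)] (I : 𝒢.GIn H H₀)
  {A B C A' B' C' : Type}
    [AddCommGroup A] [AddCommGroup B] [AddCommGroup C] [AddCommGroup A'] [AddCommGroup B']
    [AddCommGroup C'] [DistribMulAction G A] [DistribMulAction G B]
    [DistribMulAction G C] [DistribMulAction G A'] [DistribMulAction G B'] [DistribMulAction G C']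
    {D : DualSES 𝒢.𝓛 A B C A' B' C' T} (P : PSES p D)
  (tA : ∀ (h : H) (m : A), h • m = m) (tB : ∀ (h : H) (m : B), h • m = m)
  (tC : ∀ (h : H) (m : C), h • m = m) (tA' : ∀ (h : H) (m : A'), h • m = m)
  (tB' : ∀ (h : H) (m : B'), h • m = m) (tC' : ∀ (h : H) (m : C'), h • m = m)

/-- arithmetic of the counting argument -/
theorem arith {a0 a0' a1 a1' a2 a2' b0 b0' b1 b1' b2 b2' c0 c0' c1 c1' c2 c2' sa sa' sb sb' sc sc'
    ra ra' rb rb' rc rc' ka kb kc la lb lc : ℕ}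
    (e1 : b0 * a1 * c1 * b2 = a0 * c0 * b1 * a2 * c2)
    (e2 : b0' * c1' * a1' * b2' = c0' * a0' * b1' * c2' * a2')
    (a : a0 * a0' * a2 * a2' = sa * sa' * ka) (b : b0 * b0' * b2 * b2' = sb * sb' * kb)
    (c : c0 * c0' * c2 * c2' = sc * sc' * kc) (a1e : a1 = sa * ra) (a1e' : a1' = sa' * ra')
    (b1e : b1 = sb * rb) (b1e' : b1' = sb' * rb') (c1e : c1 = sc * rc) (c1e' : c1' = sc' * rc')
    (e3 : kb * (la * lc) = ka * kc * lb) (hb : rb * rb' = lb) (ha : ra * ra' ≤ la)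
    (hc : rc * rc' ≤ lc) (psa : 0 < sa) (psa' : 0 < sa') (psb : 0 < sb) (psb' : 0 < sb')
    (psc : 0 < sc) (psc' : 0 < sc') (pkb : 0 < kb) (pla : 0 < la) (plc : 0 < lc) :
    ra * ra' = la ∧ rc * rc' = lc := by
  have h1 : (b0 * b0' * b2 * b2') * (a1 * a1') * (c1 * c1') =
      (a0 * a0' * a2 * a2') * (c0 * c0' * c2 * c2') * (b1 * b1') := by
    calc _ = (b0 * a1 * c1 * b2) * (b0' * c1' * a1' * b2') := by ring
      _ = _ := by rw [e1, e2]; ring
  rw [a, b, c, a1e, a1e', b1e, b1e', c1e, c1e'] at h1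
  have h2 : (sa * sa' * sb * sb' * sc * sc') * (kb * ((ra * ra') * (rc * rc'))) =
      (sa * sa' * sb * sb' * sc * sc') * (kb * (la * lc)) := by
    rw [e3, ← hb]
    calc _ = sb * sb' * kb * (sa * ra * (sa' * ra')) * (sc * rc * (sc' * rc')) := by ring
      _ = _ := by rw [h1]; ring
  have h3 : (ra * ra') * (rc * rc') = la * lc :=
    Nat.eq_of_mul_eq_mul_left pkb (Nat.eq_of_mul_eq_mul_left (by positivity) h2)
  have h4 : ra * ra' = la := by
    by_contra hne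
    have h5 : ra * ra' < la := lt_of_le_of_ne ha hne
    have h6 : (ra * ra') * (rc * rc') < la * lc := by
      calc _ ≤ (ra * ra') * lc := Nat.mul_le_mul_left _ hc
        _ < _ := Nat.mul_lt_mul_of_pos_right h5 plc
    omega
  refine ⟨h4, ?_⟩
  rw [h4] at h3
  exact Nat.eq_of_mul_eq_mul_left pla h3

include I tA tB tC tA' tB' tC' in
/-- exactness at `P¹` passes from the middle term to the two ends -/
theorem E5_of_mid (hB : 𝒢.E5 P.pB) : 𝒢.E5 P.pA ∧ 𝒢.E5 P.pC := by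
  have fA := P.pA.fA
  have fB := P.pB.fA
  have fC := P.pC.fA
  have fA' := P.pA.fB
  have fB' := P.pB.fB
  have fC' := P.pC.fB
  have f1 := I.finite_H1 P.pA tA
  have f2 := I.finite_H1 P.pB tB
  have f3 := I.finite_H1 P.pC tC
  have f4 := I.finite_H1 P.pA.flip tA'
  have f5 := I.finite_H1 P.pB.flip tB'
  have f6 := I.finite_H1 P.pC.flip tC'
  have g1 := I.finite_H2 P.pB tB
  have s1 := I.H2_surj P.pB.kA P.pC.kA P.pB.smA P.pC.smA tB tC D.E.j D.E.hj D.E.surj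
  have s2 := I.H2_surj P.pB.kB P.pA.kB P.pB.smB P.pA.smB tB' tA' D.E'.j D.E'.hj D.E'.surj
  have e1 := D.E.euler s1
  have e2 := D.E'.euler s2
  have a := I.card_all P.pA tA tA'
  have b := I.card_all P.pB tB tB'
  have c := I.card_all P.pC tC tC'
  have hb := (𝒢.E5_iff P.pB).mp hB
  have e3 : (𝒢.c0 B * 𝒢.c2 B) * (𝒢.c1 A * 𝒢.c1 C) = (𝒢.c0 A * 𝒢.c2 A) * (𝒢.c0 C * 𝒢.c2 C) * 𝒢.c1 B := by
    have := 𝒢.euler_loc P
    calc _ = 𝒢.c0 B * 𝒢.c1 A * 𝒢.c1 C * 𝒢.c2 B := by ring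
      _ = _ := by rw [this]; ring
  have pk : 0 < 𝒢.c0 B * 𝒢.c2 B := by
    have h1 := 𝒢.c0_pos P.pB
    have h2 := 𝒢.c0_pos P.pB.flip
    rw [𝒢.c0_eq P.pB.flip] at h2
    positivity
  have key := arith e1 e2 a b c (card_ker_range (𝒢.l1 A)) (card_ker_range (𝒢.l1 A'))
    (card_ker_range (𝒢.l1 B)) (card_ker_range (𝒢.l1 B')) (card_ker_range (𝒢.l1 C))
    (card_ker_range (𝒢.l1 C')) e3 hb (𝒢.card_le P.pA) (𝒢.card_le P.pC) Nat.card_pos Nat.card_pos
    Nat.card_pos Nat.card_pos Nat.card_pos Nat.card_pos pk (𝒢.c1_pos P.pA) (𝒢.c1_pos P.pC)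
  exact ⟨(𝒢.E5_iff P.pA).mpr key.1, (𝒢.E5_iff P.pC).mpr key.2⟩

end

section

variable {H H₀ : Subgroup G} [Finite (G ⧸ H)] [Finite (G ⧸ H₀)] (I : 𝒢.GIn H H₀)
  {M M' : Type} [AddCommGroup M] [AddCommGroup M'] [DistribMulAction G M] [DistribMulAction G M']
  {e : M →+ M' →+ T} (h : Pr p 𝒢.𝓛 e) (htM : ∀ (h : H) (m : M), h • m = m)
  (htM' : ∀ (h : H) (m : M'), h • m = m)

include I htM htM' in
/-- **exactness at `P¹`** -/
theorem GIn.E5_all : 𝒢.E5 h := by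
  refine (E5_of_mid I (resP h I.hH) ?_ (coInd_triv I.hn htM) htM ?_ (coInd_triv I.hn htM') htM'
    (E5_co I.hH I.htT h htM htM' I.E5_T)).2
  · intro s x
    apply (GSub.ker (sumMap H M) sumMap_smul).incl_injective
    exact coInd_triv I.hn htM s _
  · intro s x
    obtain ⟨x, rfl⟩ := (GSub.range (unitMap H M') (unitMap_smul H M')).proj_surjective x
    exact ((GSub.range (unitMap H M') (unitMap_smul H M')).proj_smul (s : G) x).symm.trans
        (congrArg _ (coInd_triv I.hn htM' s x))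

end

end GLD

end

end Fermat.Agent.CC
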