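import Fermat.Agent.CC.Mackey
import Fermat.Agent.CC.IsInv
import Fermat.Agent.CC.Iface5
import Fermat.Agent.CC.PT10
import Fermat.Agent.CFT.Iface3Pf
import Fermat.Agent.L00.Recip9
set_option autoImplicit false
set_option maxHeartbeats 400000

/-!
# The global-local data over `ℚ`
-/

noncomputable section

namespace Fermat.Agent.CC

open Fermat.Agent.LF (DK ZK mem_ZK mem_of_fixed DK_mono DK_le_fix)
open scoped Pointwise

/-- places above `S` together with normalised invariants -/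
structure Dat (p : ℕ) [Fact p.Prime] (S : Finset Nat.Primes) where
  A : S → ValuationSubring Qb
  hA : ∀ q : S, (A q).LiesOverPrime ((q : Nat.Primes) : ℕ)
  inv : ∀ q : S, H2 (lev.sub (DK (A q) ⊥)) (Mu p) ≃+ ZMod p
  hinv : ∀ q : S, IsInv (A q) ((q : Nat.Primes) : ℕ) p (inv q)

variable {p : ℕ} [Fact p.Prime]

theorem exists_dat (hp2 : p ≠ 2) (S : Finset Nat.Primes) (A : S → ValuationSubring Qb)
    (hA : ∀ q : S, (A q).LiesOverPrime ((q : Nat.Primes) : ℕ)) :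
    ∃ 𝒟 : Dat p S, 𝒟.A = A := by
  choose inv hinv using fun q : S => exists_isInv hp2 q.1.2 (hA q)
  exact ⟨⟨A, hA, inv, hinv⟩, rfl⟩

/-- restriction to a smaller set of primes -/
def Dat.res {S S' : Finset Nat.Primes} (𝒟 : Dat p S') (h : S ⊆ S') : Dat p S where
  A q := 𝒟.A ⟨q.1, h q.2⟩
  hA q := 𝒟.hA ⟨q.1, h q.2⟩
  inv q := 𝒟.inv ⟨q.1, h q.2⟩
  hinv q := 𝒟.hinv ⟨q.1, h q.2⟩

/-- **the global-local data over `ℚ`** -/
def Dat.gld {S : Finset Nat.Primes} (𝒟 : Dat p S) (hp2 : p ≠ 2) (hpS : pP p ∈ S) :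
    GLD p GQ (Mu p) where
  𝓛 := levS S
  V := S
  neV := ⟨⟨_, hpS⟩⟩
  D q := DK (𝒟.A q) ⊥
  L q := lev.sub (DK (𝒟.A q) ⊥)
  cont q := cont_D S (𝒟.A q) ⊥
  τ := tauT p
  inv := 𝒟.inv
  ld := by
    intro q B C _ _ _ _ e h
    have := h.fA
    have := h.fB
    exact ldK hp2 q.1.2 (𝒟.hA q) ⊥ e (h.he.sub _) (smooth_loc (cont_D S (𝒟.A q) ⊥) h.smA)
      (smooth_loc (cont_D S (𝒟.A q) ⊥) h.smB) h.kA h.kB h.hl h.hr
  recip := L00.Recip.recip hp2 S hpS 𝒟.A 𝒟.hA 𝒟.inv 𝒟.hinv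

end Fermat.Agent.CC
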