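import Fermat.Agent.CC.Inst
import Fermat.Agent.H02M.H2Low
set_option autoImplicit false
set_option maxHeartbeats 400000

/-!
# Places of `K` above `S`; exactness at `P²` over `ℚ`
-/

noncomputable section

namespace Fermat.Agent.CC

open Fermat.Agent.LF (DK ZK mem_ZK mem_of_fixed DK_mono DK_le_fix)
open scoped Pointwise

variable {p : ℕ} [Fact p.Prime]

theorem mem_dec_iff {A : ValuationSubring Qb} {σ : GQ} :
    σ ∈ A.decompositionSubgroup ℚ ↔ σ • A = A := Iff.rfl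

theorem mem_DK_bot {A : ValuationSubring Qb} {σ : GQ} : σ ∈ DK A ⊥ ↔ σ • A = A :=
  ⟨fun h => h.1, fun h => ⟨h, mem_bot_fix σ⟩⟩

/-- conjugation maps `D_{gA} ∩ G_K` to `D_A` -/
theorem cj_mem {A : ValuationSubring Qb} {K : IntermediateField ℚ Qb} (g : GQ) :
    ∀ b ∈ DK (g • A) K, cj g b ∈ DK A ⊥ := by
  intro b hb
  rw [cj_apply, mem_DK_bot]
  have h1 : b • g • A = g • A := hb.1
  rw [mul_smul, mul_smul, h1, inv_smul_smul]

/-- the same, for the subgroup `D_A ∩ G_K` when `G_K` is normal -/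
theorem cj_mem' {A : ValuationSubring Qb} {K : IntermediateField ℚ Qb}
    (hn : K.fixingSubgroup.Normal) (g : GQ) {b : GQ} (hb : b ∈ DK (g • A) K) :
    g⁻¹ * b * g ∈ K.fixingSubgroup := by
  simpa using hn.conj_mem b hb.2 g⁻¹

/-- places of `K` above the places `A q` -/
def plK {S : Finset Nat.Primes} (A : S → ValuationSubring Qb) (K : IntermediateField ℚ Qb)
    (i : Σ q : S, MJ K.fixingSubgroup (DK (A q) ⊥)) : ValuationSubring Qb :=
  (Quotient.out i.2 : GQ) • A i.1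

theorem lies_unique {A : ValuationSubring Qb} {q q' : ℕ} (hq : q.Prime) (hq' : q'.Prime)
    (h : A.LiesOverPrime q) (h' : A.LiesOverPrime q') : q = q' := by
  by_contra hne
  obtain ⟨w, hw⟩ := TW.exists_NVal hq h
  have h1 : w (((q' : ℤ) : Qb)) = 0 := hw.w_intCast hq h (n := (q' : ℤ)) (by
    intro hd
    have : q ∣ q' := by exact_mod_cast hd
    exact hne ((Nat.prime_dvd_prime_iff_eq hq hq').mp this))
  obtain ⟨w', hw'⟩ := TW.exists_NVal hq' h'
  have h2 : (0 : ℝ) < w ((q' : ℕ) : Qb) := by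
    rw [← hw.log.pos_iff (Nat.cast_ne_zero.mpr hq'.ne_zero),
      hw'.log.pos_iff (Nat.cast_ne_zero.mpr hq'.ne_zero), hw'.norm]
    exact one_pos
  rw [Int.cast_natCast] at h1
  rw [h1] at h2
  exact lt_irrefl _ h2

theorem reps_plK {S : Finset Nat.Primes} {A : S → ValuationSubring Qb}
    (hA : ∀ q : S, (A q).LiesOverPrime ((q : Nat.Primes) : ℕ)) {K : IntermediateField ℚ Qb}
    (hn : K.fixingSubgroup.Normal) : Reps S K (plK A K) where
  ov i := ⟨i.1.1, i.1.2, (H05.liesOverPrime_smul_iff _ _ _).mpr (hA i.1)⟩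
  surj := by
    intro B q hq hB
    have hg := H51.isGalois_Qbar
    obtain ⟨σ, hσ⟩ := H05.exists_smul_eq q.2 (hA ⟨q, hq⟩) hB
    obtain ⟨h, d, hh, hd, hx⟩ := mk_dec (D := DK (A ⟨q, hq⟩) ⊥) hn σ
    set o : GQ := Quotient.out (QuotientGroup.mk σ : MJ K.fixingSubgroup (DK (A ⟨q, hq⟩) ⊥)) with ho
    refine ⟨⟨⟨q, hq⟩, QuotientGroup.mk σ⟩, o * h * o⁻¹, hn.conj_mem h hh o, ?_⟩
    change (o * h * o⁻¹) • o • A ⟨q, hq⟩ = B
    rw [← hσ, ← mul_smul, inv_mul_cancel_right]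
    have h1 : σ • A ⟨q, hq⟩ = (o * h) • d • A ⟨q, hq⟩ := by rw [← mul_smul, ← hx]
    rw [h1, mem_DK_bot.mp hd]
  inj := by
    rintro ⟨q, j⟩ ⟨q', j'⟩ g hg h
    have hq : q = q' := by
      have h1 : (plK A K ⟨q, j⟩).LiesOverPrime (q.1 : ℕ) :=
        (H05.liesOverPrime_smul_iff _ _ _).mpr (hA q)
      have h2 : (plK A K ⟨q', j'⟩).LiesOverPrime (q'.1 : ℕ) :=
        (H05.liesOverPrime_smul_iff _ _ _).mpr (hA q')
      rw [← h, H05.liesOverPrime_smul_iff] at h2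
      exact Subtype.ext (Subtype.ext (lies_unique q.1.2 q'.1.2 h1 h2))
    subst hq
    have hj : j = j' := by
      rw [← Quotient.out_eq j, ← Quotient.out_eq j']
      change (QuotientGroup.mk j.out : MJ K.fixingSubgroup (DK (A q) ⊥)) = QuotientGroup.mk j'.out
      rw [eq_comm, QuotientGroup.eq]
      have h1 : g • (Quotient.out j : GQ) • A q = (Quotient.out j' : GQ) • A q := h
      have h2 : (Quotient.out j' : GQ)⁻¹ * (g * Quotient.out j) ∈ DK (A q) ⊥ := by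
        rw [mem_DK_bot, mul_smul, mul_smul, h1, inv_smul_smul]
      have h3 : (Quotient.out j : GQ)⁻¹ * g⁻¹ * (Quotient.out j) ∈ K.fixingSubgroup := by
        simpa using hn.conj_mem _ (inv_mem hg) (Quotient.out j : GQ)⁻¹
      have h4 : (Quotient.out j' : GQ)⁻¹ * Quotient.out j =
          ((Quotient.out j' : GQ)⁻¹ * (g * Quotient.out j)) *
            ((Quotient.out j : GQ)⁻¹ * g⁻¹ * (Quotient.out j)) := by group
      rw [h4]
      exact mul_mem ((le_sup_right : DK (A q) ⊥ ≤ _) h2) ((le_sup_left : K.fixingSubgroup ≤ _) h3)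
    rw [hj]

section Trans

variable {S : Finset Nat.Primes} (A : ValuationSubring Qb) (K : IntermediateField ℚ Qb) (g : GQ)
  (M : Type) [AddCommGroup M] [DistribMulAction GQ M]

/-- restriction of Shapiro classes to the place `gA` of `K`, degree two -/
theorem res2S_sh2 (x : H2 (levS S) (CoInd K.fixingSubgroup M)) :
    res2S M S (g • A) K (sh2 (levS S) K.fixingSubgroup M x) =
      H2map (cjD (cj_mem g)) (cont_cjD (cj_mem g) lev rfl rfl) (evg K.fixingSubgroup M g)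
        (compat_evg (cj_mem g) DK_le_fix) (loc2 (cont_D S A ⊥) _ x) :=
  res_sh2 (cj_mem g) DK_le_fix (cont_D S A ⊥) (cont_DK_S S (g • A) K) _ x

theorem res1S_sh1 (x : H1 (levS S) (CoInd K.fixingSubgroup M)) :
    res1S M S (g • A) K (sh1 (levS S) K.fixingSubgroup M x) =
      H1map (cjD (cj_mem g)) (cont_cjD (cj_mem g) lev rfl rfl) (evg K.fixingSubgroup M g)
        (compat_evg (cj_mem g) DK_le_fix) (loc1 (cont_D S A ⊥) _ x) :=
  res_sh1 (cj_mem g) DK_le_fix (cont_D S A ⊥) (cont_DK_S S (g • A) K) _ x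

/-- Mackey injectivity over all places of `K` above `A` -/
theorem mack2_inj' [FiniteDimensional ℚ K] (hn : K.fixingSubgroup.Normal)
    (ht : ∀ h ∈ K.fixingSubgroup, ∀ m : M, h • m = m)
    (y : H2 (lev.sub (DK A ⊥)) (CoInd K.fixingSubgroup M))
    (hy : ∀ j : MJ K.fixingSubgroup (DK A ⊥),
      H2map (cjD (cj_mem (K := K) (Quotient.out j))) (cont_cjD (cj_mem _) lev rfl rfl)
        (evg K.fixingSubgroup M (Quotient.out j)) (compat_evg (cj_mem _) DK_le_fix) y = 0) :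
    y = 0 := by
  have hfi := fixingSubgroup_finiteIndex K
  have hfin : Finite (MJ K.fixingSubgroup (DK A ⊥)) := by
    have : (K.fixingSubgroup ⊔ DK A ⊥).FiniteIndex := Subgroup.finiteIndex_of_le le_sup_left
    exact inferInstanceAs (Finite (GQ ⧸ (K.fixingSubgroup ⊔ DK A ⊥)))
  have hHo : (lev.sub (DK A ⊥)).isOpen (K.fixingSubgroup.subgroupOf (DK A ⊥)) :=
    ⟨K.fixingSubgroup, ⟨K, inferInstance, le_rfl⟩, le_rfl⟩
  refine mack2_inj hn ht hHo y fun j => ?_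
  set g : GQ := Quotient.out j with hg
  -- `n ↦ g n g⁻¹`
  have hmem : ∀ n : K.fixingSubgroup.subgroupOf (DK A ⊥), g * ((n : DK A ⊥) : GQ) * g⁻¹ ∈
      DK (g • A) K := by
    intro n
    refine ⟨?_, hn.conj_mem _ (Subgroup.mem_subgroupOf.mp n.2) g⟩
    change (g * ((n : DK A ⊥) : GQ) * g⁻¹) • g • A = g • A
    rw [mul_smul, mul_smul, inv_smul_smul, mem_DK_bot.mp (n : DK A ⊥).2]
  let ψ : K.fixingSubgroup.subgroupOf (DK A ⊥) →* DK (g • A) K :=
    { toFun := fun n => ⟨g * ((n : DK A ⊥) : GQ) * g⁻¹, hmem n⟩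
      map_one' := Subtype.ext (by simp)
      map_mul' := fun n n' => Subtype.ext (by
        change g * (((n : DK A ⊥) : GQ) * ((n' : DK A ⊥) : GQ)) * g⁻¹ =
          (g * ((n : DK A ⊥) : GQ) * g⁻¹) * (g * ((n' : DK A ⊥) : GQ) * g⁻¹)
        group) }
  have hψ : Lev.Cont ψ ((lev.sub (DK A ⊥)).sub (K.fixingSubgroup.subgroupOf (DK A ⊥)))
      (lev.sub (DK (g • A) K)) := by
    rintro U ⟨V, hV, hVU⟩
    obtain ⟨W, hWn, hW, hWV⟩ := lev.nor V hV
    refine ⟨W.comap (DK A ⊥).subtype, ⟨W, hW, le_rfl⟩, fun n hn' => hVU (hWV ?_)⟩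
    change g * ((n : DK A ⊥) : GQ) * g⁻¹ ∈ W
    exact hWn.conj_mem _ hn' g
  have hcomp : Compat ψ (AddMonoidHom.id M) := by
    intro n m
    change (g * ((n : DK A ⊥) : GQ) * g⁻¹) • m = ((n : DK A ⊥) : GQ) • m
    rw [ht _ (hmem n).2, ht _ (Subgroup.mem_subgroupOf.mp n.2)]
  have h1 := congrArg (H2map ψ hψ (AddMonoidHom.id M) hcomp) (hy j)
  rw [map_zero] at h1
  rw [← h1]
  obtain ⟨f, rfl⟩ := H2.mk_surjective y
  change H2.mk _ _ _ = H2.mk _ _ _
  congr 1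
  apply Subtype.ext
  funext n n'
  have h2 : ∀ n : K.fixingSubgroup.subgroupOf (DK A ⊥),
      cjD (cj_mem (K := K) g) (ψ n) = (n : DK A ⊥) := by
    intro n
    apply Subtype.ext
    rw [cjD_coe]
    change g⁻¹ * (g * ((n : DK A ⊥) : GQ) * g⁻¹) * g = _
    group
  change (f.1 (n : DK A ⊥) (n' : DK A ⊥)).1 g =
    (f.1 (cjD (cj_mem (K := K) g) (ψ n)) (cjD (cj_mem (K := K) g) (ψ n'))).1 g
  rw [h2, h2]

end Trans

end Fermat.Agent.CC
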