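import Fermat.Agent.CC.Inst2
set_option autoImplicit false
set_option maxHeartbeats 400000

/-!
# Exactness at `P²` over `ℚ` for all modules
-/

noncomputable section

namespace Fermat.Agent.CC

open Fermat.Agent.LF (DK ZK mem_ZK mem_of_fixed DK_mono DK_le_fix)
open scoped Pointwise

variable {p : ℕ} [Fact p.Prime]

section Abs

variable {G : Type} [Group G] {T : Type} [AddCommGroup T] [DistribMulAction G T] (𝒢 : GLD p G T)
  {A B : Type} [AddCommGroup A] [AddCommGroup B] [DistribMulAction G A] [DistribMulAction G B]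
  {e : A →+ B →+ T} (h : Pr p 𝒢.𝓛 e)

/-- exactness at `P²` from an index bound -/
theorem GLD.E2_of_index (hidx : (𝒢.l2 A).range.index ≤ p) (hne : ∃ b : H0 G B, b ≠ 0) :
    𝒢.E2 h := by
  classical
  have hp : p.Prime := Fact.out
  have hfin : Finite (∀ v, H2 (𝒢.L v) A) := 𝒢.finP2A h
  intro y hy
  by_contra hcon
  have hyX : y ∉ (𝒢.l2 A).range := hcon
  obtain ⟨b, hb⟩ := hne
  -- the functional given by `b`
  let φ : (∀ v, H2 (𝒢.L v) A) →+ ZMod p := (𝒢.s20 h).flip (𝒢.l0 B b)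
  have hφX : (𝒢.l2 A).range ≤ φ.ker := by
    rintro _ ⟨x, rfl⟩
    exact 𝒢.rec20 h x b
  have hyφ : y ∈ φ.ker := hy b
  -- `φ ≠ 0`
  have hφ : ∃ z, φ z ≠ 0 := by
    have hb' : (b : B) ∉ (⊥ : AddSubgroup B) := fun h0 => hb (Subtype.ext (AddSubgroup.mem_bot.mp h0))
    obtain ⟨l, -, hl⟩ := fp_sep h.kB ⊥ hb'
    obtain ⟨v₀⟩ := 𝒢.neV
    let Λ : (∀ v, H0 (𝒢.D v) B) →+ ZMod p :=
      (l.comp (H0 (𝒢.D v₀) B).subtype).comp (Pi.evalAddMonoidHom (fun v => H0 (𝒢.D v) B) v₀)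
    obtain ⟨z, hz⟩ := 𝒢.repr20 h Λ
    refine ⟨z, ?_⟩
    change 𝒢.s20 h z (𝒢.l0 B b) ≠ 0
    rw [hz]
    exact hl
  obtain ⟨z, hz⟩ := hφ
  -- index of the kernel
  have hsurj : Function.Surjective φ := by
    intro c
    obtain ⟨n, hn⟩ := ZMod.intCast_surjective (c * (φ z)⁻¹)
    refine ⟨n • z, ?_⟩
    rw [map_zsmul, zsmul_eq_mul, hn, mul_assoc, inv_mul_cancel₀ hz, mul_one]
  have hk : φ.ker.index = p := by
    rw [AddSubgroup.index_ker, AddMonoidHom.range_eq_top.mpr hsurj,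
      Nat.card_congr (AddSubgroup.topEquiv (G := ZMod p)).toEquiv, Nat.card_zmod]
  have h1 := AddSubgroup.relIndex_mul_index hφX
  have h2 : (𝒢.l2 A).range.relIndex φ.ker ≠ 1 := by
    intro h3
    exact hyX (AddSubgroup.relIndex_eq_one.mp h3 hyφ)
  have h4 : (𝒢.l2 A).range.relIndex φ.ker ≠ 0 := by
    intro h0
    rw [h0, zero_mul] at h1
    exact AddSubgroup.index_ne_zero_of_finite h1.symm
  rw [hk] at h1
  have h5 : 2 ≤ (𝒢.l2 A).range.relIndex φ.ker := by omega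
  have h6 : 2 * p ≤ (𝒢.l2 A).range.index := by
    rw [← h1]; exact Nat.mul_le_mul_right p h5
  have := hp.pos
  omega

/-- exactness at `P²` for every module from the coinduced module -/
theorem GLD.E2_of {H : Subgroup G} (hH : 𝒢.𝓛.isOpen H) [Finite (G ⧸ H)]
    (htT : ∀ (h : H) (t : T), h • t = t) (hE : 𝒢.E2 (𝒢.prT hH htT))
    (htA : ∀ (h : H) (m : A), h • m = m) (htB : ∀ (h : H) (m : B), h • m = m) : 𝒢.E2 h :=
  𝒢.E2_quot (GLD.resP h hH) (𝒢.E2_co hH htT h htA htB hE)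

end Abs

section K

variable {S : Finset Nat.Primes} (𝒟 : Dat p S) (hp2 : p ≠ 2) (hpS : pP p ∈ S)
  {K F : IntermediateField ℚ Qb}

theorem smul_mu_of_root (hK : ∃ ζ ∈ K, IsPrimitiveRoot ζ p) :
    ∀ h ∈ K.fixingSubgroup, ∀ t : Mu p, h • t = t := by
  have hp : p.Prime := Fact.out
  obtain ⟨ζ, hζK, hζ⟩ := hK
  intro σ hσ
  rw [smul_mu_iff (p := p) σ]
  obtain ⟨i, -, hi⟩ := hζ.eq_pow_of_pow_eq_one (zetaT_prim p).pow_eq_one
  rw [← hi]
  change σ (ζ ^ i) = ζ ^ i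
  rw [map_pow, (IntermediateField.mem_fixingSubgroup_iff K σ).mp hσ ζ hζK]

theorem isOpen_fix (hK : K.IsUnramifiedOutside S) : (levS S).isOpen K.fixingSubgroup :=
  ⟨K, hK, le_rfl⟩

theorem finite_quot_fix (hK : FiniteDimensional ℚ K) : Finite (GQ ⧸ K.fixingSubgroup) := by
  have := fixingSubgroup_finiteIndex K
  infer_instance

include 𝒟 hp2 hpS in
/-- the image of `H²(G_S, CoInd)` in the local groups has index `≤ p` -/
theorem range_index_le (hSK : SK p S K) (hn : K.fixingSubgroup.Normal) (hC : CycExt p K F)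
    (hF : F.IsUnramifiedOutside S)
    (hns : ∀ A : ValuationSubring Qb, ∀ q ∈ S, A.LiesOverPrime ((q : Nat.Primes) : ℕ) →
        ¬ DK A K ≤ F.fixingSubgroup) :
    ((𝒟.gld hp2 hpS).l2 (CoInd K.fixingSubgroup (Mu p))).range.index ≤ p := by
  classical
  have hfd : FiniteDimensional ℚ K := hSK.unr.1
  have hfi := fixingSubgroup_finiteIndex K
  have hJ : ∀ q : S, Finite (MJ K.fixingSubgroup (DK (𝒟.A q) ⊥)) := by
    intro q
    have : (K.fixingSubgroup ⊔ DK (𝒟.A q) ⊥).FiniteIndex := Subgroup.finiteIndex_of_le le_sup_left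
    exact inferInstanceAs (Finite (GQ ⧸ (K.fixingSubgroup ⊔ DK (𝒟.A q) ⊥)))
  let _ : ∀ q : S, Fintype (MJ K.fixingSubgroup (DK (𝒟.A q) ⊥)) := fun q => Fintype.ofFinite _
  have hR := reps_plK 𝒟.hA hn
  have ht := smul_mu_of_root hSK.root
  have h1 := H02M.h2Low hp2 S K F hSK hC hF (Σ q : S, MJ K.fixingSubgroup (DK (𝒟.A q) ⊥))
    (plK 𝒟.A K) hR (fun i => by
      obtain ⟨q, hq, hl⟩ := hR.ov i
      exact hns _ q hq hl)
  set R : H2 ((levS S).sub K.fixingSubgroup) (Mu p) →+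
    ∀ i, H2 (lev.sub (DK (plK 𝒟.A K i) K)) (Mu p) :=
      AddMonoidHom.pi fun i => res2S (Mu p) S (plK 𝒟.A K i) K with hRdef
  let Ξ : (∀ q : S, H2 (lev.sub (DK (𝒟.A q) ⊥)) (CoInd K.fixingSubgroup (Mu p))) →+
      ∀ i, H2 (lev.sub (DK (plK 𝒟.A K i) K)) (Mu p) :=
    AddMonoidHom.pi fun i => (H2map (cjD (cj_mem (K := K) (Quotient.out i.2 : GQ)))
      (cont_cjD (cj_mem _) lev rfl rfl) (evg K.fixingSubgroup (Mu p) (Quotient.out i.2 : GQ))
      (compat_evg (cj_mem _) DK_le_fix)).comp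
        (Pi.evalAddMonoidHom (fun q : S => H2 (lev.sub (DK (𝒟.A q) ⊥))
          (CoInd K.fixingSubgroup (Mu p))) i.1)
  have hΞ : Function.Injective Ξ := by
    rw [injective_iff_map_eq_zero]
    intro y hy
    funext q
    refine mack2_inj' (𝒟.A q) K (Mu p) hn ht (y q) fun j => ?_
    exact congrFun hy ⟨q, j⟩
  have hcomp : ∀ x, Ξ ((𝒟.gld hp2 hpS).l2 (CoInd K.fixingSubgroup (Mu p)) x) =
      R (sh2 (levS S) K.fixingSubgroup (Mu p) x) := by
    intro x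
    funext i
    exact (res2S_sh2 (𝒟.A i.1) K (Quotient.out i.2 : GQ) (Mu p) x).symm
  have hmap : R.range.comap Ξ = ((𝒟.gld hp2 hpS).l2 (CoInd K.fixingSubgroup (Mu p))).range := by
    ext y
    constructor
    · rintro ⟨ξ, hξ⟩
      obtain ⟨x, rfl⟩ := sh2_surjective (isOpen_fix hSK.unr) ξ
      refine ⟨x, hΞ ?_⟩
      rw [hcomp, hξ]
    · rintro ⟨x, rfl⟩
      exact ⟨_, (hcomp x).symm⟩
  have hfin : ∀ i, Finite (H2 (lev.sub (DK (plK 𝒟.A K i) K)) (Mu p)) := by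
    intro i
    obtain ⟨q, hq, hl⟩ := hR.ov i
    obtain ⟨ι⟩ := exists_inv hp2 q.2 hl K
    have : NeZero p := ⟨(Fact.out : p.Prime).ne_zero⟩
    exact Finite.of_equiv _ ι.symm.toEquiv
  have hfin2 : Finite (∀ i, H2 (lev.sub (DK (plK 𝒟.A K i) K)) (Mu p)) := inferInstance
  calc ((𝒟.gld hp2 hpS).l2 (CoInd K.fixingSubgroup (Mu p))).range.index
      = (R.range.comap Ξ).index := congrArg AddSubgroup.index hmap.symm
    _ = R.range.relIndex Ξ.range := AddSubgroup.index_comap _ _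
    _ ≤ R.range.index := by
        have := AddSubgroup.relIndex_dvd_index_of_normal R.range Ξ.range
        exact Nat.le_of_dvd (Nat.pos_of_ne_zero AddSubgroup.index_ne_zero_of_finite) this
    _ ≤ p := h1

theorem mu_nontrivial : ∃ t : Mu p, t ≠ 0 := by
  refine ⟨(tauT p).symm 1, fun h => ?_⟩
  rw [EmbeddingLike.map_eq_zero_iff] at h
  exact one_ne_zero h

include 𝒟 in
theorem E2_K (hSK : SK p S K) (hn : K.fixingSubgroup.Normal) (hC : CycExt p K F)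
    (hF : F.IsUnramifiedOutside S)
    (hns : ∀ A : ValuationSubring Qb, ∀ q ∈ S, A.LiesOverPrime ((q : Nat.Primes) : ℕ) →
        ¬ DK A K ≤ F.fixingSubgroup) [Finite (GQ ⧸ K.fixingSubgroup)]
    (hH : (𝒟.gld hp2 hpS).𝓛.isOpen K.fixingSubgroup)
    (htT : ∀ (h : K.fixingSubgroup) (t : Mu p), h • t = t) :
    (𝒟.gld hp2 hpS).E2 ((𝒟.gld hp2 hpS).prT hH htT) := by
  refine GLD.E2_of_index _ _ (range_index_le 𝒟 hp2 hpS hSK hn hC hF hns) ?_
  obtain ⟨t, ht⟩ := mu_nontrivial (p := p)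
  refine ⟨constH0 (⟨t, fun g => htT g t⟩ : H0 K.fixingSubgroup (Mu p)), fun h0 => ht ?_⟩
  have h1 := congrArg (fun b : H0 GQ (CoInd K.fixingSubgroup (Mu p)) =>
    ((b : CoInd K.fixingSubgroup (Mu p)) : GQ → Mu p) 1) h0
  exact h1

/-- **exactness at `P²` for all finite modules** -/
theorem E2all (hCh : Choice0 p) {M M' : Type} [AddCommGroup M] [AddCommGroup M']
    [DistribMulAction GQ M] [DistribMulAction GQ M'] {e : M →+ M' →+ Mu p}
    (h : Pr p (𝒟.gld hp2 hpS).𝓛 e) : (𝒟.gld hp2 hpS).E2 h := by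
  have := h.fA
  have := h.fB
  obtain ⟨U, hU, hUt⟩ := h.smA.finite (Set.toFinite (Set.univ : Set M))
  obtain ⟨V, hV, hVt⟩ := h.smB.finite (Set.toFinite (Set.univ : Set M'))
  obtain ⟨K₁, hK₁, hK₁U⟩ := (levS S).inf U V hU hV
  obtain ⟨K, F, hKK, hn, hSK, hC, hF, hns⟩ := hCh S K₁ hpS hK₁
  have hfin := finite_quot_fix (K := K) hSK.unr.1
  have hle : K.fixingSubgroup ≤ U ⊓ V :=
    (IntermediateField.fixingSubgroup_antitone hKK).trans hK₁U
  have htT : ∀ (h : K.fixingSubgroup) (t : Mu p), h • t = t :=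
    fun h t => smul_mu_of_root hSK.root h h.2 t
  exact GLD.E2_of _ h (isOpen_fix hSK.unr) htT
    (E2_K 𝒟 hp2 hpS hSK hn hC hF hns (isOpen_fix hSK.unr) htT)
    (fun s m => hUt m trivial _ (hle s.2).1) (fun s m => hVt m trivial _ (hle s.2).2)

end K

end Fermat.Agent.CC
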