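import Fermat.Agent.CC.Inst3
import Fermat.Agent.H02M.Sha1
import Fermat.Agent.H02M.CountH1c
set_option autoImplicit false
set_option maxHeartbeats 400000

/-!
# The hypotheses `GIn` over `ℚ`
-/

noncomputable section

namespace Fermat.Agent.CC

open Fermat.Agent.LF (DK ZK mem_ZK mem_of_fixed DK_mono DK_le_fix)
open scoped Pointwise

variable {p : ℕ} [Fact p.Prime]

section Card

variable {G G' : Type*} [Group G] [Group G'] {𝓛 : Lev G} {𝓛' : Lev G'} {A : Type*}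
  [AddCommGroup A] [DistribMulAction G A] [DistribMulAction G' A]

/-- `H¹` of isomorphic groups -/
theorem card_H1_iso (φ : G' ≃* G) (hφ : Lev.Cont φ.toMonoidHom 𝓛' 𝓛)
    (hφ' : Lev.Cont φ.symm.toMonoidHom 𝓛 𝓛') (hc : Compat φ.toMonoidHom (AddMonoidHom.id A)) :
    Nat.card (H1 𝓛 A) = Nat.card (H1 𝓛' A) := by
  have hc' : Compat φ.symm.toMonoidHom (AddMonoidHom.id A) := by
    intro g a
    have h1 := hc (φ.symm g) a
    change (φ (φ.symm g)) • a = (φ.symm g) • a at h1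
    rw [φ.apply_symm_apply] at h1
    exact h1.symm
  refine Nat.card_congr
    { toFun := H1map φ.toMonoidHom hφ (AddMonoidHom.id A) hc
      invFun := H1map φ.symm.toMonoidHom hφ' (AddMonoidHom.id A) hc'
      left_inv := fun x => ?_
      right_inv := fun x => ?_ }
  · obtain ⟨x, rfl⟩ := H1.mk_surjective x
    change H1.mk _ _ _ = _
    congr 1
    apply Subtype.ext
    funext g
    exact congrArg x.1 (φ.apply_symm_apply g)
  · obtain ⟨x, rfl⟩ := H1.mk_surjective x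
    change H1.mk _ _ _ = _
    congr 1
    apply Subtype.ext
    funext g
    exact congrArg x.1 (φ.symm_apply_apply g)

end Card

section Iso

variable (A : ValuationSubring Qb) (K : IntermediateField ℚ Qb) (g : GQ)
  (hn : K.fixingSubgroup.Normal)

include hn in
/-- `D_{gA} ∩ G_K ≃ D_A ∩ G_K` -/
def cjEquiv : DK (g • A) K ≃* K.fixingSubgroup.subgroupOf (DK A ⊥) where
  toFun b := ⟨cjD (cj_mem (K := K) g) b, by
    rw [Subgroup.mem_subgroupOf, cjD_coe]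
    exact cj_mem' hn g b.2⟩
  invFun n := ⟨g * ((n : DK A ⊥) : GQ) * g⁻¹, by
    refine ⟨?_, hn.conj_mem _ (Subgroup.mem_subgroupOf.mp n.2) g⟩
    change (g * ((n : DK A ⊥) : GQ) * g⁻¹) • g • A = g • A
    rw [mul_smul, mul_smul, inv_smul_smul, mem_DK_bot.mp (n : DK A ⊥).2]⟩
  left_inv b := by
    apply Subtype.ext
    change g * (cjD (cj_mem (K := K) g) b : GQ) * g⁻¹ = b
    rw [cjD_coe]
    group
  right_inv n := by
    apply Subtype.ext
    apply Subtype.ext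
    change (cjD (cj_mem (K := K) g) _ : GQ) = _
    rw [cjD_coe]
    change g⁻¹ * (g * ((n : DK A ⊥) : GQ) * g⁻¹) * g = _
    group
  map_mul' b b' := by
    apply Subtype.ext
    exact map_mul (cjD (cj_mem (K := K) g)) b b'

include hn in
theorem card_H1_cj (M : Type) [AddCommGroup M] [DistribMulAction GQ M]
    (ht : ∀ h ∈ K.fixingSubgroup, ∀ m : M, h • m = m) :
    Nat.card (H1 ((lev.sub (DK A ⊥)).sub (K.fixingSubgroup.subgroupOf (DK A ⊥))) M) =
      Nat.card (H1 (lev.sub (DK (g • A) K)) M) := by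
  refine card_H1_iso (cjEquiv A K g hn) ?_ ?_ ?_
  · rintro U ⟨V, ⟨W, hW, hWV⟩, hVU⟩
    refine ⟨W.comap (cj g), cont_cj g W hW, fun b hb => hVU (hWV ?_)⟩
    exact hb
  · rintro U ⟨V, hV, hVU⟩
    obtain ⟨W, hWn, hW, hWV⟩ := lev.nor V hV
    refine ⟨W.comap (DK A ⊥).subtype, ⟨W, hW, le_rfl⟩, fun n hn' => hVU (hWV ?_)⟩
    change g * ((n : DK A ⊥) : GQ) * g⁻¹ ∈ W
    exact hWn.conj_mem _ hn' g
  · intro b m
    change ((cjD (cj_mem (K := K) g) b : GQ)) • m = (b : GQ) • m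
    rw [ht _ b.2.2, cjD_coe, ht _ (cj_mem' hn g b.2)]

end Iso

section Inst

variable {S : Finset Nat.Primes} (𝒟 : Dat p S) (hp2 : p ≠ 2) (hpS : pP p ∈ S)
  {K : IntermediateField ℚ Qb}

include hp2 in
theorem sha2Z_aux (hSK : SK p S K) (hcl : ClTriv p S K)
    (x : H2 (levS S) (CoInd K.fixingSubgroup (Mu p)))
    (hx : ∀ q : S, loc2 (cont_D S (𝒟.A q) ⊥) _ x = 0) : x = 0 := by
  apply sh2_injective (isOpen_fix hSK.unr)
  rw [map_zero]
  refine CFT.sha2Van hp2 S K hSK hcl _ fun B q hq hB => ?_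
  have hg := H51.isGalois_Qbar
  obtain ⟨g, hg⟩ := H05.exists_smul_eq q.2 (𝒟.hA ⟨q, hq⟩) hB
  subst hg
  rw [res2S_sh2, hx ⟨q, hq⟩, map_zero]

include hp2 in
theorem sha1Z_aux (hSK : SK p S K) (hcl : ClTriv p S K)
    (x : H1 (levS S) (CoInd K.fixingSubgroup (Mu p)))
    (hx : ∀ q : S, loc1 (cont_D S (𝒟.A q) ⊥) _ x = 0) : x = 0 := by
  apply sh1_injective
  rw [map_zero]
  refine H02M.sha1Van hp2 S K hSK hcl _ fun B q hq hB => ?_
  have hg := H51.isGalois_Qbar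
  obtain ⟨g, hg⟩ := H05.exists_smul_eq q.2 (𝒟.hA ⟨q, hq⟩) hB
  subst hg
  rw [res1S_sh1, hx ⟨q, hq⟩, map_zero]

include 𝒟 in
/-- vanishing of `Ш²` for the coinduced module -/
theorem sha2Z_K (hSK : SK p S K) (hcl : ClTriv p S K) :
    (𝒟.gld hp2 hpS).Sha2Z (CoInd K.fixingSubgroup (Mu p)) := by
  intro x hx
  exact sha2Z_aux 𝒟 hp2 hSK hcl x (fun q => congrFun hx q)

include 𝒟 in
/-- vanishing of `Ш¹` for the coinduced module -/
theorem sha1Z_K (hSK : SK p S K) (hcl : ClTriv p S K) :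
    (𝒟.gld hp2 hpS).Sha1Z (CoInd K.fixingSubgroup (Mu p)) := by
  intro x hx
  exact sha1Z_aux 𝒟 hp2 hSK hcl x (fun q => congrFun hx q)

include hp2 in
/-- the count -/
theorem cnt_K (hSK : SK p S K) (hn : K.fixingSubgroup.Normal) (hcl : ClTriv p S K) :
    Nat.card (H1 (levS S) (CoInd K.fixingSubgroup (Mu p))) ^ 2 =
      Nat.card (∀ q : S, H1 (lev.sub (DK (𝒟.A q) ⊥)) (CoInd K.fixingSubgroup (Mu p))) := by
  classical
  have hfd : FiniteDimensional ℚ K := hSK.unr.1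
  have hfi := fixingSubgroup_finiteIndex K
  have hJ : ∀ q : S, Finite (MJ K.fixingSubgroup (DK (𝒟.A q) ⊥)) := by
    intro q
    have : (K.fixingSubgroup ⊔ DK (𝒟.A q) ⊥).FiniteIndex := Subgroup.finiteIndex_of_le le_sup_left
    exact inferInstanceAs (Finite (GQ ⧸ (K.fixingSubgroup ⊔ DK (𝒟.A q) ⊥)))
  let _ : ∀ q : S, Fintype (MJ K.fixingSubgroup (DK (𝒟.A q) ⊥)) := fun q => Fintype.ofFinite _
  have ht := smul_mu_of_root hSK.root
  have h1 := H02M.countH1 hp2 S K hSK hcl (Σ q : S, MJ K.fixingSubgroup (DK (𝒟.A q) ⊥))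
    (plK 𝒟.A K) (reps_plK 𝒟.hA hn)
  have h2 : Nat.card (H1 (levS S) (CoInd K.fixingSubgroup (Mu p))) =
      Nat.card (H1 ((levS S).sub K.fixingSubgroup) (Mu p)) :=
    Nat.card_congr (Equiv.ofBijective _ ⟨sh1_injective, sh1_surjective (isOpen_fix hSK.unr)⟩)
  rw [h2, h1, Nat.card_pi, Fintype.prod_sigma]
  refine Finset.prod_congr rfl fun q _ => ?_
  have hHo : (lev.sub (DK (𝒟.A q) ⊥)).isOpen (K.fixingSubgroup.subgroupOf (DK (𝒟.A q) ⊥)) :=
    ⟨K.fixingSubgroup, ⟨K, hfd, le_rfl⟩, le_rfl⟩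
  rw [mack1_card hn ht hHo]
  have h3 : ∀ j : MJ K.fixingSubgroup (DK (𝒟.A q) ⊥),
      Nat.card (H1 (lev.sub (DK (plK 𝒟.A K ⟨q, j⟩) K)) (Mu p)) =
      Nat.card (H1 ((lev.sub (DK (𝒟.A q) ⊥)).sub (K.fixingSubgroup.subgroupOf (DK (𝒟.A q) ⊥)))
        (Mu p)) := fun j =>
        (card_H1_cj (𝒟.A q) K (Quotient.out j) hn (Mu p) ht).symm
  rw [Finset.prod_congr rfl fun j _ => h3 j, Finset.prod_const, Finset.card_univ,
    Nat.card_eq_fintype_card (α := MJ K.fixingSubgroup (DK (𝒟.A q) ⊥))]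

/-- a Sylow-type subgroup between `G_K` and `G_ℚ` -/
theorem exists_sylow_field (hSK : SK p S K) (hn : K.fixingSubgroup.Normal) :
    ∃ K₀ : IntermediateField ℚ Qb, K₀ ≤ K ∧ SK p S K₀ ∧ K₀.fixingSubgroup.index.Coprime p ∧
      ∃ n, K.fixingSubgroup.relIndex K₀.fixingSubgroup = p ^ n := by
  have hg := H51.isGalois_Qbar
  have hfd : FiniteDimensional ℚ K := hSK.unr.1
  have hfi := fixingSubgroup_finiteIndex K
  obtain ⟨H₀, n, hle, hcop, hrel⟩ := exists_sylow_level (p := p) K.fixingSubgroup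
  obtain ⟨K₀, hK₀, hKH⟩ := exists_field_of_open (lev.mono _ _ ⟨K, hfd, le_rfl⟩ hle)
  subst hKH
  have hKK : K₀ ≤ K := by
    have h1 := (IntermediateField.le_iff_le (K := K₀) K.fixingSubgroup).mpr hle
    rwa [InfiniteGalois.fixedField_fixingSubgroup] at h1
  refine ⟨K₀, hKK, ⟨hSK.pS, hSK.unr.of_le hKK, ?_⟩, hcop, n, hrel⟩
  -- `μ_p ⊂ K₀`
  have htriv : ∀ s ∈ K₀.fixingSubgroup, ∀ t : Mu p, s • t = t := by
    intro s hs
    refine triv_of_pow (tauT p) s n (fun t => ?_)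
    refine smul_mu_of_root hSK.root _ ?_ t
    have h1 := (K.fixingSubgroup.subgroupOf K₀.fixingSubgroup).pow_index_mem ⟨s, hs⟩
    have h2 : (K.fixingSubgroup.subgroupOf K₀.fixingSubgroup).index = p ^ n := hrel
    rw [h2] at h1
    exact Subgroup.mem_subgroupOf.mp h1
  refine ⟨zetaT p, ?_, zetaT_prim p⟩
  have h3 : zetaT p ∈ IntermediateField.fixedField K₀.fixingSubgroup := by
    rw [IntermediateField.mem_fixedField_iff]
    intro s hs
    exact (smul_mu_iff (p := p) s).mp (htriv s hs)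
  rwa [InfiniteGalois.fixedField_fixingSubgroup] at h3

include 𝒟 in
/-- **the hypotheses of the abstract theory over `ℚ`** -/
theorem gin_K (hCh : Choice0 p) (hSK : SK p S K) (hn : K.fixingSubgroup.Normal)
    (hcl : ∀ K₀ : IntermediateField ℚ Qb, K₀ ≤ K → (∃ ζ ∈ K₀, IsPrimitiveRoot ζ p) →
      ClTriv p S K₀) : ∃ (K₀ : IntermediateField ℚ Qb) (_ : Finite (GQ ⧸ K.fixingSubgroup))
        (_ : Finite (GQ ⧸ K₀.fixingSubgroup)),
        (𝒟.gld hp2 hpS).GIn K.fixingSubgroup K₀.fixingSubgroup := by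
  have hfd : FiniteDimensional ℚ K := hSK.unr.1
  obtain ⟨K₀, hKK, hSK₀, hcop, hrel⟩ := exists_sylow_field hSK hn
  refine ⟨K₀, finite_quot_fix hfd, finite_quot_fix hSK₀.unr.1, ?_⟩
  have hf1 := finite_quot_fix hfd
  have hf2 := finite_quot_fix hSK₀.unr.1
  exact
    { hn := hn
      hH := isOpen_fix hSK.unr
      hle := IntermediateField.fixingSubgroup_antitone hKK
      ht := smul_mu_of_root hSK₀.root
      cop := hcop
      rel := hrel
      hE2 := E2all 𝒟 hp2 hpS hCh _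
      sha2 := sha2Z_K 𝒟 hp2 hpS hSK (hcl K le_rfl hSK.root)
      sha2' := sha2Z_K 𝒟 hp2 hpS hSK₀ (hcl K₀ hKK hSK₀.root)
      sha1 := sha1Z_K 𝒟 hp2 hpS hSK (hcl K le_rfl hSK.root)
      cnt := cnt_K 𝒟 hp2 hSK hn (hcl K le_rfl hSK.root) }

end Inst

end Fermat.Agent.CC
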