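import Fermat.Agent.CC.Kummer
import Fermat.Agent.CC.CoresDelta
set_option autoImplicit false
set_option maxHeartbeats 400000

/-!
# Abstract local class field theory modulo `p`
-/

namespace Fermat.Agent.CC

noncomputable section

universe u w

section Gen

variable {G : Type*} [Group G] {𝓛 : Lev G} {A : Type*} [AddCommGroup A] [DistribMulAction G A]

/-- trace as an additive map -/
def cores0h (H : Subgroup G) [Finite (G ⧸ H)] (A : Type*) [AddCommGroup A] [DistribMulAction G A] :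
    H0 H A →+ H0 G A where
  toFun := cores0
  map_zero' := Subtype.ext (by
    change sumMap H A (constH0 (0 : H0 H A) : CoInd H A) = 0
    rw [show (constH0 (0 : H0 H A) : CoInd H A) = 0 from rfl, map_zero])
  map_add' a b := Subtype.ext (by
    change sumMap H A (constH0 (a + b : H0 H A) : CoInd H A) =
      sumMap H A (constH0 a : CoInd H A) + sumMap H A (constH0 b : CoInd H A)
    rw [← map_add]
    rfl)

@[simp] theorem cores0h_apply (H : Subgroup G) [Finite (G ⧸ H)] (a : H0 H A) :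
    cores0h H A a = cores0 a := rfl

/-- every class of degree two dies on some open normal subgroup -/
theorem kill2 (sm : 𝓛.Smooth A) (x : H2 𝓛 A) :
    ∃ N : Subgroup G, 𝓛.isOpen N ∧ N.Normal ∧ resH2 𝓛 N A x = 0 := by
  obtain ⟨f, rfl⟩ := H2.mk_surjective x
  obtain ⟨U, hU, h⟩ := f.2.1
  obtain ⟨V, hV, hV'⟩ := sm (f.1 1 1)
  obtain ⟨N, hNn, hN, hNU, hNV⟩ := 𝓛.exists_normal_le hU hV
  refine ⟨N, hN, hNn, H2.mk_eq_zero.mpr ⟨fun _ => f.1 1 1, (𝓛.sub N).const1_const _, fun g h' => ?_⟩⟩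
  change f.1 (g : G) (h' : G) = (g : G) • f.1 1 1 - f.1 1 1 + f.1 1 1
  have h1 := h 1 1 g (hNU g.2) h' (hNU h'.2)
  rw [one_mul, one_mul] at h1
  rw [h1, hV' g (hNV g.2)]
  abel

/-- transitivity of restriction -/
theorem resH2_subgroupOf {N H : Subgroup G} (hle : N ≤ H) (x : H2 𝓛 A)
    (hx : resH2 𝓛 N A x = 0) :
    resH2 (𝓛.sub H) (N.subgroupOf H) A (resH2 𝓛 H A x) = 0 := by
  let ψ : (N.subgroupOf H) →* N := (Subgroup.subgroupOfEquivOfLe hle).toMonoidHom
  have hψ : Lev.Cont ψ ((𝓛.sub H).sub (N.subgroupOf H)) (𝓛.sub N) := by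
    rintro U ⟨V, hV, hVU⟩
    refine ⟨V.comap H.subtype, ⟨V, hV, le_rfl⟩, fun u hu => ?_⟩
    exact hVU (x := ψ u) hu
  have h1 : resH2 (𝓛.sub H) (N.subgroupOf H) A (resH2 𝓛 H A x) =
      H2map ψ hψ (AddMonoidHom.id A) (fun _ _ => rfl) (resH2 𝓛 N A x) := by
    obtain ⟨f, rfl⟩ := H2.mk_surjective x
    rfl
  rw [h1, hx, map_zero]

theorem resH2_top (x : H2 𝓛 A) (hx : resH2 𝓛 ⊤ A x = 0) : x = 0 := by
  have h1 := cores2_res (A := A) 𝓛.top x
  rw [hx, map_zero] at h1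
  have h2 : Nat.card (G ⧸ (⊤ : Subgroup G)) = 1 := Subgroup.index_top
  rw [h2, one_smul] at h1
  exact h1.symm

/-- an index `p` normal subgroup is the kernel of a character -/
theorem exists_chi {p : ℕ} [Fact p.Prime] {H : Subgroup G} (hH : 𝓛.isOpen H) (hn : H.Normal)
    (hi : H.index = p) : ∃ (χ : G → ZMod p) (hχ : ∀ g h, χ (g * h) = χ g + χ h) (t : G),
      𝓛.Const1 χ ∧ χ t = 1 ∧ H = chiKer χ hχ := by
  have h1 : Nat.card (G ⧸ H) = p := hi
  have h2 : Nat.card (Multiplicative (ZMod p)) = p :=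
    (Nat.card_congr Multiplicative.toAdd).trans (Nat.card_zmod p)
  let φ : G ⧸ H ≃* Multiplicative (ZMod p) := mulEquivOfPrimeCardEq h1 h2
  let χ : G → ZMod p := fun g => Multiplicative.toAdd (φ (QuotientGroup.mk g))
  have hχ : ∀ g h, χ (g * h) = χ g + χ h := by
    intro g h
    change Multiplicative.toAdd (φ (QuotientGroup.mk (g * h))) = _
    rw [QuotientGroup.mk_mul, map_mul]
    rfl
  have hker : ∀ g, χ g = 0 ↔ g ∈ H := by
    intro g
    change Multiplicative.toAdd (φ (QuotientGroup.mk g)) = 0 ↔ _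
    rw [← QuotientGroup.eq_one_iff, ← map_eq_one_iff φ φ.injective]
    exact Iff.rfl
  obtain ⟨q, hq⟩ := φ.surjective (Multiplicative.ofAdd 1)
  obtain ⟨t, rfl⟩ := QuotientGroup.mk_surjective q
  refine ⟨χ, hχ, t, ⟨H, hH, fun g s hs => ?_⟩, ?_, ?_⟩
  · rw [hχ, (hker s).mpr hs, add_zero]
  · change Multiplicative.toAdd (φ (QuotientGroup.mk t)) = 1
    rw [hq]; rfl
  · ext g
    exact (hker g).symm

end Gen

section Mul

variable {G : Type*} [Group G] {𝓛 : Lev G} {p : ℕ} [Fact p.Prime] {T : Type*} [AddCommGroup T]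
  [DistribMulAction G T] (τ : T ≃+ ZMod p)

/-- anticommutativity of the multiplication cup product -/
theorem cup11_mul_comm (he : EqPair G (mulPair τ)) (sm : 𝓛.Smooth T) (x y : H1 𝓛 T) :
    cup11 (mulPair τ) he sm y x = -cup11 (mulPair τ) he sm x y := by
  rw [← cup11_flip (mulPair τ) he sm sm x y]
  obtain ⟨x, rfl⟩ := H1.mk_surjective x
  obtain ⟨y, rfl⟩ := H1.mk_surjective y
  rw [cup11_mk, cup11_mk]
  congr 1
  apply Subtype.ext
  funext g h
  change mulPair τ (y.1 g) (g • x.1 h) = (mulPair τ).flip (y.1 g) (g • x.1 h)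
  rw [mulPair_flip]

/-- the character attached to a cocycle -/
def chiOf (f : Z1 𝓛 T) : G → ZMod p := fun g => τ (f.1 g)

theorem chiOf_mul (htriv : ∀ (g : G) (t : T), g • t = t) (f : Z1 𝓛 T) (g h : G) :
    chiOf τ f (g * h) = chiOf τ f g + chiOf τ f h := by
  change τ (f.1 (g * h)) = τ (f.1 g) + τ (f.1 h)
  rw [f.2.2, htriv, map_add]

theorem chiOf_const (f : Z1 𝓛 T) : 𝓛.Const1 (chiOf τ f) := f.2.1.comp τ

/-- the multiplication cup product as a cup product with a character -/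
theorem cup_mul_eq (htriv : ∀ (g : G) (t : T), g • t = t) (he : EqPair G (mulPair τ))
    (sm : 𝓛.Smooth T) (x : H1 𝓛 T) (f : Z1 𝓛 T) (kT : ∀ t : T, p • t = 0) :
    cup11 (mulPair τ) he sm x (H1.mk 𝓛 T f) =
      cup11 (scPair kT) (scPair_eq kT) (Fp.smooth 𝓛) x
        (H1.mk 𝓛 _ (chiZ (chiOf τ f) (chiOf_mul τ htriv f) (chiOf_const τ f))) := by
  obtain ⟨x, rfl⟩ := H1.mk_surjective x
  rw [cup11_mk, cup11_mk]
  congr 1
  apply Subtype.ext
  funext g h
  change mulPair τ (x.1 g) (g • f.1 h) = scPair kT (x.1 g) (τ (f.1 h))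
  rw [htriv, scPair_apply]
  have h1 := map_zs τ (x.1 g) (kT _) (AddMonoidHom.id T) (τ (f.1 h))
  change _ = (AddMonoidHom.id T) (zs (x.1 g) (kT _) (τ (f.1 h)))
  rw [h1, mulPair_apply, mul_comm]
  rfl

theorem exists_t (htriv : ∀ (g : G) (t : T), g • t = t) {f : Z1 𝓛 T} (hf : f ≠ 0) :
    ∃ t, chiOf τ f t = 1 := by
  have : ∃ g, chiOf τ f g ≠ 0 := by
    by_contra hcon
    push Not at hcon
    apply hf
    apply Subtype.ext
    funext g
    apply τ.injective
    rw [hcon g |> fun h => (show τ (f.1 g) = 0 from h)]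
    exact (map_zero τ).symm
  obtain ⟨g, hg⟩ := this
  refine ⟨g ^ ((chiOf τ f g)⁻¹).val, ?_⟩
  rw [chi_pow _ (chiOf_mul τ htriv f)]
  simp [hg]

end Mul

/-- **Abstract local class field theory modulo `p`** for a hereditary family of groups acting on a
`p`-divisible module `M`. -/
structure LCF (p : ℕ) [Fact p.Prime] (M : Type w) [AddCommGroup M]
    (Q : ∀ (G : Type u) [Group G] [DistribMulAction G M] (_ : Lev G), Prop) : Prop where
  div : ∀ m : M, ∃ m', p • m' = m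
  sm : ∀ (G : Type u) [Group G] [DistribMulAction G M] (𝓛 : Lev G), Q G 𝓛 → 𝓛.Smooth M
  h90 : ∀ (G : Type u) [Group G] [DistribMulAction G M] (𝓛 : Lev G), Q G 𝓛 →
    ∀ z : H1 𝓛 M, z = 0
  triv : ∀ (G : Type u) [Group G] [DistribMulAction G M] (𝓛 : Lev G), Q G 𝓛 →
    ∀ (g : G) (m : M), p • m = 0 → g • m = m
  sub : ∀ (G : Type u) [Group G] [DistribMulAction G M] (𝓛 : Lev G), Q G 𝓛 →
    ∀ H : Subgroup G, 𝓛.isOpen H → Q H (𝓛.sub H)
  fin : ∀ (G : Type u) [Group G] [DistribMulAction G M] (𝓛 : Lev G), Q G 𝓛 →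
    Finite (H0 G M ⧸ (nsmulAddMonoidHom (α := H0 G M) p).range)
  big : ∀ (G : Type u) [Group G] [DistribMulAction G M] (𝓛 : Lev G), Q G 𝓛 →
    p < Nat.card (H0 G M ⧸ (nsmulAddMonoidHom (α := H0 G M) p).range)
  norm : ∀ (G : Type u) [Group G] [DistribMulAction G M] (𝓛 : Lev G), Q G 𝓛 →
    ∀ (χ : G → ZMod p) (hχ : ∀ g h, χ (g * h) = χ g + χ h) (_ : 𝓛.Const1 χ) (t : G) (_ : χ t = 1)
      [Finite (G ⧸ chiKer χ hχ)], (cores0h (chiKer χ hχ) M).range.index = p

end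

end Fermat.Agent.CC
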