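import Fermat.Agent.CC.LCF
set_option autoImplicit false
set_option maxHeartbeats 400000

/-!
# Abstract local class field theory modulo `p`: the Brauer group
-/

namespace Fermat.Agent.CC

noncomputable section

universe u w

variable {p : ℕ} [Fact p.Prime] {M : Type w} [AddCommGroup M]
    {Q : ∀ (G : Type u) [Group G] [DistribMulAction G M] (_ : Lev G), Prop}
    (F : LCF p M Q) (τ : TorP p M ≃+ ZMod p)

namespace LCF

section One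

variable {G : Type u} [Group G] [DistribMulAction G M] {𝓛 : Lev G} (hQ : Q G 𝓛)

include F hQ

theorem trivT (g : G) (t : TorP p M) : g • t = t :=
  TorP.incl_injective (F.triv G 𝓛 hQ g _ (TorP.incl_mem t))

theorem smT : 𝓛.Smooth (TorP p M) := TorP.smooth (F.sm G 𝓛 hQ)

theorem eqP : EqPair G (mulPair τ) := eqPair_mulPair τ (F.trivT hQ)

/-- the multiplication cup product -/
def cp : H1 𝓛 (TorP p M) →+ H1 𝓛 (TorP p M) →+ H2 𝓛 (TorP p M) :=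
  cup11 (mulPair τ) (F.eqP τ hQ) (F.smT hQ)

/-- the Kummer map -/
def ka : H0 G M →+ H1 𝓛 (TorP p M) := kap (F.sm G 𝓛 hQ) F.div

theorem ka_surj : Function.Surjective (F.ka hQ) :=
  kap_surjective (F.sm G 𝓛 hQ) F.div (F.h90 G 𝓛 hQ)

theorem cp_comm (x y : H1 𝓛 (TorP p M)) : F.cp τ hQ y x = -F.cp τ hQ x y :=
  cup11_mul_comm τ (F.eqP τ hQ) (F.smT hQ) x y

theorem finite_H1 : Finite (H1 𝓛 (TorP p M)) := by
  have := F.fin G 𝓛 hQ
  refine Finite.of_surjective (QuotientAddGroup.lift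
    (nsmulAddMonoidHom (α := H0 G M) p).range (F.ka hQ) ?_) ?_
  · rintro _ ⟨a, rfl⟩
    rw [AddMonoidHom.mem_ker]
    change F.ka hQ (p • a) = 0
    rw [map_nsmul]
    exact H1_killed TorP.killed _
  · intro y
    obtain ⟨a, rfl⟩ := F.ka_surj hQ y
    exact ⟨QuotientAddGroup.mk a, rfl⟩

theorem norm_iff {f : Z1 𝓛 (TorP p M)} (hf : f ≠ 0)
    [Finite (G ⧸ chiKer (chiOf τ f) (chiOf_mul τ (F.trivT hQ) f))] (a : H0 G M) :
    F.cp τ hQ (F.ka hQ a) (H1.mk 𝓛 _ f) = 0 ↔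
      a ∈ (cores0h (chiKer (chiOf τ f) (chiOf_mul τ (F.trivT hQ) f)) M).range := by
  obtain ⟨t, ht⟩ := exists_t τ (F.trivT hQ) hf
  have h1 := cup_mul_eq τ (F.trivT hQ) (F.eqP τ hQ) (F.smT hQ) (F.ka hQ a) f TorP.killed
  change cup11 (mulPair τ) (F.eqP τ hQ) (F.smT hQ) (F.ka hQ a) (H1.mk 𝓛 _ f) = 0 ↔ _
  rw [h1]
  have hH := chiKer_open (𝓛 := 𝓛) (chiOf τ f) (chiOf_mul τ (F.trivT hQ) f) (chiOf_const τ f)
  exact cup_kap_eq_zero_iff (F.sm G 𝓛 hQ) F.div (chiOf τ f) (chiOf_mul τ (F.trivT hQ) f)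
    (chiOf_const τ f) t ht (F.h90 G 𝓛 hQ) (F.h90 _ _ (F.sub G 𝓛 hQ _ hH)) a

/-- existence of a non-norm -/
theorem exists_ne {f : Z1 𝓛 (TorP p M)} (hf : f ≠ 0) :
    ∃ a : H0 G M, F.cp τ hQ (F.ka hQ a) (H1.mk 𝓛 _ f) ≠ 0 := by
  obtain ⟨t, ht⟩ := exists_t τ (F.trivT hQ) hf
  have hH := chiKer_open (𝓛 := 𝓛) (chiOf τ f) (chiOf_mul τ (F.trivT hQ) f) (chiOf_const τ f)
  have := finite_quot hH
  by_contra hcon
  push Not at hcon
  have h1 : (cores0h (chiKer (chiOf τ f) (chiOf_mul τ (F.trivT hQ) f)) M).range = ⊤ := by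
    rw [eq_top_iff]
    intro a _
    exact (F.norm_iff τ hQ hf a).mp (hcon a)
  have h2 := F.norm G 𝓛 hQ (chiOf τ f) (chiOf_mul τ (F.trivT hQ) f) (chiOf_const τ f) t ht
  rw [h1, AddSubgroup.index_top] at h2
  exact (Fact.out : p.Prime).one_lt.ne h2

/-- nondegeneracy of the Hilbert pairing -/
theorem nondeg (x : H1 𝓛 (TorP p M)) (hx : ∀ y, F.cp τ hQ x y = 0) : x = 0 := by
  obtain ⟨f, rfl⟩ := H1.mk_surjective x
  by_contra h0
  have hf : f ≠ 0 := fun h => h0 (by rw [h, map_zero])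
  obtain ⟨a, ha⟩ := F.exists_ne τ hQ hf
  apply ha
  rw [F.cp_comm, hx, neg_zero]

/-- the subgroup of classes `x ∪ f` -/
def CC (f : Z1 𝓛 (TorP p M)) : AddSubgroup (H2 𝓛 (TorP p M)) :=
  ((F.cp τ hQ).flip (H1.mk 𝓛 _ f)).range

theorem mem_CC {f : Z1 𝓛 (TorP p M)} {z : H2 𝓛 (TorP p M)} :
    z ∈ F.CC τ hQ f ↔ ∃ x, F.cp τ hQ x (H1.mk 𝓛 _ f) = z := Iff.rfl

theorem card_CC {f : Z1 𝓛 (TorP p M)} (hf : f ≠ 0) : Nat.card (F.CC τ hQ f) = p := by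
  obtain ⟨t, ht⟩ := exists_t τ (F.trivT hQ) hf
  have hH := chiKer_open (𝓛 := 𝓛) (chiOf τ f) (chiOf_mul τ (F.trivT hQ) f) (chiOf_const τ f)
  have := finite_quot hH
  let φ : H0 G M →+ H2 𝓛 (TorP p M) := ((F.cp τ hQ).flip (H1.mk 𝓛 _ f)).comp (F.ka hQ)
  have h1 : φ.range = F.CC τ hQ f := by
    ext z
    constructor
    · rintro ⟨a, rfl⟩
      exact ⟨F.ka hQ a, rfl⟩
    · rintro ⟨x, rfl⟩
      obtain ⟨a, rfl⟩ := F.ka_surj hQ x
      exact ⟨a, rfl⟩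
  have h2 : φ.ker = (cores0h (chiKer (chiOf τ f) (chiOf_mul τ (F.trivT hQ) f)) M).range := by
    ext a
    exact F.norm_iff τ hQ hf a
  have h3 := F.norm G 𝓛 hQ (chiOf τ f) (chiOf_mul τ (F.trivT hQ) f) (chiOf_const τ f) t ht
  rw [← h2, AddSubgroup.index_ker] at h3
  rw [← h1]
  exact h3

theorem CC_eq_zmultiples {f : Z1 𝓛 (TorP p M)} (hf : f ≠ 0) {z : H2 𝓛 (TorP p M)}
    (hz : z ∈ F.CC τ hQ f) (hz0 : z ≠ 0) : F.CC τ hQ f = AddSubgroup.zmultiples z := by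
  symm
  have hp : p.Prime := Fact.out
  have h1 : Nat.card (F.CC τ hQ f) = p := F.card_CC τ hQ hf
  have : Finite (F.CC τ hQ f) := Nat.finite_of_card_ne_zero (by rw [h1]; exact hp.ne_zero)
  apply AddSubgroup.eq_of_le_of_card_ge
  · rw [AddSubgroup.zmultiples_le]; exact hz
  · rw [h1, Nat.card_zmultiples, addOrderOf_eq_prime (H2_killed TorP.killed z) hz0]

theorem CC_eq_of_cup {f f' : Z1 𝓛 (TorP p M)} (hf : f ≠ 0) (hf' : f' ≠ 0)
    (h : F.cp τ hQ (H1.mk 𝓛 _ f) (H1.mk 𝓛 _ f') ≠ 0) : F.CC τ hQ f = F.CC τ hQ f' := by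
  set z := F.cp τ hQ (H1.mk 𝓛 _ f) (H1.mk 𝓛 _ f') with hz
  have h1 : z ∈ F.CC τ hQ f' := (F.mem_CC τ hQ).mpr ⟨H1.mk 𝓛 _ f, rfl⟩
  have h2 : z ∈ F.CC τ hQ f := by
    refine (F.mem_CC τ hQ).mpr ⟨-H1.mk 𝓛 _ f', ?_⟩
    rw [map_neg, AddMonoidHom.neg_apply, F.cp_comm, neg_neg]
  rw [F.CC_eq_zmultiples τ hQ hf h2 h, F.CC_eq_zmultiples τ hQ hf' h1 h]

/-- all the subgroups `CC f` agree -/
theorem CC_eq {f f' : Z1 𝓛 (TorP p M)} (hf : f ≠ 0) (hf' : f' ≠ 0) :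
    F.CC τ hQ f = F.CC τ hQ f' := by
  -- find a class pairing nontrivially with both
  have key : ∃ y : H1 𝓛 (TorP p M), F.cp τ hQ y (H1.mk 𝓛 _ f) ≠ 0 ∧
      F.cp τ hQ y (H1.mk 𝓛 _ f') ≠ 0 := by
    obtain ⟨a, ha⟩ := F.exists_ne τ hQ hf
    obtain ⟨b, hb⟩ := F.exists_ne τ hQ hf'
    by_cases h1 : F.cp τ hQ (F.ka hQ a) (H1.mk 𝓛 _ f') = 0
    · by_cases h2 : F.cp τ hQ (F.ka hQ b) (H1.mk 𝓛 _ f) = 0
      · refine ⟨F.ka hQ a + F.ka hQ b, ?_, ?_⟩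
        · rw [map_add, AddMonoidHom.add_apply, h2, add_zero]; exact ha
        · rw [map_add, AddMonoidHom.add_apply, h1, zero_add]; exact hb
      · exact ⟨_, h2, hb⟩
    · exact ⟨_, ha, h1⟩
  obtain ⟨y, h1, h2⟩ := key
  obtain ⟨g, rfl⟩ := H1.mk_surjective y
  have hg : g ≠ 0 := by
    rintro rfl
    rw [map_zero, map_zero] at h1
    exact h1 rfl
  rw [← F.CC_eq_of_cup τ hQ hg hf h1, ← F.CC_eq_of_cup τ hQ hg hf' h2]

/-- there is a nonzero class in degree one -/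
theorem exists_f : ∃ f : Z1 𝓛 (TorP p M), f ≠ 0 := by
  by_contra hcon
  push Not at hcon
  have hp : p.Prime := Fact.out
  have h1 : ∀ a : H0 G M, a ∈ (nsmulAddMonoidHom (α := H0 G M) p).range := by
    intro a
    have h2 : F.ka hQ a = 0 := by
      obtain ⟨f, hf⟩ := H1.mk_surjective (F.ka hQ a)
      rw [← hf, hcon f, map_zero]
    obtain ⟨b, hb⟩ := (kap_eq_zero_iff (F.sm G 𝓛 hQ) F.div a).mp h2
    exact ⟨b, Subtype.ext hb⟩
  have h2 := F.big G 𝓛 hQ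
  have h3 : (nsmulAddMonoidHom (α := H0 G M) p).range = ⊤ := by
    rw [eq_top_iff]; intro a _; exact h1 a
  have h4 : Nat.card (H0 G M ⧸ (nsmulAddMonoidHom (α := H0 G M) p).range) = 1 := by
    change (nsmulAddMonoidHom (α := H0 G M) p).range.index = 1
    rw [h3, AddSubgroup.index_top]
  rw [h4] at h2
  exact absurd h2 (not_lt.mpr hp.one_lt.le)

end One

end LCF

end

end Fermat.Agent.CC
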