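import Fermat.Agent.CC.LCF2
set_option autoImplicit false
set_option maxHeartbeats 400000

/-!
# Abstract local class field theory modulo `p`: `H²` has order `p`, local duality
-/

namespace Fermat.Agent.CC

noncomputable section

universe u w

variable {p : ℕ} [Fact p.Prime] {M : Type w} [AddCommGroup M]
    {Q : ∀ (G : Type u) [Group G] [DistribMulAction G M] (_ : Lev G), Prop}
    (F : LCF p M Q) (τ : TorP p M ≃+ ZMod p)

namespace LCF

/-- the kernel of restriction to `ker χ_f` is `CC f` -/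
theorem mem_CC_of_res {G : Type u} [Group G] [DistribMulAction G M] {𝓛 : Lev G} (hQ : Q G 𝓛)
    {f : Z1 𝓛 (TorP p M)} (hf : f ≠ 0) (z : H2 𝓛 (TorP p M))
    (hz : resH2 𝓛 (chiKer (chiOf τ f) (chiOf_mul τ (F.trivT hQ) f)) _ z = 0) :
    z ∈ F.CC τ hQ f := by
  obtain ⟨t, ht⟩ := exists_t τ (F.trivT hQ) hf
  have hH := chiKer_open (𝓛 := 𝓛) (chiOf τ f) (chiOf_mul τ (F.trivT hQ) f) (chiOf_const τ f)
  obtain ⟨a, ha⟩ := exists_cup_kap (F.sm G 𝓛 hQ) F.div (chiOf τ f) (chiOf_mul τ (F.trivT hQ) f)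
    (chiOf_const τ f) t ht (F.h90 G 𝓛 hQ) (F.h90 _ _ (F.sub G 𝓛 hQ _ hH)) z hz
  rw [F.mem_CC τ hQ]
  refine ⟨F.ka hQ a, ?_⟩
  rw [ha]
  exact cup_mul_eq τ (F.trivT hQ) (F.eqP τ hQ) (F.smT hQ) (F.ka hQ a) f TorP.killed

/-- a class on the kernel with nonzero corestriction -/
theorem exists_cores {G : Type u} [Group G] [DistribMulAction G M] {𝓛 : Lev G} (hQ : Q G 𝓛)
    (H : Subgroup G) (hH : 𝓛.isOpen H) (hn : H.Normal) (hi : H.index = p) :
    ∃ (f' : Z1 (𝓛.sub H) (TorP p M)) (w : H2 (𝓛.sub H) (TorP p M)), f' ≠ 0 ∧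
      w ∈ F.CC τ (F.sub G 𝓛 hQ H hH) f' ∧ cores2 (TorP p M) hH w ≠ 0 := by
  obtain ⟨χ, hχ, t, hc, ht, rfl⟩ := exists_chi hH hn hi
  have := finite_quot hH
  have hp : p.Prime := Fact.out
  have hQ' := F.sub G 𝓛 hQ _ hH
  have h1 := F.norm G 𝓛 hQ χ hχ hc t ht
  -- some norm is not a p-th power
  have h2 : ∃ b : H0 (chiKer χ hχ) M, F.ka hQ (cores0 b) ≠ 0 := by
    by_contra hcon
    push Not at hcon
    have hle : (cores0h (chiKer χ hχ) M).range ≤ (nsmulAddMonoidHom (α := H0 G M) p).range := by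
      rintro _ ⟨b, rfl⟩
      obtain ⟨c, hc⟩ := (kap_eq_zero_iff (F.sm G 𝓛 hQ) F.div _).mp (hcon b)
      exact ⟨c, Subtype.ext hc⟩
    have h3 := AddSubgroup.index_dvd_of_le hle
    rw [h1] at h3
    have h4 := F.big G 𝓛 hQ
    change p < (nsmulAddMonoidHom (α := H0 G M) p).range.index at h4
    exact absurd (Nat.le_of_dvd hp.pos h3) (not_le.mpr h4)
  obtain ⟨b, hb⟩ := h2
  have h3 : ∃ y, F.cp τ hQ (F.ka hQ (cores0 b)) y ≠ 0 := by
    by_contra hcon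
    push Not at hcon
    exact hb (F.nondeg τ hQ _ hcon)
  obtain ⟨y, hy⟩ := h3
  set w := F.cp τ hQ' (F.ka hQ' b) (resH1 𝓛 (chiKer χ hχ) _ y) with hw
  have hcw : cores2 (TorP p M) hH w = F.cp τ hQ (F.ka hQ (cores0 b)) y := by
    have h4 := cores_cup_res hH (mulPair τ) (F.eqP τ hQ) (F.smT hQ) (F.smT hQ') (F.eqP τ hQ')
      (F.ka hQ' b) y
    have h5 : cores1 (TorP p M) hH (F.ka hQ' b) = F.ka hQ (cores0 b) :=
      cores1_δ0 (kumSES (F.sm G 𝓛 hQ) F.div) hH b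
    rw [h5] at h4
    exact h4
  obtain ⟨f', hf'⟩ := H1.mk_surjective (resH1 𝓛 (chiKer χ hχ) _ y)
  refine ⟨f', w, ?_, ?_, ?_⟩
  · rintro rfl
    rw [map_zero] at hf'
    rw [← hf', map_zero] at hw
    rw [hw, map_zero] at hcw
    exact hy hcw.symm
  · rw [F.mem_CC τ hQ']
    exact ⟨F.ka hQ' b, by rw [hf']⟩
  · rw [hcw]; exact hy

/-- tower argument -/
theorem tower (n : ℕ) : ∀ (G : Type u) [Group G] [DistribMulAction G M] (𝓛 : Lev G) (hQ : Q G 𝓛)
    (N : Subgroup G) (_ : 𝓛.isOpen N) (_ : N.Normal) (_ : N.index = p ^ n)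
    (x : H2 𝓛 (TorP p M)) (_ : resH2 𝓛 N _ x = 0) (f : Z1 𝓛 (TorP p M)) (_ : f ≠ 0),
    x ∈ F.CC τ hQ f := by
  induction n with
  | zero =>
    intro G _ _ 𝓛 hQ N hN hn hidx x hx f hf
    have htop : N = ⊤ := Subgroup.index_eq_one.mp (by rw [hidx, pow_zero])
    subst htop
    rw [resH2_top x hx]
    exact zero_mem _
  | succ n ih =>
    intro G _ _ 𝓛 hQ N hN hn hidx x hx f hf
    obtain ⟨H, hNH, hHn, hHi, hrel⟩ := exists_index_p N hidx
    have hH : 𝓛.isOpen H := 𝓛.mono _ _ hN hNH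
    have hQ' := F.sub G 𝓛 hQ H hH
    obtain ⟨f', w, hf', hw, hcw⟩ := F.exists_cores τ hQ H hH hHn hHi
    have h1 : resH2 𝓛 H _ x ∈ F.CC τ hQ' f' :=
      ih H (𝓛.sub H) hQ' (N.subgroupOf H) ⟨N, hN, le_rfl⟩ inferInstance hrel _
        (resH2_subgroupOf hNH x hx) f' hf'
    -- the restriction vanishes
    have h2 : resH2 𝓛 H _ x = 0 := by
      by_contra h0
      have h3 : w ∈ AddSubgroup.zmultiples (resH2 𝓛 H _ x) := by
        rw [← F.CC_eq_zmultiples τ hQ' hf' h1 h0]; exact hw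
      obtain ⟨m, hm⟩ := AddSubgroup.mem_zmultiples_iff.mp h3
      apply hcw
      rw [← hm, map_zsmul, cores2_res]
      change m • (H.index • x) = 0
      rw [hHi, H2_killed TorP.killed, smul_zero]
    obtain ⟨χ, hχ, t, hc, ht, rfl⟩ := exists_chi hH hHn hHi
    -- a cocycle with this character
    have hf'' : ∃ g : Z1 𝓛 (TorP p M), chiOf τ g = χ := by
      refine ⟨⟨fun x => τ.symm (χ x), hc.comp _, fun g h => ?_⟩, ?_⟩
      · beta_reduce
        rw [hχ, map_add, F.trivT hQ]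
      · funext x
        exact τ.apply_symm_apply _
    obtain ⟨g, hg⟩ := hf''
    subst hg
    have hg0 : g ≠ 0 := by
      rintro rfl
      have : chiOf τ (0 : Z1 𝓛 (TorP p M)) t = 0 := map_zero τ
      rw [this] at ht
      exact zero_ne_one ht
    rw [F.CC_eq τ hQ hf hg0]
    exact F.mem_CC_of_res τ hQ hg0 x h2

theorem mem_CC_all {G : Type u} [Group G] [DistribMulAction G M] {𝓛 : Lev G} (hQ : Q G 𝓛)
    {f : Z1 𝓛 (TorP p M)} (hf : f ≠ 0) (x : H2 𝓛 (TorP p M)) : x ∈ F.CC τ hQ f := by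
  have hp : p.Prime := Fact.out
  obtain ⟨N, hN, hn, hx⟩ := kill2 (F.smT hQ) x
  have := 𝓛.fin N hN
  obtain ⟨H, n, hNH, hidx, hrel⟩ := exists_sylow_level (p := p) N
  have hH : 𝓛.isOpen H := 𝓛.mono _ _ hN hNH
  have hQ' := F.sub G 𝓛 hQ H hH
  have hinj := resH2_injective (A := TorP p M) hH (p := p) TorP.killed hidx
  -- a nonzero class `z` in `CC f`
  have h1 : Nontrivial (F.CC τ hQ f) := by
    have h2 : Nat.card (F.CC τ hQ f) = p := F.card_CC τ hQ hf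
    have : Finite (F.CC τ hQ f) := Nat.finite_of_card_ne_zero (by rw [h2]; exact hp.ne_zero)
    rw [← Finite.one_lt_card_iff_nontrivial, h2]
    exact hp.one_lt
  obtain ⟨⟨z, hz⟩, hz0⟩ := _root_.exists_ne (0 : F.CC τ hQ f)
  have hz0' : z ≠ 0 := fun h => hz0 (Subtype.ext h)
  obtain ⟨y, hy⟩ := (F.mem_CC τ hQ).mp hz
  have hrz : resH2 𝓛 H _ z ≠ 0 := fun h => hz0' (hinj (by rw [h, map_zero]))
  obtain ⟨f', hf'⟩ := H1.mk_surjective (resH1 𝓛 H _ (H1.mk 𝓛 _ f))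
  have hrz2 : resH2 𝓛 H _ z = F.cp τ hQ' (resH1 𝓛 H _ y) (H1.mk _ _ f') := by
    rw [← hy, hf']
    exact cup11_natural (mulPair τ) (F.eqP τ hQ) (mulPair τ) (F.eqP τ hQ') H.subtype
      (𝓛.cont_subtype H) (AddMonoidHom.id _) (fun _ _ => rfl) (AddMonoidHom.id _) (fun _ _ => rfl)
      (AddMonoidHom.id _) (fun _ _ => rfl) (fun _ _ => rfl) (F.smT hQ) (F.smT hQ') _ _
  have hf'0 : f' ≠ 0 := by
    rintro rfl
    rw [map_zero, map_zero] at hrz2
    exact hrz hrz2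
  have hzC : resH2 𝓛 H _ z ∈ F.CC τ hQ' f' := by
    rw [F.mem_CC τ hQ']
    exact ⟨_, hrz2.symm⟩
  have hxC : resH2 𝓛 H _ x ∈ F.CC τ hQ' f' :=
    F.tower τ n H (𝓛.sub H) hQ' (N.subgroupOf H) ⟨N, hN, le_rfl⟩ inferInstance hrel _
      (resH2_subgroupOf hNH x hx) f' hf'0
  rw [F.CC_eq_zmultiples τ hQ' hf'0 hzC hrz] at hxC
  obtain ⟨m, hm⟩ := AddSubgroup.mem_zmultiples_iff.mp hxC
  rw [← map_zsmul] at hm
  rw [← hinj hm]
  exact zsmul_mem hz m

include F τ in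
/-- `H²(G, μ_p)` has order `p` -/
theorem card_H2 {G : Type u} [Group G] [DistribMulAction G M] {𝓛 : Lev G} (hQ : Q G 𝓛) :
    Nat.card (H2 𝓛 (TorP p M)) = p := by
  obtain ⟨f, hf⟩ := F.exists_f hQ
  have h2 := F.card_CC τ hQ hf
  have h1 : F.CC τ hQ f = ⊤ := by
    rw [eq_top_iff]; intro x _; exact F.mem_CC_all τ hQ hf x
  rw [h1] at h2
  exact (Nat.card_congr (AddSubgroup.topEquiv (G := H2 𝓛 (TorP p M))).toEquiv).symm.trans h2

theorem _root_.Fermat.Agent.CC.nonempty_equiv_of_card {X : Type*} [AddCommGroup X]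
    (h : Nat.card X = p) : Nonempty (X ≃+ ZMod p) := by
  have h1 : Nat.card (Multiplicative X) = p := (Nat.card_congr Multiplicative.toAdd).trans h
  have h2 : Nat.card (Multiplicative (ZMod p)) = p :=
    (Nat.card_congr Multiplicative.toAdd).trans (Nat.card_zmod p)
  exact ⟨MulEquiv.toAdditive (mulEquivOfPrimeCardEq h1 h2)⟩

include F τ in
theorem cores2_surj {G : Type u} [Group G] [DistribMulAction G M] {𝓛 : Lev G} (hQ : Q G 𝓛)
    (H : Subgroup G) (hH : 𝓛.isOpen H) (hn : H.Normal) (hi : H.index = p) :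
    Function.Surjective (cores2 (TorP p M) hH) := by
  have hp : p.Prime := Fact.out
  obtain ⟨f', w, hf', hw, hcw⟩ := F.exists_cores τ hQ H hH hn hi
  intro x
  have hc := F.card_H2 τ hQ
  obtain ⟨f, hf⟩ := F.exists_f hQ
  have h1 := F.mem_CC_all τ hQ hf (cores2 (TorP p M) hH w)
  have h2 := F.mem_CC_all τ hQ hf x
  rw [F.CC_eq_zmultiples τ hQ hf h1 hcw] at h2
  obtain ⟨m, hm⟩ := AddSubgroup.mem_zmultiples_iff.mp h2
  exact ⟨m • w, by rw [map_zsmul, hm]⟩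

/-- the predicate for `LocFam` -/
def P (_ : LCF p M Q) (G : Type u) [Group G] [inst : DistribMulAction G (TorP p M)] (𝓛 : Lev G) :
    Prop :=
  ∃ act : DistribMulAction G M, @Q G _ act 𝓛 ∧ inst = @TorP.distribMulAction p M _ G _ act

/-- the local family attached to an abstract local class field theory -/
theorem locFam : LocFam.{u, w} p (TorP p M) τ F.P where
  triv G _ inst 𝓛 h := by
    obtain ⟨act, hQ, rfl⟩ := h
    exact F.trivT hQ
  inv G _ inst 𝓛 h := by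
    obtain ⟨act, hQ, rfl⟩ := h
    exact nonempty_equiv_of_card (F.card_H2 τ hQ)
  fin G _ inst 𝓛 h := by
    obtain ⟨act, hQ, rfl⟩ := h
    exact F.finite_H1 hQ
  nondeg G _ inst 𝓛 h he sm x hx := by
    obtain ⟨act, hQ, rfl⟩ := h
    exact F.nondeg τ hQ x hx
  sub G _ inst 𝓛 h H hH := by
    obtain ⟨act, hQ, rfl⟩ := h
    exact ⟨inferInstance, F.sub G 𝓛 hQ H hH, rfl⟩
  cores G _ inst 𝓛 h H hH hn hi := by
    obtain ⟨act, hQ, rfl⟩ := h
    exact F.cores2_surj τ hQ H hH hn hi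

end LCF

end

end Fermat.Agent.CC
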