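import Fermat.Agent.CC.Basic
set_option autoImplicit false

/-!
# The long exact sequence in degrees 0, 1, 2
-/

namespace Fermat.Agent.CC

variable {G : Type*} [Group G]

/-- A short exact sequence of smooth `G`-modules. -/
structure SES (𝓛 : Lev G) (A B C : Type*) [AddCommGroup A] [AddCommGroup B] [AddCommGroup C]
    [DistribMulAction G A] [DistribMulAction G B] [DistribMulAction G C] where
  i : A →+ B
  j : B →+ C
  hi : ∀ (g : G) (a : A), i (g • a) = g • i a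
  hj : ∀ (g : G) (b : B), j (g • b) = g • j b
  inj : Function.Injective i
  surj : Function.Surjective j
  exact : ∀ b : B, j b = 0 ↔ ∃ a, i a = b
  smA : 𝓛.Smooth A
  smB : 𝓛.Smooth B
  smC : 𝓛.Smooth C

namespace SES

variable {𝓛 : Lev G} {A B C : Type*} [AddCommGroup A] [AddCommGroup B] [AddCommGroup C]
    [DistribMulAction G A] [DistribMulAction G B] [DistribMulAction G C] (E : SES 𝓛 A B C)

theorem j_i (a : A) : E.j (E.i a) = 0 := (E.exact _).mpr ⟨a, rfl⟩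

/-- set-theoretic section of `j` -/
noncomputable def sec (c : C) : B := Function.surjInv E.surj c

@[simp] theorem j_sec (c : C) : E.j (E.sec c) = c := Function.surjInv_eq E.surj c

open Classical in
/-- partial inverse of `i` -/
noncomputable def pre (b : B) : A := if h : ∃ a, E.i a = b then h.choose else 0

theorem i_pre {b : B} (h : E.j b = 0) : E.i (E.pre b) = b := by
  have h' : ∃ a, E.i a = b := (E.exact b).mp h
  rw [pre, dif_pos h']
  exact h'.choose_spec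

@[simp] theorem pre_i (a : A) : E.pre (E.i a) = a := by
  apply E.inj
  rw [E.i_pre (E.j_i a)]

/-- the cocycle attached to `b` whose image in `C` is invariant -/
noncomputable def coc0 (b : B) (hb : E.j b ∈ H0 G C) : Z1 𝓛 A :=
  ⟨fun g => E.pre (g • b - b), (E.smB.const1_smul b).comp (fun x => E.pre (x - b)), by
    have hz : ∀ g : G, E.j (g • b - b) = 0 := fun g => by rw [map_sub, E.hj, hb g, sub_self]
    intro g h
    apply E.inj
    rw [map_add, E.hi, E.i_pre (hz _), E.i_pre (hz _), E.i_pre (hz _), mul_smul, smul_sub]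
    abel⟩

theorem i_coc0 (b : B) (hb : E.j b ∈ H0 G C) (g : G) : E.i ((E.coc0 b hb).1 g) = g • b - b :=
  E.i_pre (by rw [map_sub, E.hj, hb g, sub_self])

/-- two lifts give the same class -/
theorem mk_eq_of_lift {b b' : B} (h : E.j b = E.j b') {f f' : Z1 𝓛 A}
    (hf : ∀ g, E.i (f.1 g) = g • b - b) (hf' : ∀ g, E.i (f'.1 g) = g • b' - b') :
    H1.mk 𝓛 A f = H1.mk 𝓛 A f' := by
  rw [H1.mk_eq_mk]
  have h0 : E.j (b - b') = 0 := by rw [map_sub, h, sub_self]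
  refine ⟨E.pre (b - b'), fun g => ?_⟩
  apply E.inj
  rw [map_add, map_sub, E.hi, E.i_pre h0, hf, hf', smul_sub]
  abel

/-- the connecting homomorphism `H⁰(C) → H¹(A)` -/
noncomputable def δ0 : H0 G C →+ H1 𝓛 A where
  toFun c := H1.mk 𝓛 A (E.coc0 (E.sec c) (by rw [j_sec]; exact c.2))
  map_zero' := by
    rw [H1.mk_eq_zero]
    have h0 : E.j (E.sec ((0 : H0 G C) : C)) = 0 := by rw [j_sec]; rfl
    refine ⟨E.pre (E.sec ((0 : H0 G C) : C)), fun g => ?_⟩
    apply E.inj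
    rw [E.i_coc0, map_sub, E.hi, E.i_pre h0]
  map_add' c c' := by
    rw [← map_add]
    refine E.mk_eq_of_lift (b := E.sec ((c + c' : H0 G C) : C)) (b' := E.sec c + E.sec c') ?_
      (fun g => E.i_coc0 _ _ g) (fun g => ?_)
    · rw [j_sec, map_add, j_sec, j_sec]; rfl
    · change E.i ((E.coc0 (E.sec c) _).1 g + (E.coc0 (E.sec c') _).1 g) = _
      rw [map_add, E.i_coc0, E.i_coc0, smul_add]
      abel

theorem δ0_eq {c : H0 G C} {b : B} (hb : E.j b = c) {f : Z1 𝓛 A}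
    (hf : ∀ g, E.i (f.1 g) = g • b - b) : E.δ0 c = H1.mk 𝓛 A f :=
  E.mk_eq_of_lift (by rw [j_sec, hb]) (fun g => E.i_coc0 _ _ g) hf

/-- exactness at `H⁰(C)` -/
theorem δ0_eq_zero_iff (c : H0 G C) : E.δ0 c = 0 ↔ ∃ b : H0 G B, E.j b = c := by
  constructor
  · intro h
    obtain ⟨a, ha⟩ := H1.mk_eq_zero.mp h
    refine ⟨⟨E.sec c - E.i a, fun g => ?_⟩, ?_⟩
    · have h1 := E.i_coc0 (E.sec c) (by rw [j_sec]; exact c.2) g
      rw [ha, map_sub, E.hi] at h1
      rw [smul_sub]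
      have : g • E.sec (c : C) = g • E.i a - E.i a + E.sec c := by rw [h1]; abel
      rw [this]; abel
    · change E.j (E.sec c - E.i a) = c
      rw [map_sub, j_sec, E.j_i, sub_zero]
  · rintro ⟨b, hb⟩
    rw [E.δ0_eq hb (f := 0) (fun g => ?_), map_zero]
    rw [b.2 g, sub_self]
    exact map_zero E.i

/-- exactness at `H¹(A)` -/
theorem H1_i_eq_zero_iff (x : H1 𝓛 A) : H1coef 𝓛 E.i E.hi x = 0 ↔ ∃ c, E.δ0 c = x := by
  constructor
  · obtain ⟨f, rfl⟩ := H1.mk_surjective x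
    intro h
    obtain ⟨b, hb⟩ := H1.mk_eq_zero.mp h
    have hb' : ∀ g, E.i (f.1 g) = g • b - b := hb
    have hc : ∀ g : G, g • E.j b = E.j b := by
      intro g
      have h1 := congrArg E.j (hb' g)
      rw [E.j_i, map_sub, E.hj] at h1
      exact (sub_eq_zero.mp h1.symm)
    exact ⟨⟨E.j b, hc⟩, E.δ0_eq rfl hb'⟩
  · rintro ⟨c, rfl⟩
    refine H1.mk_eq_zero.mpr ⟨E.sec c, fun g => ?_⟩
    exact E.i_coc0 (E.sec c) (by rw [j_sec]; exact c.2) g

/-- exactness at `H¹(B)` -/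
theorem H1_j_eq_zero_iff (y : H1 𝓛 B) :
    H1coef 𝓛 E.j E.hj y = 0 ↔ ∃ x, H1coef 𝓛 E.i E.hi x = y := by
  constructor
  · obtain ⟨f, rfl⟩ := H1.mk_surjective y
    intro h
    obtain ⟨c, hc⟩ := H1.mk_eq_zero.mp h
    have hc' : ∀ g, E.j (f.1 g) = g • c - c := hc
    have hz : ∀ g, E.j (f.1 g - (g • E.sec c - E.sec c)) = 0 := by
      intro g
      rw [map_sub, map_sub, E.hj, j_sec, hc', sub_self]
    have hcst : 𝓛.Const1 (fun g => f.1 g - (g • E.sec c - E.sec c)) :=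
      f.2.1.comp₂ (E.smB.const1_smul (E.sec c)) (fun x y => x - (y - E.sec c))
    refine ⟨H1.mk 𝓛 A ⟨fun g => E.pre (f.1 g - (g • E.sec c - E.sec c)), hcst.comp _, ?_⟩, ?_⟩
    · intro g h
      apply E.inj
      rw [map_add, E.hi, E.i_pre (hz _), E.i_pre (hz _), E.i_pre (hz _), f.2.2, mul_smul]
      simp only [smul_sub]
      abel
    · change H1.mk 𝓛 B _ = H1.mk 𝓛 B f
      rw [H1.mk_eq_mk]
      refine ⟨-E.sec c, fun g => ?_⟩
      change E.i (E.pre (f.1 g - (g • E.sec c - E.sec c))) = _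
      rw [E.i_pre (hz g), smul_neg]
      abel
  · rintro ⟨x, rfl⟩
    obtain ⟨f, rfl⟩ := H1.mk_surjective x
    refine H1.mk_eq_zero.mpr ⟨0, fun g => ?_⟩
    change E.j (E.i (f.1 g)) = _
    rw [E.j_i]; simp

/-- the two-cocycle attached to a lift of a one-cocycle -/
noncomputable def coc1 (φ : G → B) (hφ : 𝓛.Const1 φ) (hz : ∀ g h, E.j (d1 φ g h) = 0) : Z2 𝓛 A :=
  ⟨fun g h => E.pre (d1 φ g h), (const2_d1 E.smB hφ).comp _, by
    intro g h k
    apply E.inj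
    rw [map_add, map_add, E.hi, E.i_pre (hz _ _), E.i_pre (hz _ _), E.i_pre (hz _ _),
      E.i_pre (hz _ _)]
    exact isCocycle2_d1 φ g h k⟩

theorem i_coc1 (φ : G → B) (hφ : 𝓛.Const1 φ) (hz : ∀ g h, E.j (d1 φ g h) = 0) (g h : G) :
    E.i ((E.coc1 φ hφ hz).1 g h) = d1 φ g h := E.i_pre (hz g h)

theorem j_d1_lift (x : Z1 𝓛 C) (φ : G → B) (hφ : ∀ g, E.j (φ g) = x.1 g) (g h : G) :
    E.j (d1 φ g h) = 0 := by
  rw [d1, map_add, map_sub, E.hj, hφ, hφ, hφ, x.2.2]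
  abel

/-- two level lifts of cohomologous cocycles give the same class -/
theorem mk2_eq_of_lift {x x' : Z1 𝓛 C} (hxx : H1.mk 𝓛 C x = H1.mk 𝓛 C x') {φ φ' : G → B}
    (hφc : 𝓛.Const1 φ) (hφc' : 𝓛.Const1 φ')
    (hφ : ∀ g, E.j (φ g) = x.1 g) (hφ' : ∀ g, E.j (φ' g) = x'.1 g) {f f' : Z2 𝓛 A}
    (hf : ∀ g h, E.i (f.1 g h) = d1 φ g h) (hf' : ∀ g h, E.i (f'.1 g h) = d1 φ' g h) :
    H2.mk 𝓛 A f = H2.mk 𝓛 A f' := by
  obtain ⟨c, hc⟩ := H1.mk_eq_mk.mp hxx
  rw [H2.mk_eq_mk]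
  set ψ : G → B := fun g => φ g - φ' g - (g • E.sec c - E.sec c) with hψ
  have hz : ∀ g, E.j (ψ g) = 0 := by
    intro g
    simp only [hψ]
    rw [map_sub, map_sub, map_sub, E.hj, j_sec, hφ, hφ', hc]
    abel
  have hψc : 𝓛.Const1 ψ :=
    (hφc.comp₂ hφc' (fun a b => a - b)).comp₂ (E.smB.const1_smul (E.sec c))
      (fun a b => a - (b - E.sec c))
  refine ⟨fun g => E.pre (ψ g), hψc.comp _, fun g h => ?_⟩
  apply E.inj
  rw [map_add, hf, hf']
  simp only [d1, map_add, map_sub, E.hi]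
  rw [E.i_pre (hz _), E.i_pre (hz _), E.i_pre (hz _)]
  simp only [hψ, smul_sub, mul_smul]
  abel

/-- the connecting homomorphism on cocycles -/
noncomputable def δ1aux (x : Z1 𝓛 C) : H2 𝓛 A :=
  H2.mk 𝓛 A (E.coc1 (fun g => E.sec (x.1 g)) (x.2.1.comp _)
    (E.j_d1_lift x _ fun g => E.j_sec _))

/-- the connecting homomorphism `H¹(C) → H²(A)` -/
noncomputable def δ1 : H1 𝓛 C →+ H2 𝓛 A :=
  QuotientAddGroup.lift (B1 𝓛 C)
    { toFun := E.δ1aux
      map_zero' := by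
        have : H2.mk 𝓛 A (E.coc1 (fun g => E.sec ((0 : Z1 𝓛 C).1 g)) ((0 : Z1 𝓛 C).2.1.comp _)
          (E.j_d1_lift 0 _ fun g => E.j_sec _)) = H2.mk 𝓛 A 0 := by
          refine E.mk2_eq_of_lift (x := 0) (x' := 0) rfl ((0 : Z1 𝓛 C).2.1.comp _)
            (𝓛.const1_const 0) (fun g => E.j_sec _) (fun g => map_zero E.j)
            (fun g h => E.i_coc1 _ _ _ g h) (fun g h => ?_)
          simp only [d1, smul_zero, sub_zero, add_zero]
          exact map_zero E.i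
        rw [δ1aux, this, map_zero]
      map_add' := fun x y => by
        rw [δ1aux, δ1aux, δ1aux, ← map_add]
        refine E.mk2_eq_of_lift (x := x + y) (x' := x + y) rfl ((x + y).2.1.comp _)
          (φ' := fun g => E.sec (x.1 g) + E.sec (y.1 g))
          (x.2.1.comp₂ y.2.1 (fun a b => E.sec a + E.sec b)) (fun g => E.j_sec _)
          (fun g => by rw [map_add, j_sec, j_sec]; rfl)
          (fun g h => E.i_coc1 _ _ _ g h) (fun g h => ?_)
        change E.i ((E.coc1 _ _ _).1 g h + (E.coc1 _ _ _).1 g h) = _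
        rw [map_add, E.i_coc1, E.i_coc1]
        simp only [d1, smul_add]
        abel }
    (by
      intro x hx
      rw [AddMonoidHom.mem_ker]
      change E.δ1aux x = 0
      have hx' : H1.mk 𝓛 C x = H1.mk 𝓛 C 0 := by
        rw [map_zero]; exact H1.mk_eq_zero.mpr hx
      have : E.δ1aux x = H2.mk 𝓛 A 0 := by
        refine E.mk2_eq_of_lift hx' (x.2.1.comp _)
            (𝓛.const1_const 0) (fun g => E.j_sec _) (fun g => map_zero E.j)
            (fun g h => E.i_coc1 _ _ _ g h) (fun g h => ?_)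
        simp only [d1, smul_zero, sub_zero, add_zero]
        exact map_zero E.i
      rw [this, map_zero])

theorem δ1_eq {x : Z1 𝓛 C} {φ : G → B} (hφc : 𝓛.Const1 φ) (hφ : ∀ g, E.j (φ g) = x.1 g)
    {f : Z2 𝓛 A} (hf : ∀ g h, E.i (f.1 g h) = d1 φ g h) :
    E.δ1 (H1.mk 𝓛 C x) = H2.mk 𝓛 A f :=
  E.mk2_eq_of_lift rfl (x.2.1.comp _) hφc (fun g => E.j_sec _) hφ
    (fun g h => E.i_coc1 _ _ _ g h) hf

/-- exactness at `H¹(C)` -/
theorem δ1_eq_zero_iff (z : H1 𝓛 C) : E.δ1 z = 0 ↔ ∃ y, H1coef 𝓛 E.j E.hj y = z := by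
  constructor
  · obtain ⟨x, rfl⟩ := H1.mk_surjective z
    intro h
    obtain ⟨φ, hφ, hφ'⟩ := H2.mk_eq_zero.mp (show H2.mk 𝓛 A (E.coc1 (fun g => E.sec (x.1 g))
      (x.2.1.comp _) (E.j_d1_lift x _ fun g => E.j_sec _)) = 0 from h)
    have h1 : ∀ g h, d1 (fun g => E.sec (x.1 g)) g h = E.i (d1 φ g h) := by
      intro g h
      rw [← hφ', E.i_coc1]
    refine ⟨H1.mk 𝓛 B ⟨fun g => E.sec (x.1 g) - E.i (φ g),
      x.2.1.comp₂ hφ (fun a b => E.sec a - E.i b), ?_⟩, ?_⟩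
    · intro g h
      have h2 := h1 g h
      simp only [d1, map_add, map_sub, E.hi] at h2
      rw [smul_sub]
      have h3 : E.sec (x.1 (g * h)) = g • E.sec (x.1 h) + E.sec (x.1 g) -
          (g • E.i (φ h) - E.i (φ (g * h)) + E.i (φ g)) := by rw [← h2]; abel
      beta_reduce
      rw [h3]; abel
    · change H1.mk 𝓛 C _ = H1.mk 𝓛 C x
      congr 1
      apply Subtype.ext
      funext g
      change E.j (E.sec (x.1 g) - E.i (φ g)) = x.1 g
      rw [map_sub, j_sec, E.j_i, sub_zero]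
  · rintro ⟨y, rfl⟩
    obtain ⟨f, rfl⟩ := H1.mk_surjective y
    have := E.δ1_eq (x := Z1map (MonoidHom.id G) 𝓛.cont_id E.j E.hj f) (φ := f.1) f.2.1
      (fun g => rfl) (f := 0) (fun g h => ?_)
    · rw [map_zero] at this
      exact this
    · change E.i 0 = _
      rw [map_zero, d1, f.2.2]
      abel

/-- exactness at `H²(A)` -/
theorem H2_i_eq_zero_iff (x : H2 𝓛 A) : H2coef 𝓛 E.i E.hi x = 0 ↔ ∃ z, E.δ1 z = x := by
  constructor
  · obtain ⟨f, rfl⟩ := H2.mk_surjective x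
    intro h
    obtain ⟨φ, hφ, hφ'⟩ := H2.mk_eq_zero.mp h
    have hφ'' : ∀ g h, E.i (f.1 g h) = d1 φ g h := hφ'
    have hc : ∀ g h, E.j (φ (g * h)) = E.j (φ g) + g • E.j (φ h) := by
      intro g h
      have h1 := congrArg E.j (hφ'' g h)
      rw [E.j_i, d1, map_add, map_sub, E.hj] at h1
      have h2 : E.j (φ (g * h)) = (g • E.j (φ h) - E.j (φ (g * h)) + E.j (φ g)) +
        E.j (φ (g * h)) := by rw [← h1, zero_add]
      rw [h2]; abel
    exact ⟨H1.mk 𝓛 C ⟨fun g => E.j (φ g), hφ.comp _, hc⟩,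
      E.δ1_eq (x := ⟨fun g => E.j (φ g), hφ.comp _, hc⟩) hφ (fun g => rfl) hφ''⟩
  · rintro ⟨z, rfl⟩
    obtain ⟨x, rfl⟩ := H1.mk_surjective z
    refine H2.mk_eq_zero.mpr ⟨fun g => E.sec (x.1 g), x.2.1.comp _, fun g h => ?_⟩
    exact E.i_coc1 _ _ _ g h

/-- exactness at `H²(B)` -/
theorem H2_j_eq_zero_iff (y : H2 𝓛 B) :
    H2coef 𝓛 E.j E.hj y = 0 ↔ ∃ x, H2coef 𝓛 E.i E.hi x = y := by
  constructor
  · obtain ⟨f, rfl⟩ := H2.mk_surjective y
    intro h
    obtain ⟨φ, hφ, hφ'⟩ := H2.mk_eq_zero.mp h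
    have hφ'' : ∀ g h, E.j (f.1 g h) = d1 φ g h := hφ'
    set ψ : G → B := fun g => E.sec (φ g) with hψ
    have hψc : 𝓛.Const1 ψ := hφ.comp _
    have hz : ∀ g h, E.j (f.1 g h - d1 ψ g h) = 0 := by
      intro g h
      rw [map_sub, hφ'']
      simp only [d1, map_add, map_sub, E.hj, hψ, j_sec]
      abel
    refine ⟨H2.mk 𝓛 A ⟨fun g h => E.pre (f.1 g h - d1 ψ g h),
      (f.2.1.comp₂ (const2_d1 E.smB hψc) (fun a b => E.pre (a - b))), ?_⟩, ?_⟩
    · intro g h k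
      apply E.inj
      rw [map_add, map_add, E.hi, E.i_pre (hz _ _), E.i_pre (hz _ _), E.i_pre (hz _ _),
        E.i_pre (hz _ _), smul_sub]
      have e1 := f.2.2 g h k
      have e2 := isCocycle2_d1 ψ g h k
      calc g • f.1 h k - g • d1 ψ h k + (f.1 g (h * k) - d1 ψ g (h * k))
          = (g • f.1 h k + f.1 g (h * k)) - (g • d1 ψ h k + d1 ψ g (h * k)) := by abel
        _ = (f.1 (g * h) k + f.1 g h) - (d1 ψ (g * h) k + d1 ψ g h) := by rw [e1, e2]
        _ = _ := by abel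
    · change H2.mk 𝓛 B _ = H2.mk 𝓛 B f
      rw [H2.mk_eq_mk]
      refine ⟨fun g => -ψ g, hψc.comp _, fun g h => ?_⟩
      change E.i (E.pre (f.1 g h - d1 ψ g h)) = _
      rw [E.i_pre (hz g h)]
      simp only [d1, smul_neg]
      abel
  · rintro ⟨x, rfl⟩
    obtain ⟨f, rfl⟩ := H2.mk_surjective x
    refine H2.mk_eq_zero.mpr ⟨0, 𝓛.const1_const 0, fun g h => ?_⟩
    change E.j (E.i (f.1 g h)) = _
    rw [E.j_i]; simp [d1]

end SES

section Naturality

variable {G' : Type*} [Group G'] {𝓛 : Lev G} {𝓛' : Lev G'}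
  {A B C : Type*} [AddCommGroup A] [AddCommGroup B] [AddCommGroup C]
  [DistribMulAction G A] [DistribMulAction G B] [DistribMulAction G C] (E : SES 𝓛 A B C)
  {A' B' C' : Type*} [AddCommGroup A'] [AddCommGroup B'] [AddCommGroup C']
  [DistribMulAction G' A'] [DistribMulAction G' B'] [DistribMulAction G' C'] (E' : SES 𝓛' A' B' C')
  (φ : G' →* G) (hφ : Lev.Cont φ 𝓛' 𝓛)
  (a : A →+ A') (ha : Compat φ a) (b : B →+ B') (hb : Compat φ b) (c : C →+ C') (hc : Compat φ c)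
  (hab : ∀ x, b (E.i x) = E'.i (a x)) (hbc : ∀ x, c (E.j x) = E'.j (b x))

include hb hab hbc in
/-- naturality of `δ0` -/
theorem SES.δ0_natural (x : H0 G C) (hx : c x ∈ H0 G' C') :
    H1map φ hφ a ha (E.δ0 x) = E'.δ0 ⟨c x, hx⟩ := by
  symm
  refine E'.δ0_eq (b := b (E.sec x)) ?_ (f := Z1map φ hφ a ha (E.coc0 (E.sec x)
    (by rw [SES.j_sec]; exact x.2))) (fun g => ?_)
  · rw [← hbc, SES.j_sec]
  · change E'.i (a ((E.coc0 (E.sec x) _).1 (φ g))) = _
    rw [← hab, E.i_coc0, map_sub, hb]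

include hb hab hbc in
/-- naturality of `δ1` -/
theorem SES.δ1_natural (x : H1 𝓛 C) :
    H2map φ hφ a ha (E.δ1 x) = E'.δ1 (H1map φ hφ c hc x) := by
  obtain ⟨f, rfl⟩ := H1.mk_surjective x
  symm
  refine E'.δ1_eq (x := Z1map φ hφ c hc f) (φ := fun g => b (E.sec (f.1 (φ g)))) ?_ ?_
    (f := Z2map φ hφ a ha (E.coc1 (fun g => E.sec (f.1 g)) (f.2.1.comp _)
    (E.j_d1_lift f _ fun g => E.j_sec _))) (fun g h => ?_)
  · exact ((f.2.1.comp _).precomp hφ).comp b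
  · intro g
    rw [← hbc, SES.j_sec]
    rfl
  · change E'.i (a ((E.coc1 _ _ _).1 (φ g) (φ h))) = _
    rw [← hab, E.i_coc1]
    simp only [d1, map_add, map_sub, map_mul]
    rw [hb]

end Naturality

end Fermat.Agent.CC
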