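import Fermat.Agent.CC.Iface2
import Fermat.Agent.CC.LCF3
set_option autoImplicit false
set_option maxHeartbeats 400000

/-!
# Groups acting on `Qb` through a subgroup of the Galois group
-/

noncomputable section

namespace Fermat.Agent.CC

open Fermat.Agent.LF (DK ZK mem_of_fixed)

/-- `G` acts on `Qb` through an injection to `GQ` with image `U`, with the induced levels -/
structure Act (U : Subgroup GQ) (G : Type) [Group G] [MulSemiringAction G Qb] (𝓛 : Lev G) (φ : G →* GQ) :
    Prop where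
  inj : Function.Injective φ
  act : ∀ (g : G) (x : Qb), g • x = φ g x
  range : φ.range = U
  levEq : 𝓛 = lev.comap φ

theorem Act.self (U : Subgroup GQ) : Act U U (lev.sub U) U.subtype where
  inj := U.subtype_injective
  act _ _ := rfl
  range := U.range_subtype
  levEq := rfl

theorem lev_comap_comap {G G' : Type} [Group G] [Group G'] (𝓛 : Lev G') (φ : G →* G')
    (H : Subgroup G) : (𝓛.comap φ).sub H = 𝓛.comap (φ.comp H.subtype) := by
  have h : ∀ V : Subgroup H, ((𝓛.comap φ).sub H).isOpen V ↔ (𝓛.comap (φ.comp H.subtype)).isOpen V := by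
    intro V
    constructor
    · rintro ⟨W, ⟨W', hW', hWW⟩, hWV⟩
      exact ⟨W', hW', fun x hx => hWV (hWW hx)⟩
    · rintro ⟨W', hW', hWV⟩
      exact ⟨W'.comap φ, ⟨W', hW', le_rfl⟩, hWV⟩
  have h2 : ∀ 𝓜 𝓝 : Lev H, 𝓜.isOpen = 𝓝.isOpen → 𝓜 = 𝓝 := by
    intro 𝓜 𝓝 h
    cases 𝓜; cases 𝓝
    congr
  exact h2 _ _ (funext fun V => propext (h V))

theorem Act.sub {U : Subgroup GQ} {G : Type} [Group G] [MulSemiringAction G Qb] {𝓛 : Lev G}
    {φ : G →* GQ} (h : Act U G 𝓛 φ) (H : Subgroup G) : Act (H.map φ) H (𝓛.sub H) (φ.comp H.subtype) where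
  inj := h.inj.comp H.subtype_injective
  act g x := h.act g x
  range := by rw [MonoidHom.range_comp, H.range_subtype]
  levEq := by rw [h.levEq]; exact lev_comap_comap lev φ H

/-- a level subgroup is the fixing subgroup of a number field -/
theorem exists_field_of_open {X : Subgroup GQ} (hX : lev.isOpen X) :
    ∃ K : IntermediateField ℚ Qb, FiniteDimensional ℚ K ∧ K.fixingSubgroup = X := by
  have hg := H51.isGalois_Qbar
  obtain ⟨L, hL, hLX⟩ := hX
  have ho : IsOpen (X : Set GQ) := by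
    have h1 : IsOpen (L.fixingSubgroup : Set GQ) := L.fixingSubgroup_isOpen
    exact Subgroup.isOpen_mono hLX h1
  have hc : IsClosed (X : Set GQ) := Subgroup.isClosed_of_isOpen X ho
  have hfix := InfiniteGalois.fixingSubgroup_fixedField (⟨X, hc⟩ : ClosedSubgroup GQ)
  refine ⟨IntermediateField.fixedField X, ?_, hfix⟩
  have h2 : IntermediateField.fixedField X ≤ L := by
    intro x hx
    rw [IntermediateField.mem_fixedField_iff] at hx
    exact mem_of_fixed L fun σ hσ => hx σ (hLX hσ)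
  exact FiniteDimensional.of_injective (IntermediateField.inclusion h2).toLinearMap
    (IntermediateField.inclusion h2).injective

theorem exists_normal_level {U : Subgroup GQ} (hU : lev.isOpen U) :
    ∃ L : IntermediateField ℚ Qb, FiniteDimensional ℚ L ∧ L.fixingSubgroup ≤ U ∧
      L.fixingSubgroup.Normal := by
  obtain ⟨V, hVn, ⟨F, hF, hFV⟩, hVU⟩ := lev.nor U hU
  obtain ⟨K, hK, hKV⟩ := exists_field_of_open (X := V) ⟨F, hF, hFV⟩
  exact ⟨K, hK, by rw [hKV]; exact hVU, by rw [hKV]; exact hVn⟩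

section

variable {U : Subgroup GQ} {G : Type} [Group G] [MulSemiringAction G Qb] {𝓛 : Lev G}
    {φ : G →* GQ} (h : Act U G 𝓛 φ)

include h

theorem Act.faith : Faith 𝓛 Qb := by
  intro W hW
  rw [h.levEq] at hW
  obtain ⟨W', hW', hWW⟩ := hW
  obtain ⟨L, hL, hLW, hLn⟩ := exists_normal_level hW'
  refine ⟨L.fixingSubgroup.comap φ, (Subgroup.comap_mono hLW).trans hWW, ?_, hLn.comap _, fun g hg => ?_⟩
  · rw [h.levEq]
    exact ⟨L.fixingSubgroup, ⟨L, hL, le_rfl⟩, le_rfl⟩
  · change φ g ∈ L.fixingSubgroup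
    rw [IntermediateField.mem_fixingSubgroup_iff]
    intro x hx
    rw [← h.act]
    refine hg x fun v hv => ?_
    rw [h.act]
    have hv' : φ v ∈ L.fixingSubgroup := hv
    rw [IntermediateField.mem_fixingSubgroup_iff] at hv'
    exact hv' x hx

theorem Act.smooth : 𝓛.Smooth (UL Qb) := by
  intro a
  have hint : IsIntegral ℚ a.val := Algebra.IsIntegral.isIntegral a.val
  haveI : FiniteDimensional ℚ (IntermediateField.adjoin ℚ {a.val}) :=
    IntermediateField.adjoin.finiteDimensional hint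
  refine ⟨(IntermediateField.adjoin ℚ {a.val}).fixingSubgroup.comap φ, ?_, fun s hs => UL.ext ?_⟩
  · rw [h.levEq]
    exact ⟨_, ⟨_, inferInstance, le_rfl⟩, le_rfl⟩
  · rw [UL.val_smul, h.act]
    have hs' : φ s ∈ (IntermediateField.adjoin ℚ {a.val}).fixingSubgroup := hs
    rw [IntermediateField.mem_fixingSubgroup_iff] at hs'
    exact hs' _ (IntermediateField.mem_adjoin_simple_self ℚ _)

theorem Act.h90 (z : H1 𝓛 (UL Qb)) : z = 0 := hilbert90 h.faith z

theorem Act.mem_H0 {a : UL Qb} : a ∈ H0 G (UL Qb) ↔ ∀ σ ∈ U, σ a.val = a.val := by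
  rw [CC.mem_H0]
  constructor
  · rintro ha σ hσ
    rw [← h.range] at hσ
    obtain ⟨g, rfl⟩ := hσ
    have := congrArg UL.val (ha g)
    rwa [UL.val_smul, h.act] at this
  · intro ha g
    apply UL.ext
    rw [UL.val_smul, h.act]
    exact ha _ (by rw [← h.range]; exact ⟨g, rfl⟩)

/-- heredity of local groups -/
theorem Act.exists_DK {A : ValuationSubring Qb} {K : IntermediateField ℚ Qb}
    (hU : U = DK A K) (hK : FiniteDimensional ℚ K) (H : Subgroup G) (hH : 𝓛.isOpen H) :
    ∃ K' : IntermediateField ℚ Qb, FiniteDimensional ℚ K' ∧ K ≤ K' ∧ H.map φ = DK A K' := by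
  have hH' := hH
  rw [h.levEq] at hH'
  obtain ⟨W, hW, hWH⟩ := hH'
  have hWK : lev.isOpen (W ⊓ K.fixingSubgroup) := lev.inf _ _ hW ⟨K, hK, le_rfl⟩
  obtain ⟨L, hL, hLW, hLn⟩ := exists_normal_level hWK
  have hsup : lev.isOpen (H.map φ ⊔ L.fixingSubgroup) := ⟨L, hL, le_sup_right⟩
  obtain ⟨K', hK', hKf⟩ := exists_field_of_open hsup
  have hHU : H.map φ ≤ DK A K := by
    rw [← hU, ← h.range]; exact Subgroup.map_le_range φ H
  refine ⟨K', hK', ?_, ?_⟩
  · have h1 : K'.fixingSubgroup ≤ K.fixingSubgroup := by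
      rw [hKf]
      exact sup_le (hHU.trans inf_le_right) (hLW.trans inf_le_right)
    intro x hx
    refine mem_of_fixed K' fun σ hσ => ?_
    have := h1 hσ
    rw [IntermediateField.mem_fixingSubgroup_iff] at this
    exact this x hx
  · apply le_antisymm
    · refine le_inf (hHU.trans inf_le_left) ?_
      rw [hKf]; exact le_sup_left
    · rintro σ ⟨hσA, hσK⟩
      rw [hKf] at hσK
      obtain ⟨τ, hτ, l, hl, rfl⟩ := Subgroup.mem_sup_of_normal_right.mp hσK
      have hτU := hHU hτ
      have hlA : l ∈ A.decompositionSubgroup ℚ := by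
        have : l = τ⁻¹ * (τ * l) := by group
        rw [this]
        exact mul_mem (inv_mem hτU.1) hσA
      have hlU : l ∈ U := by
        rw [hU]; exact ⟨hlA, (hLW hl).2⟩
      rw [← h.range] at hlU
      obtain ⟨g, rfl⟩ := hlU
      exact mul_mem hτ ⟨g, hWH (hLW hl).1, rfl⟩

end

end Fermat.Agent.CC
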