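import Fermat.Agent.CC.Iface3
import Fermat.Agent.CFT.Iface2Pf
set_option autoImplicit false
set_option maxHeartbeats 400000

/-!
# Local groups: vanishing of unramified classes, non-triviality of `H²`, local duality
-/

noncomputable section

namespace Fermat.Agent.CC

open Fermat.Agent.LF (DK ZK mem_ZK mem_of_fixed DK_mono DK_le_fix)
open Fermat.Agent.TW (NVal Bl Bs)
open Fermat.Agent.L00.Unr (nrm)
open scoped Pointwise

section Unr

variable {p : ℕ} [Fact p.Prime] {A : ValuationSubring Qb} {q : ℕ} (hq : q.Prime)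
  (hA : A.LiesOverPrime q) {M : Type} [AddCommGroup M] [DistribMulAction GQ M]

include hA in
/-- levels unramified outside `S` contain the inertia groups outside `S` -/
theorem inertia_le_of_levS {S : Finset Nat.Primes} (hqS : (⟨q, hq⟩ : Nat.Primes) ∉ S)
    {U : Subgroup GQ} (hU : (levS S).isOpen U) : A.inertiaSubgroupIn ℚ ≤ U := by
  obtain ⟨F, hF, hFU⟩ := hU
  exact (hF.2 ⟨q, hq⟩ hqS A hA).trans hFU

include hA in
/-- classes unramified at `A` vanish locally -/
theorem res2S_unr [Finite M] (kM : ∀ m : M, p • m = 0) {S : Finset Nat.Primes}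
    (hqS : (⟨q, hq⟩ : Nat.Primes) ∉ S) {K : IntermediateField ℚ Qb}
    (hK : FiniteDimensional ℚ K) (smM : (levS S).Smooth M)
    (x : H2 ((levS S).sub K.fixingSubgroup) M) : res2S M S A K x = 0 := by
  have hp : p.Prime := Fact.out
  obtain ⟨f, rfl⟩ := H2.mk_surjective x
  obtain ⟨φ, P⟩ := exists_procyc hq hA K
  let f' : Z2 (lev.sub (DK A K)) M :=
    Z2map (Subgroup.inclusion DK_le_fix) (cont_DK_S S A K) (AddMonoidHom.id M) (fun _ _ => rfl) f
  have hf' : res2S M S A K (H2.mk _ M f) = H2.mk _ M f' := rfl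
  obtain ⟨U, ⟨V, hV, hVU⟩, hU⟩ := f.2.1
  obtain ⟨U', hU', hM⟩ := smM.finite (Set.toFinite (Set.univ : Set M))
  have hin : ∀ i : DK A K, i ∈ (IK A K).subgroupOf (DK A K) → (i : GQ) ∈ A.inertiaSubgroupIn ℚ :=
    fun i hi => (Subgroup.mem_subgroupOf.mp hi).1
  have hM' : ∀ m : M, ∃ U, (lev.sub (DK A K)).isOpen U ∧ ∀ s ∈ U, s • m = m := fun m =>
    ⟨U'.comap (DK A K).subtype, ⟨U', lev_isOpen_of_levS hU', le_rfl⟩,
      fun s hs => hM m trivial _ hs⟩
  obtain ⟨ψ, hψ, -, hd⟩ := P.ur2 hp.pos kM hM'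
    (fun i hi m => hM m trivial _ (inertia_le_of_levS hq hA hqS hU' (hin i hi))) f'
    (fun g h i hi j hj => by
      have h1 := hU (Subgroup.inclusion DK_le_fix g) (Subgroup.inclusion DK_le_fix h)
        (Subgroup.inclusion DK_le_fix i)
        (hVU (inertia_le_of_levS hq hA hqS hV (hin i hi) :
          (Subgroup.inclusion DK_le_fix i : K.fixingSubgroup) ∈ V.comap K.fixingSubgroup.subtype))
        (Subgroup.inclusion DK_le_fix j)
        (hVU (inertia_le_of_levS hq hA hqS hV (hin j hj) :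
          (Subgroup.inclusion DK_le_fix j : K.fixingSubgroup) ∈ V.comap K.fixingSubgroup.subtype))
      exact h1)
  rw [hf', H2.mk_eq_zero]
  exact ⟨ψ, hψ, hd⟩

end Unr

section LCFT

variable {p : ℕ} [Fact p.Prime] (hp2 : p ≠ 2) {A : ValuationSubring Qb} {q : ℕ} (hq : q.Prime)
  (hA : A.LiesOverPrime q)

include hp2 hq hA in
/-- unconditional local class field theory modulo `p` -/
theorem lcf : LCF.{0, 0} p (UL Qb) (QLoc p A) :=
  locLCF hq hA (CFT.normIndexLe Fact.out hp2) (CFT.normIndexGe Fact.out hp2)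

/-- the local family -/
theorem lfam : LocFam.{0, 0} p (Mu p) (tauT p) (lcf hp2 hq hA).P :=
  (lcf hp2 hq hA).locFam (tauT p)

/-- the chosen field generated by the `p`-th roots of unity -/
theorem fd_adjoin_zeta (p : ℕ) [Fact p.Prime] :
    FiniteDimensional ℚ (IntermediateField.adjoin ℚ {zetaT p}) :=
  IntermediateField.adjoin.finiteDimensional (Algebra.IsIntegral.isIntegral _)

theorem smul_mu_iff {G : Type} [Group G] [MulSemiringAction G Qb] (g : G) :
    (∀ t : Mu p, g • t = t) ↔ g • zetaT p = zetaT p := by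
  constructor
  · intro h
    have h3 := congrArg (fun t => (TorP.incl p (UL Qb) t).val) (h ((tauT p).symm 1))
    beta_reduce at h3
    rw [TorP.incl_smul, UL.val_smul] at h3
    exact h3
  · intro h t
    have h1 : t = (tauT p t).val • (tauT p).symm 1 := by
      apply (tauT p).injective
      rw [map_nsmul, AddEquiv.apply_symm_apply]
      simp
    have h2 : g • (tauT p).symm 1 = (tauT p).symm 1 := by
      apply TorP.incl_injective
      apply UL.ext
      exact h
    rw [h1]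
    have h3 : g • ((tauT p t).val • (tauT p).symm 1) = (tauT p t).val • (g • (tauT p).symm 1) :=
      map_nsmul (DistribSMul.toAddMonoidHom (Mu p) g) _ _
    rw [h3, h2]

/-- fixing `ζ` -/
theorem mem_fix_zeta {σ : GQ} :
    σ ∈ (IntermediateField.adjoin ℚ {zetaT p}).fixingSubgroup ↔ σ (zetaT p) = zetaT p := by
  rw [IntermediateField.mem_fixingSubgroup_iff]
  constructor
  · intro h
    exact h _ (IntermediateField.mem_adjoin_simple_self ℚ _)
  · intro h x hx
    have h2 : IntermediateField.adjoin ℚ {zetaT p} ≤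
        IntermediateField.fixedField (Subgroup.zpowers σ) := by
      rw [IntermediateField.adjoin_simple_le_iff, IntermediateField.mem_fixedField_iff]
      intro f hf
      obtain ⟨k, rfl⟩ := Subgroup.mem_zpowers_iff.mp hf
      have h3 : σ ∈ MulAction.stabilizer GQ (zetaT p) := h
      exact (MulAction.stabilizer GQ (zetaT p)).zpow_mem h3 k
    have h4 := h2 hx
    rw [IntermediateField.mem_fixedField_iff] at h4
    exact h4 _ (Subgroup.mem_zpowers _)

omit [Fact p.Prime] in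
theorem smT (H : Subgroup GQ) : (lev.sub H).Smooth (Mu p) :=
  TorP.smooth (Act.self H).smooth

theorem hsubK (K : IntermediateField ℚ Qb) [hK : FiniteDimensional ℚ K] (H : Subgroup (DK A K))
    (hH : (lev.sub (DK A K)).isOpen H) (htriv : ∀ h ∈ H, ∀ t : Mu p, h • t = t) :
    (lcf hp2 hq hA).P H ((lev.sub (DK A K)).sub H) := by
  have hHE : H.map (DK A K).subtype ≤ (IntermediateField.adjoin ℚ {zetaT p}).fixingSubgroup := by
    rintro _ ⟨s, hs, rfl⟩
    rw [mem_fix_zeta]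
    exact (smul_mu_iff (p := p) s).mp (htriv s hs)
  obtain ⟨K', hK', hKK, hEK, hHK⟩ := (Act.self (DK A K)).exists_DK' rfl hK H hH _
    (fd_adjoin_zeta p) hHE
  refine ⟨inferInstance, ⟨inferInstance, K', (DK A K).subtype.comp H.subtype, hK',
    ⟨zetaT p, hEK (IntermediateField.mem_adjoin_simple_self ℚ _), zetaT_prim p⟩, ?_, rfl⟩, rfl⟩
  rw [← hHK]
  exact (Act.self (DK A K)).sub H

/-- the symbol of a uniformizer with an unramified character of order `p` does not vanish -/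
theorem kc_unif_ne_zero (K : IntermediateField ℚ Qb) {w : Qb → ℝ}
    (hw : NVal A q w) {ϖ : Qb} (hϖ : IsUnif A K w ϖ) (χ : DK A K → ZMod p)
    (hχ : ∀ g h, χ (g * h) = χ g + χ h) (hc : (lev.sub (DK A K)).Const1 χ)
    (hI : ∀ g : DK A K, (g : GQ) ∈ IK A K → χ g = 0) (t : DK A K) (ht : χ t = 1)
    (sm : (lev.sub (DK A K)).Smooth (UL Qb)) (hdiv : ∀ m : UL Qb, ∃ m', p • m' = m)
    (a : H0 (DK A K) (UL Qb)) (ha : a.1.val = ϖ) : kc sm hdiv χ hχ hc a ≠ 0 := by
  have hp : p.Prime := Fact.out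
  intro h0
  have hfin : Finite (DK A K ⧸ chiKer χ hχ) := by
    have := (lev.sub (DK A K)).fin _ (chiKer_open χ hχ hc)
    infer_instance
  rw [kc_eq_zero_iff sm hdiv χ hχ hc t ht (Act.self (DK A K)).h90
    ((Act.self (DK A K)).sub _).h90] at h0
  obtain ⟨b, hb⟩ := h0
  obtain ⟨n, hn⟩ := unr_val (Act.self (DK A K)) χ hχ t ht hw hϖ hI b
  have h1 : (cores0 (G := DK A K) b : UL Qb).val = ϖ := by
    rw [← ha, ← hb]; rfl
  rw [h1] at hn
  have h2 : ((p * n : ℤ) : ℝ) = 1 := by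
    have h3 : (((p * n : ℤ) : ℝ) - 1) * w ϖ = 0 := by rw [sub_mul, ← hn]; ring
    rcases mul_eq_zero.mp h3 with h4 | h4
    · linarith
    · exact absurd h4 hϖ.2.2.1.ne'
  have h5 : (p : ℤ) * n = 1 := by exact_mod_cast h2
  have h6 : (p : ℤ) ∣ 1 := ⟨n, h5.symm⟩
  have h7 : p ∣ 1 := by exact_mod_cast h6
  exact hp.one_lt.ne' (Nat.dvd_one.mp h7)

theorem IsUnif.mem_H0 {K : IntermediateField ℚ Qb} {w : Qb → ℝ} {ϖ : Qb} (hϖ : IsUnif A K w ϖ) :
    UL.mk ϖ hϖ.2.1 ∈ H0 (DK A K) (UL Qb) := by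
  rw [(Act.self (DK A K)).mem_H0]
  intro σ hσ
  exact (IntermediateField.mem_fixingSubgroup_iff K σ).mp hσ.2 ϖ hϖ.1

include hp2 hq hA in
theorem nontrivial_H2 (K : IntermediateField ℚ Qb) [hK : FiniteDimensional ℚ K] :
    Nontrivial (H2 (lev.sub (DK A K)) (Mu p)) := by
  have hp : p.Prime := Fact.out
  obtain ⟨w, hw⟩ := TW.exists_NVal hq hA
  obtain ⟨ϖ, hϖ⟩ := exists_isUnif hq hA hw K
  obtain ⟨φ, P⟩ := exists_procyc hq hA K
  obtain ⟨χ, hχ, hc, hI, h1⟩ := P.chr p hp.pos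
  exact ⟨⟨_, 0, kc_unif_ne_zero K hw hϖ χ hχ hc
    (fun g hg => hI g (Subgroup.mem_subgroupOf.mpr hg)) φ h1 (Act.self (DK A K)).smooth (ULdiv p)
    ⟨UL.mk ϖ hϖ.2.1, hϖ.mem_H0⟩ rfl⟩⟩

include hp2 hq hA in
/-- `H²(D_A ∩ G_K, μ_p) ≃ ZMod p` -/
theorem exists_inv (K : IntermediateField ℚ Qb) [hK : FiniteDimensional ℚ K] :
    Nonempty (H2 (lev.sub (DK A K)) (Mu p) ≃+ ZMod p) :=
  (lfam hp2 hq hA).exists_inv (smT _) (fun H hH ht => hsubK hp2 hq hA K H hH ht)
    (nontrivial_H2 hp2 hq hA K)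

include hp2 hq hA in
/-- **local duality** for `D_A ∩ G_K` -/
theorem ldK (K : IntermediateField ℚ Qb) [hK : FiniteDimensional ℚ K] {B C : Type}
    [AddCommGroup B] [AddCommGroup C] [DistribMulAction (DK A K) B]
    [DistribMulAction (DK A K) C] [Finite B] [Finite C] (e : B →+ C →+ Mu p)
    (he : EqPair (DK A K) e) (smB : (lev.sub (DK A K)).Smooth B)
    (smC : (lev.sub (DK A K)).Smooth C) (kB : ∀ b : B, p • b = 0) (kC : ∀ c : C, p • c = 0)
    (hl : ∀ b, (∀ c, e b c = 0) → b = 0) (hr : ∀ c, (∀ b, e b c = 0) → c = 0) :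
    LD (lev.sub (DK A K)) e he smC :=
  (lfam hp2 hq hA).ld (smT _) (fun H hH ht => hsubK hp2 hq hA K H hH ht)
    (nontrivial_H2 hp2 hq hA K) e he smB smC kB kC hl hr

end LCFT

end Fermat.Agent.CC
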