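import Fermat.Agent.CC.LocInv2
set_option autoImplicit false
set_option maxHeartbeats 400000

/-!
# Restriction to a non-split extension of degree `p`
-/

noncomputable section

namespace Fermat.Agent.CC

open Fermat.Agent.LF (DK ZK mem_ZK mem_of_fixed DK_mono DK_le_fix)
open Fermat.Agent.TW (NVal Bl Bs)
open Fermat.Agent.L00.Unr (nrm)
open scoped Pointwise

variable {p : ℕ} [Fact p.Prime] (hp2 : p ≠ 2) {A : ValuationSubring Qb} {q : ℕ} (hq : q.Prime)
  (hA : A.LiesOverPrime q)

theorem P_self (K : IntermediateField ℚ Qb) (hK : FiniteDimensional ℚ K) (hζ : zetaT p ∈ K) :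
    (lcf hp2 hq hA).P (DK A K) (lev.sub (DK A K)) :=
  ⟨inferInstance, ⟨inferInstance, K, (DK A K).subtype, hK, ⟨zetaT p, hζ, zetaT_prim p⟩,
    Act.self _, rfl⟩, rfl⟩

include hp2 hq hA in
/-- restriction to a normal subgroup of index `p` is zero -/
theorem res_index_p (K : IntermediateField ℚ Qb) (hK : FiniteDimensional ℚ K) (hζ : zetaT p ∈ K)
    (H : Subgroup (DK A K)) (hH : (lev.sub (DK A K)).isOpen H) (hn : H.Normal) (hi : H.index = p)
    (x : H2 (lev.sub (DK A K)) (Mu p)) : resH2 (lev.sub (DK A K)) H (Mu p) x = 0 := by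
  have F := lfam hp2 hq hA
  have hP := P_self hp2 hq hA K hK hζ
  have hs := F.cores _ _ hP H hH hn hi
  have hP' := F.sub _ _ hP H hH
  obtain ⟨ι⟩ := F.inv _ _ hP
  obtain ⟨ι'⟩ := F.inv _ _ hP'
  have hinj : Function.Injective (cores2 (Mu p) hH) := by
    refine injective_of_prime ι' _ fun h0 => ?_
    obtain ⟨y, hy⟩ := hs (ι.symm 1)
    rw [h0] at hy
    have h1 : ι.symm 1 = 0 := hy.symm
    rw [EmbeddingLike.map_eq_zero_iff] at h1
    exact one_ne_zero h1
  apply hinj
  rw [map_zero, cores2_res hH x, show Nat.card (DK A K ⧸ H) = p from hi]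
  exact H2_killed TorP.killed x

/-- relative index of a normal subgroup of prime index -/
theorem relIndex_eq_of_not_le {N M D : Subgroup GQ} (hn : (N.subgroupOf M).Normal)
    (hidx : N.relIndex M = p) (hDM : D ≤ M) (hD : ¬ D ≤ N) : N.relIndex D = p := by
  have hp : p.Prime := Fact.out
  have h1 : (N.subgroupOf M).relIndex (D.subgroupOf M) ∣ (N.subgroupOf M).index :=
    Subgroup.relIndex_dvd_index_of_normal _ _
  rw [Subgroup.relIndex_subgroupOf hDM] at h1
  have h2 : (N.subgroupOf M).index = p := hidx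
  rw [h2] at h1
  rcases (Nat.dvd_prime hp).mp h1 with h3 | h3
  · exact absurd (Subgroup.relIndex_eq_one.mp h3) hD
  · exact h3

include hp2 hq hA in
/-- **restriction of local classes to a non-split extension of degree `p` vanishes** -/
theorem res_nonsplit {K F : IntermediateField ℚ Qb} (hC : CycExt p K F)
    (hns : ¬ DK A K ≤ F.fixingSubgroup) (x : H2 (lev.sub (DK A K)) (Mu p)) :
    H2map (Subgroup.inclusion (DK_mono hC.le)) (lev.cont_inclusion (DK_mono (A := A) hC.le))
      (AddMonoidHom.id (Mu p)) (fun _ _ => rfl) x = 0 := by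
  have hp : p.Prime := Fact.out
  have := hC.fK
  have := hC.fF
  have := fd_adjoin_zeta p
  set E := IntermediateField.adjoin ℚ {zetaT p} with hE
  set K' := K ⊔ E with hK'
  have hKf' : FiniteDimensional ℚ K' := inferInstance
  have hζK' : zetaT p ∈ K' :=
    (le_sup_right : E ≤ K') (IntermediateField.mem_adjoin_simple_self ℚ _)
  -- an element of `D(A,K')` acting nontrivially on `F`
  have hns' : ¬ DK A K' ≤ F.fixingSubgroup := by
    intro hle
    obtain ⟨g, hg, hgF⟩ := Set.not_subset.mp hns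
    have hgK : g ∈ K.fixingSubgroup := hg.2
    apply hgF
    -- `g ^ (p - 1)` fixes `ζ`
    have h1 : g ^ (p - 1) ∈ DK A K' := by
      refine ⟨pow_mem hg.1 _, ?_⟩
      change g ^ (p - 1) ∈ (K ⊔ E).fixingSubgroup
      rw [IntermediateField.fixingSubgroup_sup]
      refine ⟨pow_mem hgK _, ?_⟩
      change g ^ (p - 1) ∈ E.fixingSubgroup
      rw [hE, mem_fix_zeta]
      have hζ := zetaT_prim p
      have h2 : ∃ k : ℕ, g (zetaT p) = zetaT p ^ k := by
        obtain ⟨i, -, hi⟩ := hζ.eq_pow_of_pow_eq_one (ξ := g (zetaT p)) (by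
          rw [← map_pow, hζ.pow_eq_one, map_one])
        exact ⟨i, hi.symm⟩
      obtain ⟨k, hk⟩ := h2
      have h3 : ∀ n : ℕ, (g ^ n) (zetaT p) = zetaT p ^ (k ^ n) := by
        intro n
        induction n with
        | zero => simp
        | succ n ih =>
          rw [pow_succ', AlgEquiv.mul_apply, ih, map_pow, hk, ← pow_mul, ← pow_succ']
      rw [h3]
      have hkp : ¬ p ∣ k := by
        rintro ⟨m, rfl⟩
        rw [pow_mul, hζ.pow_eq_one, one_pow] at hk
        have h4 : zetaT p = 1 := g.injective (by rw [hk, map_one])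
        exact hζ.ne_one hp.one_lt h4
      have h5 : k ^ (p - 1) ≡ 1 [MOD p] := by
        have h6 := Nat.ModEq.pow_totient ((Nat.Prime.coprime_iff_not_dvd hp).mpr hkp).symm
        rwa [Nat.totient_prime hp] at h6
      have h7 : zetaT p ^ (k ^ (p - 1)) = zetaT p ^ 1 := by
        rw [← Nat.div_add_mod (k ^ (p - 1)) p, pow_add, pow_mul, hζ.pow_eq_one, one_pow, one_mul, h5,
          Nat.mod_eq_of_lt hp.one_lt]
      rw [h7, pow_one]
    have h2 : g ^ (p - 1) ∈ F.fixingSubgroup := hle h1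
    have h3 : g ^ p ∈ F.fixingSubgroup := by
      have hN := hC.nor
      have h4 := (F.fixingSubgroup.subgroupOf K.fixingSubgroup).pow_index_mem ⟨g, hgK⟩
      have h5 : (F.fixingSubgroup.subgroupOf K.fixingSubgroup).index = p := hC.idx
      rw [h5] at h4
      exact Subgroup.mem_subgroupOf.mp h4
    have h6 : g = g ^ p * (g ^ (p - 1))⁻¹ := by
      rw [eq_mul_inv_iff_mul_eq, ← pow_succ', Nat.sub_add_cancel hp.one_lt.le]
    rw [h6]
    exact mul_mem h3 (inv_mem h2)
  have hKK : DK A K' ≤ DK A K := DK_mono le_sup_left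
  -- the index `p` subgroup of `D(A,K')`
  set H' : Subgroup (DK A K') := F.fixingSubgroup.subgroupOf (DK A K') with hH'
  have hH'o : (lev.sub (DK A K')).isOpen H' := ⟨F.fixingSubgroup, ⟨F, hC.fF, le_rfl⟩, le_rfl⟩
  have hDK : DK A K' ≤ K.fixingSubgroup := hKK.trans DK_le_fix
  have hH'n : H'.Normal := normal_subgroupOf_of_conj fun m hm n hn => by
    have h1 := hC.nor.conj_mem ⟨n, (IntermediateField.fixingSubgroup_antitone hC.le) hn⟩
      (Subgroup.mem_subgroupOf.mpr hn) ⟨m, hDK hm⟩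
    exact Subgroup.mem_subgroupOf.mp h1
  have hH'i : H'.index = p := relIndex_eq_of_not_le hC.nor hC.idx hDK hns'
  have hz := res_index_p hp2 hq hA K' hKf' hζK' H' hH'o hH'n hH'i
    (H2map (Subgroup.inclusion hKK) (lev.cont_inclusion hKK) (AddMonoidHom.id (Mu p))
      (fun _ _ => rfl) x)
  -- a subgroup of `D(A,F)` of index prime to `p` fixing `ζ`
  obtain ⟨H, hHo, hcop, hHζ⟩ := (Act.self (DK A F)).exists_cop p
  apply resH2_injective hHo (p := p) TorP.killed hcop
  rw [map_zero]
  have hmem : ∀ s : H, (s : DK A F).1 ∈ DK A K' := by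
    intro s
    refine ⟨(s : DK A F).2.1, ?_⟩
    change (s : DK A F).1 ∈ (K ⊔ E).fixingSubgroup
    rw [IntermediateField.fixingSubgroup_sup]
    refine ⟨(IntermediateField.fixingSubgroup_antitone hC.le) (s : DK A F).2.2, ?_⟩
    change (s : DK A F).1 ∈ E.fixingSubgroup
    rw [hE, mem_fix_zeta]
    exact hHζ s s.2
  let ψ : H →* H' :=
    { toFun := fun s => ⟨⟨(s : DK A F).1, hmem s⟩, Subgroup.mem_subgroupOf.mpr (s : DK A F).2.2⟩
      map_one' := rfl
      map_mul' := fun _ _ => rfl }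
  have hψ : Lev.Cont ψ ((lev.sub (DK A F)).sub H) ((lev.sub (DK A K')).sub H') := by
    rintro U ⟨V, ⟨W, hW, hWV⟩, hVU⟩
    exact ⟨W.comap (DK A F).subtype, ⟨W, hW, le_rfl⟩, fun s hs => hVU (hWV hs)⟩
  have h9 := congrArg (H2map ψ hψ (AddMonoidHom.id (Mu p)) (fun _ _ => rfl)) hz
  rw [map_zero] at h9
  rw [← h9]
  obtain ⟨f, rfl⟩ := H2.mk_surjective x
  rfl

end Fermat.Agent.CC
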