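import Fermat.Agent.CC.Procyc
import Fermat.Agent.CC.LocLCF
import Fermat.Agent.L00.LKum6
set_option autoImplicit false
set_option maxHeartbeats 400000

/-!
# Unramified theory of `D_A ∩ G_K`
-/

noncomputable section

namespace Fermat.Agent.CC

open Fermat.Agent.LF (DK ZK mem_ZK mem_of_fixed)
open Fermat.Agent.TW (NVal Bl Bs)
open Fermat.Agent.L00.Unr (nrm)
open scoped Pointwise

variable {A : ValuationSubring Qb} {q : ℕ} {K : IntermediateField ℚ Qb}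

theorem inertia_le_dec (A : ValuationSubring Qb) :
    A.inertiaSubgroupIn ℚ ≤ A.decompositionSubgroup ℚ := by
  intro g hg
  obtain ⟨hg', -⟩ := (H05.mem_inertiaSubgroupIn_iff A g).mp hg
  exact hg'

theorem IK_le_DK (A : ValuationSubring Qb) (K : IntermediateField ℚ Qb) : IK A K ≤ DK A K :=
  inf_le_inf_right _ (inertia_le_dec A)

theorem inertia_conj_mem {g σ : GQ} (hg : g ∈ A.decompositionSubgroup ℚ)
    (hσ : σ ∈ A.inertiaSubgroupIn ℚ) : g * σ * g⁻¹ ∈ A.inertiaSubgroupIn ℚ := by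
  have h1 : g⁻¹ • A = A := (A.decompositionSubgroup ℚ).inv_mem hg
  have h2 := H09.inertia_conj (A := A) (g := g⁻¹) (σ := σ) (by rw [h1]; exact hσ)
  rwa [inv_inv] at h2

theorem IK_normal (A : ValuationSubring Qb) (K : IntermediateField ℚ Qb) :
    ((IK A K).subgroupOf (DK A K)).Normal :=
  normal_subgroupOf_of_conj fun m hm n hn => by
    refine ⟨inertia_conj_mem hm.1 hn.1, ?_⟩
    have h1 : m ∈ K.fixingSubgroup := hm.2
    have h2 : n ∈ K.fixingSubgroup := hn.2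
    exact K.fixingSubgroup.mul_mem (K.fixingSubgroup.mul_mem h1 h2) (K.fixingSubgroup.inv_mem h1)

/-- `D_A ∩ G_K` modulo inertia is procyclic -/
theorem procyc (hq : q.Prime) (hA : A.LiesOverPrime q) [FiniteDimensional ℚ K] {φ : GQ}
    (hφK : φ ∈ K.fixingSubgroup) (hφ : A.IsFrobeniusAt φ (nrm A K)) :
    Procyc (lev.sub (DK A K)) ((IK A K).subgroupOf (DK A K)) ⟨φ, hφ.1, hφK⟩ where
  nor := IK_normal A K
  gen := by
    rintro N ⟨W, hW, hWN⟩ ⟨g, hg⟩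
    have hg' := H51.isGalois_Qbar
    obtain ⟨E, hE, hEW⟩ := hW
    obtain ⟨F, hFfin, hFn, hKF, -⟩ := L00.Unr.exists_normal_containing (K ⊔ E) (0 : Qb)
    obtain ⟨n, τ, hτ, u, ⟨hu1, hu2⟩, h⟩ := L00.Unr.generation hq hA K F hFn
      (le_sup_left.trans hKF) hφK hφ hg.1 hg.2
    refine ⟨n, ⟨τ, IK_le_DK A K hτ⟩, Subgroup.mem_subgroupOf.mpr hτ, hWN ?_⟩
    change (φ ^ n * τ)⁻¹ * g ∈ W
    rw [h, inv_mul_cancel_left]
    exact hEW ((IntermediateField.fixingSubgroup_antitone (le_sup_right.trans hKF)) hu2)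
  chr := by
    intro m hm
    have hg' := H51.isGalois_Qbar
    obtain ⟨χ₀, h1, ⟨F, hF, h2⟩, h3⟩ := L00.Unr.exists_unram_char hq hA K hm
    let χ : DK A K →* Multiplicative (ZMod m) := χ₀
    refine ⟨fun g => Multiplicative.toAdd (χ g), fun g h => ?_, ?_, fun g hg => ?_, ?_⟩
    · change Multiplicative.toAdd (χ (g * h)) = _
      rw [map_mul]
      exact toAdd_mul _ _
    · refine ⟨F.fixingSubgroup.comap (DK A K).subtype, ⟨F.fixingSubgroup, ⟨F, hF, le_rfl⟩, le_rfl⟩,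
        fun g s hs => ?_⟩
      change Multiplicative.toAdd (χ (g * s)) = Multiplicative.toAdd (χ g)
      rw [map_mul, show χ s = 1 from h2 s hs, mul_one]
    · change Multiplicative.toAdd (χ g) = 0
      rw [show χ g = 1 from h1 g (Subgroup.mem_subgroupOf.mp hg).1]
      rfl
    · change Multiplicative.toAdd (χ ⟨φ, hφ.1, hφK⟩) = 1
      rw [show χ ⟨φ, hφ.1, hφK⟩ = Multiplicative.ofAdd 1 from h3 ⟨φ, hφ.1, hφK⟩ hφ]
      rfl

theorem exists_procyc (hq : q.Prime) (hA : A.LiesOverPrime q) (K : IntermediateField ℚ Qb)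
    [FiniteDimensional ℚ K] :
    ∃ φ, Procyc (lev.sub (DK A K)) ((IK A K).subgroupOf (DK A K)) φ := by
  have hg := H51.isGalois_Qbar
  obtain ⟨φ, hφK, hφ⟩ := L00.Unr.exists_frob hq hA K
  exact ⟨_, procyc hq hA hφK hφ⟩

/-- uniformizers -/
theorem exists_isUnif (hq : q.Prime) (hA : A.LiesOverPrime q) {w : Qb → ℝ} (hw : NVal A q w)
    (K : IntermediateField ℚ Qb) [FiniteDimensional ℚ K] : ∃ ϖ, IsUnif A K w ϖ := by
  have hg := H51.isGalois_Qbar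
  obtain ⟨π, hπK, hπ0, hπ1, hπ⟩ := L00.Unr.exists_uniformizer hq hA K
  refine ⟨π, hπK, hπ0, (hw.log.pos_iff hπ0).1 hπ1, fun b hb hbf => ?_⟩
  obtain ⟨n, hn⟩ := hπ b hb hbf
  refine ⟨n, ?_⟩
  rw [← hw.w_zpow hπ0 n]
  refine (hw.log.eq_iff hb (zpow_ne_zero n hπ0)).1 ?_
  rw [hn, map_zpow₀]

theorem IsUnif.val_eq {w : Qb → ℝ} (hw : NVal A q w) {ϖ : Qb} (h : IsUnif A K w ϖ) (b : Qb)
    (hb : b ≠ 0) (hbf : ∀ g ∈ IK A K, g b = b) : ∃ n : ℤ, A.valuation b = A.valuation ϖ ^ n := by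
  obtain ⟨n, hn⟩ := h.2.2.2 b hb hbf
  refine ⟨n, ?_⟩
  rw [← map_zpow₀]
  refine (hw.log.eq_iff hb (zpow_ne_zero n h.2.1)).2 ?_
  rw [hw.w_zpow h.2.1, hn]

/-- tame characters -/
theorem tame (hq : q.Prime) {p : ℕ} (hp : p.Prime) (hpq : p ≠ q) (hA : A.LiesOverPrime q)
    {w : Qb → ℝ} (hw : NVal A q w) [FiniteDimensional ℚ K] {ϖ : Qb} (hϖ : IsUnif A K w ϖ)
    {π : Qb} (hπ : π ^ p = ϖ) (f : IK A K → ZMod p) (hf : ∀ g h, f (g * h) = f g + f h)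
    (hc : (lev.sub (IK A K)).Const1 f) (g : IK A K) (hg : (g : GQ) π = π) : f g = 0 := by
  classical
  have hgal := H51.isGalois_Qbar
  have : NeZero p := ⟨hp.ne_zero⟩
  have : NeZero (p : Qb) := ⟨Nat.cast_ne_zero.mpr hp.ne_zero⟩
  obtain ⟨ζ, hζ⟩ := HasEnoughRootsOfUnity.exists_primitiveRoot Qb p
  have hndvd : ¬ q ∣ p := fun hd => hpq ((Nat.prime_dvd_prime_iff_eq hq hp).mp hd).symm
  let f' : GQ → Qb := fun σ => if h : σ ∈ IK A K then ζ ^ (f ⟨σ, h⟩).val else 1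
  have hf' : ∀ σ (h : σ ∈ IK A K), f' σ = ζ ^ (f ⟨σ, h⟩).val := fun σ h => dif_pos h
  obtain ⟨U, ⟨W, ⟨E, hE, hEW⟩, hWU⟩, hfU⟩ := hc
  have hone : f 1 = 0 := by
    have := hf 1 1
    rw [one_mul, left_eq_add] at this
    exact this
  obtain ⟨n, hn⟩ := L00.Unr.inertia_char_eq hq hA K hndvd ϖ hϖ.1 hϖ.2.1
    (fun z hz hzf => hϖ.val_eq hw z hz hzf) π hπ f'
    (fun σ hσ => by rw [hf' σ hσ, ← pow_mul, mul_comm, pow_mul, hζ.pow_eq_one, one_pow])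
    (fun σ hσ τ hτ => by
      rw [hf' σ hσ, hf' τ hτ, hf' (σ * τ) (mul_mem hσ hτ), ← pow_add]
      have h1 : f ⟨σ * τ, mul_mem hσ hτ⟩ = f ⟨σ, hσ⟩ + f ⟨τ, hτ⟩ := hf ⟨σ, hσ⟩ ⟨τ, hτ⟩
      rw [h1, ZMod.val_add, ← pow_eq_pow_mod _ hζ.pow_eq_one])
    E.fixingSubgroup E.fixingSubgroup_isOpen
    (fun σ hσ hσE => by
      rw [hf' σ hσ]
      have h1 := hfU 1 ⟨σ, hσ⟩ (hWU (hEW hσE))
      rw [one_mul, hone] at h1
      rw [h1, ZMod.val_zero, pow_zero])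
  have h1 := hn g g.2
  have hπ0 : π ≠ 0 := by
    rintro rfl
    rw [zero_pow hp.ne_zero] at hπ
    exact hϖ.2.1 hπ.symm
  rw [hf' _ g.2, hg, div_self hπ0, one_zpow, hζ.pow_eq_one_iff_dvd] at h1
  have h2 : (f ⟨g, g.2⟩).val = 0 := Nat.eq_zero_of_dvd_of_lt h1 (ZMod.val_lt _)
  exact (ZMod.val_eq_zero _).mp h2

end Fermat.Agent.CC
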