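import Fermat.Agent.CC.GSub
import Fermat.Agent.CC.Cup
import Fermat.Agent.CC.Cores
import Fermat.Agent.CC.FpLin
set_option autoImplicit false
set_option maxHeartbeats 400000

/-!
# Local duality: the abstract statement and the extension step
-/

namespace Fermat.Agent.CC

noncomputable section

variable {G : Type*} [Group G] {𝓛 : Lev G} {p : ℕ}

section Killed

variable {A : Type*} [AddCommGroup A] [DistribMulAction G A]

theorem H1_killed (hA : ∀ a : A, p • a = 0) (x : H1 𝓛 A) : p • x = 0 := by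
  obtain ⟨f, rfl⟩ := H1.mk_surjective x
  rw [← map_nsmul]
  have : p • f = 0 := by
    apply Subtype.ext; funext g
    exact hA _
  rw [this, map_zero]

theorem H2_killed (hA : ∀ a : A, p • a = 0) (x : H2 𝓛 A) : p • x = 0 := by
  obtain ⟨f, rfl⟩ := H2.mk_surjective x
  rw [← map_nsmul]
  have : p • f = 0 := by
    apply Subtype.ext; funext g h
    exact hA _
  rw [this, map_zero]

theorem H0_killed (hA : ∀ a : A, p • a = 0) (x : H0 G A) : p • x = 0 :=
  Subtype.ext (hA _)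

end Killed

section Cup0

variable {A B C : Type*} [AddCommGroup A] [AddCommGroup B] [AddCommGroup C]
  [DistribMulAction G A] [DistribMulAction G B] [DistribMulAction G C]
  (e : A →+ B →+ C) (he : EqPair G e)

/-- `cup02` as a bi-additive map -/
def cup02h : H0 G A →+ H2 𝓛 B →+ H2 𝓛 C where
  toFun a := cup02 e he a
  map_zero' := by
    ext y
    obtain ⟨y, rfl⟩ := H2.mk_surjective y
    refine H2.mk_eq_zero.mpr ⟨0, 𝓛.const1_const 0, fun g h => ?_⟩
    change e (0 : A) (y.1 g h) = d1 0 g h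
    simp [d1]
  map_add' a a' := by
    ext y
    obtain ⟨y, rfl⟩ := H2.mk_surjective y
    change H2.mk 𝓛 C _ = H2.mk 𝓛 C _ + H2.mk 𝓛 C _
    rw [← map_add]
    congr 1
    apply Subtype.ext
    funext g h
    change e ((a : A) + a') (y.1 g h) = e a (y.1 g h) + e a' (y.1 g h)
    rw [map_add]; rfl

@[simp] theorem cup02h_apply (a : H0 G A) (y : H2 𝓛 B) :
    cup02h (𝓛 := 𝓛) e he a y = cup02 e he a y := rfl

theorem cup20_eq (b : H0 G B) (x : H2 𝓛 A) : cup20 e he b x = cup02 e.flip he.flip b x := rfl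

end Cup0

/-- **Local duality** for a pairing `e : A × B → T`. -/
structure LD (𝓛 : Lev G) {A B T : Type*} [AddCommGroup A] [AddCommGroup B] [AddCommGroup T]
    [DistribMulAction G A] [DistribMulAction G B] [DistribMulAction G T]
    (e : A →+ B →+ T) (he : EqPair G e) (smB : 𝓛.Smooth B) : Prop where
  fA1 : Finite (H1 𝓛 A)
  fA2 : Finite (H2 𝓛 A)
  fB1 : Finite (H1 𝓛 B)
  fB2 : Finite (H2 𝓛 B)
  a0 : ∀ a : H0 G A, (∀ y : H2 𝓛 B, cup02 e he a y = 0) → a = 0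
  b2 : ∀ y : H2 𝓛 B, (∀ a : H0 G A, cup02 e he a y = 0) → y = 0
  a1 : ∀ x : H1 𝓛 A, (∀ y : H1 𝓛 B, cup11 e he smB x y = 0) → x = 0
  b1 : ∀ y : H1 𝓛 B, (∀ x : H1 𝓛 A, cup11 e he smB x y = 0) → y = 0
  a2 : ∀ x : H2 𝓛 A, (∀ b : H0 G B, cup20 e he b x = 0) → x = 0
  b0 : ∀ b : H0 G B, (∀ x : H2 𝓛 A, cup20 e he b x = 0) → b = 0

section

variable {A B T : Type*} [AddCommGroup A] [AddCommGroup B] [AddCommGroup T]
    [DistribMulAction G A] [DistribMulAction G B] [DistribMulAction G T]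
    {e : A →+ B →+ T} {he : EqPair G e} {smB : 𝓛.Smooth B}

theorem LD.flip (smA : 𝓛.Smooth A) (h : LD 𝓛 e he smB) : LD 𝓛 e.flip he.flip smA where
  fA1 := h.fB1
  fA2 := h.fB2
  fB1 := h.fA1
  fB2 := h.fA2
  a0 := h.b0
  b2 := h.a2
  a1 x hx := h.b1 x fun y => by
    have := hx y
    rw [cup11_flip e he smA smB, neg_eq_zero] at this
    exact this
  b1 y hy := h.a1 y fun x => by
    have := hy x
    rw [cup11_flip e he smA smB, neg_eq_zero] at this
    exact this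
  a2 := h.b2
  b0 := h.a0

/-- perfectness, degrees (0,2): every functional on `H²(B)` comes from `H⁰(A)` -/
theorem LD.repr02 [Fact p.Prime] [Finite A] (hA : ∀ a : A, p • a = 0) (hB : ∀ b : B, p • b = 0)
    (inv : H2 𝓛 T ≃+ ZMod p) (h : LD 𝓛 e he smB) (Λ : H2 𝓛 B →+ ZMod p) :
    ∃ a : H0 G A, ∀ y, inv (cup02 e he a y) = Λ y := by
  have := h.fB2
  have : Finite (H0 G A) := inferInstance
  have key := fpT_perfect inv (p := p) (H0_killed hA) (H2_killed hB) (cup02h (𝓛 := 𝓛) e he)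
    (fun x hx => h.a0 x hx) (fun y hy => h.b2 y hy)
  exact key.2.1 Λ

/-- perfectness, degrees (1,1) -/
theorem LD.repr11 [Fact p.Prime] (hA : ∀ a : A, p • a = 0) (hB : ∀ b : B, p • b = 0)
    (inv : H2 𝓛 T ≃+ ZMod p) (h : LD 𝓛 e he smB) (Λ : H1 𝓛 B →+ ZMod p) :
    ∃ x : H1 𝓛 A, ∀ y, inv (cup11 e he smB x y) = Λ y := by
  have := h.fA1
  have := h.fB1
  have key := fpT_perfect inv (p := p) (H1_killed hA) (H1_killed hB) (cup11 e he smB)
    (fun x hx => h.a1 x hx) (fun y hy => h.b1 y hy)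
  exact key.2.1 Λ

theorem LD.card02 [Fact p.Prime] [Finite A] (hA : ∀ a : A, p • a = 0) (hB : ∀ b : B, p • b = 0)
    (inv : H2 𝓛 T ≃+ ZMod p) (h : LD 𝓛 e he smB) : Nat.card (H0 G A) = Nat.card (H2 𝓛 B) := by
  have := h.fB2
  have : Finite (H0 G A) := inferInstance
  have key := fpT_perfect inv (p := p) (H0_killed hA) (H2_killed hB) (cup02h (𝓛 := 𝓛) e he)
    (fun x hx => h.a0 x hx) (fun y hy => h.b2 y hy)
  exact key.2.2

theorem LD.card11 [Fact p.Prime] (hA : ∀ a : A, p • a = 0) (hB : ∀ b : B, p • b = 0)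
    (inv : H2 𝓛 T ≃+ ZMod p) (h : LD 𝓛 e he smB) : Nat.card (H1 𝓛 A) = Nat.card (H1 𝓛 B) := by
  have := h.fA1
  have := h.fB1
  have key := fpT_perfect inv (p := p) (H1_killed hA) (H1_killed hB) (cup11 e he smB)
    (fun x hx => h.a1 x hx) (fun y hy => h.b1 y hy)
  exact key.2.2

end

theorem finite_of_exact {X Y Z : Type*} [AddCommGroup X] [AddCommGroup Y] [AddCommGroup Z]
    (f : X →+ Y) (g : Y →+ Z) (h : ∀ y, g y = 0 → ∃ x, f x = y) [Finite X] [Finite Z] :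
    Finite Y := by
  classical
  let s : Z → Y := fun z => if hz : ∃ y, g y = z then hz.choose else 0
  have hs : ∀ y, g (s (g y)) = g y := by
    intro y
    have hz : ∃ y', g y' = g y := ⟨y, rfl⟩
    simp only [s, dif_pos hz]
    exact hz.choose_spec
  refine Finite.of_surjective (fun q : X × Z => f q.1 + s q.2) fun y => ?_
  obtain ⟨x, hx⟩ := h (y - s (g y)) (by rw [map_sub, hs, sub_self])
  exact ⟨(x, g y), by simp [hx]⟩

namespace DualSES

variable {A B C A' B' C' T : Type*}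
    [AddCommGroup A] [AddCommGroup B] [AddCommGroup C]
    [AddCommGroup A'] [AddCommGroup B'] [AddCommGroup C'] [AddCommGroup T]
    [DistribMulAction G A] [DistribMulAction G B] [DistribMulAction G C]
    [DistribMulAction G A'] [DistribMulAction G B'] [DistribMulAction G C']
    [DistribMulAction G T] (D : DualSES 𝓛 A B C A' B' C' T)

/-- exchange the two sequences -/
def flip : DualSES 𝓛 C' B' A' C B A T where
  E := D.E'
  E' := D.E
  eA := D.eC.flip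
  eB := D.eB.flip
  eC := D.eA.flip
  hA := D.hC.flip
  hB := D.hB.flip
  hC := D.hA.flip
  hAB a b' := (D.hBC b' a).symm
  hBC b c' := (D.hAB c' b).symm

variable [Fact p.Prime] (inv : H2 𝓛 T ≃+ ZMod p)

include inv in
/-- four lemma in degree one -/
theorem four1 [Finite C] (kA : ∀ a : A, p • a = 0) (kC : ∀ a : C, p • a = 0)
    (kA' : ∀ a : A', p • a = 0) (kC' : ∀ a : C', p • a = 0)
    (hA : LD 𝓛 D.eA D.hA D.E'.smC) (hC : LD 𝓛 D.eC D.hC D.E'.smA)
    (x : H1 𝓛 B) (hx : ∀ y : H1 𝓛 B', cup11 D.eB D.hB D.E'.smB x y = 0) : x = 0 := by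
  have h1 : H1coef 𝓛 D.E.j D.E.hj x = 0 := hC.a1 _ fun y => by
    rw [D.cup11_j_i]; exact hx _
  obtain ⟨x₁, rfl⟩ := (D.E.H1_j_eq_zero_iff x).mp h1
  -- the functional on `H¹(A')`
  have h2 : ∀ y : H1 𝓛 A', D.E'.δ1 y = 0 → inv (cup11 D.eA D.hA D.E'.smC x₁ y) = 0 := by
    intro y hy
    obtain ⟨y', rfl⟩ := (D.E'.δ1_eq_zero_iff y).mp hy
    rw [← D.cup11_i_j, hx, map_zero]
  obtain ⟨Λ, hΛ⟩ := fp_extend (p := p) (H1_killed kA') (H2_killed kC') D.E'.δ1
    (inv.toAddMonoidHom.comp (cup11 D.eA D.hA D.E'.smC x₁)) h2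
  obtain ⟨c, hc⟩ := hC.repr02 kC kC' inv Λ
  have h3 : x₁ + D.E.δ0 c = 0 := hA.a1 _ fun y => by
    apply inv.injective
    rw [map_add, AddMonoidHom.add_apply, D.cup_δ0, map_add, map_neg, hc, hΛ, map_zero]
    change inv (cup11 D.eA D.hA D.E'.smC x₁ y) + - inv (cup11 D.eA D.hA D.E'.smC x₁ y) = 0
    abel
  have h4 : x₁ = D.E.δ0 (-c) := by
    rw [map_neg]; exact eq_neg_of_add_eq_zero_left h3
  rw [D.E.H1_i_eq_zero_iff]
  exact ⟨-c, h4.symm⟩

include inv in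
/-- four lemma in degree two -/
theorem four2 (kC : ∀ a : C, p • a = 0)
    (kA' : ∀ a : A', p • a = 0) (kC' : ∀ a : C', p • a = 0)
    (hA : LD 𝓛 D.eA D.hA D.E'.smC) (hC : LD 𝓛 D.eC D.hC D.E'.smA)
    (x : H2 𝓛 B) (hx : ∀ y : H0 G B', cup20 D.eB D.hB y x = 0) : x = 0 := by
  have h1 : H2coef 𝓛 D.E.j D.E.hj x = 0 := hC.a2 _ fun y => by
    have hy : D.E'.i y ∈ H0 G B' := fun g => by rw [← D.E'.hi, y.2 g]
    rw [D.cup20_j_i x y hy]; exact hx _
  obtain ⟨x₁, rfl⟩ := (D.E.H2_j_eq_zero_iff x).mp h1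
  have hadd : ∀ y : H0 G A', cup20 D.eA D.hA y x₁ =
      (cup02h (𝓛 := 𝓛) D.eA.flip D.hA.flip).flip x₁ y := fun y => rfl
  have h2 : ∀ y : H0 G A', D.E'.δ0 y = 0 → inv (cup20 D.eA D.hA y x₁) = 0 := by
    intro y hy
    obtain ⟨y', hy'⟩ := (D.E'.δ0_eq_zero_iff y).mp hy
    have hy'' : D.E'.j y' ∈ H0 G A' := by rw [hy']; exact y.2
    have h5 := D.cup20_i_j x₁ y' hy''
    rw [hx y'] at h5
    have h6 : (⟨D.E'.j y', hy''⟩ : H0 G A') = y := Subtype.ext hy'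
    rw [h6] at h5
    rw [← h5, map_zero]
  obtain ⟨Λ, hΛ⟩ := fp_extend (p := p) (H0_killed kA') (H1_killed kC') D.E'.δ0
    (inv.toAddMonoidHom.comp ((cup02h (𝓛 := 𝓛) D.eA.flip D.hA.flip).flip x₁)) h2
  obtain ⟨c, hc⟩ := hC.repr11 kC kC' inv Λ
  have h3 : x₁ = D.E.δ1 c := by
    rw [← sub_eq_zero]
    refine hA.a2 _ fun y => ?_
    apply inv.injective
    rw [map_sub, map_sub, D.cup_δ1, hc, hΛ, map_zero]
    change inv (cup20 D.eA D.hA y x₁) - inv (cup20 D.eA D.hA y x₁) = 0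
    rw [sub_self]
  rw [D.E.H2_i_eq_zero_iff]
  exact ⟨c, h3.symm⟩

include inv in
/-- the extension step of local duality -/
theorem extend [Finite C] [Finite A'] (kA : ∀ a : A, p • a = 0) (kC : ∀ a : C, p • a = 0)
    (kA' : ∀ a : A', p • a = 0) (kC' : ∀ a : C', p • a = 0)
    (hA : LD 𝓛 D.eA D.hA D.E'.smC) (hC : LD 𝓛 D.eC D.hC D.E'.smA)
    (a0 : ∀ a : H0 G B, (∀ y : H2 𝓛 B', cup02 D.eB D.hB a y = 0) → a = 0)
    (b0 : ∀ b : H0 G B', (∀ x : H2 𝓛 B, cup20 D.eB D.hB b x = 0) → b = 0) :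
    LD 𝓛 D.eB D.hB D.E'.smB where
  fA1 := by
    have := hA.fA1
    have := hC.fA1
    exact finite_of_exact (H1coef 𝓛 D.E.i D.E.hi) (H1coef 𝓛 D.E.j D.E.hj)
      fun y hy => (D.E.H1_j_eq_zero_iff y).mp hy
  fA2 := by
    have := hA.fA2
    have := hC.fA2
    exact finite_of_exact (H2coef 𝓛 D.E.i D.E.hi) (H2coef 𝓛 D.E.j D.E.hj)
      fun y hy => (D.E.H2_j_eq_zero_iff y).mp hy
  fB1 := by
    have := hA.fB1
    have := hC.fB1
    exact finite_of_exact (H1coef 𝓛 D.E'.i D.E'.hi) (H1coef 𝓛 D.E'.j D.E'.hj)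
      fun y hy => (D.E'.H1_j_eq_zero_iff y).mp hy
  fB2 := by
    have := hA.fB2
    have := hC.fB2
    exact finite_of_exact (H2coef 𝓛 D.E'.i D.E'.hi) (H2coef 𝓛 D.E'.j D.E'.hj)
      fun y hy => (D.E'.H2_j_eq_zero_iff y).mp hy
  a0 := a0
  b0 := b0
  a1 := D.four1 inv kA kC kA' kC' hA hC
  b1 := fun y hy => by
    refine D.flip.four1 inv kC' kA' kC kA (hC.flip D.E.smC) (hA.flip D.E.smA) y fun x => ?_
    change cup11 D.eB.flip D.hB.flip D.E.smB y x = 0
    rw [cup11_flip D.eB D.hB D.E.smB D.E'.smB, hy, neg_zero]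
  a2 := D.four2 inv kC kA' kC' hA hC
  b2 := fun y hy => D.flip.four2 inv kA' kC kA (hC.flip D.E.smC) (hA.flip D.E.smA) y hy

end DualSES

end

end Fermat.Agent.CC
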