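import Fermat.Agent.CC.LocalDual
set_option autoImplicit false
set_option maxHeartbeats 400000

/-!
# Local duality for unipotent modules
-/

namespace Fermat.Agent.CC

noncomputable section

universe u v w

section CoresNat

variable {G : Type*} [Group G] {𝓛 : Lev G} {H : Subgroup G} (hH : 𝓛.isOpen H)
  {A B : Type*} [AddCommGroup A] [AddCommGroup B] [DistribMulAction G A] [DistribMulAction G B]
  (f : A →+ B) (hf : ∀ (g : G) (a : A), f (g • a) = g • f a)

/-- functoriality of `CoInd` -/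
def coMap (H : Subgroup G) : CoInd H A →+ CoInd H B where
  toFun φ := ⟨fun x => f (φ.1 x), fun u x => by
    beta_reduce
    rw [φ.2, Subgroup.smul_def, Subgroup.smul_def, hf]⟩
  map_zero' := CoInd.ext fun x => map_zero f
  map_add' φ ψ := CoInd.ext fun x => map_add f _ _

@[simp] theorem coMap_apply (φ : CoInd H A) (x : G) : (coMap f hf H φ).1 x = f (φ.1 x) := rfl

theorem coMap_smul (g : G) (φ : CoInd H A) : coMap f hf H (g • φ) = g • coMap f hf H φ := rfl

theorem sumMap_coMap [Finite (G ⧸ H)] (φ : CoInd H A) :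
    sumMap H B (coMap f hf H φ) = f (sumMap H A φ) := by
  rw [sumMap_apply, sumMap_apply]
  have h1 : f (∑ᶠ q : G ⧸ H, sumFun φ q) = ∑ᶠ q : G ⧸ H, f (sumFun φ q) :=
    AddMonoidHom.map_finsum f (Set.toFinite _)
  rw [h1]
  refine finsum_congr fun q => ?_
  obtain ⟨x, rfl⟩ := QuotientGroup.mk_surjective q
  rw [sumFun_mk, sumFun_mk, coMap_apply, hf]

/-- corestriction commutes with coefficient maps -/
theorem cores2_coef (x : H2 (𝓛.sub H) A) :
    cores2 B hH (H2coef (𝓛.sub H) f (fun g a => hf g a) x) = H2coef 𝓛 f hf (cores2 A hH x) := by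
  have := finite_quot hH
  obtain ⟨z, rfl⟩ := (shEquiv2 (A := A) hH).surjective x
  change cores2 B hH (H2coef (𝓛.sub H) f _ (sh2 𝓛 H A z)) =
    H2coef 𝓛 f hf (cores2 A hH (sh2 𝓛 H A z))
  have h1 : H2coef (𝓛.sub H) f (fun g a => hf g a) (sh2 𝓛 H A z) =
      sh2 𝓛 H B (H2coef 𝓛 (coMap f hf H) (coMap_smul f hf) z) := by
    obtain ⟨z, rfl⟩ := H2.mk_surjective z
    rfl
  rw [h1, cores2_sh2, cores2_sh2]
  obtain ⟨z, rfl⟩ := H2.mk_surjective z
  change H2.mk _ _ _ = H2.mk _ _ _
  congr 1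
  apply Subtype.ext
  funext g h
  exact sumMap_coMap f hf _

theorem cores1_coef (x : H1 (𝓛.sub H) A) :
    cores1 B hH (H1coef (𝓛.sub H) f (fun g a => hf g a) x) = H1coef 𝓛 f hf (cores1 A hH x) := by
  have := finite_quot hH
  obtain ⟨z, rfl⟩ := (shEquiv1 (A := A) hH).surjective x
  change cores1 B hH (H1coef (𝓛.sub H) f _ (sh1 𝓛 H A z)) =
    H1coef 𝓛 f hf (cores1 A hH (sh1 𝓛 H A z))
  have h1 : H1coef (𝓛.sub H) f (fun g a => hf g a) (sh1 𝓛 H A z) =
      sh1 𝓛 H B (H1coef 𝓛 (coMap f hf H) (coMap_smul f hf) z) := by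
    obtain ⟨z, rfl⟩ := H1.mk_surjective z
    rfl
  rw [h1, cores1_sh1, cores1_sh1]
  obtain ⟨z, rfl⟩ := H1.mk_surjective z
  change H1.mk _ _ _ = H1.mk _ _ _
  congr 1
  apply Subtype.ext
  funext g
  exact sumMap_coMap f hf _

end CoresNat

section MulPair

variable {p : ℕ} {T : Type*} [AddCommGroup T] (τ : T ≃+ ZMod p)

/-- the multiplication pairing on `T ≃ ZMod p` -/
def mulPair : T →+ T →+ T where
  toFun t :=
    { toFun := fun s => τ.symm (τ t * τ s)
      map_zero' := by simp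
      map_add' := fun s s' => by rw [map_add, mul_add, map_add] }
  map_zero' := by ext s; simp
  map_add' t t' := by ext s; simp [add_mul]

theorem mulPair_apply (t s : T) : mulPair τ t s = τ.symm (τ t * τ s) := rfl

theorem τ_mulPair (t s : T) : τ (mulPair τ t s) = τ t * τ s := by
  rw [mulPair_apply, AddEquiv.apply_symm_apply]

theorem mulPair_flip : (mulPair τ).flip = mulPair τ := by
  ext s t
  simp [mulPair_apply, mul_comm]

/-- scalar multiplication by `ZMod p` on an element killed by `p` -/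
def zs {M : Type*} [AddCommGroup M] (m : M) (hm : p • m = 0) : ZMod p →+ M :=
  ZMod.lift p ⟨zmultiplesHom M m, by simpa using hm⟩

theorem zs_intCast {M : Type*} [AddCommGroup M] (m : M) (hm : p • m = 0) (n : ℤ) :
    zs m hm (n : ZMod p) = n • m := by
  rw [zs, ZMod.lift_coe]
  simp

theorem zs_one {M : Type*} [AddCommGroup M] (m : M) (hm : p • m = 0) :
    zs m hm 1 = m := by
  have := zs_intCast m hm 1
  simpa using this

theorem map_zs {M : Type*} [AddCommGroup M] (m : M) (hm : p • m = 0) (ψ : M →+ T) (c : ZMod p) :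
    ψ (zs m hm c) = τ.symm (c * τ (ψ m)) := by
  obtain ⟨n, rfl⟩ := ZMod.intCast_surjective c
  rw [zs_intCast, map_zsmul]
  apply τ.injective
  rw [map_zsmul, AddEquiv.apply_symm_apply, zsmul_eq_mul]

theorem zs_eq_zero [Fact p.Prime] {M : Type*} [AddCommGroup M] (m : M) (hm : p • m = 0)
    (hm0 : m ≠ 0) {c : ZMod p} (h : zs m hm c = 0) : c = 0 := by
  by_contra hc
  obtain ⟨n, hn⟩ := ZMod.intCast_surjective c
  obtain ⟨k, hk⟩ := ZMod.intCast_surjective (c⁻¹ : ZMod p)
  apply hm0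
  have h1 : zs m hm ((k : ZMod p) * n) = 0 := by
    rw [← Int.cast_mul, zs_intCast, mul_smul, ← zs_intCast m hm n, hn, h, smul_zero]
  rw [hk, hn, inv_mul_cancel₀ hc, zs_one] at h1
  exact h1

include τ in
theorem surj_of_ne_zero [Fact p.Prime] {M : Type*} [AddCommGroup M] (ψ : M →+ T)
    (hM : ∀ m : M, p • m = 0) (hψ : ψ ≠ 0) : Function.Surjective ψ := by
  have : ∃ m, ψ m ≠ 0 := by
    by_contra hcon
    push Not at hcon
    exact hψ (AddMonoidHom.ext hcon)
  obtain ⟨m, hm⟩ := this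
  have h0 : τ (ψ m) ≠ 0 := fun h => hm (by rw [← τ.symm_apply_apply (ψ m), h, map_zero])
  intro t
  refine ⟨zs m (hM m) (τ t * (τ (ψ m))⁻¹), ?_⟩
  rw [map_zs τ, mul_assoc, inv_mul_cancel₀ h0, mul_one, AddEquiv.symm_apply_apply]

end MulPair

section TrivBase

variable {G : Type*} [Group G] {𝓛 : Lev G} {p : ℕ} [Fact p.Prime] {T : Type*} [AddCommGroup T]
  [DistribMulAction G T] (τ : T ≃+ ZMod p)

theorem killedT (τ : T ≃+ ZMod p) (t : T) : p • t = 0 := by
  apply τ.injective
  rw [map_nsmul, map_zero, nsmul_eq_mul, CharP.cast_eq_zero, zero_mul]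

theorem smooth_of_triv (htriv : ∀ (g : G) (t : T), g • t = t) : 𝓛.Smooth T :=
  fun t => ⟨⊤, 𝓛.top, fun g _ => htriv g t⟩

theorem eqPair_mulPair (htriv : ∀ (g : G) (t : T), g • t = t) : EqPair G (mulPair τ) :=
  fun g t s => by rw [htriv, htriv, htriv]

/-- local duality for the trivial module `T` -/
theorem ld_base (htriv : ∀ (g : G) (t : T), g • t = t) (inv : H2 𝓛 T ≃+ ZMod p)
    (hfin : Finite (H1 𝓛 T))
    (nondeg : ∀ (he : EqPair G (mulPair τ)) (sm : 𝓛.Smooth T) (x : H1 𝓛 T),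
      (∀ y : H1 𝓛 T, cup11 (mulPair τ) he sm x y = 0) → x = 0)
    (he : EqPair G (mulPair τ)) (sm : 𝓛.Smooth T) : LD 𝓛 (mulPair τ) he sm := by
  have hT2 : Finite (H2 𝓛 T) := Finite.of_equiv _ inv.symm.toEquiv
  have key : ∀ (a : H0 G T) (y : H2 𝓛 T), inv (cup02 (mulPair τ) he a y) = τ a * inv y := by
    intro a y
    obtain ⟨n, hn⟩ := ZMod.intCast_surjective (τ (a : T))
    rw [← hn]
    have h1 : cup02 (mulPair τ) he a y = n • y := by
      obtain ⟨y, rfl⟩ := H2.mk_surjective y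
      rw [← map_zsmul]
      change H2.mk _ _ _ = H2.mk _ _ _
      congr 1
      apply Subtype.ext
      funext g h
      change τ.symm (τ a * τ (y.1 g h)) = n • y.1 g h
      apply τ.injective
      rw [map_zsmul, AddEquiv.apply_symm_apply, zsmul_eq_mul, hn]
    rw [h1, map_zsmul, zsmul_eq_mul]
  have ha0 : ∀ a : H0 G T, (∀ y : H2 𝓛 T, cup02 (mulPair τ) he a y = 0) → a = 0 := by
    intro a ha
    have h1 := key a (inv.symm 1)
    rw [ha, map_zero, AddEquiv.apply_symm_apply, mul_one] at h1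
    apply Subtype.ext
    apply τ.injective
    rw [← h1]
    exact (map_zero τ).symm
  have hb2 : ∀ y : H2 𝓛 T, (∀ a : H0 G T, cup02 (mulPair τ) he a y = 0) → y = 0 := by
    intro y hy
    have h1 := key ⟨τ.symm 1, fun g => htriv g _⟩ y
    rw [hy, map_zero] at h1
    apply inv.injective
    rw [map_zero]
    simpa using h1.symm
  have hfl : ∀ (b : H0 G T) (x : H2 𝓛 T), cup20 (mulPair τ) he b x = cup02 (mulPair τ) he b x := by
    intro b x
    obtain ⟨x, rfl⟩ := H2.mk_surjective x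
    change H2.mk _ _ _ = H2.mk _ _ _
    congr 1
    apply Subtype.ext
    funext g h
    change (mulPair τ).flip b (x.1 g h) = mulPair τ b (x.1 g h)
    rw [mulPair_flip]
  have hfl1 : ∀ (x y : H1 𝓛 T), cup11 (mulPair τ) he sm y x = -cup11 (mulPair τ) he sm x y := by
    intro x y
    rw [← cup11_flip (mulPair τ) he sm sm x y]
    obtain ⟨x, rfl⟩ := H1.mk_surjective x
    obtain ⟨y, rfl⟩ := H1.mk_surjective y
    rw [cup11_mk, cup11_mk]
    congr 1
    apply Subtype.ext
    funext g h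
    change mulPair τ (y.1 g) (g • x.1 h) = (mulPair τ).flip (y.1 g) (g • x.1 h)
    rw [mulPair_flip]
  exact
    { fA1 := hfin
      fA2 := hT2
      fB1 := hfin
      fB2 := hT2
      a0 := ha0
      b2 := hb2
      a1 := nondeg he sm
      b1 := fun y hy => nondeg he sm y fun x => by rw [hfl1, hy, neg_zero]
      a2 := fun x hx => hb2 x fun a => by rw [← hfl, hx]
      b0 := fun b hb => ha0 b fun y => by rw [← hfl, hb] }

end TrivBase

end

end Fermat.Agent.CC
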