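import Fermat.Agent.CC.LocalDual2
set_option autoImplicit false
set_option maxHeartbeats 400000

/-!
# Local duality for unipotent modules
-/

namespace Fermat.Agent.CC

noncomputable section

universe u v w

/-- A hereditary family of "local groups" (with trivial action on `T`). -/
structure LocFam (p : ℕ) (T : Type w) [AddCommGroup T] (τ : T ≃+ ZMod p)
    (P : ∀ (G : Type u) [Group G] [DistribMulAction G T] (_ : Lev G), Prop) : Prop where
  triv : ∀ (G : Type u) [Group G] [DistribMulAction G T] (𝓛 : Lev G), P G 𝓛 →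
    ∀ (g : G) (t : T), g • t = t
  inv : ∀ (G : Type u) [Group G] [DistribMulAction G T] (𝓛 : Lev G), P G 𝓛 →
    Nonempty (H2 𝓛 T ≃+ ZMod p)
  fin : ∀ (G : Type u) [Group G] [DistribMulAction G T] (𝓛 : Lev G), P G 𝓛 → Finite (H1 𝓛 T)
  nondeg : ∀ (G : Type u) [Group G] [DistribMulAction G T] (𝓛 : Lev G), P G 𝓛 →
    ∀ (he : EqPair G (mulPair τ)) (sm : 𝓛.Smooth T) (x : H1 𝓛 T),
      (∀ y : H1 𝓛 T, cup11 (mulPair τ) he sm x y = 0) → x = 0
  sub : ∀ (G : Type u) [Group G] [DistribMulAction G T] (𝓛 : Lev G), P G 𝓛 →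
    ∀ H : Subgroup G, 𝓛.isOpen H → P H (𝓛.sub H)
  cores : ∀ (G : Type u) [Group G] [DistribMulAction G T] (𝓛 : Lev G), P G 𝓛 →
    ∀ (H : Subgroup G) (hH : 𝓛.isOpen H), H.Normal → H.index = p →
      Function.Surjective (cores2 T hH)

variable {p : ℕ} [Fact p.Prime] {T : Type w} [AddCommGroup T] {τ : T ≃+ ZMod p}
  {P : ∀ (G : Type u) [Group G] [DistribMulAction G T] (_ : Lev G), Prop}

/-- a nontrivial `p`-power index normal subgroup is contained in a normal subgroup of index `p` -/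
theorem exists_index_p {G : Type*} [Group G] (N : Subgroup G) [N.Normal] {n : ℕ}
    (hN : N.index = p ^ (n + 1)) :
    ∃ H : Subgroup G, N ≤ H ∧ H.Normal ∧ H.index = p ∧ N.relIndex H = p ^ n := by
  have hp : p.Prime := Fact.out
  have hcard : Nat.card (G ⧸ N) = p ^ (n + 1) := hN
  have : Finite (G ⧸ N) := Nat.finite_of_card_ne_zero (by rw [hcard]; exact pow_ne_zero _ hp.ne_zero)
  obtain ⟨K, hK⟩ := Sylow.exists_subgroup_card_pow_prime (G := G ⧸ N) p (n := n)
    (by rw [hcard]; exact pow_dvd_pow p (Nat.le_succ n))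
  have hKi : K.index = p := by
    have h1 := K.card_mul_index
    rw [hK, hcard, pow_succ] at h1
    exact Nat.eq_of_mul_eq_mul_left (pow_pos hp.pos n) h1
  have hKn : K.Normal := by
    apply Subgroup.normal_of_index_eq_minFac_card
    rw [hKi, hcard, hp.pow_minFac (Nat.succ_ne_zero n)]
  refine ⟨K.comap (QuotientGroup.mk' N), ?_, hKn.comap _, ?_, ?_⟩
  · intro x hx
    rw [Subgroup.mem_comap, QuotientGroup.mk'_apply, (QuotientGroup.eq_one_iff x).mpr hx]
    exact K.one_mem
  · rw [Subgroup.index_comap_of_surjective _ (QuotientGroup.mk'_surjective N), hKi]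
  · have hle : N ≤ K.comap (QuotientGroup.mk' N) := by
      intro x hx
      rw [Subgroup.mem_comap, QuotientGroup.mk'_apply, (QuotientGroup.eq_one_iff x).mpr hx]
      exact K.one_mem
    have h1 := Subgroup.relIndex_mul_index hle
    rw [Subgroup.index_comap_of_surjective _ (QuotientGroup.mk'_surjective N), hKi, hN,
      pow_succ] at h1
    exact Nat.eq_of_mul_eq_mul_right hp.pos h1

/-- `H²` of a unipotent module surjects onto `H²(T)` -/
theorem LocFam.H2_surj (F : LocFam p T τ P) (n : ℕ) :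
    ∀ (G : Type u) [Group G] [DistribMulAction G T] (𝓛 : Lev G), P G 𝓛 →
    ∀ (M : Type v) [AddCommGroup M] [DistribMulAction G M] (kM : ∀ m : M, p • m = 0)
      (π : M →+ T) (hπ : ∀ (g : G) (m : M), π (g • m) = g • π m) (_ : π ≠ 0)
      (N : Subgroup G) (_ : 𝓛.isOpen N) (_ : N.Normal) (_ : ∀ g ∈ N, ∀ m : M, g • m = m)
      (_ : N.index = p ^ n), Function.Surjective (H2coef 𝓛 π hπ) := by
  induction n with
  | zero =>
    intro G _ _ 𝓛 hP M _ _ kM π hπ hπ0 N hN hNn htriv hidx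
    have htop : N = ⊤ := Subgroup.index_eq_one.mp (by rw [hidx, pow_zero])
    subst htop
    obtain ⟨m, hm⟩ := surj_of_ne_zero τ π kM hπ0 (τ.symm 1)
    have hs : ∀ t : T, π (zs m (kM m) (τ t)) = t := by
      intro t
      rw [map_zs τ, hm, AddEquiv.apply_symm_apply, mul_one, AddEquiv.symm_apply_apply]
    intro y
    refine ⟨H2coef 𝓛 ((zs m (kM m)).comp τ.toAddMonoidHom) (fun g t => ?_) y, ?_⟩
    · rw [htriv g trivial, F.triv G 𝓛 hP]
    · obtain ⟨y, rfl⟩ := H2.mk_surjective y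
      change H2.mk _ _ _ = H2.mk _ _ _
      congr 1
      apply Subtype.ext
      funext g h
      exact hs _
  | succ n ih =>
    intro G _ _ 𝓛 hP M _ _ kM π hπ hπ0 N hN hNn htriv hidx
    obtain ⟨H, hNH, hHn, hHi, hrel⟩ := exists_index_p N hidx
    have hH : 𝓛.isOpen H := 𝓛.mono _ _ hN hNH
    have ih' := ih H (𝓛.sub H) (F.sub G 𝓛 hP H hH) M kM π (fun g m => hπ g m) hπ0
      (N.subgroupOf H) ⟨N, hN, le_rfl⟩ inferInstance
      (fun g hg m => htriv g (Subgroup.mem_subgroupOf.mp hg) m) hrel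
    intro x
    obtain ⟨y, rfl⟩ := F.cores G 𝓛 hP H hH hHn hHi x
    obtain ⟨z, rfl⟩ := ih' y
    exact ⟨cores2 M hH z, (cores2_coef hH π hπ z).symm⟩

section

variable {G : Type*} [Group G] {𝓛 : Lev G} {A B C : Type*} [AddCommGroup A] [AddCommGroup B]
  [AddCommGroup C] [DistribMulAction G A] [DistribMulAction G B] [DistribMulAction G C]

theorem subsingleton_H1 (𝓛 : Lev G) [Subsingleton A] : Subsingleton (H1 𝓛 A) := by
  refine ⟨fun x y => ?_⟩
  obtain ⟨x, rfl⟩ := H1.mk_surjective x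
  obtain ⟨y, rfl⟩ := H1.mk_surjective y
  congr 1
  apply Subtype.ext
  funext g
  exact Subsingleton.elim _ _

theorem subsingleton_H2 (𝓛 : Lev G) [Subsingleton A] : Subsingleton (H2 𝓛 A) := by
  refine ⟨fun x y => ?_⟩
  obtain ⟨x, rfl⟩ := H2.mk_surjective x
  obtain ⟨y, rfl⟩ := H2.mk_surjective y
  congr 1
  apply Subtype.ext
  funext g h
  exact Subsingleton.elim _ _

theorem ld_trivial [Subsingleton A] [Subsingleton B] (e : A →+ B →+ C) (he : EqPair G e)
    (smB : 𝓛.Smooth B) : LD 𝓛 e he smB := by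
  have := subsingleton_H1 (A := A) 𝓛
  have := subsingleton_H2 (A := A) 𝓛
  have := subsingleton_H1 (A := B) 𝓛
  have := subsingleton_H2 (A := B) 𝓛
  exact ⟨inferInstance, inferInstance, inferInstance, inferInstance,
    fun _ _ => Subsingleton.elim _ _, fun _ _ => Subsingleton.elim _ _,
    fun _ _ => Subsingleton.elim _ _, fun _ _ => Subsingleton.elim _ _,
    fun _ _ => Subsingleton.elim _ _, fun _ _ => Subsingleton.elim _ _⟩

/-- a nonzero fixed vector -/
theorem exists_fixed [Finite A] [Nontrivial A] (kA : ∀ a : A, p • a = 0) (N : Subgroup G)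
    [N.Normal] (htriv : ∀ g ∈ N, ∀ a : A, g • a = a) {n : ℕ} (hidx : N.index = p ^ n) :
    ∃ a : A, a ≠ 0 ∧ ∀ g : G, g • a = a := by
  have hp : p.Prime := Fact.out
  let R := (MulAction.toPermHom G A).range
  have hR : IsPGroup p R := by
    rintro ⟨_, g, rfl⟩
    refine ⟨n, ?_⟩
    apply Subtype.ext
    change (MulAction.toPermHom G A g) ^ (p ^ n) = 1
    rw [← map_pow]
    ext a
    change g ^ (p ^ n) • a = a
    apply htriv
    rw [← hidx]
    exact N.pow_index_mem g
  have hdiv : p ∣ Nat.card A := by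
    obtain ⟨a, ha⟩ := exists_ne (0 : A)
    have h1 : addOrderOf a = p := addOrderOf_eq_prime (kA a) ha
    rw [← h1]
    exact addOrderOf_dvd_natCard a
  have h0 : (0 : A) ∈ MulAction.fixedPoints R A := by
    rintro ⟨_, g, rfl⟩
    exact smul_zero g
  obtain ⟨b, hb, hb0⟩ := hR.exists_fixed_point_of_prime_dvd_card_of_fixed_point A hdiv h0
  exact ⟨b, hb0.symm, fun g => hb ⟨_, g, rfl⟩⟩

end

end

end Fermat.Agent.CC
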