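import Fermat.Agent.CC.LocalDual3
set_option autoImplicit false
set_option maxHeartbeats 400000

/-!
# Local duality: unipotent dévissage and reduction to it
-/

namespace Fermat.Agent.CC

noncomputable section

universe u v v' w

section Dev

variable {p : ℕ} [Fact p.Prime] {T : Type w} [AddCommGroup T] (τ : T ≃+ ZMod p)
  {G : Type u} [Group G] {𝓛 : Lev G} [DistribMulAction G T]
  {A : Type v} {B : Type v'} [AddCommGroup A] [AddCommGroup B] [DistribMulAction G A]
  [DistribMulAction G B] (e : A →+ B →+ T) (he : EqPair G e) (m : A) (hm : ∀ g : G, g • m = m)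
  (km : p • m = 0)

/-- the line spanned by `m` -/
def lineMap : T →+ A := (zs m km).comp τ.toAddMonoidHom

theorem lineMap_apply (t : T) : lineMap τ m km t = zs m km (τ t) := rfl

include hm in
theorem zs_smul (g : G) (c : ZMod p) : g • zs m km c = zs m km c := by
  obtain ⟨n, rfl⟩ := ZMod.intCast_surjective c
  rw [zs_intCast]
  change DistribSMul.toAddMonoidHom A g (n • m) = _
  rw [map_zsmul]
  change n • (g • m) = _
  rw [hm]

/-- the quotient by the line -/
def lineSub : GSub G A where
  N := (lineMap τ m km).range
  stab g a ha := by
    obtain ⟨t, rfl⟩ := ha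
    rw [lineMap_apply, zs_smul m hm km]
    exact ⟨t, rfl⟩

/-- the annihilator of the line -/
def lineAnn (he : EqPair G e) (hm : ∀ g : G, g • m = m) : GSub G B :=
  GSub.ker (e m) (fun g b => by rw [← he, hm])

/-- the pairing on quotient and annihilator -/
def linePair : (lineSub τ m hm km).Q →+ (lineAnn e m he hm).S →+ T :=
  QuotientAddGroup.lift _
    { toFun := fun a => (e a).comp (lineAnn e m he hm).incl
      map_zero' := by ext s; simp
      map_add' := fun a a' => by ext s; simp }
    (by
      rintro a ⟨t, rfl⟩
      rw [AddMonoidHom.mem_ker]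
      ext s
      change e (lineMap τ m km t) ((lineAnn e m he hm).incl s) = 0
      have h1 : e m ((lineAnn e m he hm).incl s) = 0 := (lineAnn e m he hm).incl_mem s
      have h2 := map_zs τ m km (e.flip ((lineAnn e m he hm).incl s)) (τ t)
      rw [lineMap_apply]
      change e.flip ((lineAnn e m he hm).incl s) (zs m km (τ t)) = 0
      rw [h2]
      change τ.symm (τ t * τ (e m ((lineAnn e m he hm).incl s))) = 0
      rw [h1, map_zero, mul_zero, map_zero])

theorem linePair_proj (a : A) (s : (lineAnn e m he hm).S) :
    linePair τ e he m hm km ((lineSub τ m hm km).proj a) s = e a ((lineAnn e m he hm).incl s) := rfl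

theorem linePair_eq : EqPair G (linePair τ e he m hm km) := by
  intro g a s
  obtain ⟨a, rfl⟩ := (lineSub τ m hm km).proj_surjective a
  rw [← GSub.proj_smul, linePair_proj, linePair_proj, GSub.incl_smul, he]

/-- the dual pair of short exact sequences attached to an invariant vector -/
def lineDual (smA : 𝓛.Smooth A) (smB : 𝓛.Smooth B) (htriv : ∀ (g : G) (t : T), g • t = t)
    (hm0 : m ≠ 0) (hsurj : Function.Surjective (e m)) :
    DualSES 𝓛 T A (lineSub τ m hm km).Q T B (lineAnn e m he hm).S T where
  E :=
    { i := lineMap τ m km
      j := (lineSub τ m hm km).proj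
      hi := fun g t => by rw [lineMap_apply, lineMap_apply, htriv, zs_smul m hm km]
      hj := (lineSub τ m hm km).proj_smul
      inj := by
        have : Fact p.Prime := inferInstance
        rw [injective_iff_map_eq_zero]
        intro t ht
        apply τ.injective
        rw [map_zero]
        exact zs_eq_zero m km hm0 ht
      surj := (lineSub τ m hm km).proj_surjective
      exact := fun b => by
        rw [GSub.proj_eq_zero]; rfl
      smA := smooth_of_triv htriv
      smB := smA
      smC := (lineSub τ m hm km).smoothQ smA }
  E' :=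
    { i := (lineAnn e m he hm).incl
      j := e m
      hi := (lineAnn e m he hm).incl_smul
      hj := fun g b => by rw [← he, hm]
      inj := (lineAnn e m he hm).incl_injective
      surj := hsurj
      exact := fun b => by
        constructor
        · intro h
          exact ⟨(lineAnn e m he hm).mkS b h, rfl⟩
        · rintro ⟨s, rfl⟩
          exact (lineAnn e m he hm).incl_mem s
      smA := (lineAnn e m he hm).smoothS smB
      smB := smB
      smC := smooth_of_triv htriv }
  eA := mulPair τ
  eB := e
  eC := linePair τ e he m hm km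
  hA := eqPair_mulPair τ htriv
  hB := he
  hC := linePair_eq τ e he m hm km
  hAB t b := by
    have h2 := map_zs τ m km (e.flip b) (τ t)
    exact h2
  hBC a s := rfl

end Dev

section

variable {p : ℕ} [Fact p.Prime] {T : Type w} [AddCommGroup T] {τ : T ≃+ ZMod p}
  {P : ∀ (G : Type u) [Group G] [DistribMulAction G T] (_ : Lev G), Prop}

/-- local duality for unipotent modules -/
theorem LocFam.ld_unip (F : LocFam p T τ P) {G : Type u} [Group G] [DistribMulAction G T]
    {𝓛 : Lev G} (hP : P G 𝓛) (n : ℕ) (N : Subgroup G) (hN : 𝓛.isOpen N) [N.Normal]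
    (hidx : N.index = p ^ n) (k : ℕ) :
    ∀ (A : Type v) (B : Type v') [AddCommGroup A] [AddCommGroup B] [DistribMulAction G A]
      [DistribMulAction G B] [Finite A] [Finite B] (e : A →+ B →+ T) (he : EqPair G e)
      (_ : 𝓛.Smooth A) (smB : 𝓛.Smooth B) (_ : ∀ a : A, p • a = 0) (_ : ∀ b : B, p • b = 0)
      (_ : ∀ a, (∀ b, e a b = 0) → a = 0) (_ : ∀ b, (∀ a, e a b = 0) → b = 0)
      (_ : ∀ g ∈ N, ∀ a : A, g • a = a) (_ : ∀ g ∈ N, ∀ b : B, g • b = b)
      (_ : Nat.card A ≤ k), LD 𝓛 e he smB := by
  induction k with
  | zero =>
    intro A B _ _ _ _ _ _ e he _ smB _ _ _ _ _ _ hk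
    have : 0 < Nat.card A := Nat.card_pos
    omega
  | succ k ih =>
    intro A B _ _ _ _ _ _ e he smA smB kA kB hl hr htA htB hk
    rcases subsingleton_or_nontrivial A with hA | hA
    · have hB : Subsingleton B := ⟨fun x y => by
        rw [← sub_eq_zero]
        refine hr _ fun a => ?_
        rw [Subsingleton.elim a 0, map_zero]; rfl⟩
      exact ld_trivial e he smB
    · have htriv := F.triv G 𝓛 hP
      obtain ⟨inv⟩ := F.inv G 𝓛 hP
      obtain ⟨m, hm0, hm⟩ := exists_fixed kA N htA hidx
      have hne : e m ≠ 0 := by
        intro h
        exact hm0 (hl m fun b => by rw [h]; rfl)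
      have hsurj := surj_of_ne_zero τ (e m) kB hne
      let D := lineDual (𝓛 := 𝓛) τ e he m hm (kA m) smA smB htriv hm0 hsurj
      have hT : Finite T := Finite.of_equiv _ τ.symm.toEquiv
      have hC1 : Finite (lineSub τ m hm (kA m)).Q :=
        Finite.of_surjective _ (lineSub τ m hm (kA m)).proj_surjective
      have hC2 : Finite (lineAnn e m he hm).S :=
        Finite.of_injective _ (lineAnn e m he hm).incl_injective
      have kC : ∀ c : (lineSub τ m hm (kA m)).Q, p • c = 0 := by
        intro c
        obtain ⟨a, rfl⟩ := (lineSub τ m hm (kA m)).proj_surjective c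
        rw [← map_nsmul, kA, map_zero]
      have kC' : ∀ c : (lineAnn e m he hm).S, p • c = 0 := by
        intro c
        apply (lineAnn e m he hm).incl_injective
        rw [map_nsmul, kB, map_zero]
      have ldC : LD 𝓛 D.eC D.hC D.E'.smA := by
        refine ih (lineSub τ m hm (kA m)).Q (lineAnn e m he hm).S D.eC D.hC D.E.smC D.E'.smA
          kC kC' ?_ ?_ ?_ ?_ ?_
        · intro c hc
          obtain ⟨a, rfl⟩ := (lineSub τ m hm (kA m)).proj_surjective c
          obtain ⟨Λ, hΛ⟩ := fp_extend (p := p) kB (killedT τ) (e m)
            (τ.toAddMonoidHom.comp (e a)) (fun b hb => by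
              have := hc ((lineAnn e m he hm).mkS b hb)
              change τ (e a b) = 0
              have h2 : e a b = 0 := this
              rw [h2, map_zero])
          rw [GSub.proj_eq_zero]
          refine ⟨τ.symm (Λ (τ.symm 1)), ?_⟩
          rw [lineMap_apply, AddEquiv.apply_symm_apply]
          rw [← sub_eq_zero]
          refine hl _ fun b => ?_
          rw [map_sub, AddMonoidHom.sub_apply, sub_eq_zero]
          have h3 := map_zs τ m (kA m) (e.flip b) (Λ (τ.symm 1))
          have h4 : e (zs m (kA m) (Λ (τ.symm 1))) b = τ.symm (Λ (τ.symm 1) * τ (e m b)) := h3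
          rw [h4]
          apply τ.injective
          rw [AddEquiv.apply_symm_apply]
          have h5 : Λ (e m b) = τ (e a b) := hΛ b
          rw [← h5]
          obtain ⟨c, hc⟩ := ZMod.intCast_surjective (τ (e m b))
          have h6 : e m b = c • τ.symm 1 := by
            apply τ.injective
            rw [map_zsmul, AddEquiv.apply_symm_apply, ← hc]
            simp
          rw [← hc, h6, map_zsmul, zsmul_eq_mul, mul_comm]
        · intro s hs
          apply (lineAnn e m he hm).incl_injective
          rw [map_zero]
          exact hr _ fun a => hs ((lineSub τ m hm (kA m)).proj a)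
        · intro g hg c
          obtain ⟨a, rfl⟩ := (lineSub τ m hm (kA m)).proj_surjective c
          rw [← GSub.proj_smul, htA g hg]
        · intro g hg c
          apply (lineAnn e m he hm).incl_injective
          rw [GSub.incl_smul, htB g hg]
        · -- cardinality
          have h1 : Nat.card A = Nat.card (lineSub τ m hm (kA m)).Q *
              Nat.card (lineSub τ m hm (kA m)).N := AddSubgroup.card_eq_card_quotient_mul_card_addSubgroup _
          have h2 : 1 < Nat.card (lineSub τ m hm (kA m)).N := by
            have : Nontrivial (lineSub τ m hm (kA m)).N := by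
              refine ⟨⟨m, ?_⟩, 0, ?_⟩
              · refine ⟨τ.symm 1, ?_⟩
                rw [lineMap_apply, AddEquiv.apply_symm_apply, zs_one]
              · intro h
                exact hm0 (congrArg Subtype.val h)
            exact Finite.one_lt_card
          have h3 : 0 < Nat.card (lineSub τ m hm (kA m)).Q := Nat.card_pos
          nlinarith
      have ldA : LD 𝓛 D.eA D.hA D.E'.smC :=
        ld_base τ htriv inv (F.fin G 𝓛 hP) (F.nondeg G 𝓛 hP) D.hA D.E'.smC
      refine D.extend inv (killedT τ) kC (killedT τ) kC' ldA ldC ?_ ?_
      · intro a ha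
        by_contra ha0
        have ha0' : (a : A) ≠ 0 := fun h => ha0 (Subtype.ext h)
        have hne' : e (a : A) ≠ 0 := fun h => ha0' (hl _ fun b => by rw [h]; rfl)
        have hs := F.H2_surj n G 𝓛 hP B kB (e (a : A)) (fun g b => he.left_inv e a.2 g b) hne'
          N hN inferInstance htB hidx
        obtain ⟨y, hy⟩ := hs (inv.symm 1)
        have h1 : cup02 e he a y = inv.symm 1 := hy
        have h2 := ha y
        have h3 : cup02 e he a y = 0 := h2
        rw [h1] at h3
        have h4 := congrArg inv h3
        rw [AddEquiv.apply_symm_apply, map_zero] at h4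
        exact one_ne_zero h4
      · intro b hb
        by_contra hb0
        have hb0' : (b : B) ≠ 0 := fun h => hb0 (Subtype.ext h)
        have hne' : e.flip (b : B) ≠ 0 := fun h => hb0' (hr _ fun a => by
          have : e.flip (b : B) a = 0 := by rw [h]; rfl
          exact this)
        have hs := F.H2_surj n G 𝓛 hP A kA (e.flip (b : B)) (fun g a => he.right_inv e b.2 g a) hne'
          N hN inferInstance htA hidx
        obtain ⟨y, hy⟩ := hs (inv.symm 1)
        have h1 : cup20 e he b y = inv.symm 1 := hy
        have h3 : cup20 e he b y = 0 := hb y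
        rw [h1] at h3
        have h4 := congrArg inv h3
        rw [AddEquiv.apply_symm_apply, map_zero] at h4
        exact one_ne_zero h4

end

end

end Fermat.Agent.CC
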