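import Fermat.Agent.CC.LocalDual4
set_option autoImplicit false
set_option maxHeartbeats 400000

/-!
# Local duality: prime-to-`p` descent and the general theorem
-/

namespace Fermat.Agent.CC

noncomputable section

universe u v v' w

section Proj0

variable {G : Type*} [Group G] {𝓛 : Lev G} {H : Subgroup G} (hH : 𝓛.isOpen H)
  {A B C : Type*} [AddCommGroup A] [AddCommGroup B] [AddCommGroup C]
  [DistribMulAction G A] [DistribMulAction G B] [DistribMulAction G C]
  (e : A →+ B →+ C) (he : EqPair G e)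

/-- an `H`-invariant vector as an invariant vector of the coinduced module -/
def constH0 (a : H0 H A) : H0 G (CoInd H A) :=
  ⟨⟨fun _ => a, fun u _ => (a.2 u).symm⟩, fun _ => rfl⟩

/-- trace from `H`-invariants to invariants -/
def cores0 [Finite (G ⧸ H)] (a : H0 H A) : H0 G A :=
  ⟨sumMap H A (constH0 a : CoInd H A), fun g => by
    rw [← sumMap_smul, (constH0 a).2 g]⟩

/-- projection formula in degree `(0,2)` -/
theorem cores_cup02_res [Finite (G ⧸ H)] (he' : EqPair H e) (a : H0 H A) (y : H2 𝓛 B) :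
    cores2 C hH (cup02 e he' a (resH2 𝓛 H B y)) = cup02 e he (cores0 a) y := by
  have h1 : cup02 e he' a (resH2 𝓛 H B y) =
      sh2 𝓛 H C (cup02 (coPair e he) (coPair_eq e he) (constH0 a) y) := by
    symm
    refine (cup02_natural (coPair e he) (coPair_eq e he) e he' H.subtype (𝓛.cont_subtype H)
      (ev1 H A) (AddMonoidHom.id B) (fun _ _ => rfl) (ev1 H C) ev1_compat ?_ (constH0 a)
      (fun g => a.2 g) y).trans ?_
    · intro f b
      change e (f.1 1) ((1 : G) • b) = e (f.1 1) b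
      rw [one_smul]
    · rfl
  rw [h1, cores2_sh2]
  refine (cup02_natural (coPair e he) (coPair_eq e he) e he (MonoidHom.id G) 𝓛.cont_id
    (sumMap H A) (AddMonoidHom.id B) (fun _ _ => rfl) (sumMap H C)
    (fun g f => sumMap_smul g f) ?_ (constH0 a) (cores0 a).2 y).trans ?_
  · intro f b
    exact sumMap_coPair e he f b
  · obtain ⟨y, rfl⟩ := H2.mk_surjective y
    rfl

end Proj0

section OfSub

variable {p : ℕ} {G : Type*} [Group G] {𝓛 : Lev G} {H : Subgroup G} (hH : 𝓛.isOpen H)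
  {A B T : Type*} [AddCommGroup A] [AddCommGroup B] [AddCommGroup T]
  [DistribMulAction G A] [DistribMulAction G B] [DistribMulAction G T]
  {e : A →+ B →+ T} {he : EqPair G e}

include hH in
theorem LD.b2_of_sub {smB' : (𝓛.sub H).Smooth B} {he' : EqPair H e}
    (kB : ∀ b : B, p • b = 0)
    (hidx : (Nat.card (G ⧸ H)).Coprime p) (hT : Function.Injective (cores2 T hH))
    (h : LD (𝓛.sub H) e he' smB') (y : H2 𝓛 B) (hy : ∀ a : H0 G A, cup02 e he a y = 0) :
    y = 0 := by
  have := finite_quot hH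
  apply resH2_injective hH kB hidx
  rw [map_zero]
  refine h.b2 _ fun a => ?_
  apply hT
  rw [cores_cup02_res hH e he he' a y, hy, map_zero]

include hH in
theorem LD.a0_of_sub {smB' : (𝓛.sub H).Smooth B} {he' : EqPair H e}
    (hT : Function.Injective (cores2 T hH))
    (h : LD (𝓛.sub H) e he' smB') (a : H0 G A) (ha : ∀ y : H2 𝓛 B, cup02 e he a y = 0) :
    a = 0 := by
  have h1 : (⟨a, fun g => a.2 g⟩ : H0 H A) = 0 := by
    refine h.a0 _ fun y => ?_
    apply hT
    rw [map_zero]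
    have := cores2_coef hH (e (a : A)) (fun g b => he.left_inv e a.2 g b) y
    exact this.trans (ha _)
  have h2 : (a : A) = 0 := congrArg Subtype.val h1
  exact Subtype.ext h2

include hH in
/-- projection formula, other side -/
theorem cores_cup_res' (smA : 𝓛.Smooth A) (smB : 𝓛.Smooth B) (smA' : (𝓛.sub H).Smooth A)
    (smB' : (𝓛.sub H).Smooth B) (he' : EqPair H e) (x : H1 𝓛 A) (y : H1 (𝓛.sub H) B) :
    cores2 T hH (cup11 e he' smB' (resH1 𝓛 H A x) y) = cup11 e he smB x (cores1 B hH y) := by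
  have h1 := cores_cup_res hH e.flip he.flip smA smA' he'.flip y x
  rw [cup11_flip e he' smA' smB', cup11_flip e he smA smB, map_neg] at h1
  exact neg_injective h1

theorem smooth_sub (smA : 𝓛.Smooth A) : (𝓛.sub H).Smooth A := by
  intro a
  obtain ⟨U, hU, h⟩ := smA a
  exact ⟨U.comap H.subtype, ⟨U, hU, le_rfl⟩, fun s hs => h s hs⟩

include hH in
/-- descent of local duality along a subgroup of index prime to `p` -/
theorem LD.of_sub (smA : 𝓛.Smooth A) (smB : 𝓛.Smooth B) {smB' : (𝓛.sub H).Smooth B}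
    {he' : EqPair H e} (kA : ∀ a : A, p • a = 0) (kB : ∀ b : B, p • b = 0)
    (hidx : (Nat.card (G ⧸ H)).Coprime p) (hT : Function.Injective (cores2 T hH))
    (h : LD (𝓛.sub H) e he' smB') : LD 𝓛 e he smB := by
  have smA' : (𝓛.sub H).Smooth A := smooth_sub smA
  have hf := h.flip smA'
  have h1 := h.fA1
  have h2 := h.fA2
  have h3 := h.fB1
  have h4 := h.fB2
  exact
  { fA1 := Finite.of_injective _ (resH1_injective hH kA hidx)
    fA2 := Finite.of_injective _ (resH2_injective hH kA hidx)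
    fB1 := Finite.of_injective _ (resH1_injective hH kB hidx)
    fB2 := Finite.of_injective _ (resH2_injective hH kB hidx)
    a0 := LD.a0_of_sub hH hT h
    b0 := LD.a0_of_sub (he := he.flip) hH hT hf
    b2 := LD.b2_of_sub hH kB hidx hT h
    a2 := LD.b2_of_sub (he := he.flip) hH kA hidx hT hf
    a1 := fun x hx => by
      apply resH1_injective hH kA hidx
      rw [map_zero]
      refine h.a1 _ fun y => ?_
      apply hT
      rw [map_zero, cores_cup_res' (he := he) hH smA smB smA' smB' he' x y, hx]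
    b1 := fun y hy => by
      apply resH1_injective hH kB hidx
      rw [map_zero]
      refine h.b1 _ fun x => ?_
      apply hT
      rw [map_zero, cores_cup_res hH e he smB smB' he' x y, hy] }

end OfSub

section Main

variable {p : ℕ} [Fact p.Prime] {T : Type w} [AddCommGroup T] {τ : T ≃+ ZMod p}
  {P : ∀ (G : Type u) [Group G] [DistribMulAction G T] (_ : Lev G), Prop}

/-- a `p`-power-order action on `ZMod p` is trivial -/
theorem triv_of_pow {G : Type*} [Group G] [DistribMulAction G T] (τ : T ≃+ ZMod p) (g : G) (n : ℕ)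
    (h : ∀ t : T, g ^ (p ^ n) • t = t) (t : T) : g • t = t := by
  have key : ∀ (k : ℕ) (t : T), τ (g ^ k • t) = (τ (g • τ.symm 1)) ^ k * τ t := by
    intro k
    induction k with
    | zero => intro t; simp
    | succ k ih =>
      intro t
      rw [pow_succ g, mul_smul, ih, pow_succ, mul_assoc]
      congr 1
      obtain ⟨c, hc⟩ := ZMod.intCast_surjective (τ t)
      have h6 : t = c • τ.symm 1 := by
        apply τ.injective
        rw [map_zsmul, AddEquiv.apply_symm_apply, ← hc]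
        simp
      rw [h6]
      change τ (DistribSMul.toAddMonoidHom T g (c • τ.symm 1)) = _
      rw [map_zsmul, map_zsmul]
      simp [mul_comm]
  have h1 := key (p ^ n) (τ.symm 1)
  rw [h, AddEquiv.apply_symm_apply, mul_one, ZMod.pow_card_pow] at h1
  have h2 := key 1 t
  rw [pow_one, pow_one, ← h1, one_mul] at h2
  exact τ.injective h2

/-- Sylow subgroup containing an open normal subgroup -/
theorem exists_sylow_level {G : Type*} [Group G] (N : Subgroup G) [N.Normal] [N.FiniteIndex] :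
    ∃ (H : Subgroup G) (n : ℕ), N ≤ H ∧ (Nat.card (G ⧸ H)).Coprime p ∧ N.relIndex H = p ^ n := by
  have hp : p.Prime := Fact.out
  have hfin : Finite (G ⧸ N) := inferInstance
  let Q : Sylow p (G ⧸ N) := default
  obtain ⟨n, hn⟩ := Q.isPGroup'.exists_card_eq
  have hle : N ≤ (Q : Subgroup (G ⧸ N)).comap (QuotientGroup.mk' N) := by
    intro x hx
    rw [Subgroup.mem_comap, QuotientGroup.mk'_apply, (QuotientGroup.eq_one_iff x).mpr hx]
    exact (Q : Subgroup (G ⧸ N)).one_mem
  refine ⟨(Q : Subgroup (G ⧸ N)).comap (QuotientGroup.mk' N), n, hle, ?_, ?_⟩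
  · have h1 : ((Q : Subgroup (G ⧸ N)).comap (QuotientGroup.mk' N)).index =
        (Q : Subgroup (G ⧸ N)).index :=
      Subgroup.index_comap_of_surjective _ (QuotientGroup.mk'_surjective N)
    change (((Q : Subgroup (G ⧸ N)).comap (QuotientGroup.mk' N)).index).Coprime p
    rw [h1]
    exact ((hp.coprime_iff_not_dvd).mpr Q.not_dvd_index).symm
  · have h1 := Subgroup.relIndex_mul_index hle
    rw [Subgroup.index_comap_of_surjective _ (QuotientGroup.mk'_surjective N)] at h1
    have h2 := (Q : Subgroup (G ⧸ N)).card_mul_index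
    have h3 : N.index = Nat.card (G ⧸ N) := rfl
    rw [h3, ← h2, hn] at h1
    have h4 : 0 < (Q : Subgroup (G ⧸ N)).index := Nat.pos_of_ne_zero Subgroup.FiniteIndex.index_ne_zero
    exact Nat.eq_of_mul_eq_mul_right h4 h1

theorem cores2_surjective {G : Type*} [Group G] {𝓛 : Lev G} [DistribMulAction G T] {H : Subgroup G}
    (hH : 𝓛.isOpen H) (kT : ∀ t : T, p • t = 0) (hidx : (Nat.card (G ⧸ H)).Coprime p) :
    Function.Surjective (cores2 T hH) := by
  intro x
  obtain ⟨a, b, hab⟩ := Nat.isCoprime_iff_coprime.mpr hidx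
  refine ⟨resH2 𝓛 H T (a • x), ?_⟩
  rw [cores2_res hH]
  have h4 : x = (a * (Nat.card (G ⧸ H) : ℤ) + b * (p : ℤ)) • x := by rw [hab, one_smul]
  have h5 : (p : ℤ) • x = 0 := by rw [natCast_zsmul]; exact H2_killed kT x
  conv_rhs => rw [h4, add_smul, mul_smul, mul_smul, h5, smul_zero, add_zero, natCast_zsmul]
  rw [smul_comm]

theorem injective_of_prime {X Y : Type*} [AddCommGroup X] [AddCommGroup Y] (ι : X ≃+ ZMod p)
    (f : X →+ Y) (hf : f ≠ 0) : Function.Injective f := by
  rw [injective_iff_map_eq_zero]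
  intro c hc
  by_contra hc0
  apply hf
  ext d
  have h0 : ι c ≠ 0 := fun h => hc0 (by rw [← ι.symm_apply_apply c, h, map_zero])
  obtain ⟨n, hn⟩ := ZMod.intCast_surjective (ι d * (ι c)⁻¹)
  have h6 : d = n • c := by
    apply ι.injective
    rw [map_zsmul, zsmul_eq_mul, hn, mul_assoc, inv_mul_cancel₀ h0, mul_one]
  rw [h6, map_zsmul, hc, smul_zero]
  rfl

/-- the pieces needed from a Sylow-type subgroup -/
theorem LocFam.exists_good (F : LocFam p T τ P) {G : Type u} [Group G] [DistribMulAction G T]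
    {𝓛 : Lev G} (smT : 𝓛.Smooth T)
    (hsub : ∀ H : Subgroup G, 𝓛.isOpen H → (∀ h ∈ H, ∀ t : T, h • t = t) → P H (𝓛.sub H))
    (hne : Nontrivial (H2 𝓛 T)) (N₀ : Subgroup G) (hN₀ : 𝓛.isOpen N₀) :
    ∃ (N H : Subgroup G) (n : ℕ) (hH : 𝓛.isOpen H), N.Normal ∧ 𝓛.isOpen N ∧ N ≤ N₀ ∧ N ≤ H ∧
      (Nat.card (G ⧸ H)).Coprime p ∧ N.relIndex H = p ^ n ∧ P H (𝓛.sub H) ∧
      Function.Bijective (cores2 T hH) := by
  have hT : Finite T := Finite.of_equiv _ τ.symm.toEquiv
  obtain ⟨U, hU, hUt⟩ := smT.finite (Set.toFinite (Set.univ : Set T))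
  obtain ⟨N, hNn, hN, hNU, hNN⟩ := 𝓛.exists_normal_le hU hN₀
  have := 𝓛.fin N hN
  obtain ⟨H, n, hNH, hidx, hrel⟩ := exists_sylow_level (p := p) N
  have hH : 𝓛.isOpen H := 𝓛.mono _ _ hN hNH
  have htriv : ∀ h ∈ H, ∀ t : T, h • t = t := by
    intro h hh t
    refine triv_of_pow τ h n (fun t => ?_) t
    refine hUt t trivial _ (hNU ?_)
    have h1 := (N.subgroupOf H).pow_index_mem ⟨h, hh⟩
    have h2 : (N.subgroupOf H).index = p ^ n := hrel
    rw [h2] at h1
    exact Subgroup.mem_subgroupOf.mp h1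
  have hPH := hsub H hH htriv
  refine ⟨N, H, n, hH, hNn, hN, hNN, hNH, hidx, hrel, hPH, ?_⟩
  have hs := cores2_surjective (T := T) hH (killedT τ) hidx
  obtain ⟨ι⟩ := F.inv H (𝓛.sub H) hPH
  refine ⟨injective_of_prime ι _ fun h0 => ?_, hs⟩
  obtain ⟨x, hx⟩ := exists_ne (0 : H2 𝓛 T)
  obtain ⟨y, rfl⟩ := hs x
  rw [h0] at hx
  exact hx rfl

/-- `H²(G, T) ≃ ZMod p` for a local group -/
theorem LocFam.exists_inv (F : LocFam p T τ P) {G : Type u} [Group G] [DistribMulAction G T]
    {𝓛 : Lev G} (smT : 𝓛.Smooth T)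
    (hsub : ∀ H : Subgroup G, 𝓛.isOpen H → (∀ h ∈ H, ∀ t : T, h • t = t) → P H (𝓛.sub H))
    (hne : Nontrivial (H2 𝓛 T)) : Nonempty (H2 𝓛 T ≃+ ZMod p) := by
  obtain ⟨N, H, n, hH, -, -, -, -, -, -, hPH, hb⟩ := F.exists_good smT hsub hne ⊤ 𝓛.top
  obtain ⟨ι⟩ := F.inv H (𝓛.sub H) hPH
  exact ⟨(AddEquiv.ofBijective _ hb).symm.trans ι⟩

/-- **Local duality** -/
theorem LocFam.ld (F : LocFam p T τ P) {G : Type u} [Group G] [DistribMulAction G T]
    {𝓛 : Lev G} (smT : 𝓛.Smooth T)
    (hsub : ∀ H : Subgroup G, 𝓛.isOpen H → (∀ h ∈ H, ∀ t : T, h • t = t) → P H (𝓛.sub H))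
    (hne : Nontrivial (H2 𝓛 T))
    {A : Type v} {B : Type v'} [AddCommGroup A] [AddCommGroup B] [DistribMulAction G A]
    [DistribMulAction G B] [Finite A] [Finite B] (e : A →+ B →+ T) (he : EqPair G e)
    (smA : 𝓛.Smooth A) (smB : 𝓛.Smooth B) (kA : ∀ a : A, p • a = 0) (kB : ∀ b : B, p • b = 0)
    (hl : ∀ a, (∀ b, e a b = 0) → a = 0) (hr : ∀ b, (∀ a, e a b = 0) → b = 0) :
    LD 𝓛 e he smB := by
  obtain ⟨U, hU, hUt⟩ := smA.finite (Set.toFinite (Set.univ : Set A))
  obtain ⟨V, hV, hVt⟩ := smB.finite (Set.toFinite (Set.univ : Set B))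
  obtain ⟨N, H, n, hH, hNn, hN, hNN, hNH, hidx, hrel, hPH, hb⟩ :=
    F.exists_good smT hsub hne _ (𝓛.inf _ _ hU hV)
  have h1 : LD (𝓛.sub H) e (fun g a b => he g a b) (smooth_sub smB) :=
    F.ld_unip hPH n (N.subgroupOf H) ⟨N, hN, le_rfl⟩ hrel (Nat.card A) A B e
      (fun g a b => he g a b) (smooth_sub smA) (smooth_sub smB) kA kB hl hr
      (fun g hg a => hUt a trivial _ (hNN (Subgroup.mem_subgroupOf.mp hg)).1)
      (fun g hg b => hVt b trivial _ (hNN (Subgroup.mem_subgroupOf.mp hg)).2) le_rfl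
  exact h1.of_sub hH smA smB kA kB hidx hb.1

end Main

end

end Fermat.Agent.CC
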