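import Fermat.Agent.CC.Conj
set_option autoImplicit false
set_option maxHeartbeats 400000

/-!
# Mackey decomposition of a coinduced module restricted to a subgroup `D`
(`H` normal, acting trivially on `T`)
-/

namespace Fermat.Agent.CC

noncomputable section

section Gen

variable {G : Type*} [Group G] (𝓛 : Lev G)

theorem Lev.iInf_open {J : Type*} [Finite J] (U : J → Subgroup G) (hU : ∀ j, 𝓛.isOpen (U j)) :
    𝓛.isOpen (⨅ j, U j) := by
  classical
  have := Fintype.ofFinite J
  have h : ∀ s : Finset J, 𝓛.isOpen (⨅ j ∈ s, U j) := by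
    intro s
    induction s using Finset.induction_on with
    | empty => simpa using 𝓛.top
    | insert a s ha ih =>
      rw [Finset.iInf_insert]
      exact 𝓛.inf _ _ (hU a) ih
  simpa using h Finset.univ

variable {𝓛}

theorem Lev.Const1.pi {J : Type*} [Finite J] {A : Type*} {f : J → G → A}
    (hf : ∀ j, 𝓛.Const1 (f j)) : 𝓛.Const1 (fun g j => f j g) := by
  choose U hU h using hf
  refine ⟨⨅ j, U j, 𝓛.iInf_open U hU, fun g s hs => ?_⟩
  funext j
  exact h j g s (Subgroup.mem_iInf.mp hs j)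

variable {A B : Type*} [AddCommGroup A] [AddCommGroup B] [DistribMulAction G A]
  [DistribMulAction G B]

theorem H2coef_bij_inj (f : A →+ B) (hf : ∀ (g : G) (a : A), f (g • a) = g • f a)
    (hb : Function.Bijective f) : Function.Injective (H2coef 𝓛 f hf) := by
  rw [injective_iff_map_eq_zero]
  intro x hx
  obtain ⟨x, rfl⟩ := H2.mk_surjective x
  rw [show H2coef 𝓛 f hf (H2.mk 𝓛 A x) = H2.mk 𝓛 B (Z2map _ 𝓛.cont_id f hf x) from rfl,
    H2.mk_eq_zero] at hx
  obtain ⟨ψ, hψ, h⟩ := hx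
  let e : A ≃+ B := AddEquiv.ofBijective f hb
  have he : ∀ (g : G) (b : B), e.symm (g • b) = g • e.symm b := by
    intro g b
    apply e.injective
    rw [e.apply_symm_apply]
    change _ = f (g • e.symm b)
    rw [hf]
    change _ = g • e (e.symm b)
    rw [e.apply_symm_apply]
  rw [H2.mk_eq_zero]
  refine ⟨fun g => e.symm (ψ g), hψ.comp _, fun g k => ?_⟩
  apply e.injective
  change f (x.1 g k) = e (g • e.symm (ψ k) - e.symm (ψ (g * k)) + e.symm (ψ g))
  rw [← he, ← map_sub, ← map_add, e.apply_symm_apply]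
  exact h g k

theorem H1coef_bijective (f : A →+ B) (hf : ∀ (g : G) (a : A), f (g • a) = g • f a)
    (hb : Function.Bijective f) : Function.Bijective (H1coef 𝓛 f hf) := by
  let e : A ≃+ B := AddEquiv.ofBijective f hb
  have he : ∀ (g : G) (b : B), e.symm (g • b) = g • e.symm b := by
    intro g b
    apply e.injective
    rw [e.apply_symm_apply]
    change _ = f (g • e.symm b)
    rw [hf]
    change _ = g • e (e.symm b)
    rw [e.apply_symm_apply]
  refine ⟨Function.LeftInverse.injective (g := H1coef 𝓛 e.symm.toAddMonoidHom he) fun x => ?_,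
    Function.RightInverse.surjective (g := H1coef 𝓛 e.symm.toAddMonoidHom he) fun x => ?_⟩
  · obtain ⟨x, rfl⟩ := H1.mk_surjective x
    change H1.mk _ _ _ = _
    congr 1
    apply Subtype.ext
    funext g
    exact e.symm_apply_apply (x.1 g)
  · obtain ⟨x, rfl⟩ := H1.mk_surjective x
    change H1.mk _ _ _ = _
    congr 1
    apply Subtype.ext
    funext g
    exact e.apply_symm_apply (x.1 g)

section Pi

variable {J : Type*} [Finite J]

theorem H2_pi_ext (x : H2 𝓛 (J → A))
    (hx : ∀ j, H2coef 𝓛 (Pi.evalAddMonoidHom (fun _ : J => A) j) (fun _ _ => rfl) x = 0) :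
    x = 0 := by
  obtain ⟨x, rfl⟩ := H2.mk_surjective x
  have h : ∀ j, ∃ ψ : G → A, 𝓛.Const1 ψ ∧ ∀ g k, x.1 g k j = d1 ψ g k := by
    intro j
    have := hx j
    rw [show H2coef 𝓛 (Pi.evalAddMonoidHom (fun _ : J => A) j) (fun _ _ => rfl) (H2.mk 𝓛 _ x) =
      H2.mk 𝓛 A (Z2map _ 𝓛.cont_id _ (fun _ _ => rfl) x) from rfl, H2.mk_eq_zero] at this
    exact this
  choose ψ hψ hd using h
  rw [H2.mk_eq_zero]
  refine ⟨fun g j => ψ j g, Lev.Const1.pi hψ, fun g k => ?_⟩
  funext j
  exact hd j g k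

/-- `H¹` of a finite product -/
def H1pi (𝓛 : Lev G) (J A : Type*) [AddCommGroup A] [DistribMulAction G A] :
    H1 𝓛 (J → A) →+ (J → H1 𝓛 A) :=
  AddMonoidHom.pi fun j => H1coef 𝓛 (Pi.evalAddMonoidHom (fun _ : J => A) j) (fun _ _ => rfl)

theorem H1pi_bijective : Function.Bijective (H1pi 𝓛 J A) := by
  constructor
  · rw [injective_iff_map_eq_zero]
    intro x hx
    obtain ⟨x, rfl⟩ := H1.mk_surjective x
    have h : ∀ j, ∃ a : A, ∀ g, x.1 g j = g • a - a := by
      intro j
      have h1 : H1.mk 𝓛 A (Z1map _ 𝓛.cont_id (Pi.evalAddMonoidHom (fun _ : J => A) j)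
        (fun _ _ => rfl) x) = 0 := congrFun hx j
      rw [H1.mk_eq_zero] at h1
      exact h1
    choose a ha using h
    rw [H1.mk_eq_zero]
    refine ⟨a, fun g => ?_⟩
    funext j
    exact ha j g
  · intro y
    choose f hf using fun j => H1.mk_surjective (y j)
    refine ⟨H1.mk 𝓛 _ ⟨fun g j => (f j).1 g, Lev.Const1.pi fun j => (f j).2.1, fun g k => ?_⟩, ?_⟩
    · funext j
      exact (f j).2.2 g k
    · funext j
      rw [← hf j]
      rfl

theorem card_H1_pi : Nat.card (H1 𝓛 (J → A)) = Nat.card (H1 𝓛 A) ^ Nat.card J := by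
  rw [Nat.card_congr (Equiv.ofBijective _ (H1pi_bijective (𝓛 := 𝓛) (J := J) (A := A))),
    Nat.card_fun]

end Pi

end Gen

section Mack

variable {G : Type*} [Group G] {H D : Subgroup G} {T : Type*} [AddCommGroup T]
  [DistribMulAction G T] (hn : H.Normal) (ht : ∀ h ∈ H, ∀ t : T, h • t = t)

/-- the double cosets -/
abbrev MJ (H D : Subgroup G) : Type _ := G ⧸ (H ⊔ D)

include hn in
theorem mk_dec (x : G) : ∃ h d : G, h ∈ H ∧ d ∈ D ∧
    x = (Quotient.out (QuotientGroup.mk x : MJ H D)) * h * d := by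
  obtain ⟨s, hs⟩ := QuotientGroup.mk_out_eq_mul (H ⊔ D) x
  obtain ⟨h, hh, d, hd, e⟩ := Subgroup.mem_sup_of_normal_left.mp (inv_mem s.2)
  refine ⟨h, d, hh, hd, ?_⟩
  have h1 : x = (Quotient.out (QuotientGroup.mk x : MJ H D)) * (s : G)⁻¹ := by
    rw [hs]; group
  conv_lhs => rw [h1, ← e]
  rw [mul_assoc]

theorem grp1 {G : Type*} [Group G] {o u x h1 d1 h2 d2 : G} (e2 : u * x = o * h1 * d1)
    (e3 : x = o * h2 * d2) : d1 * d2⁻¹ = h1⁻¹ * (o⁻¹ * u * o) * h2 := by
  subst e3
  have h3 : d1 = h1⁻¹ * o⁻¹ * (u * (o * h2 * d2)) := by rw [e2]; group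
  rw [h3]
  group

theorem grp2 {G : Type*} [Group G] {o x h1 d1 : G} (e : o * x = o * h1 * d1) :
    d1 * x⁻¹ = h1⁻¹ := by
  have h3 : x = h1 * d1 := by
    rw [mul_assoc] at e
    exact mul_left_cancel e
  rw [h3]
  group

/-- the Mackey map -/
def mack : CoInd H T →+ CoInd (H.subgroupOf D) (MJ H D → T) where
  toFun f := ⟨fun d j => f.1 (j.out * d), by
    intro n x
    funext j
    change f.1 (j.out * ((n : D) * x : G)) = ((n : D) : G) • f.1 (j.out * x)
    have hnH : ((n : D) : G) ∈ H := Subgroup.mem_subgroupOf.mp n.2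
    have h1 : j.out * ((n : D) * x : G) =
        ((⟨j.out * (n : D) * j.out⁻¹, hn.conj_mem _ hnH _⟩ : H) : G) * (j.out * x) := by
      change _ = j.out * (n : D) * j.out⁻¹ * (j.out * x)
      group
    rw [h1, f.2, ht _ hnH]
    exact ht _ (hn.conj_mem _ hnH _) _⟩
  map_zero' := rfl
  map_add' _ _ := rfl

theorem mack_apply (f : CoInd H T) (d : D) (j : MJ H D) : (mack hn ht f).1 d j = f.1 (j.out * d) :=
  rfl

theorem mack_smul (d : D) (f : CoInd H T) : mack hn ht (d • f) = d • mack (D := D) hn ht f := by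
  refine CoInd.ext fun x => ?_
  funext j
  change f.1 (j.out * x * d) = f.1 (j.out * ((x * d : D) : G))
  rw [Subgroup.coe_mul, mul_assoc]

theorem mack_bijective : Function.Bijective (mack (D := D) hn ht) := by
  have key : ∀ (f : CoInd H T) (j : MJ H D) (h d : G), h ∈ H →
      f.1 (j.out * h * d) = f.1 (j.out * d) := by
    intro f j h d hh
    have h1 : j.out * h * d = ((⟨j.out * h * j.out⁻¹, hn.conj_mem _ hh _⟩ : H) : G) *
        (j.out * d) := by
      change _ = j.out * h * j.out⁻¹ * (j.out * d)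
      group
    rw [h1, f.2]
    exact ht _ (hn.conj_mem _ hh _) _
  constructor
  · rw [injective_iff_map_eq_zero]
    intro f hf
    refine CoInd.ext fun x => ?_
    obtain ⟨h, d, hh, hd, hx⟩ := mk_dec (D := D) hn x
    rw [hx, key _ _ _ _ hh]
    exact congrFun (congrFun (congrArg Subtype.val hf) ⟨d, hd⟩) _
  · intro F
    choose h d hh hd hx using mk_dec (H := H) (D := D) hn
    have hF : ∀ (x y : D), ((y * x⁻¹ : D) : G) ∈ H → F.1 y = F.1 x := by
      intro x y hxy
      have h1 := F.2 ⟨y * x⁻¹, Subgroup.mem_subgroupOf.mpr hxy⟩ x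
      have h2 : ((⟨y * x⁻¹, Subgroup.mem_subgroupOf.mpr hxy⟩ : H.subgroupOf D) : D) * x = y :=
        inv_mul_cancel_right y x
      rw [h2] at h1
      refine h1.trans ?_
      funext j
      exact ht _ hxy _
    refine ⟨⟨fun x => F.1 ⟨d x, hd x⟩ (QuotientGroup.mk x), ?_⟩, ?_⟩
    · intro u x
      have e1 : (QuotientGroup.mk ((u : G) * x) : MJ H D) = QuotientGroup.mk x := by
        rw [QuotientGroup.eq]
        have : ((u : G) * x)⁻¹ * x = x⁻¹ * (u : G)⁻¹ * x := by group
        rw [this]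
        apply (le_sup_left : H ≤ H ⊔ D)
        simpa using hn.conj_mem _ (inv_mem u.2) x⁻¹
      have e2 := hx ((u : G) * x)
      have e3 := hx x
      rw [e1] at e2
      change F.1 ⟨d (u * x), hd _⟩ (QuotientGroup.mk (u * x)) = (u : G) • F.1 ⟨d x, hd x⟩ _
      rw [ht _ u.2, e1, hF ⟨d x, hd x⟩ ⟨d (u * x), hd _⟩]
      change d (u * x) * (d x)⁻¹ ∈ H
      rw [grp1 e2 e3]
      refine mul_mem (mul_mem (inv_mem (hh _)) ?_) (hh _)
      simpa using hn.conj_mem _ u.2 (Quotient.out (QuotientGroup.mk x : MJ H D))⁻¹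
    · refine CoInd.ext fun x => ?_
      funext j
      change F.1 ⟨d (j.out * x), hd _⟩ (QuotientGroup.mk (j.out * x)) = F.1 x j
      have e1 : (QuotientGroup.mk (j.out * (x : G)) : MJ H D) = j := by
        conv_rhs => rw [← Quotient.out_eq j]
        change (QuotientGroup.mk (j.out * (x : G)) : MJ H D) = QuotientGroup.mk j.out
        rw [QuotientGroup.eq]
        have : (j.out * (x : G))⁻¹ * j.out = (x : G)⁻¹ := by group
        rw [this]
        exact (le_sup_right : D ≤ H ⊔ D) (inv_mem x.2)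
      have e2 := hx (j.out * x)
      rw [e1] at e2
      rw [e1, hF x ⟨d (j.out * x), hd _⟩]
      change d (j.out * x) * (x : G)⁻¹ ∈ H
      rw [grp2 e2]
      exact inv_mem (hh _)

variable {𝓓 : Lev D}

include hn ht in
theorem compat_sub (g : G) : Compat (H.subgroupOf D).subtype (evg H T g) := by
  intro n f
  change f.1 (g * ((n : D) : G)) = ((n : D) : G) • f.1 g
  have hnH : ((n : D) : G) ∈ H := Subgroup.mem_subgroupOf.mp n.2
  have h1 : g * ((n : D) : G) = ((⟨g * (n : D) * g⁻¹, hn.conj_mem _ hnH _⟩ : H) : G) * g := by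
    change _ = g * (n : D) * g⁻¹ * g
    group
  rw [h1, f.2, ht _ hnH]
  exact ht _ (hn.conj_mem _ hnH _) _

/-- Mackey injectivity in degree two -/
theorem mack2_inj [Finite (MJ H D)] (hHo : 𝓓.isOpen (H.subgroupOf D)) (y : H2 𝓓 (CoInd H T))
    (hy : ∀ j : MJ H D, H2map (H.subgroupOf D).subtype (𝓓.cont_subtype _) (evg H T j.out)
      (compat_sub hn ht j.out) y = 0) : y = 0 := by
  apply H2coef_bij_inj (𝓛 := 𝓓) (mack (D := D) hn ht) (mack_smul hn ht) (mack_bijective hn ht)
  rw [map_zero]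
  apply sh2_injective hHo
  rw [map_zero]
  apply H2_pi_ext
  intro j
  rw [← hy j]
  obtain ⟨f, rfl⟩ := H2.mk_surjective y
  change H2.mk _ _ _ = H2.mk _ _ _
  congr 1
  apply Subtype.ext
  funext b b'
  change (f.1 (b : D) (b' : D)).1 (j.out * ((1 : D) : G)) = (f.1 (b : D) (b' : D)).1 j.out
  rw [Subgroup.coe_one, mul_one]

include ht hn in
/-- Mackey in degree one: cardinalities -/
theorem mack1_card [Finite (MJ H D)] (hHo : 𝓓.isOpen (H.subgroupOf D)) :
    Nat.card (H1 𝓓 (CoInd H T)) =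
      Nat.card (H1 (𝓓.sub (H.subgroupOf D)) T) ^ Nat.card (MJ H D) := by
  rw [← card_H1_pi (J := MJ H D), Nat.card_congr (Equiv.ofBijective _
    (H1coef_bijective (𝓛 := 𝓓) (mack (D := D) hn ht) (mack_smul hn ht) (mack_bijective hn ht)))]
  exact Nat.card_congr (Equiv.ofBijective _ ⟨sh1_injective, sh1_surjective hHo⟩)

end Mack

end

end Fermat.Agent.CC
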