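import Fermat.Agent.CC.PT1
set_option autoImplicit false
set_option maxHeartbeats 400000

/-!
# Abstract Poitou–Tate: the lifting lemma
-/

namespace Fermat.Agent.CC

noncomputable section

/-- coefficient maps on invariants -/
def H0coef (G : Type*) [Group G] {A B : Type*} [AddCommGroup A] [AddCommGroup B]
    [DistribMulAction G A] [DistribMulAction G B] (f : A →+ B)
    (hf : ∀ (g : G) (a : A), f (g • a) = g • f a) : H0 G A →+ H0 G B where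
  toFun a := ⟨f a, fun g => by rw [← hf, a.2]⟩
  map_zero' := Subtype.ext (map_zero f)
  map_add' a b := Subtype.ext (map_add f _ _)

/-- a dual pair of short exact sequences of perfect pairs -/
structure PSES (p : ℕ) {G : Type*} [Group G] {𝓛 : Lev G} {A B C A' B' C' T : Type*}
    [AddCommGroup A] [AddCommGroup B] [AddCommGroup C] [AddCommGroup A'] [AddCommGroup B']
    [AddCommGroup C'] [AddCommGroup T] [DistribMulAction G A] [DistribMulAction G B]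
    [DistribMulAction G C] [DistribMulAction G A'] [DistribMulAction G B'] [DistribMulAction G C']
    [DistribMulAction G T] (D : DualSES 𝓛 A B C A' B' C' T) : Prop where
  pA : Pr p 𝓛 D.eA
  pB : Pr p 𝓛 D.eB
  pC : Pr p 𝓛 D.eC

theorem PSES.flip {p : ℕ} {G : Type*} [Group G] {𝓛 : Lev G} {A B C A' B' C' T : Type*}
    [AddCommGroup A] [AddCommGroup B] [AddCommGroup C] [AddCommGroup A'] [AddCommGroup B']
    [AddCommGroup C'] [AddCommGroup T] [DistribMulAction G A] [DistribMulAction G B]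
    [DistribMulAction G C] [DistribMulAction G A'] [DistribMulAction G B'] [DistribMulAction G C']
    [DistribMulAction G T] {D : DualSES 𝓛 A B C A' B' C' T} (P : PSES p D) :
    PSES p D.flip where
  pA := P.pC.flip
  pB := P.pB.flip
  pC := P.pA.flip

namespace GLD

variable {p : ℕ} [Fact p.Prime] {G : Type} [Group G] {T : Type} [AddCommGroup T]
  [DistribMulAction G T] (𝒢 : GLD p G T)

section Coef

variable {A B : Type} [AddCommGroup A] [AddCommGroup B] [DistribMulAction G A]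
  [DistribMulAction G B] (f : A →+ B) (hf : ∀ (g : G) (a : A), f (g • a) = g • f a)

/-- coefficient map on products of local cohomology, degree two -/
def p2 : (∀ v, H2 (𝒢.L v) A) →+ (∀ v, H2 (𝒢.L v) B) where
  toFun y v := H2coef (𝒢.L v) f (fun g a => hf g a) (y v)
  map_zero' := funext fun v => map_zero _
  map_add' y y' := funext fun v => map_add _ _ _

/-- coefficient map on products of local cohomology, degree one -/
def p1 : (∀ v, H1 (𝒢.L v) A) →+ (∀ v, H1 (𝒢.L v) B) where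
  toFun y v := H1coef (𝒢.L v) f (fun g a => hf g a) (y v)
  map_zero' := funext fun v => map_zero _
  map_add' y y' := funext fun v => map_add _ _ _

/-- coefficient map on products of local invariants -/
def p0 : (∀ v, H0 (𝒢.D v) A) →+ (∀ v, H0 (𝒢.D v) B) where
  toFun y v := H0coef (𝒢.D v) f (fun g a => hf g a) (y v)
  map_zero' := funext fun v => map_zero _
  map_add' y y' := funext fun v => map_add _ _ _

theorem l0_coef (a : H0 G A) : 𝒢.l0 B (H0coef G f hf a) = 𝒢.p0 f hf (𝒢.l0 A a) := rfl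

theorem l1_coef (x : H1 𝒢.𝓛 A) : 𝒢.l1 B (H1coef 𝒢.𝓛 f hf x) = 𝒢.p1 f hf (𝒢.l1 A x) :=
  funext fun v => loc1_coef (𝒢.cont v) f hf x

theorem l2_coef (x : H2 𝒢.𝓛 A) : 𝒢.l2 B (H2coef 𝒢.𝓛 f hf x) = 𝒢.p2 f hf (𝒢.l2 A x) :=
  funext fun v => loc2_coef (𝒢.cont v) f hf x

end Coef

variable {A B C A' B' C' : Type}
    [AddCommGroup A] [AddCommGroup B] [AddCommGroup C] [AddCommGroup A'] [AddCommGroup B']
    [AddCommGroup C'] [DistribMulAction G A] [DistribMulAction G B]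
    [DistribMulAction G C] [DistribMulAction G A'] [DistribMulAction G B'] [DistribMulAction G C']
    {D : DualSES 𝒢.𝓛 A B C A' B' C' T} (P : PSES p D)

theorem s20_i_j (a : ∀ v, H2 (𝒢.L v) A) (b : ∀ v, H0 (𝒢.D v) B') :
    𝒢.s20 P.pB (𝒢.p2 D.E.i D.E.hi a) b = 𝒢.s20 P.pA a (𝒢.p0 D.E'.j D.E'.hj b) := by
  rw [s20_apply, s20_apply]
  refine Finset.sum_congr rfl fun v _ => ?_
  rw [b20_apply, b20_apply]
  congr 1
  exact (D.loc (𝒢.cont v)).cup20_i_j (a v) (b v) _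

theorem s20_j_i (z : ∀ v, H2 (𝒢.L v) B) (c : ∀ v, H0 (𝒢.D v) C') :
    𝒢.s20 P.pC (𝒢.p2 D.E.j D.E.hj z) c = 𝒢.s20 P.pB z (𝒢.p0 D.E'.i D.E'.hi c) := by
  rw [s20_apply, s20_apply]
  refine Finset.sum_congr rfl fun v _ => ?_
  rw [b20_apply, b20_apply]
  congr 1
  exact (D.loc (𝒢.cont v)).cup20_j_i (z v) (c v) _

theorem s11_i_j (a : ∀ v, H1 (𝒢.L v) A) (b : ∀ v, H1 (𝒢.L v) B') :
    𝒢.s11 P.pB (𝒢.p1 D.E.i D.E.hi a) b = 𝒢.s11 P.pA a (𝒢.p1 D.E'.j D.E'.hj b) := by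
  rw [s11_apply, s11_apply]
  refine Finset.sum_congr rfl fun v _ => ?_
  rw [b11_apply, b11_apply]
  congr 1
  exact (D.loc (𝒢.cont v)).cup11_i_j (a v) (b v)

theorem s11_j_i (z : ∀ v, H1 (𝒢.L v) B) (c : ∀ v, H1 (𝒢.L v) C') :
    𝒢.s11 P.pC (𝒢.p1 D.E.j D.E.hj z) c = 𝒢.s11 P.pB z (𝒢.p1 D.E'.i D.E'.hi c) := by
  rw [s11_apply, s11_apply]
  refine Finset.sum_congr rfl fun v _ => ?_
  rw [b11_apply, b11_apply]
  congr 1
  exact (D.loc (𝒢.cont v)).cup11_j_i (z v) (c v)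

/-- exactness at `P²`: the image of `H²` is the annihilator of `H⁰` -/
def E2 {A B : Type} [AddCommGroup A] [AddCommGroup B] [DistribMulAction G A]
    [DistribMulAction G B] {e : A →+ B →+ T} (h : Pr p 𝒢.𝓛 e) : Prop :=
  ∀ y : ∀ v, H2 (𝒢.L v) A, (∀ b : H0 G B, 𝒢.s20 h y (𝒢.l0 B b) = 0) → ∃ x, 𝒢.l2 A x = y

/-- vanishing of `Ш¹` -/
def Sha1Z (A : Type) [AddCommGroup A] [DistribMulAction G A] : Prop :=
  ∀ x : H1 𝒢.𝓛 A, 𝒢.l1 A x = 0 → x = 0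

/-- vanishing of `Ш²` -/
def Sha2Z (A : Type) [AddCommGroup A] [DistribMulAction G A] : Prop :=
  ∀ x : H2 𝒢.𝓛 A, 𝒢.l2 A x = 0 → x = 0

theorem p2_j_i (a : ∀ v, H2 (𝒢.L v) A) : 𝒢.p2 D.E.j D.E.hj (𝒢.p2 D.E.i D.E.hi a) = 0 := by
  funext v
  exact ((D.loc (𝒢.cont v)).E.H2_j_eq_zero_iff _).mpr ⟨a v, rfl⟩

include P in
/-- local surjectivity in degree two -/
theorem p2_surj (y : ∀ v, H2 (𝒢.L v) C) : ∃ z, 𝒢.p2 D.E.j D.E.hj z = y := by
  have kC' : ∀ x : (∀ v, H0 (𝒢.D v) C'), p • x = 0 := pi_killed fun v => H0_killed P.pC.kB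
  have kB' : ∀ x : (∀ v, H0 (𝒢.D v) B'), p • x = 0 := pi_killed fun v => H0_killed P.pB.kB
  obtain ⟨Λ, hΛ⟩ := fp_extend (p := p) kC' kB' (𝒢.p0 D.E'.i D.E'.hi) (𝒢.s20 P.pC y) (by
    intro c hc
    have : c = 0 := by
      funext v
      apply Subtype.ext
      apply D.E'.inj
      have h1 := congrFun hc v
      have h2 : D.E'.i (c v : C') = 0 := congrArg Subtype.val h1
      rw [h2]
      exact (map_zero D.E'.i).symm
    rw [this, map_zero])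
  obtain ⟨z, hz⟩ := 𝒢.repr20 P.pB Λ
  refine ⟨z, ?_⟩
  rw [← sub_eq_zero]
  apply 𝒢.s20_left P.pC
  intro c
  rw [map_sub, AddMonoidHom.sub_apply, 𝒢.s20_j_i P, hz, hΛ, sub_self]

include P in
/-- the lifting lemma -/
theorem lift (hB : 𝒢.E2 P.pB) (y : ∀ v, H2 (𝒢.L v) C)
    (hy : ∀ c : H0 G C', 𝒢.s20 P.pC y (𝒢.l0 C' c) = 0) :
    ∃ b : H2 𝒢.𝓛 B, 𝒢.p2 D.E.j D.E.hj (𝒢.l2 B b) = y := by
  obtain ⟨z, hz⟩ := 𝒢.p2_surj P y
  have kA' : ∀ x : (∀ v, H0 (𝒢.D v) A'), p • x = 0 := pi_killed fun v => H0_killed P.pA.kB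
  let m : H0 G B' →+ ∀ v, H0 (𝒢.D v) A' := (𝒢.p0 D.E'.j D.E'.hj).comp (𝒢.l0 B')
  obtain ⟨Λ, hΛ⟩ := fp_extend (p := p) (H0_killed P.pB.kB) kA' m
    ((𝒢.s20 P.pB z).comp (𝒢.l0 B')) (by
      intro b hb
      obtain ⟨v⟩ := 𝒢.neV
      have h1 : D.E'.j (b : B') = 0 := congrArg Subtype.val (congrFun hb v)
      obtain ⟨c, hc⟩ := (D.E'.exact _).mp h1
      have hc' : c ∈ H0 G C' := fun g => D.E'.inj (by rw [D.E'.hi, hc, b.2])
      have h2 : b = H0coef G D.E'.i D.E'.hi ⟨c, hc'⟩ := Subtype.ext hc.symm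
      change 𝒢.s20 P.pB z (𝒢.l0 B' b) = 0
      rw [h2, l0_coef, ← 𝒢.s20_j_i P, hz, hy])
  obtain ⟨a, ha⟩ := 𝒢.repr20 P.pA Λ
  obtain ⟨x, hx⟩ := hB (z - 𝒢.p2 D.E.i D.E.hi a) (fun b => by
    rw [map_sub, AddMonoidHom.sub_apply, 𝒢.s20_i_j P, ha, sub_eq_zero]
    exact (hΛ b).symm)
  refine ⟨x, ?_⟩
  rw [hx, map_sub, 𝒢.p2_j_i, sub_zero, hz]

include P in
theorem E2_quot (hB : 𝒢.E2 P.pB) : 𝒢.E2 P.pC := by
  intro y hy
  obtain ⟨b, hb⟩ := 𝒢.lift P hB y hy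
  exact ⟨H2coef 𝒢.𝓛 D.E.j D.E.hj b, by rw [l2_coef, hb]⟩

include P in
/-- surjectivity on `H²` when `Ш²` of the quotient vanishes -/
theorem H2_surj_of_sha (hB : 𝒢.E2 P.pB) (hC : 𝒢.Sha2Z C) :
    Function.Surjective (H2coef 𝒢.𝓛 D.E.j D.E.hj) := by
  intro c
  obtain ⟨b, hb⟩ := 𝒢.lift P hB (𝒢.l2 C c) (fun c' => 𝒢.rec20 P.pC c c')
  refine ⟨b, ?_⟩
  rw [← sub_eq_zero]
  apply hC
  rw [map_sub, l2_coef, hb, sub_self]

end GLD

end

end Fermat.Agent.CC
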