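import Fermat.Agent.CC.PT2
set_option autoImplicit false
set_option maxHeartbeats 400000

/-!
# Abstract Poitou–Tate: duality between `Ш²` and `Ш¹`
-/

namespace Fermat.Agent.CC

noncomputable section

section Radical

variable {p : ℕ} {W F S₂ S₁ : Type*} [AddCommGroup W] [AddCommGroup F] [AddCommGroup S₂]
  [AddCommGroup S₁]

/-- descend a pairing to quotients by its radicals -/
theorem radical_pairing (β : W →+ F →+ ZMod p) (π₂ : W →+ S₂) (hs₂ : Function.Surjective π₂)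
    (π₁ : F →+ S₁) (hs₁ : Function.Surjective π₁) (h2 : ∀ w, π₂ w = 0 ↔ ∀ f, β w f = 0)
    (h1 : ∀ f, π₁ f = 0 ↔ ∀ w, β w f = 0) :
    ∃ e : S₂ →+ S₁ →+ ZMod p, (∀ w f, e (π₂ w) (π₁ f) = β w f) ∧
      (∀ s, (∀ t, e s t = 0) → s = 0) ∧ (∀ t, (∀ s, e s t = 0) → t = 0) := by
  have key : ∀ w w' f f', π₂ w = π₂ w' → π₁ f = π₁ f' → β w f = β w' f' := by
    intro w w' f f' hw hf
    have e1 : β (w - w') f = 0 := (h2 (w - w')).mp (by rw [map_sub, hw, sub_self]) f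
    have e2 : β w' (f - f') = 0 := (h1 (f - f')).mp (by rw [map_sub, hf, sub_self]) w'
    rw [map_sub, AddMonoidHom.sub_apply, sub_eq_zero] at e1
    rw [map_sub, sub_eq_zero] at e2
    rw [e1, e2]
  set a : S₂ → W := Function.surjInv hs₂ with ha
  set b : S₁ → F := Function.surjInv hs₁ with hb
  have ha' : ∀ s, π₂ (a s) = s := Function.surjInv_eq hs₂
  have hb' : ∀ s, π₁ (b s) = s := Function.surjInv_eq hs₁
  let e : S₂ →+ S₁ →+ ZMod p :=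
    AddMonoidHom.mk' (fun s => AddMonoidHom.mk' (fun t => β (a s) (b t)) (by
      intro t t'
      rw [← map_add]
      exact key _ _ _ _ rfl (by rw [map_add, hb', hb', hb']))) (by
      intro s s'
      ext t
      change β (a (s + s')) (b t) = β (a s) (b t) + β (a s') (b t)
      rw [← AddMonoidHom.add_apply, ← map_add]
      exact key _ _ _ _ (by rw [map_add, ha', ha', ha']) rfl)
  have he : ∀ w f, e (π₂ w) (π₁ f) = β w f := fun w f => key _ _ _ _ (ha' _) (hb' _)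
  refine ⟨e, he, fun s hs => ?_, fun t ht => ?_⟩
  · obtain ⟨w, rfl⟩ := hs₂ s
    rw [h2]
    intro f
    rw [← he, hs]
  · obtain ⟨f, rfl⟩ := hs₁ t
    rw [h1]
    intro w
    rw [← he, ht]

end Radical

namespace GLD

variable {p : ℕ} [Fact p.Prime] {G : Type} [Group G] {T : Type} [AddCommGroup T]
  [DistribMulAction G T] (𝒢 : GLD p G T)

variable {A B C A' B' C' : Type}
    [AddCommGroup A] [AddCommGroup B] [AddCommGroup C] [AddCommGroup A'] [AddCommGroup B']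
    [AddCommGroup C'] [DistribMulAction G A] [DistribMulAction G B]
    [DistribMulAction G C] [DistribMulAction G A'] [DistribMulAction G B'] [DistribMulAction G C']
    {D : DualSES 𝒢.𝓛 A B C A' B' C' T} (P : PSES p D)

/-- `Ш¹` -/
def Sh1 (A : Type) [AddCommGroup A] [DistribMulAction G A] : AddSubgroup (H1 𝒢.𝓛 A) :=
  (𝒢.l1 A).ker

/-- `Ш²` -/
def Sh2 (A : Type) [AddCommGroup A] [DistribMulAction G A] : AddSubgroup (H2 𝒢.𝓛 A) :=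
  (𝒢.l2 A).ker

/-- pairs `(w, a)` with `loc w = i a` -/
def WW (D : DualSES 𝒢.𝓛 A B C A' B' C' T) : AddSubgroup (H2 𝒢.𝓛 B × (∀ v, H2 (𝒢.L v) A)) :=
  AddMonoidHom.eqLocus ((𝒢.l2 B).comp (AddMonoidHom.fst _ _))
    ((𝒢.p2 D.E.i D.E.hi).comp (AddMonoidHom.snd _ _))

/-- pairs `(f, y)` with `j' f = loc y` -/
def FF (D : DualSES 𝒢.𝓛 A B C A' B' C' T) :
    AddSubgroup ((∀ v, H0 (𝒢.D v) B') × H0 G A') :=
  AddMonoidHom.eqLocus ((𝒢.p0 D.E'.j D.E'.hj).comp (AddMonoidHom.fst _ _))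
    ((𝒢.l0 A').comp (AddMonoidHom.snd _ _))

theorem WW_spec (w : 𝒢.WW D) : 𝒢.l2 B w.1.1 = 𝒢.p2 D.E.i D.E.hi w.1.2 := w.2

theorem FF_spec (f : 𝒢.FF D) : 𝒢.p0 D.E'.j D.E'.hj f.1.1 = 𝒢.l0 A' f.1.2 := f.2

/-- local exactness in degree two -/
theorem exact2 (z : ∀ v, H2 (𝒢.L v) B) (hz : 𝒢.p2 D.E.j D.E.hj z = 0) :
    ∃ a, 𝒢.p2 D.E.i D.E.hi a = z := by
  have h1 : ∀ v, ∃ a : H2 (𝒢.L v) A, H2coef (𝒢.L v) D.E.i (fun g a => D.E.hi g a) a = z v := by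
    intro v
    exact ((D.loc (𝒢.cont v)).E.H2_j_eq_zero_iff _).mp (congrFun hz v)
  choose a ha using h1
  exact ⟨a, funext ha⟩

theorem l1_δ0 (y : H0 G C) (v : 𝒢.V) :
    𝒢.l1 A (D.E.δ0 y) v = (D.E.loc (𝒢.cont v)).δ0 (𝒢.l0 C y v) :=
  SES.loc_δ0 (𝒢.cont v) D.E y

/-- projection `WW → Ш²` -/
def piW (D : DualSES 𝒢.𝓛 A B C A' B' C' T) : 𝒢.WW D →+ 𝒢.Sh2 C :=
  AddMonoidHom.codRestrict ((H2coef 𝒢.𝓛 D.E.j D.E.hj).comp
    ((AddMonoidHom.fst _ _).comp (𝒢.WW D).subtype)) (𝒢.Sh2 C) (by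
      intro w
      change 𝒢.l2 C (H2coef 𝒢.𝓛 D.E.j D.E.hj w.1.1) = 0
      rw [l2_coef, WW_spec, p2_j_i])

/-- projection `FF → Ш¹` -/
def piF (D : DualSES 𝒢.𝓛 A B C A' B' C' T) : 𝒢.FF D →+ 𝒢.Sh1 C' :=
  AddMonoidHom.codRestrict (D.E'.δ0.comp
    ((AddMonoidHom.snd _ _).comp (𝒢.FF D).subtype)) (𝒢.Sh1 C') (by
      intro f
      change 𝒢.l1 C' (D.E'.δ0 f.1.2) = 0
      funext v
      rw [show 𝒢.l1 C' (D.E'.δ0 f.1.2) v = (D.E'.loc (𝒢.cont v)).δ0 (𝒢.l0 A' f.1.2 v) from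
        SES.loc_δ0 (𝒢.cont v) D.E' _]
      rw [Pi.zero_apply, SES.δ0_eq_zero_iff]
      have h1 := congrFun (𝒢.FF_spec f) v
      exact ⟨f.1.1 v, congrArg Subtype.val h1⟩)

/-- the pairing -/
def betaWF (P : PSES p D) : 𝒢.WW D →+ 𝒢.FF D →+ ZMod p :=
  (((𝒢.s20 P.pB).comp ((𝒢.l2 B).comp ((AddMonoidHom.fst _ _).comp (𝒢.WW D).subtype))).compr₂
    (AddMonoidHom.id _)).compl₂ ((AddMonoidHom.fst _ _).comp (𝒢.FF D).subtype)

theorem betaWF_apply (w : 𝒢.WW D) (f : 𝒢.FF D) :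
    𝒢.betaWF P w f = 𝒢.s20 P.pB (𝒢.l2 B w.1.1) f.1.1 := rfl

/-- **Poitou–Tate duality** between `Ш²(C)` and `Ш¹(C')` -/
theorem sha_duality (hs : Function.Surjective (H2coef 𝒢.𝓛 D.E.j D.E.hj)) (h2B : 𝒢.Sha2Z B)
    (hEA : 𝒢.E2 P.pA) (hEB : 𝒢.E2 P.pB) (h1B : 𝒢.Sha1Z B') :
    ∃ e : 𝒢.Sh2 C →+ 𝒢.Sh1 C' →+ ZMod p,
      (∀ s, (∀ t, e s t = 0) → s = 0) ∧ (∀ t, (∀ s, e s t = 0) → t = 0) := by
  have kP0B' : ∀ x : (∀ v, H0 (𝒢.D v) B'), p • x = 0 := pi_killed fun v => H0_killed P.pB.kB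
  have kP0A' : ∀ x : (∀ v, H0 (𝒢.D v) A'), p • x = 0 := pi_killed fun v => H0_killed P.pA.kB
  have hsW : Function.Surjective (𝒢.piW D) := by
    rintro ⟨x, hx⟩
    obtain ⟨w, rfl⟩ := hs x
    have hx' : 𝒢.l2 C (H2coef 𝒢.𝓛 D.E.j D.E.hj w) = 0 := hx
    rw [l2_coef] at hx'
    obtain ⟨a, ha⟩ := 𝒢.exact2 _ hx'
    exact ⟨⟨(w, a), ha.symm⟩, rfl⟩
  have hsF : Function.Surjective (𝒢.piF D) := by
    rintro ⟨x, hx⟩
    have hx' : 𝒢.l1 C' x = 0 := hx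
    have h1 : H1coef 𝒢.𝓛 D.E'.i D.E'.hi x = 0 := by
      apply h1B
      rw [l1_coef, hx', map_zero]
    obtain ⟨y, rfl⟩ := (D.E'.H1_i_eq_zero_iff x).mp h1
    have h2 : ∀ v, ∃ f : H0 (𝒢.D v) B', D.E'.j (f : B') = y := by
      intro v
      have h3 := congrFun hx' v
      rw [show 𝒢.l1 C' (D.E'.δ0 y) v = (D.E'.loc (𝒢.cont v)).δ0 (𝒢.l0 A' y v) from
        SES.loc_δ0 (𝒢.cont v) D.E' _, Pi.zero_apply, SES.δ0_eq_zero_iff] at h3
      exact h3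
    choose f hf using h2
    exact ⟨⟨(f, y), funext fun v => Subtype.ext (hf v)⟩, rfl⟩
  have HW : ∀ w, 𝒢.piW D w = 0 ↔ ∀ f, 𝒢.betaWF P w f = 0 := by
    intro w
    constructor
    · intro hw f
      have hw' : H2coef 𝒢.𝓛 D.E.j D.E.hj w.1.1 = 0 := congrArg Subtype.val hw
      obtain ⟨a₀, ha₀⟩ := (D.E.H2_j_eq_zero_iff _).mp hw'
      rw [betaWF_apply, ← ha₀, l2_coef, 𝒢.s20_i_j P, FF_spec, 𝒢.rec20]
    · intro hw
      -- functional on `P⁰(A') / Y`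
      let Y : AddSubgroup (∀ v, H0 (𝒢.D v) A') := (𝒢.l0 A').range
      have kQ : ∀ x : (∀ v, H0 (𝒢.D v) A') ⧸ Y, p • x = 0 := by
        intro x
        obtain ⟨x, rfl⟩ := QuotientAddGroup.mk'_surjective Y x
        rw [← map_nsmul, kP0A', map_zero]
      obtain ⟨Λ, hΛ⟩ := fp_extend (p := p) kP0B' kQ
        ((QuotientAddGroup.mk' Y).comp (𝒢.p0 D.E'.j D.E'.hj)) (𝒢.s20 P.pB (𝒢.l2 B w.1.1)) (by
          intro f hf
          have hf' : 𝒢.p0 D.E'.j D.E'.hj f ∈ Y := (QuotientAddGroup.eq_zero_iff _).mp hf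
          obtain ⟨y, hy⟩ := hf'
          exact hw ⟨(f, y), hy.symm⟩)
      obtain ⟨a', ha'⟩ := 𝒢.repr20 P.pA (Λ.comp (QuotientAddGroup.mk' Y))
      obtain ⟨a₀, ha₀⟩ := hEA a' (fun b => by
        rw [ha']
        change Λ (QuotientAddGroup.mk' Y (𝒢.l0 A' b)) = 0
        rw [show QuotientAddGroup.mk' Y (𝒢.l0 A' b) = 0 from
          (QuotientAddGroup.eq_zero_iff _).mpr ⟨b, rfl⟩, map_zero])
      have h3 : 𝒢.l2 B (w.1.1 - H2coef 𝒢.𝓛 D.E.i D.E.hi a₀) = 0 := by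
        apply 𝒢.s20_left P.pB
        intro f
        rw [map_sub, map_sub, AddMonoidHom.sub_apply, l2_coef, 𝒢.s20_i_j P, ha₀, ha',
          sub_eq_zero]
        exact (hΛ f).symm
      have h4 := sub_eq_zero.mp (h2B _ h3)
      apply Subtype.ext
      change H2coef 𝒢.𝓛 D.E.j D.E.hj w.1.1 = 0
      rw [h4]
      exact (D.E.H2_j_eq_zero_iff _).mpr ⟨a₀, rfl⟩
  have HF : ∀ f, 𝒢.piF D f = 0 ↔ ∀ w, 𝒢.betaWF P w f = 0 := by
    intro f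
    constructor
    · intro hf w
      have hf' : D.E'.δ0 f.1.2 = 0 := congrArg Subtype.val hf
      obtain ⟨g, hg⟩ := (D.E'.δ0_eq_zero_iff _).mp hf'
      have hg' : f.1.2 = H0coef G D.E'.j D.E'.hj g := Subtype.ext hg.symm
      rw [betaWF_apply, WW_spec, 𝒢.s20_i_j P, FF_spec, hg', l0_coef, ← 𝒢.s20_i_j P, ← WW_spec,
        𝒢.rec20]
    · intro hf
      let N : AddSubgroup (∀ v, H0 (𝒢.D v) B') :=
        (𝒢.l0 B').range ⊔ (𝒢.p0 D.E'.i D.E'.hi).range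
      have hfN : f.1.1 ∈ N := by
        by_contra hcon
        obtain ⟨Λ, hΛN, hΛf⟩ := fp_sep (p := p) kP0B' N hcon
        obtain ⟨z, hz⟩ := 𝒢.repr20 P.pB Λ
        obtain ⟨w, hw⟩ := hEB z (fun b => by
          rw [hz]
          exact hΛN _ (AddSubgroup.mem_sup_left ⟨b, rfl⟩))
        have h5 : 𝒢.p2 D.E.j D.E.hj z = 0 := by
          apply 𝒢.s20_left P.pC
          intro c
          rw [𝒢.s20_j_i P, hz]
          exact hΛN _ (AddSubgroup.mem_sup_right ⟨c, rfl⟩)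
        obtain ⟨a, ha⟩ := 𝒢.exact2 _ h5
        have h6 := hf ⟨(w, a), by
          change 𝒢.l2 B w = 𝒢.p2 D.E.i D.E.hi a
          rw [hw, ha]⟩
        rw [betaWF_apply] at h6
        change 𝒢.s20 P.pB (𝒢.l2 B w) f.1.1 = 0 at h6
        rw [hw, hz] at h6
        exact hΛf h6
      obtain ⟨_, ⟨g, rfl⟩, _, ⟨m, rfl⟩, hgm⟩ := AddSubgroup.mem_sup.mp hfN
      apply Subtype.ext
      change D.E'.δ0 f.1.2 = 0
      rw [SES.δ0_eq_zero_iff]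
      refine ⟨g, ?_⟩
      obtain ⟨v⟩ := 𝒢.neV
      have h7 := congrFun (𝒢.FF_spec f) v
      have h8 : D.E'.j ((f.1.1 v : H0 (𝒢.D v) B') : B') = f.1.2 := congrArg Subtype.val h7
      have h9 : ((f.1.1 v : H0 (𝒢.D v) B') : B') = (g : B') + D.E'.i (m v : C') := by
        have := congrArg (fun F => ((F v : H0 (𝒢.D v) B') : B')) hgm
        exact this.symm
      rw [h9, map_add, D.E'.j_i, add_zero] at h8
      exact h8
  obtain ⟨e, -, he1, he2⟩ := radical_pairing (𝒢.betaWF P) (𝒢.piW D) hsW (𝒢.piF D) hsF HW HF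
  exact ⟨e, he1, he2⟩

end GLD

end

end Fermat.Agent.CC
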