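import Fermat.Agent.CC.PT3
set_option autoImplicit false
set_option maxHeartbeats 400000

/-!
# Perfect pairings on coinduced modules, dual sequences
-/

namespace Fermat.Agent.CC

noncomputable section

section CoE

variable {G : Type*} [Group G] {H : Subgroup G} {A B C T : Type*} [AddCommGroup A]
  [AddCommGroup B] [AddCommGroup C] [AddCommGroup T] [DistribMulAction H A]
  [DistribMulAction H B] [DistribMulAction H C] [DistribMulAction G T]

/-- functoriality of coinduction for `H`-equivariant maps -/
def coMapH (f : A →+ B) (hf : ∀ (h : H) (a : A), f (h • a) = h • f a) : CoInd H A →+ CoInd H B where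
  toFun φ := ⟨fun x => f (φ.1 x), fun u x => by
    beta_reduce
    rw [φ.2, hf]⟩
  map_zero' := CoInd.ext fun x => map_zero f
  map_add' φ ψ := CoInd.ext fun x => map_add f _ _

@[simp] theorem coMapH_apply (f : A →+ B) (hf : ∀ (h : H) (a : A), f (h • a) = h • f a)
    (φ : CoInd H A) (x : G) : (coMapH f hf φ).1 x = f (φ.1 x) := rfl

theorem coMapH_smul (f : A →+ B) (hf : ∀ (h : H) (a : A), f (h • a) = h • f a) (g : G)
    (φ : CoInd H A) : coMapH f hf (g • φ) = g • coMapH f hf φ := rfl

/-- pointwise product -/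
def coMul (e : A →+ B →+ C) (he : EqPair H e) : CoInd H A →+ CoInd H B →+ CoInd H C where
  toFun f :=
    { toFun := fun f' => ⟨fun x => e (f.1 x) (f'.1 x), fun u x => by
        beta_reduce
        rw [f.2, f'.2, he]⟩
      map_zero' := CoInd.ext fun x => by simp
      map_add' := fun b b' => CoInd.ext fun x => by simp }
  map_zero' := by ext b; simp
  map_add' f f' := by ext b; simp

@[simp] theorem coMul_apply (e : A →+ B →+ C) (he : EqPair H e) (f : CoInd H A) (f' : CoInd H B)
    (x : G) : (coMul e he f f').1 x = e (f.1 x) (f'.1 x) := rfl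

variable [Finite (G ⧸ H)]

/-- the pairing on coinduced modules -/
def coE (e : A →+ B →+ T) (he : EqPair H e) : CoInd H A →+ CoInd H B →+ T :=
  (coMul e he).compr₂ (sumMap H T)

theorem coE_apply (e : A →+ B →+ T) (he : EqPair H e) (f : CoInd H A) (f' : CoInd H B) :
    coE e he f f' = sumMap H T (coMul e he f f') := rfl

theorem coE_eq (e : A →+ B →+ T) (he : EqPair H e) : EqPair G (coE e he) := by
  intro g f f'
  rw [coE_apply, coE_apply, ← sumMap_smul]
  rfl

open Classical in
/-- function supported on one coset -/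
def deltaFun (x₀ : G) (b : B) : CoInd H B :=
  ⟨fun x => if h : x * x₀⁻¹ ∈ H then (⟨x * x₀⁻¹, h⟩ : H) • b else 0, fun u x => by
    beta_reduce
    have h1 : (u : G) * x * x₀⁻¹ ∈ H ↔ x * x₀⁻¹ ∈ H := by
      rw [mul_assoc]; exact H.mul_mem_cancel_left u.2
    by_cases h : x * x₀⁻¹ ∈ H
    · rw [dif_pos h, dif_pos (h1.mpr h), ← mul_smul]
      congr 1
      apply Subtype.ext
      simp [mul_assoc]
    · rw [dif_neg h, dif_neg (fun h' => h (h1.mp h')), smul_zero]⟩

open Classical in
theorem deltaFun_apply (x₀ : G) (b : B) (x : G) : (deltaFun x₀ b : CoInd H B).1 x =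
    if h : x * x₀⁻¹ ∈ H then (⟨x * x₀⁻¹, h⟩ : H) • b else 0 := rfl

theorem coE_deltaFun (e : A →+ B →+ T) (he : EqPair H e) (f : CoInd H A) (x₀ : G) (b : B) :
    coE e he f (deltaFun x₀ b) = x₀⁻¹ • e (f.1 x₀) b := by
  classical
  rw [coE_apply, sumMap_apply, finsum_eq_single _ (QuotientGroup.mk x₀⁻¹ : G ⧸ H)]
  · rw [sumFun_mk, coMul_apply, inv_inv, deltaFun_apply, dif_pos (by simp)]
    congr 2
    have : (⟨x₀ * x₀⁻¹, by simp⟩ : H) = 1 := Subtype.ext (mul_inv_cancel x₀)
    rw [this, one_smul]
  · intro q hq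
    obtain ⟨y, rfl⟩ := QuotientGroup.mk_surjective q
    rw [sumFun_mk, coMul_apply, deltaFun_apply, dif_neg, map_zero, smul_zero]
    intro h
    apply hq
    rw [QuotientGroup.eq]
    exact h

theorem coE_left (e : A →+ B →+ T) (he : EqPair H e) (hl : ∀ a, (∀ b, e a b = 0) → a = 0)
    (f : CoInd H A) (hf : ∀ f', coE e he f f' = 0) : f = 0 := by
  refine CoInd.ext fun x => ?_
  rw [CoInd.zero_apply]
  apply hl
  intro b
  have h1 := hf (deltaFun x b)
  rw [coE_deltaFun] at h1
  exact (smul_eq_zero_iff_eq _).mp h1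

theorem coMul_flip (e : A →+ B →+ T) (he : EqPair H e) (f : CoInd H A) (f' : CoInd H B) :
    coE e.flip he.flip f' f = coE e he f f' := rfl

end CoE

section Fin

variable {G : Type*} [Group G] {H : Subgroup G} {A : Type*} [AddCommGroup A] [DistribMulAction H A]

theorem finite_coInd [Finite (G ⧸ H)] [Finite A] : Finite (CoInd H A) := by
  refine Finite.of_injective (fun (f : CoInd H A) (q : G ⧸ H) => f.1 (Quotient.out q)⁻¹) ?_
  intro f f' h
  refine CoInd.ext fun x => ?_
  obtain ⟨u, hu⟩ := QuotientGroup.mk_out_eq_mul H x⁻¹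
  have h1 := congrFun h (QuotientGroup.mk x⁻¹)
  beta_reduce at h1
  rw [hu, mul_inv_rev, inv_inv] at h1
  have h2 : x = (u : G) * ((u : G)⁻¹ * x) := by group
  rw [h2, f.2, f'.2]
  congr 1

end Fin

/-- perfect pair of coinduced modules -/
theorem Pr.co {p : ℕ} {G : Type*} [Group G] {𝓛 : Lev G} {H : Subgroup G} (hH : 𝓛.isOpen H)
    [Finite (G ⧸ H)] {A B T : Type*} [AddCommGroup A] [AddCommGroup B] [AddCommGroup T]
    [DistribMulAction H A] [DistribMulAction H B] [DistribMulAction G T] {e : A →+ B →+ T}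
    (h : Pr p (𝓛.sub H) e) : Pr p 𝓛 (coE e h.he) where
  fA := by
    have := h.fA
    exact finite_coInd
  fB := by
    have := h.fB
    exact finite_coInd
  he := coE_eq e h.he
  smA := CoInd.smooth hH h.smA
  smB := CoInd.smooth hH h.smB
  kA f := CoInd.ext fun x => h.kA _
  kB f := CoInd.ext fun x => h.kB _
  hl := coE_left e h.he h.hl
  hr f hf := coE_left e.flip h.he.flip h.hr f fun f' => by
    rw [coMul_flip]; exact hf f'

theorem Pr.sub {p : ℕ} {G : Type*} [Group G] {𝓛 : Lev G} (H : Subgroup G)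
    {A B T : Type*} [AddCommGroup A] [AddCommGroup B] [AddCommGroup T]
    [DistribMulAction G A] [DistribMulAction G B] [DistribMulAction G T] {e : A →+ B →+ T}
    (h : Pr p 𝓛 e) : Pr p (𝓛.sub H) e where
  fA := h.fA
  fB := h.fB
  he := h.he.sub H
  smA := smooth_sub h.smA
  smB := smooth_sub h.smB
  kA := h.kA
  kB := h.kB
  hl := h.hl
  hr := h.hr

section MkD

variable {p : ℕ} [Fact p.Prime] {G : Type*} [Group G] {𝓛 : Lev G} {B C B' C' T : Type*}
  [AddCommGroup B] [AddCommGroup C] [AddCommGroup B'] [AddCommGroup C'] [AddCommGroup T]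
  [DistribMulAction G B] [DistribMulAction G C] [DistribMulAction G B'] [DistribMulAction G C']
  [DistribMulAction G T] {eB : B →+ B' →+ T} {eC : C →+ C' →+ T} (hB : Pr p 𝓛 eB)
  (hC : Pr p 𝓛 eC) (j : B →+ C) (hj : ∀ (g : G) (b : B), j (g • b) = g • j b)
  (hs : Function.Surjective j) (i : C' →+ B') (hi : ∀ (g : G) (c : C'), i (g • c) = g • i c)
  (adj : ∀ b c, eC (j b) c = eB b (i c))

/-- the pairing between the kernel and the cokernel -/
def mkE (eB : B →+ B' →+ T) (adj : ∀ b c, eC (j b) c = eB b (i c)) :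
    (GSub.ker j hj).S →+ (GSub.range i hi).Q →+ T :=
  AddMonoidHom.mk' (fun s => QuotientAddGroup.lift _ (eB ((GSub.ker j hj).incl s)) (by
    rintro _ ⟨c, rfl⟩
    rw [AddMonoidHom.mem_ker, ← adj, show j ((GSub.ker j hj).incl s) = 0 from
      (GSub.ker j hj).incl_mem s, map_zero]; rfl)) (by
    intro s s'
    refine QuotientAddGroup.addMonoidHom_ext _ ?_
    ext b
    change eB ((GSub.ker j hj).incl (s + s')) b = eB ((GSub.ker j hj).incl s) b +
      eB ((GSub.ker j hj).incl s') b
    rw [map_add, map_add]; rfl)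

theorem mkE_proj (s : (GSub.ker j hj).S) (b : B') :
    mkE j hj i hi eB adj s ((GSub.range i hi).proj b) = eB ((GSub.ker j hj).incl s) b := rfl

include hC hs adj in
theorem mk_inj : Function.Injective i := by
  rw [injective_iff_map_eq_zero]
  intro c hc
  apply hC.hr
  intro a
  obtain ⟨b, rfl⟩ := hs a
  rw [adj, hc, map_zero]

/-- the dual pair of sequences attached to a surjection -/
def mkD : DualSES 𝓛 (GSub.ker j hj).S B C (GSub.range i hi).Q B' C' T where
  E :=
    { i := (GSub.ker j hj).incl
      j := j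
      hi := (GSub.ker j hj).incl_smul
      hj := hj
      inj := (GSub.ker j hj).incl_injective
      surj := hs
      exact := fun b => by
        constructor
        · intro h
          exact ⟨(GSub.ker j hj).mkS b h, rfl⟩
        · rintro ⟨s, rfl⟩
          exact (GSub.ker j hj).incl_mem s
      smA := (GSub.ker j hj).smoothS hB.smA
      smB := hB.smA
      smC := hC.smA }
  E' :=
    { i := i
      j := (GSub.range i hi).proj
      hi := hi
      hj := (GSub.range i hi).proj_smul
      inj := mk_inj hC j hs i adj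
      surj := (GSub.range i hi).proj_surjective
      exact := fun b => (GSub.range i hi).proj_eq_zero
      smA := hC.smB
      smB := hB.smB
      smC := (GSub.range i hi).smoothQ hB.smB }
  eA := mkE j hj i hi eB adj
  eB := eB
  eC := eC
  hA g s b := by
    obtain ⟨b, rfl⟩ := (GSub.range i hi).proj_surjective b
    rw [← GSub.proj_smul, mkE_proj, mkE_proj, GSub.incl_smul, hB.he]
  hB := hB.he
  hC := hC.he
  hAB s b := rfl
  hBC := adj

/-- all the pairings of `mkD` are perfect -/
theorem mkD_pses (τ : T ≃+ ZMod p) : PSES p (mkD hB hC j hj hs i hi adj) where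
  pA :=
    { fA := by
        have := hB.fA
        exact Finite.of_injective _ (GSub.ker j hj).incl_injective
      fB := by
        have := hB.fB
        exact Finite.of_surjective _ (GSub.range i hi).proj_surjective
      he := (mkD hB hC j hj hs i hi adj).hA
      smA := (GSub.ker j hj).smoothS hB.smA
      smB := (GSub.range i hi).smoothQ hB.smB
      kA := fun s => (GSub.ker j hj).incl_injective (by rw [map_nsmul, hB.kA, map_zero])
      kB := fun b => by
        obtain ⟨b, rfl⟩ := (GSub.range i hi).proj_surjective b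
        rw [← map_nsmul, hB.kB, map_zero]
      hl := fun s hsz => (GSub.ker j hj).incl_injective (by
        rw [map_zero]
        exact hB.hl _ fun b => hsz ((GSub.range i hi).proj b))
      hr := fun b hb => by
        obtain ⟨b, rfl⟩ := (GSub.range i hi).proj_surjective b
        rw [GSub.proj_eq_zero]
        have hfin := hC.fA
        have hfin' := hC.fB
        obtain ⟨Λ, hΛ⟩ := fp_extend (p := p) hB.kA hC.kA j (τ.toAddMonoidHom.comp (eB.flip b))
          (fun b₀ hb₀ => by
            have h1 : eB b₀ b = 0 := hb ((GSub.ker j hj).mkS b₀ hb₀)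
            change τ (eB b₀ b) = 0
            rw [h1, map_zero])
        obtain ⟨c, hc⟩ := (fpT_perfect τ hC.kA hC.kB eC hC.hl hC.hr).1 Λ
        refine ⟨c, ?_⟩
        rw [← sub_eq_zero]
        apply hB.hr
        intro b₀
        rw [map_sub, ← adj, sub_eq_zero]
        apply τ.injective
        rw [hc, hΛ]
        rfl }
  pB := hB
  pC := hC

end MkD

/-- the adjoint of an injection is surjective -/
theorem adj_surj {p : ℕ} [Fact p.Prime] {B C B' C' T : Type*}
    [AddCommGroup B] [AddCommGroup C] [AddCommGroup B'] [AddCommGroup C'] [AddCommGroup T]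
    (τ : T ≃+ ZMod p) [Finite C] [Finite C'] {eB : B →+ B' →+ T} {eC : C →+ C' →+ T}
    (kC : ∀ c : C, p • c = 0) (kC' : ∀ c : C', p • c = 0)
    (hlC : ∀ a, (∀ b, eC a b = 0) → a = 0) (hrC : ∀ b, (∀ a, eC a b = 0) → b = 0)
    (hrB : ∀ b, (∀ a, eB a b = 0) → b = 0) (j : B →+ C) (i : C' →+ B')
    (hi : Function.Injective i) (adj : ∀ b c, eC (j b) c = eB b (i c)) :
    Function.Surjective j := by
  intro c
  by_contra hcon
  have hc : c ∉ j.range := hcon
  obtain ⟨Λ, hΛ, hΛc⟩ := fp_sep (p := p) kC j.range hc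
  obtain ⟨c', hc'⟩ := (fpT_perfect τ kC kC' eC hlC hrC).1 Λ
  have h1 : c' = 0 := by
    apply hi
    rw [map_zero]
    apply hrB
    intro b
    rw [← adj]
    apply τ.injective
    rw [hc', hΛ _ ⟨b, rfl⟩, map_zero]
  apply hΛc
  rw [← hc', h1, map_zero, map_zero]

end

end Fermat.Agent.CC
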