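import Fermat.Agent.CC.PT4
set_option autoImplicit false
set_option maxHeartbeats 400000

/-!
# Transfer of the hypotheses from `CoInd H T` to `CoInd H M`
-/

namespace Fermat.Agent.CC

noncomputable section

section Partition

variable {p : ℕ} [Fact p.Prime] {T M : Type*} [AddCommGroup T] [AddCommGroup M]

theorem exists_partition_aux [Finite M] [Module (ZMod p) M] (τ : T ≃+ ZMod p) :
    ∃ (n : ℕ) (g : Fin n → (T →+ M)) (l : Fin n → (M →+ T)), ∀ m, ∑ i, g i (l i m) = m := by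
  have : Module.Finite (ZMod p) M := Module.Finite.of_finite
  let b := Module.finBasis (ZMod p) M
  refine ⟨_, fun i => ((LinearMap.toSpanSingleton (ZMod p) M (b i)).toAddMonoidHom).comp
    τ.toAddMonoidHom, fun i => τ.symm.toAddMonoidHom.comp (b.coord i).toAddMonoidHom, fun m => ?_⟩
  have h1 := b.sum_repr m
  conv_rhs => rw [← h1]
  refine Finset.sum_congr rfl fun i _ => ?_
  change τ (τ.symm (b.coord i m)) • b i = _
  rw [AddEquiv.apply_symm_apply]
  rfl

/-- partition of the identity of a finite group killed by `p` -/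
theorem exists_partition [Finite M] (kM : ∀ m : M, p • m = 0) (τ : T ≃+ ZMod p) :
    ∃ (n : ℕ) (g : Fin n → (T →+ M)) (l : Fin n → (M →+ T)), ∀ m, ∑ i, g i (l i m) = m := by
  letI : Module (ZMod p) M := AddCommGroup.zmodModule kM
  exact exists_partition_aux τ

end Partition

section Sum

variable {G : Type*} [Group G] {𝓛 : Lev G} {A : Type*} [AddCommGroup A] [DistribMulAction G A]

theorem H2coef_id (x : H2 𝓛 A) (f : A →+ A) (hf : ∀ (g : G) (a : A), f (g • a) = g • f a)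
    (h : ∀ a, f a = a) : H2coef 𝓛 f hf x = x := by
  obtain ⟨x, rfl⟩ := H2.mk_surjective x
  change H2.mk _ _ _ = H2.mk _ _ _
  congr 1
  apply Subtype.ext
  funext g g'
  exact h _

theorem H1coef_id (x : H1 𝓛 A) (f : A →+ A) (hf : ∀ (g : G) (a : A), f (g • a) = g • f a)
    (h : ∀ a, f a = a) : H1coef 𝓛 f hf x = x := by
  obtain ⟨x, rfl⟩ := H1.mk_surjective x
  change H1.mk _ _ _ = H1.mk _ _ _
  congr 1
  apply Subtype.ext
  funext g
  exact h _

/-- partition of the identity on `H²` -/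
theorem H2_partition {B : Type*} [AddCommGroup B] [DistribMulAction G B] {n : ℕ}
    (g : Fin n → (B →+ A)) (l : Fin n → (A →+ B))
    (hg : ∀ i (s : G) b, g i (s • b) = s • g i b) (hl : ∀ i (s : G) a, l i (s • a) = s • l i a)
    (h : ∀ a, ∑ i, g i (l i a) = a) (x : H2 𝓛 A) :
    x = ∑ i, H2coef 𝓛 (g i) (hg i) (H2coef 𝓛 (l i) (hl i) x) := by
  obtain ⟨x, rfl⟩ := H2.mk_surjective x
  have h1 : ∀ i, H2coef 𝓛 (g i) (hg i) (H2coef 𝓛 (l i) (hl i) (H2.mk 𝓛 A x)) =
      H2.mk 𝓛 A (Z2map (MonoidHom.id G) 𝓛.cont_id (g i) (hg i)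
        (Z2map (MonoidHom.id G) 𝓛.cont_id (l i) (hl i) x)) := fun i => rfl
  rw [Finset.sum_congr rfl fun i _ => h1 i, ← map_sum]
  congr 1
  apply Subtype.ext
  funext s s'
  rw [AddSubgroup.val_finsetSum, Finset.sum_apply, Finset.sum_apply]
  exact (h _).symm

theorem H1_partition {B : Type*} [AddCommGroup B] [DistribMulAction G B] {n : ℕ}
    (g : Fin n → (B →+ A)) (l : Fin n → (A →+ B))
    (hg : ∀ i (s : G) b, g i (s • b) = s • g i b) (hl : ∀ i (s : G) a, l i (s • a) = s • l i a)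
    (h : ∀ a, ∑ i, g i (l i a) = a) (x : H1 𝓛 A) :
    x = ∑ i, H1coef 𝓛 (g i) (hg i) (H1coef 𝓛 (l i) (hl i) x) := by
  obtain ⟨x, rfl⟩ := H1.mk_surjective x
  have h1 : ∀ i, H1coef 𝓛 (g i) (hg i) (H1coef 𝓛 (l i) (hl i) (H1.mk 𝓛 A x)) =
      H1.mk 𝓛 A (Z1map (MonoidHom.id G) 𝓛.cont_id (g i) (hg i)
        (Z1map (MonoidHom.id G) 𝓛.cont_id (l i) (hl i) x)) := fun i => rfl
  rw [Finset.sum_congr rfl fun i _ => h1 i, ← map_sum]
  congr 1
  apply Subtype.ext
  funext s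
  rw [AddSubgroup.val_finsetSum, Finset.sum_apply]
  exact (h _).symm

end Sum

/-- the multiplication pairing is perfect over a group acting trivially on `T` -/
theorem Pr.mul {p : ℕ} [Fact p.Prime] {G : Type*} [Group G] {𝓛 : Lev G} {T : Type*}
    [AddCommGroup T] [DistribMulAction G T] (τ : T ≃+ ZMod p)
    (htriv : ∀ (g : G) (t : T), g • t = t) : Pr p 𝓛 (mulPair τ) where
  fA := Finite.of_equiv _ τ.symm.toEquiv
  fB := Finite.of_equiv _ τ.symm.toEquiv
  he := eqPair_mulPair τ htriv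
  smA := smooth_of_triv htriv
  smB := smooth_of_triv htriv
  kA := killedT τ
  kB := killedT τ
  hl a ha := by
    have h1 := congrArg τ (ha (τ.symm 1))
    rw [τ_mulPair, AddEquiv.apply_symm_apply, mul_one, map_zero] at h1
    exact τ.injective (by rw [h1, map_zero])
  hr a ha := by
    have h1 := congrArg τ (ha (τ.symm 1))
    rw [τ_mulPair, AddEquiv.apply_symm_apply, one_mul, map_zero] at h1
    exact τ.injective (by rw [h1, map_zero])

namespace GLD

variable {p : ℕ} [Fact p.Prime] {G : Type} [Group G] {T : Type} [AddCommGroup T]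
  [DistribMulAction G T] (𝒢 : GLD p G T)

theorem s20_adj {A B A₁ B₁ : Type} [AddCommGroup A] [AddCommGroup B] [AddCommGroup A₁]
    [AddCommGroup B₁] [DistribMulAction G A] [DistribMulAction G B] [DistribMulAction G A₁]
    [DistribMulAction G B₁] {e : A →+ B →+ T} {e₁ : A₁ →+ B₁ →+ T} (h : Pr p 𝒢.𝓛 e)
    (h₁ : Pr p 𝒢.𝓛 e₁) (f : A →+ A₁) (hf : ∀ (g : G) (a : A), f (g • a) = g • f a)
    (f' : B₁ →+ B) (hf' : ∀ (g : G) (b : B₁), f' (g • b) = g • f' b)
    (adj : ∀ a b, e₁ (f a) b = e a (f' b)) (y : ∀ v, H2 (𝒢.L v) A) (b : ∀ v, H0 (𝒢.D v) B₁) :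
    𝒢.s20 h₁ (𝒢.p2 f hf y) b = 𝒢.s20 h y (𝒢.p0 f' hf' b) := by
  rw [s20_apply, s20_apply]
  refine Finset.sum_congr rfl fun v _ => ?_
  rw [b20_apply, b20_apply]
  congr 1
  change cup20 e₁ _ (b v) (H2coef _ f _ (y v)) = _
  obtain ⟨z, hz⟩ := H2.mk_surjective (y v)
  rw [← hz]
  change H2.mk _ _ _ = H2.mk _ _ _
  congr 1
  apply Subtype.ext
  funext s s'
  exact adj _ _

section Transfer

variable {H : Subgroup G} (hH : 𝒢.𝓛.isOpen H) [Finite (G ⧸ H)]
  (htT : ∀ (h : H) (t : T), h • t = t)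
  {M M' : Type} [AddCommGroup M] [AddCommGroup M'] [DistribMulAction G M] [DistribMulAction G M']
  {e : M →+ M' →+ T} (h : Pr p 𝒢.𝓛 e) (htM : ∀ (h : H) (m : M), h • m = m)
  (htM' : ∀ (h : H) (m : M'), h • m = m)

include hH in
/-- perfect pairing on `CoInd H T` -/
theorem prT : Pr p 𝒢.𝓛 (coE (H := H) (mulPair 𝒢.τ) (eqPair_mulPair 𝒢.τ htT)) :=
  (Pr.mul (𝓛 := 𝒢.𝓛.sub H) 𝒢.τ htT).co hH

include hH h in
/-- perfect pairing on `CoInd H M` -/
theorem prM : Pr p 𝒢.𝓛 (coE (H := H) e (h.he.sub H)) := (h.sub H).co hH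

include h htM htT in
theorem sha2_co (hT : 𝒢.Sha2Z (CoInd H T)) : 𝒢.Sha2Z (CoInd H M) := by
  have := h.fA
  obtain ⟨n, g, l, hgl⟩ := exists_partition (T := T) h.kA 𝒢.τ
  have hgH : ∀ i (s : H) t, g i (s • t) = s • g i t := fun i s t => by rw [htT, htM]
  have hlH : ∀ i (s : H) m, l i (s • m) = s • l i m := fun i s m => by rw [htT, htM]
  intro x hx
  rw [H2_partition (fun i => coMapH (g i) (hgH i)) (fun i => coMapH (l i) (hlH i))
    (fun i s b => coMapH_smul _ _ s b) (fun i s b => coMapH_smul _ _ s b) ?_ x]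
  · refine Finset.sum_eq_zero fun i _ => ?_
    rw [hT (H2coef 𝒢.𝓛 (coMapH (l i) (hlH i)) _ x) (by rw [l2_coef, hx, map_zero]), map_zero]
  · intro f
    refine CoInd.ext fun x => ?_
    rw [AddSubgroup.val_finsetSum, Finset.sum_apply]
    exact hgl _

include h htM htT in
theorem sha1_co (hT : 𝒢.Sha1Z (CoInd H T)) : 𝒢.Sha1Z (CoInd H M) := by
  have := h.fA
  obtain ⟨n, g, l, hgl⟩ := exists_partition (T := T) h.kA 𝒢.τ
  have hgH : ∀ i (s : H) t, g i (s • t) = s • g i t := fun i s t => by rw [htT, htM]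
  have hlH : ∀ i (s : H) m, l i (s • m) = s • l i m := fun i s m => by rw [htT, htM]
  intro x hx
  rw [H1_partition (fun i => coMapH (g i) (hgH i)) (fun i => coMapH (l i) (hlH i))
    (fun i s b => coMapH_smul _ _ s b) (fun i s b => coMapH_smul _ _ s b) ?_ x]
  · refine Finset.sum_eq_zero fun i _ => ?_
    rw [hT (H1coef 𝒢.𝓛 (coMapH (l i) (hlH i)) _ x) (by rw [l1_coef, hx, map_zero]), map_zero]
  · intro f
    refine CoInd.ext fun x => ?_
    rw [AddSubgroup.val_finsetSum, Finset.sum_apply]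
    exact hgl _

include htM htM' in
theorem E2_co (hT : 𝒢.E2 (𝒢.prT hH htT)) : 𝒢.E2 (𝒢.prM hH h) := by
  have := h.fA
  have := h.fB
  obtain ⟨n, g, l, hgl⟩ := exists_partition (T := T) h.kA 𝒢.τ
  have hgH : ∀ i (s : H) t, g i (s • t) = s • g i t := fun i s t => by rw [htT, htM]
  have hlH : ∀ i (s : H) m, l i (s • m) = s • l i m := fun i s m => by rw [htT, htM]
  -- adjoint of `l i`
  have hadj : ∀ i, ∃ m' : M', ∀ m, e m m' = l i m := by
    intro i
    obtain ⟨m', hm'⟩ := (fpT_perfect 𝒢.τ h.kA h.kB e h.hl h.hr).1 (𝒢.τ.toAddMonoidHom.comp (l i))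
    exact ⟨m', fun m => 𝒢.τ.injective (hm' m)⟩
  choose m' hm' using hadj
  let l' : Fin n → (T →+ M') := fun i => lineMap 𝒢.τ (m' i) (h.kB _)
  have hl'H : ∀ i (s : H) t, l' i (s • t) = s • l' i t := fun i s t => by rw [htT, htM']
  have hadj2 : ∀ i (m : M) (t : T), mulPair 𝒢.τ (l i m) t = e m (l' i t) := by
    intro i m t
    have h1 := map_zs 𝒢.τ (m' i) (h.kB _) (e m) (𝒢.τ t)
    change _ = e m (zs (m' i) (h.kB _) (𝒢.τ t))
    rw [h1, hm', mulPair_apply, mul_comm]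
  intro y hy
  have key : ∀ i, ∃ x : H2 𝒢.𝓛 (CoInd H T), 𝒢.l2 _ x =
      𝒢.p2 (coMapH (l i) (hlH i)) (fun s b => coMapH_smul _ _ s b) y := by
    intro i
    apply hT
    intro b
    rw [𝒢.s20_adj (𝒢.prM hH h) (𝒢.prT hH htT) (coMapH (l i) (hlH i))
      (fun s b => coMapH_smul _ _ s b) (coMapH (l' i) (hl'H i)) (fun s b => coMapH_smul _ _ s b)]
    · exact hy (H0coef G (coMapH (l' i) (hl'H i)) (fun s b => coMapH_smul _ _ s b) b)
    · intro f f'
      rw [coE_apply, coE_apply]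
      congr 1
      refine CoInd.ext fun x => ?_
      exact hadj2 i _ _
  choose x hx using key
  refine ⟨∑ i, H2coef 𝒢.𝓛 (coMapH (g i) (hgH i)) (fun s b => coMapH_smul _ _ s b) (x i), ?_⟩
  rw [map_sum]
  have h1 : ∀ i, 𝒢.l2 _ (H2coef 𝒢.𝓛 (coMapH (g i) (hgH i)) (fun s b => coMapH_smul _ _ s b) (x i)) =
      𝒢.p2 (coMapH (g i) (hgH i)) (fun s b => coMapH_smul _ _ s b)
        (𝒢.p2 (coMapH (l i) (hlH i)) (fun s b => coMapH_smul _ _ s b) y) := by
    intro i
    rw [l2_coef, hx]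
  rw [Finset.sum_congr rfl fun i _ => h1 i]
  funext v
  rw [Finset.sum_apply]
  refine (H2_partition (𝓛 := 𝒢.L v) (fun i => coMapH (g i) (hgH i))
    (fun i => coMapH (l i) (hlH i)) (fun i s b => coMapH_smul _ _ (s : G) b)
    (fun i s b => coMapH_smul _ _ (s : G) b) ?_ (y v)).symm
  intro f
  refine CoInd.ext fun x => ?_
  rw [AddSubgroup.val_finsetSum, Finset.sum_apply]
  exact hgl _

end Transfer

end GLD

end

end Fermat.Agent.CC
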