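import Fermat.Agent.CC.PT5
set_option autoImplicit false
set_option maxHeartbeats 400000

/-!
# Abstract Poitou–Tate: right exactness of `H²` (E1)
-/

namespace Fermat.Agent.CC

noncomputable section

section Unip

variable {G : Type*} [Group G] {𝓛 : Lev G} {p : ℕ} [Fact p.Prime] {T : Type*} [AddCommGroup T]
  [DistribMulAction G T] (τ : T ≃+ ZMod p) (htriv : ∀ (g : G) (t : T), g • t = t)
  {H : Subgroup G} [Finite (G ⧸ H)]
  (HC : ∀ z : H2 𝓛 T, ∃ w : H2 𝓛 (CoInd H T), H2coef 𝓛 (sumMap H T)
    (fun g f => sumMap_smul g f) w = z)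

include τ HC htriv in
/-- `H²(B) → H²(T)` is surjective -/
theorem unip_base {B : Type*} [AddCommGroup B] [DistribMulAction G B] (kB : ∀ b : B, p • b = 0)
    (htB : ∀ (h : H) (b : B), h • b = b) (π : B →+ T)
    (hπ : ∀ (g : G) (b : B), π (g • b) = g • π b) (hs : Function.Surjective π) :
    Function.Surjective (H2coef 𝓛 π hπ) := by
  obtain ⟨b₀, hb₀⟩ := hs (τ.symm 1)
  let g : T →+ B := lineMap τ b₀ (kB b₀)
  have hg : ∀ t, π (g t) = t := by
    intro t
    change π (zs b₀ (kB b₀) (τ t)) = t
    rw [map_zs τ, hb₀, AddEquiv.apply_symm_apply, mul_one, AddEquiv.symm_apply_apply]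
  have hgH : ∀ (h : H) (t : T), g (h • t) = h • g t := by
    intro h t
    rw [htB, show h • t = t from htriv h t]
  intro z
  obtain ⟨w, rfl⟩ := HC z
  refine ⟨H2coef 𝓛 (sumMap H B) (fun g f => sumMap_smul g f)
    (H2coef 𝓛 (coMapH g hgH) (coMapH_smul g hgH) w), ?_⟩
  obtain ⟨w, rfl⟩ := H2.mk_surjective w
  change H2.mk _ _ _ = H2.mk _ _ _
  congr 1
  apply Subtype.ext
  funext s s'
  change π (sumMap H B (coMapH g hgH (w.1 s s'))) = sumMap H T (w.1 s s')
  rw [← sumMap_coMap π hπ]
  congr 1
  refine CoInd.ext fun x => ?_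
  exact hg _

include τ HC htriv in
/-- right exactness of `H²` on unipotent modules -/
theorem unip_exact {n : ℕ} (hn : H.Normal) (hidx : H.index = p ^ n) (k : ℕ) :
    ∀ (B C : Type) [AddCommGroup B] [AddCommGroup C] [DistribMulAction G B]
      [DistribMulAction G C] [Finite C] (_ : ∀ b : B, p • b = 0) (_ : ∀ c : C, p • c = 0)
      (_ : 𝓛.Smooth B) (_ : 𝓛.Smooth C)
      (_ : ∀ (h : H) (b : B), h • b = b) (_ : ∀ (h : H) (c : C), h • c = c) (π : B →+ C)
      (hπ : ∀ (g : G) (b : B), π (g • b) = g • π b) (_ : Function.Surjective π)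
      (_ : Nat.card C ≤ k), Function.Surjective (H2coef 𝓛 π hπ) := by
  induction k with
  | zero =>
    intro B C _ _ _ _ _ _ _ _ _ _ _ π hπ _ hk
    have : 0 < Nat.card C := Nat.card_pos
    omega
  | succ k ih =>
    intro B C _ _ _ _ _ kB kC smB smC htB htC π hπ hs hk
    rcases subsingleton_or_nontrivial C with hC | hC
    · have := subsingleton_H2 (A := C) 𝓛
      intro z
      exact ⟨0, Subsingleton.elim _ _⟩
    · obtain ⟨m, hm0, hm⟩ := exists_fixed kC H (fun g hg a => htC ⟨g, hg⟩ a) hidx
      -- the line and its quotient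
      have hinj : Function.Injective (lineMap τ m (kC m)) := by
        rw [injective_iff_map_eq_zero]
        intro t ht
        apply τ.injective
        rw [map_zero]
        exact zs_eq_zero m (kC m) hm0 ht
      have hle : ∀ (g : G) (t : T), lineMap τ m (kC m) (g • t) = g • lineMap τ m (kC m) t := by
        intro g t
        rw [lineMap_apply, lineMap_apply, htriv, zs_smul m hm (kC m)]
      let N : GSub G C := lineSub τ m hm (kC m)
      have hfinQ : Finite N.Q := Finite.of_surjective _ N.proj_surjective
      have kQ : ∀ c : N.Q, p • c = 0 := by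
        intro c
        obtain ⟨a, rfl⟩ := N.proj_surjective c
        rw [← map_nsmul, kC, map_zero]
      let E : SES 𝓛 T C N.Q :=
        { i := lineMap τ m (kC m)
          j := N.proj
          hi := hle
          hj := N.proj_smul
          inj := hinj
          surj := N.proj_surjective
          exact := fun b => N.proj_eq_zero
          smA := smooth_of_triv htriv
          smB := smC
          smC := N.smoothQ smC }
      have hcard : Nat.card N.Q ≤ k := by
        have h1 : Nat.card C = Nat.card N.Q * Nat.card N.N :=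
          AddSubgroup.card_eq_card_quotient_mul_card_addSubgroup _
        have h2 : 1 < Nat.card N.N := by
          have : Nontrivial N.N := by
            refine ⟨⟨m, ?_⟩, 0, ?_⟩
            · refine ⟨τ.symm 1, ?_⟩
              rw [lineMap_apply, AddEquiv.apply_symm_apply, zs_one]
            · intro h
              exact hm0 (congrArg Subtype.val h)
          exact Finite.one_lt_card
        have h3 : 0 < Nat.card N.Q := Nat.card_pos
        nlinarith
      have hQ := ih B N.Q kB kQ smB (N.smoothQ smC) htB (fun h c => by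
        obtain ⟨a, rfl⟩ := N.proj_surjective c
        exact congrArg N.proj (htC h a)) (N.proj.comp π) (fun g b => by
        change N.proj (π (g • b)) = g • N.proj (π b)
        rw [hπ, GSub.proj_smul]) (N.proj_surjective.comp hs) hcard
      -- the preimage of the line
      let N₁ : GSub G B :=
        { N := (lineMap τ m (kC m)).range.comap π
          stab := fun g b hb => by
            obtain ⟨t, ht⟩ := hb
            refine ⟨g • t, ?_⟩
            rw [hle, ht, hπ] }
      have hmem : ∀ s : N₁.S, π (N₁.incl s) ∈ (lineMap τ m (kC m)).range := fun s => N₁.incl_mem s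
      let π₁ : N₁.S →+ T :=
        ((AddMonoidHom.ofInjective hinj).symm.toAddMonoidHom).comp
          ((π.comp N₁.incl).codRestrict _ hmem)
      have hπ₁ : ∀ s : N₁.S, lineMap τ m (kC m) (π₁ s) = π (N₁.incl s) := by
        intro s
        have h1 := (AddMonoidHom.ofInjective hinj).apply_symm_apply
          ((π.comp N₁.incl).codRestrict _ hmem s)
        exact congrArg Subtype.val h1
      have hπ₁e : ∀ (g : G) (s : N₁.S), π₁ (g • s) = g • π₁ s := by
        intro g s
        apply hinj
        rw [hπ₁, hle, hπ₁, GSub.incl_smul, hπ]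
      have hπ₁s : Function.Surjective π₁ := by
        intro t
        obtain ⟨b, hb⟩ := hs (lineMap τ m (kC m) t)
        refine ⟨N₁.mkS b ⟨t, hb.symm⟩, hinj ?_⟩
        rw [hπ₁]
        exact hb
      have hbase := unip_base τ htriv HC (B := N₁.S) (fun s => N₁.incl_injective (by
        rw [map_nsmul, kB, map_zero])) (fun h s => N₁.incl_injective (htB h (N₁.incl s)))
        π₁ hπ₁e hπ₁s
      intro c
      obtain ⟨b, hb⟩ := hQ (H2coef 𝓛 N.proj N.proj_smul c)
      have h1 : H2coef 𝓛 E.j E.hj (c - H2coef 𝓛 π hπ b) = 0 := by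
        rw [map_sub, sub_eq_zero]
        change H2coef 𝓛 N.proj N.proj_smul c = _
        rw [← hb]
        obtain ⟨b, rfl⟩ := H2.mk_surjective b
        rfl
      obtain ⟨t, ht⟩ := (E.H2_j_eq_zero_iff _).mp h1
      obtain ⟨b₁, rfl⟩ := hbase t
      refine ⟨b + H2coef 𝓛 N₁.incl N₁.incl_smul b₁, ?_⟩
      rw [map_add]
      have h2 : H2coef 𝓛 π hπ (H2coef 𝓛 N₁.incl N₁.incl_smul b₁) =
          H2coef 𝓛 E.i E.hi (H2coef 𝓛 π₁ hπ₁e b₁) := by
        obtain ⟨b₁, rfl⟩ := H2.mk_surjective b₁
        change H2.mk _ _ _ = H2.mk _ _ _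
        congr 1
        apply Subtype.ext
        funext s s'
        exact (hπ₁ _).symm
      rw [h2, ht]
      abel

end Unip

end

end Fermat.Agent.CC
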