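import Fermat.Agent.CC.PT6
set_option autoImplicit false
set_option maxHeartbeats 400000

/-!
# Abstract Poitou–Tate: corestriction from `H` to `H₀` and right exactness over `G`
-/

namespace Fermat.Agent.CC

noncomputable section

section Theta

variable {G : Type*} [Group G] {H H₀ : Subgroup G} (hle : H ≤ H₀) {T : Type*} [AddCommGroup T]
  [DistribMulAction G T] (ht : ∀ g ∈ H₀, ∀ t : T, g • t = t)

include hle ht in
theorem ht_le (h : H) (t : T) : h • t = t := ht h (hle h.2) t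

/-- an element of `CoInd H T` as a function on `G ⧸ H` -/
def valH (ht : ∀ (h : H) (t : T), h • t = t) (f : CoInd H T) : G ⧸ H → T :=
  Quotient.lift (fun y : G => f.1 y⁻¹) (by
    intro a b hab
    have h1 : a⁻¹ * b ∈ H := QuotientGroup.leftRel_apply.mp hab
    have h2 : b⁻¹ = ((⟨a⁻¹ * b, h1⟩⁻¹ : H) : G) * a⁻¹ := by simp
    beta_reduce
    rw [h2, f.2, ht])

@[simp] theorem valH_mk (ht : ∀ (h : H) (t : T), h • t = t) (f : CoInd H T) (y : G) :
    valH ht f (QuotientGroup.mk y) = f.1 y⁻¹ := rfl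

open Classical in
/-- partial trace -/
def theta [Fintype (G ⧸ H)] : CoInd H T →+ CoInd H₀ T where
  toFun f := ⟨fun x => ∑ q : G ⧸ H with
      Subgroup.quotientMapOfLE hle q = QuotientGroup.mk x⁻¹, valH (ht_le hle ht) f q, fun u x => by
    beta_reduce
    have h1 : (QuotientGroup.mk ((u : G) * x)⁻¹ : G ⧸ H₀) = QuotientGroup.mk x⁻¹ := by
      rw [QuotientGroup.eq]
      simp
    rw [h1]
    exact (ht u u.2 _).symm⟩
  map_zero' := CoInd.ext fun x => by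
    refine Finset.sum_eq_zero fun q _ => ?_
    obtain ⟨y, rfl⟩ := QuotientGroup.mk_surjective q
    rfl
  map_add' f f' := CoInd.ext fun x => by
    rw [CoInd.add_apply, ← Finset.sum_add_distrib]
    refine Finset.sum_congr rfl fun q _ => ?_
    obtain ⟨y, rfl⟩ := QuotientGroup.mk_surjective q
    rfl

open Classical in
theorem theta_apply [Fintype (G ⧸ H)] (f : CoInd H T) (x : G) :
    (theta hle ht f).1 x = ∑ q : G ⧸ H with
      Subgroup.quotientMapOfLE hle q = QuotientGroup.mk x⁻¹, valH (ht_le hle ht) f q := rfl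

theorem theta_smul [Fintype (G ⧸ H)] (g : G) (f : CoInd H T) :
    theta hle ht (g • f) = g • theta hle ht f := by
  classical
  refine CoInd.ext fun x => ?_
  rw [CoInd.smul_apply, theta_apply, theta_apply]
  refine Finset.sum_bij (fun q _ => g⁻¹ • q) ?_ ?_ ?_ ?_
  · intro q hq
    rw [Finset.mem_filter] at hq ⊢
    refine ⟨Finset.mem_univ _, ?_⟩
    obtain ⟨y, rfl⟩ := QuotientGroup.mk_surjective q
    have h1 : (QuotientGroup.mk y : G ⧸ H₀) = QuotientGroup.mk x⁻¹ := hq.2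
    change (QuotientGroup.mk (g⁻¹ * y) : G ⧸ H₀) = QuotientGroup.mk (x * g)⁻¹
    rw [QuotientGroup.eq] at h1 ⊢
    have e : (g⁻¹ * y)⁻¹ * (x * g)⁻¹ = y⁻¹ * x⁻¹ := by group
    rw [e]; exact h1
  · intro q _ q' _ h
    exact smul_left_cancel _ h
  · intro q hq
    rw [Finset.mem_filter] at hq
    refine ⟨g • q, ?_, by simp⟩
    rw [Finset.mem_filter]
    refine ⟨Finset.mem_univ _, ?_⟩
    obtain ⟨y, rfl⟩ := QuotientGroup.mk_surjective q
    have h1 : (QuotientGroup.mk y : G ⧸ H₀) = QuotientGroup.mk (x * g)⁻¹ := hq.2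
    change (QuotientGroup.mk (g * y) : G ⧸ H₀) = QuotientGroup.mk x⁻¹
    rw [QuotientGroup.eq] at h1 ⊢
    have e : (g * y)⁻¹ * x⁻¹ = y⁻¹ * (x * g)⁻¹ := by group
    rw [e]; exact h1
  · intro q _
    obtain ⟨y, rfl⟩ := QuotientGroup.mk_surjective q
    change (g • f).1 y⁻¹ = f.1 (g⁻¹ * y)⁻¹
    rw [CoInd.smul_apply]
    congr 1
    group

/-- inclusion `CoInd H₀ T → CoInd H T` -/
def inclCo (H H₀ : Subgroup G) (hle : H ≤ H₀) (T : Type*) [AddCommGroup T]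
    [DistribMulAction G T] : CoInd H₀ T →+ CoInd H T where
  toFun f := ⟨f.1, fun u x => f.2 ⟨u, hle u.2⟩ x⟩
  map_zero' := rfl
  map_add' _ _ := rfl

theorem inclCo_smul (g : G) (f : CoInd H₀ T) :
    inclCo H H₀ hle T (g • f) = g • inclCo H H₀ hle T f := rfl

theorem inclCo_injective : Function.Injective (inclCo H H₀ hle T) := by
  intro f f' h
  refine CoInd.ext fun x => ?_
  have h1 : (inclCo H H₀ hle T f).1 x = (inclCo H H₀ hle T f').1 x := by rw [h]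
  exact h1

/-- adjointness of partial trace and inclusion -/
theorem theta_adj {p : ℕ} [Fact p.Prime] (τ : T ≃+ ZMod p) [Fintype (G ⧸ H)] [Finite (G ⧸ H₀)]
    (f : CoInd H T) (f' : CoInd H₀ T) :
    coE (H := H₀) (mulPair τ) (eqPair_mulPair τ fun h t => ht h h.2 t) (theta hle ht f) f' =
      coE (H := H) (mulPair τ) (eqPair_mulPair τ (ht_le hle ht)) f (inclCo H H₀ hle T f') := by
  classical
  have := Fintype.ofFinite (G ⧸ H₀)
  rw [coE_apply, coE_apply, sumMap_apply, sumMap_apply, finsum_eq_sum_of_fintype,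
    finsum_eq_sum_of_fintype, ← Finset.sum_fiberwise Finset.univ (Subgroup.quotientMapOfLE hle)]
  refine Finset.sum_congr rfl fun r _ => ?_
  obtain ⟨x, rfl⟩ := QuotientGroup.mk_surjective r
  rw [sumFun_mk, coMul_apply, theta_apply, inv_inv]
  have h1 : mulPair τ (∑ q : G ⧸ H with Subgroup.quotientMapOfLE hle q = QuotientGroup.mk x,
      valH (ht_le hle ht) f q) (f'.1 x⁻¹) =
      ∑ q : G ⧸ H with Subgroup.quotientMapOfLE hle q = QuotientGroup.mk x,
        mulPair τ (valH (ht_le hle ht) f q) (f'.1 x⁻¹) := by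
    change (mulPair τ).flip (f'.1 x⁻¹) _ = _
    rw [map_sum]; rfl
  rw [h1, Finset.smul_sum]
  refine Finset.sum_congr rfl fun q hq => ?_
  rw [Finset.mem_filter] at hq
  obtain ⟨y, rfl⟩ := QuotientGroup.mk_surjective q
  have h2 : (QuotientGroup.mk y : G ⧸ H₀) = QuotientGroup.mk x := hq.2
  have h3 : x⁻¹ * y ∈ H₀ := QuotientGroup.eq.mp h2.symm
  rw [sumFun_mk, coMul_apply, valH_mk]
  have h4 : f'.1 y⁻¹ = f'.1 x⁻¹ := by
    have e : y⁻¹ = ((⟨x⁻¹ * y, h3⟩⁻¹ : H₀) : G) * x⁻¹ := by simp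
    rw [e, f'.2]
    exact ht _ (H₀.inv_mem h3) _
  change _ = y • mulPair τ (f.1 y⁻¹) (f'.1 y⁻¹)
  rw [h4]
  have e2 : ∀ t : T, y • t = x • t := by
    intro t
    have e : y = x * (x⁻¹ * y) := by group
    rw [e, mul_smul, ht _ h3]
  rw [e2]

end Theta

section Rest

variable {G : Type*} [Group G] {𝓛 : Lev G} {H H₀ : Subgroup G} (hle : H ≤ H₀) {T : Type*}
  [AddCommGroup T] [DistribMulAction G T] (ht : ∀ g ∈ H₀, ∀ t : T, g • t = t)

/-- restriction of a coinduced function to `H₀` -/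
def restCo (H H₀ : Subgroup G) (T : Type*) [AddCommGroup T] [DistribMulAction G T] :
    CoInd H T →+ CoInd (H.subgroupOf H₀) T where
  toFun f := ⟨fun u => f.1 u, fun h x => f.2 ⟨(h : H₀), Subgroup.mem_subgroupOf.mp h.2⟩ x⟩
  map_zero' := rfl
  map_add' _ _ := rfl

theorem restCo_compat : Compat H₀.subtype (restCo H H₀ T) := fun _ _ => rfl

/-- `ev₁ ∘ θ = sum ∘ restriction` -/
theorem ev_theta [Fintype (G ⧸ H)] [Finite (H₀ ⧸ H.subgroupOf H₀)] (f : CoInd H T) :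
    (theta hle ht f).1 1 = sumMap (H.subgroupOf H₀) T (restCo H H₀ T f) := by
  classical
  have := Fintype.ofFinite (H₀ ⧸ H.subgroupOf H₀)
  rw [sumMap_apply, finsum_eq_sum_of_fintype, theta_apply]
  symm
  let ψ : H₀ ⧸ H.subgroupOf H₀ → G ⧸ H :=
    Quotient.lift (fun u : H₀ => (QuotientGroup.mk (u : G) : G ⧸ H)) (by
      intro a b hab
      have h1 : a⁻¹ * b ∈ H.subgroupOf H₀ := QuotientGroup.leftRel_apply.mp hab
      rw [Subgroup.mem_subgroupOf] at h1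
      beta_reduce
      rw [QuotientGroup.eq]
      simpa using h1)
  have hψ : ∀ u : H₀, ψ (QuotientGroup.mk u) = QuotientGroup.mk (u : G) := fun u => rfl
  refine Finset.sum_bij (fun q _ => ψ q) ?_ ?_ ?_ ?_
  · intro q _
    obtain ⟨u, rfl⟩ := QuotientGroup.mk_surjective q
    rw [Finset.mem_filter, hψ]
    refine ⟨Finset.mem_univ _, ?_⟩
    change (QuotientGroup.mk (u : G) : G ⧸ H₀) = QuotientGroup.mk (1 : G)⁻¹
    rw [QuotientGroup.eq]
    simp
  · intro q _ q' _ h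
    obtain ⟨u, rfl⟩ := QuotientGroup.mk_surjective q
    obtain ⟨u', rfl⟩ := QuotientGroup.mk_surjective q'
    rw [hψ, hψ, QuotientGroup.eq] at h
    rw [QuotientGroup.eq, Subgroup.mem_subgroupOf]
    simpa using h
  · intro q hq
    rw [Finset.mem_filter] at hq
    obtain ⟨y, rfl⟩ := QuotientGroup.mk_surjective q
    have h1 : (QuotientGroup.mk y : G ⧸ H₀) = QuotientGroup.mk (1 : G)⁻¹ := hq.2
    have h2 : y ∈ H₀ := by
      rw [QuotientGroup.eq] at h1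
      simpa using h1
    exact ⟨QuotientGroup.mk ⟨y, h2⟩, Finset.mem_univ _, rfl⟩
  · intro q _
    obtain ⟨u, rfl⟩ := QuotientGroup.mk_surjective q
    rw [hψ, sumFun_mk, valH_mk]
    change (u : G) • f.1 ((u⁻¹ : H₀) : G) = f.1 (u : G)⁻¹
    rw [ht u u.2]
    rfl

/-- from surjectivity of `θ` on `H²` to corestriction over `H₀` -/
theorem HC_of_theta [Fintype (G ⧸ H)] [Finite (H₀ ⧸ H.subgroupOf H₀)] (hH₀ : 𝓛.isOpen H₀)
    (hs : Function.Surjective (H2coef 𝓛 (theta hle ht) (theta_smul hle ht)))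
    (z : H2 (𝓛.sub H₀) T) : ∃ w : H2 (𝓛.sub H₀) (CoInd (H.subgroupOf H₀) T),
      H2coef (𝓛.sub H₀) (sumMap (H.subgroupOf H₀) T) (fun g f => sumMap_smul g f) w = z := by
  obtain ⟨z', rfl⟩ := sh2_surjective hH₀ z
  obtain ⟨w, rfl⟩ := hs z'
  refine ⟨H2map H₀.subtype (𝓛.cont_subtype H₀) (restCo H H₀ T) restCo_compat w, ?_⟩
  obtain ⟨w, rfl⟩ := H2.mk_surjective w
  change H2.mk _ _ _ = H2.mk _ _ _
  congr 1
  apply Subtype.ext
  funext s s'
  exact (ev_theta hle ht _).symm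

end Rest

namespace GLD

variable {p : ℕ} [Fact p.Prime] {G : Type} [Group G] {T : Type} [AddCommGroup T]
  [DistribMulAction G T] (𝒢 : GLD p G T)

/-- surjectivity on `H²` from a surjection with an adjoint -/
theorem H2_surj_mk {B C B' C' : Type} [AddCommGroup B] [AddCommGroup C] [AddCommGroup B']
    [AddCommGroup C'] [DistribMulAction G B] [DistribMulAction G C] [DistribMulAction G B']
    [DistribMulAction G C'] {eB : B →+ B' →+ T} {eC : C →+ C' →+ T} (hB : Pr p 𝒢.𝓛 eB)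
    (hC : Pr p 𝒢.𝓛 eC) (j : B →+ C) (hj : ∀ (g : G) (b : B), j (g • b) = g • j b)
    (hs : Function.Surjective j) (i : C' →+ B') (hi : ∀ (g : G) (c : C'), i (g • c) = g • i c)
    (adj : ∀ b c, eC (j b) c = eB b (i c)) (hE : 𝒢.E2 hB) (hSha : 𝒢.Sha2Z C) :
    Function.Surjective (H2coef 𝒢.𝓛 j hj) :=
  𝒢.H2_surj_of_sha (mkD_pses hB hC j hj hs i hi adj 𝒢.τ) hE hSha

/-- `θ` is surjective on `H²` -/
theorem theta_surj {H H₀ : Subgroup G} [Fintype (G ⧸ H)] [Finite (G ⧸ H₀)]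
    (hH : 𝒢.𝓛.isOpen H) (hle : H ≤ H₀) (ht : ∀ g ∈ H₀, ∀ t : T, g • t = t)
    (hE2 : 𝒢.E2 (𝒢.prT hH (ht_le hle ht))) (hSha : 𝒢.Sha2Z (CoInd H₀ T)) :
    Function.Surjective (H2coef 𝒢.𝓛 (theta hle ht (T := T)) (theta_smul hle ht)) := by
  have hH₀ : 𝒢.𝓛.isOpen H₀ := 𝒢.𝓛.mono _ _ hH hle
  have ht₀ : ∀ (h : H₀) (t : T), h • t = t := fun h t => ht h h.2 t
  have pH₀ := 𝒢.prT hH₀ ht₀
  have hadj := theta_adj hle ht 𝒢.τ
  have hfin₀ := pH₀.fA
  have hθ : Function.Surjective (theta hle ht (T := T)) :=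
    adj_surj 𝒢.τ pH₀.kA pH₀.kB pH₀.hl pH₀.hr (𝒢.prT hH (ht_le hle ht)).hr _
      (inclCo H H₀ hle T) (inclCo_injective hle) hadj
  exact 𝒢.H2_surj_mk (𝒢.prT hH (ht_le hle ht)) pH₀ (theta hle ht) (theta_smul hle ht) hθ
    (inclCo H H₀ hle T) (inclCo_smul hle) hadj hE2 hSha

/-- **E1**: right exactness of `H²` on modules trivialised by `H`. -/
theorem E1 {H H₀ : Subgroup G} [Finite (G ⧸ H)] [Finite (G ⧸ H₀)] (hn : H.Normal)
    (hH : 𝒢.𝓛.isOpen H) (hle : H ≤ H₀) (ht : ∀ g ∈ H₀, ∀ t : T, g • t = t)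
    (hidx : (Nat.card (G ⧸ H₀)).Coprime p) {n : ℕ} (hrel : H.relIndex H₀ = p ^ n)
    (hE2 : 𝒢.E2 (𝒢.prT hH (ht_le hle ht))) (hSha : 𝒢.Sha2Z (CoInd H₀ T))
    {B C : Type} [AddCommGroup B] [AddCommGroup C] [DistribMulAction G B]
    [DistribMulAction G C] [Finite C] (kB : ∀ b : B, p • b = 0) (kC : ∀ c : C, p • c = 0)
    (smB : 𝒢.𝓛.Smooth B) (smC : 𝒢.𝓛.Smooth C) (htB : ∀ (h : H) (b : B), h • b = b)
    (htC : ∀ (h : H) (c : C), h • c = c) (π : B →+ C)
    (hπ : ∀ (g : G) (b : B), π (g • b) = g • π b) (hs : Function.Surjective π) :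
    Function.Surjective (H2coef 𝒢.𝓛 π hπ) := by
  have := Fintype.ofFinite (G ⧸ H)
  have hH₀ : 𝒢.𝓛.isOpen H₀ := 𝒢.𝓛.mono _ _ hH hle
  have hfinq : Finite (H₀ ⧸ H.subgroupOf H₀) := by
    have h1 : (H.subgroupOf H₀).index ≠ 0 := by
      change H.relIndex H₀ ≠ 0
      rw [hrel]
      exact pow_ne_zero _ (Fact.out : p.Prime).ne_zero
    exact Nat.finite_of_card_ne_zero h1
  have HC := HC_of_theta hle ht hH₀ (𝒢.theta_surj hH hle ht hE2 hSha)
  have key := unip_exact (G := H₀) (𝓛 := 𝒢.𝓛.sub H₀) 𝒢.τ (fun h t => ht h h.2 t) HC (n := n)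
    inferInstance hrel
    (Nat.card C) B C kB kC (smooth_sub smB) (smooth_sub smC)
    (fun h b => htB ⟨(h : H₀), Subgroup.mem_subgroupOf.mp h.2⟩ b)
    (fun h c => htC ⟨(h : H₀), Subgroup.mem_subgroupOf.mp h.2⟩ c) π (fun g b => hπ g b) hs le_rfl
  intro c
  obtain ⟨b, hb⟩ := key (resH2 𝒢.𝓛 H₀ C c)
  obtain ⟨x, y, hxy⟩ := Nat.isCoprime_iff_coprime.mpr hidx
  refine ⟨x • cores2 B hH₀ b, ?_⟩
  rw [map_zsmul, ← cores2_coef hH₀ π hπ b, hb, cores2_res]
  have h5 : (p : ℤ) • c = 0 := by rw [natCast_zsmul]; exact H2_killed kC c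
  have h6 : c = (x * (Nat.card (G ⧸ H₀) : ℤ) + y * (p : ℤ)) • c := by rw [hxy, one_smul]
  conv_rhs => rw [h6, add_smul, mul_smul, mul_smul, h5, smul_zero, add_zero, natCast_zsmul]

end GLD

end

end Fermat.Agent.CC
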