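import Fermat.Agent.CC.PT7
set_option autoImplicit false
set_option maxHeartbeats 400000

/-!
# Abstract Poitou–Tate: the standard resolution; exactness at `P²` and duality of `Ш`
-/

namespace Fermat.Agent.CC

noncomputable section

section Resolution

variable {G : Type*} [Group G] {H : Subgroup G} [Finite (G ⧸ H)] {M M' T : Type*}
  [AddCommGroup M] [AddCommGroup M'] [AddCommGroup T] [DistribMulAction G M]
  [DistribMulAction G M'] [DistribMulAction G T] (e : M →+ M' →+ T) (he : EqPair G e)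

theorem sum_adj (f : CoInd H M) (m' : M') :
    e (sumMap H M f) m' = coE (H := H) e (he.sub H) f (unitMap H M' m') := by
  rw [coE_apply, sumMap_apply, sumMap_apply]
  have h1 : e (∑ᶠ q : G ⧸ H, sumFun f q) m' = ∑ᶠ q : G ⧸ H, e (sumFun f q) m' :=
    AddMonoidHom.map_finsum (e.flip m') (Set.toFinite _)
  rw [h1]
  refine finsum_congr fun q => ?_
  obtain ⟨x, rfl⟩ := QuotientGroup.mk_surjective q
  rw [sumFun_mk, sumFun_mk, coMul_apply, unitMap_apply, ← he, smul_inv_smul]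

omit [Finite (G ⧸ H)] in
theorem unitMap_injective : Function.Injective (unitMap H M) := by
  intro a b h
  have h1 : (unitMap H M a).1 1 = (unitMap H M b).1 1 := by rw [h]
  rwa [unitMap_apply, unitMap_apply, one_smul, one_smul] at h1

end Resolution

namespace GLD

variable {p : ℕ} [Fact p.Prime] {G : Type} [Group G] {T : Type} [AddCommGroup T]
  [DistribMulAction G T] (𝒢 : GLD p G T)

/-- `Pr` for trivialised modules -/
structure GIn (H H₀ : Subgroup G) [Finite (G ⧸ H)] [Finite (G ⧸ H₀)] : Prop where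
  hn : H.Normal
  hH : 𝒢.𝓛.isOpen H
  hle : H ≤ H₀
  ht : ∀ g ∈ H₀, ∀ t : T, g • t = t
  cop : (Nat.card (G ⧸ H₀)).Coprime p
  rel : ∃ n, H.relIndex H₀ = p ^ n
  hE2 : 𝒢.E2 (𝒢.prT hH (ht_le hle ht))
  sha2 : 𝒢.Sha2Z (CoInd H T)
  sha2' : 𝒢.Sha2Z (CoInd H₀ T)
  sha1 : 𝒢.Sha1Z (CoInd H T)
  cnt : Nat.card (H1 𝒢.𝓛 (CoInd H T)) ^ 2 = Nat.card (∀ v, H1 (𝒢.L v) (CoInd H T))

variable {𝒢}

section Res

variable {H H₀ : Subgroup G} [Finite (G ⧸ H)] [Finite (G ⧸ H₀)] (I : 𝒢.GIn H H₀)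
  {M M' : Type} [AddCommGroup M] [AddCommGroup M'] [DistribMulAction G M] [DistribMulAction G M']
  {e : M →+ M' →+ T} (h : Pr p 𝒢.𝓛 e) (htM : ∀ (h : H) (m : M), h • m = m)
  (htM' : ∀ (h : H) (m : M'), h • m = m)


include h in
omit [Finite (G ⧸ H₀)] in
theorem sumMap_surj (hH : 𝒢.𝓛.isOpen H) : Function.Surjective (sumMap H M) := by
  have := h.fA
  have := h.fB
  exact adj_surj 𝒢.τ h.kA h.kB h.hl h.hr (𝒢.prM hH h).hr (sumMap H M) (unitMap H M')
    unitMap_injective (sum_adj e h.he)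

omit [Finite (G ⧸ H₀)] in
theorem coInd_triv (hn : H.Normal) (htM : ∀ (h : H) (m : M), h • m = m) (s : H)
    (f : CoInd H M) : s • f = f := by
  refine CoInd.ext fun x => ?_
  change f.1 (x * s) = f.1 x
  have h1 : x * s = ((⟨x * s * x⁻¹, hn.conj_mem _ s.2 x⟩ : H) : G) * x := by simp
  rw [h1, f.2, htM]

/-- the dual pair of sequences of the standard resolution -/
def resD (hH : 𝒢.𝓛.isOpen H) :
    DualSES 𝒢.𝓛 (GSub.ker (sumMap H M) sumMap_smul).S (CoInd H M) M
      (GSub.range (unitMap H M') (unitMap_smul H M')).Q (CoInd H M') M' T :=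
  mkD (𝒢.prM hH h) h (sumMap H M) sumMap_smul (sumMap_surj h hH) (unitMap H M')
    (unitMap_smul H M') (sum_adj e h.he)

theorem resP (hH : 𝒢.𝓛.isOpen H) : PSES p (resD h hH) :=
  mkD_pses (𝒢.prM hH h) h (sumMap H M) sumMap_smul (sumMap_surj h hH) (unitMap H M')
    (unitMap_smul H M') (sum_adj e h.he) 𝒢.τ

namespace GIn

include I in
theorem htT (s : H) (t : T) : s • t = t := I.ht s (I.hle s.2) t

include I htM htM' in
/-- **exactness at `P²`** -/
theorem E2_all : 𝒢.E2 h :=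
  𝒢.E2_quot (resP h I.hH) (𝒢.E2_co I.hH I.htT h htM htM' I.hE2)

include I in
/-- right exactness of `H²` -/
theorem H2_surj {B C : Type} [AddCommGroup B] [AddCommGroup C] [DistribMulAction G B]
    [DistribMulAction G C] [Finite C] (kB : ∀ b : B, p • b = 0) (kC : ∀ c : C, p • c = 0)
    (smB : 𝒢.𝓛.Smooth B) (smC : 𝒢.𝓛.Smooth C) (htB : ∀ (h : H) (b : B), h • b = b)
    (htC : ∀ (h : H) (c : C), h • c = c) (π : B →+ C)
    (hπ : ∀ (g : G) (b : B), π (g • b) = g • π b) (hs : Function.Surjective π) :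
    Function.Surjective (H2coef 𝒢.𝓛 π hπ) := by
  obtain ⟨n, hn⟩ := I.rel
  exact 𝒢.E1 I.hn I.hH I.hle I.ht I.cop hn I.hE2 I.sha2' kB kC smB smC htB htC π hπ hs

include I h htM htM' in
/-- **Poitou–Tate duality for `Ш`** -/
theorem sha_dual : ∃ e : 𝒢.Sh2 M →+ 𝒢.Sh1 M' →+ ZMod p,
      (∀ s, (∀ t, e s t = 0) → s = 0) ∧ (∀ t, (∀ s, e s t = 0) → t = 0) := by
  have := h.fA
  have P := resP h I.hH
  refine 𝒢.sha_duality P ?_ (𝒢.sha2_co I.htT h htM I.sha2) ?_
    (𝒢.E2_co I.hH I.htT h htM htM' I.hE2) (𝒢.sha1_co I.htT h.flip htM' I.sha1)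
  · exact I.H2_surj (fun f => (𝒢.prM I.hH h).kA f) h.kA (CoInd.smooth I.hH (smooth_sub h.smA)) h.smA
      (coInd_triv I.hn htM) htM _ _ (sumMap_surj h I.hH)
  · refine I.E2_all P.pA ?_ ?_
    · intro s x
      apply (GSub.ker (sumMap H M) sumMap_smul).incl_injective
      exact coInd_triv I.hn htM s _
    · intro s x
      obtain ⟨x, rfl⟩ := (GSub.range (unitMap H M') (unitMap_smul H M')).proj_surjective x
      exact ((GSub.range (unitMap H M') (unitMap_smul H M')).proj_smul (s : G) x).symm.trans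
        (congrArg _ (coInd_triv I.hn htM' s x))

end GIn

end Res

end GLD

end

end Fermat.Agent.CC
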