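import Fermat.Agent.CC.LES
set_option autoImplicit false

/-!
# Coinduced modules and Shapiro's lemma in degrees 0, 1, 2
-/

namespace Fermat.Agent.CC

variable {G : Type*} [Group G]

section CoInd

variable (H : Subgroup G) (A : Type*) [AddCommGroup A] [DistribMulAction H A]

/-- The coinduced module: functions `f : G → A` with `f (u x) = u • f x` for `u ∈ H`. -/
def CoInd : AddSubgroup (G → A) where
  carrier := {f | ∀ (u : H) (x : G), f (u * x) = u • f x}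
  add_mem' := by
    intro f f' h h' u x
    simp only [Pi.add_apply, h u x, h' u x, smul_add]
  zero_mem' := fun u x => by simp
  neg_mem' := by
    intro f h u x
    simp only [Pi.neg_apply, h u x, smul_neg]

variable {H A}

/-- right translation action on the coinduced module. -/
instance : DistribMulAction G (CoInd H A) where
  smul g f := ⟨fun x => f.1 (x * g), fun u x => by
    beta_reduce; rw [mul_assoc]; exact f.2 u _⟩
  one_smul f := by
    apply Subtype.ext; funext x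
    change f.1 (x * 1) = f.1 x
    rw [mul_one]
  mul_smul g h f := by
    apply Subtype.ext; funext x
    change f.1 (x * (g * h)) = f.1 (x * g * h)
    rw [mul_assoc]
  smul_zero g := rfl
  smul_add g f f' := rfl

theorem CoInd.smul_apply (g : G) (f : CoInd H A) (x : G) : (g • f).1 x = f.1 (x * g) := rfl

@[simp] theorem CoInd.add_apply (f f' : CoInd H A) (x : G) : (f + f').1 x = f.1 x + f'.1 x := rfl

@[simp] theorem CoInd.sub_apply (f f' : CoInd H A) (x : G) : (f - f').1 x = f.1 x - f'.1 x := rfl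

@[simp] theorem CoInd.neg_apply (f : CoInd H A) (x : G) : (-f).1 x = -f.1 x := rfl

@[simp] theorem CoInd.zero_apply (x : G) : (0 : CoInd H A).1 x = 0 := rfl

theorem CoInd.ext {f f' : CoInd H A} (h : ∀ x, f.1 x = f'.1 x) : f = f' :=
  Subtype.ext (funext h)

/-- evaluation at one -/
def ev1 (H : Subgroup G) (A : Type*) [AddCommGroup A] [DistribMulAction H A] : CoInd H A →+ A where
  toFun f := f.1 1
  map_zero' := rfl
  map_add' _ _ := rfl

theorem ev1_compat : Compat (H.subtype) (ev1 H A) := by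
  intro u f
  change f.1 (1 * (u : G)) = u • f.1 1
  rw [one_mul, ← f.2 u 1, mul_one]

end CoInd

section Kappa

/-- A left `H`-equivariant retraction `G → H`. -/
theorem exists_kappa (H : Subgroup G) : ∃ κ : G → H, (∀ (u : H) (x : G), κ (u * x) = u * κ x) ∧
    κ 1 = 1 ∧ ∀ (N : Subgroup G), N.Normal → N ≤ H → ∀ x, ∀ s ∈ N, ∃ s' ∈ N,
      (κ (x * s) : G) = κ x * s' := by
  classical
  -- representative of the coset `H x`
  let r : G → G := fun x => if x ∈ H then 1 else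
    (Quotient.out (QuotientGroup.mk (x⁻¹) : G ⧸ H))⁻¹
  have hr : ∀ x, x * (r x)⁻¹ ∈ H := by
    intro x
    by_cases hx : x ∈ H
    · simp [r, hx]
    · simp only [r, if_neg hx, inv_inv]
      obtain ⟨h, hh⟩ := QuotientGroup.mk_out_eq_mul H x⁻¹
      rw [hh, ← mul_assoc, mul_inv_cancel, one_mul]
      exact h.2
  have hr' : ∀ (u : H) (x : G), r (u * x) = r x := by
    intro u x
    have h1 : ((u : G) * x ∈ H) ↔ x ∈ H := H.mul_mem_cancel_left u.2
    by_cases hx : x ∈ H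
    · simp only [r, if_pos hx, if_pos (h1.mpr hx)]
    · simp only [r, if_neg hx, if_neg (fun h => hx (h1.mp h))]
      have e : (QuotientGroup.mk (((u : G) * x)⁻¹) : G ⧸ H) = QuotientGroup.mk x⁻¹ := by
        rw [QuotientGroup.eq]
        simp
      rw [e]
  refine ⟨fun x => ⟨x * (r x)⁻¹, hr x⟩, ?_, ?_, ?_⟩
  · intro u x
    apply Subtype.ext
    change (u : G) * x * (r (u * x))⁻¹ = u * (x * (r x)⁻¹)
    rw [hr', mul_assoc]
  · apply Subtype.ext
    change (1 : G) * (r 1)⁻¹ = 1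
    simp [r, H.one_mem]
  · intro N hN hNH x s hs
    refine ⟨r x * s * (r x)⁻¹, hN.conj_mem s hs _, ?_⟩
    have h1 : r (x * s) = r x := by
      have : x * s = ((⟨x * s * x⁻¹, hNH (hN.conj_mem s hs x)⟩ : H) : G) * x := by simp
      rw [this, hr']
    change x * s * (r (x * s))⁻¹ = x * (r x)⁻¹ * (r x * s * (r x)⁻¹)
    rw [h1]
    group

end Kappa

section Smooth

variable {𝓛 : Lev G} {H : Subgroup G} {A : Type*} [AddCommGroup A] [DistribMulAction H A]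

theorem CoInd.smooth (hH : 𝓛.isOpen H) (hA : (𝓛.sub H).Smooth A) : 𝓛.Smooth (CoInd H A) := by
  intro f
  -- values on finitely many coset representatives
  have hfin : Finite (G ⧸ H) := by
    have := 𝓛.fin H hH
    infer_instance
  have key : ∀ q : G ⧸ H, ∃ V, 𝓛.isOpen V ∧ V ≤ H ∧ V.Normal ∧
      ∀ (s : G) (hs : s ∈ V) (hsH : s ∈ H), (⟨s, hsH⟩ : H) • f.1 (q.out⁻¹) = f.1 (q.out⁻¹) := by
    intro q
    obtain ⟨U, ⟨V, hV, hVU⟩, hU⟩ := hA (f.1 (q.out⁻¹))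
    obtain ⟨W, hWn, hW, hWV, hWH⟩ := 𝓛.exists_normal_le hV hH
    refine ⟨W, hW, hWH, hWn, fun s hs hsH => hU _ (hVU ?_)⟩
    exact hWV hs
  choose V hV hVH hVn hVf using key
  obtain ⟨W, hW, hWV⟩ : ∃ W : Subgroup G, 𝓛.isOpen W ∧ ∀ q, W ≤ V q := by
    have := Fintype.ofFinite (G ⧸ H)
    have : ∀ t : Finset (G ⧸ H), ∃ W : Subgroup G, 𝓛.isOpen W ∧ ∀ q ∈ t, W ≤ V q := by
      classical
      intro t
      induction t using Finset.induction_on with
      | empty => exact ⟨⊤, 𝓛.top, by simp⟩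
      | @insert a t _ ih =>
        obtain ⟨W, hW, h⟩ := ih
        refine ⟨W ⊓ V a, 𝓛.inf _ _ hW (hV a), ?_⟩
        intro q hq
        rcases Finset.mem_insert.mp hq with rfl | hq
        · exact inf_le_right
        · exact inf_le_left.trans (h q hq)
    obtain ⟨W, hW, h⟩ := this Finset.univ
    exact ⟨W, hW, fun q => h q (Finset.mem_univ q)⟩
  obtain ⟨N, hNn, hN, hNW⟩ := 𝓛.nor W hW
  refine ⟨N, hN, fun s hs => CoInd.ext fun x => ?_⟩
  rw [CoInd.smul_apply]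
  -- write `x = u * y` with `y = q.out⁻¹`
  set q : G ⧸ H := QuotientGroup.mk x⁻¹ with hq
  obtain ⟨h, hh⟩ := QuotientGroup.mk_out_eq_mul H x⁻¹
  have hx : x = (h : G) * q.out⁻¹ := by rw [hq, hh]; group
  have hy : (q.out⁻¹) * s = ((q.out⁻¹) * s * (q.out⁻¹)⁻¹) * q.out⁻¹ := by group
  have hsN : (q.out⁻¹) * s * (q.out⁻¹)⁻¹ ∈ N := hNn.conj_mem s hs _
  have hsH : (q.out⁻¹) * s * (q.out⁻¹)⁻¹ ∈ H := hVH q (hWV q (hNW hsN))
  have e : x * s = (h : G) * (((⟨(q.out⁻¹) * s * (q.out⁻¹)⁻¹, hsH⟩ : H) : G) * q.out⁻¹) := by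
    rw [← hy, hx]; group
  rw [e, f.2 h, f.2 ⟨(q.out⁻¹) * s * (q.out⁻¹)⁻¹, hsH⟩, hVf q _ (hWV q (hNW hsN)) hsH, ← f.2 h, ← hx]

end Smooth

section Shapiro

variable (𝓛 : Lev G) (H : Subgroup G) (A : Type*) [AddCommGroup A] [DistribMulAction H A]

/-- Shapiro map in degree one -/
def sh1 : H1 𝓛 (CoInd H A) →+ H1 (𝓛.sub H) A :=
  H1map H.subtype (𝓛.cont_subtype H) (ev1 H A) ev1_compat

/-- Shapiro map in degree two -/
def sh2 : H2 𝓛 (CoInd H A) →+ H2 (𝓛.sub H) A :=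
  H2map H.subtype (𝓛.cont_subtype H) (ev1 H A) ev1_compat

variable {𝓛 H A}

theorem sh1_injective : Function.Injective (sh1 𝓛 H A) := by
  rw [injective_iff_map_eq_zero]
  intro x hx
  obtain ⟨F, rfl⟩ := H1.mk_surjective x
  obtain ⟨a, ha⟩ := H1.mk_eq_zero.mp hx
  have ha' : ∀ u : H, (F.1 u).1 1 = u • a - a := ha
  obtain ⟨κ, hκ, hκ1, -⟩ := exists_kappa H
  -- homogeneous form
  set Ft : G → G → A := fun x y => (F.1 (x⁻¹ * y)).1 x with hFt
  have hcoc : ∀ x y z, Ft x z = Ft x y + Ft y z := by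
    intro x y z
    have h1 := F.2.2 (x⁻¹ * y) (y⁻¹ * z)
    have h2 : x⁻¹ * y * (y⁻¹ * z) = x⁻¹ * z := by group
    rw [h2] at h1
    have h3 : (F.1 (x⁻¹ * z)).1 x = (F.1 (x⁻¹ * y)).1 x + (F.1 (y⁻¹ * z)).1 (x * (x⁻¹ * y)) := by
      rw [h1]; rfl
    rw [mul_inv_cancel_left] at h3
    exact h3
  have heq : ∀ (u : H) x y, Ft (u * x) (u * y) = u • Ft x y := by
    intro u x y
    simp only [hFt]
    have : ((u : G) * x)⁻¹ * (u * y) = x⁻¹ * y := by group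
    rw [this]
    exact (F.1 _).2 u x
  have hH : ∀ u v : H, Ft u v = v • a - u • a := by
    intro u v
    have h1 := heq u 1 ((u : G)⁻¹ * v)
    rw [mul_one, mul_inv_cancel_left] at h1
    rw [h1]
    simp only [hFt, inv_one, one_mul]
    have h2 : ((u : G)⁻¹ * v) = ((u⁻¹ * v : H) : G) := by simp
    rw [h2, ha', smul_sub, ← mul_smul, mul_inv_cancel_left]
  refine H1.mk_eq_zero.mpr ⟨⟨fun x => Ft (κ x) x + κ x • a, ?_⟩, fun g => CoInd.ext fun x => ?_⟩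
  · intro u x
    beta_reduce
    rw [hκ, Subgroup.coe_mul, heq, mul_smul, smul_add]
  · rw [CoInd.sub_apply, CoInd.smul_apply]
    change (F.1 g).1 x = (Ft (κ (x * g)) (x * g) + κ (x * g) • a) - (Ft (κ x) x + κ x • a)
    have h1 : (F.1 g).1 x = Ft x (x * g) := by
      simp only [hFt, inv_mul_cancel_left]
    have h2 := hcoc (κ x) x (x * g)
    have h3 := hcoc (κ x) (κ (x * g)) (x * g)
    rw [hH] at h3
    have h4 : Ft x (x * g) = Ft (κ x) (x * g) - Ft (κ x) x := by rw [h2]; abel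
    rw [h1, h4, h3]
    abel

theorem sh1_surjective (hH : 𝓛.isOpen H) : Function.Surjective (sh1 𝓛 H A) := by
  intro x
  obtain ⟨φ, rfl⟩ := H1.mk_surjective x
  obtain ⟨κ, hκ, hκ1, hκN⟩ := exists_kappa H
  obtain ⟨U, ⟨V, hV, hVU⟩, hU⟩ := φ.2.1
  obtain ⟨N, hNn, hN, hNV, hNH⟩ := 𝓛.exists_normal_le hV hH
  set F : G → CoInd H A := fun g => ⟨fun x => κ x • φ.1 ((κ x)⁻¹ * κ (x * g)), fun u x => by
    beta_reduce
    rw [hκ, mul_assoc (u : G) x g, hκ, mul_inv_rev]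
    have : (κ x)⁻¹ * u⁻¹ * (u * κ (x * g)) = (κ x)⁻¹ * κ (x * g) := by group
    rw [this, mul_smul]⟩ with hF
  have hFc : 𝓛.Const1 F := by
    refine ⟨N, hN, fun g s hs => CoInd.ext fun x => ?_⟩
    change κ x • φ.1 ((κ x)⁻¹ * κ (x * (g * s))) = κ x • φ.1 ((κ x)⁻¹ * κ (x * g))
    rw [← mul_assoc]
    obtain ⟨s', hs', hks⟩ := hκN N hNn hNH (x * g) s hs
    have e : (κ x)⁻¹ * κ (x * g * s) = (κ x)⁻¹ * κ (x * g) * ⟨s', hNH hs'⟩ := by
      apply Subtype.ext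
      push_cast
      rw [hks]
      group
    rw [e, hU _ _ (hVU (hNV hs'))]
  refine ⟨H1.mk 𝓛 _ ⟨F, hFc, fun g h => CoInd.ext fun x => ?_⟩, ?_⟩
  · rw [CoInd.add_apply, CoInd.smul_apply]
    change κ x • φ.1 ((κ x)⁻¹ * κ (x * (g * h))) = κ x • φ.1 ((κ x)⁻¹ * κ (x * g)) +
      κ (x * g) • φ.1 ((κ (x * g))⁻¹ * κ (x * g * h))
    have e : (κ x)⁻¹ * κ (x * (g * h)) =
        ((κ x)⁻¹ * κ (x * g)) * ((κ (x * g))⁻¹ * κ (x * g * h)) := by
      rw [mul_assoc x g h]; group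
    rw [e, φ.2.2, smul_add, ← mul_smul, mul_inv_cancel_left]
  · change H1.mk _ _ _ = H1.mk _ _ φ
    congr 1
    apply Subtype.ext
    funext u
    change κ 1 • φ.1 ((κ 1)⁻¹ * κ (1 * u)) = φ.1 u
    have e : κ (1 * (u : G)) = u := by
      rw [one_mul, ← mul_one (u : G), hκ, hκ1, mul_one]
    rw [e, hκ1, inv_one, one_mul, one_smul]

theorem sh2_surjective (hH : 𝓛.isOpen H) : Function.Surjective (sh2 𝓛 H A) := by
  intro x
  obtain ⟨φ, rfl⟩ := H2.mk_surjective x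
  obtain ⟨κ, hκ, hκ1, hκN⟩ := exists_kappa H
  obtain ⟨U, ⟨V, hV, hVU⟩, hU⟩ := φ.2.1
  obtain ⟨N, hNn, hN, hNV, hNH⟩ := 𝓛.exists_normal_le hV hH
  set F : G → G → CoInd H A := fun g h =>
    ⟨fun x => κ x • φ.1 ((κ x)⁻¹ * κ (x * g)) ((κ (x * g))⁻¹ * κ (x * (g * h))), fun u x => by
    beta_reduce
    rw [hκ, mul_assoc (u : G) x g, mul_assoc (u : G) x (g * h), hκ, hκ, mul_inv_rev, mul_inv_rev]
    have e1 : (κ x)⁻¹ * u⁻¹ * (u * κ (x * g)) = (κ x)⁻¹ * κ (x * g) := by group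
    have e2 : (κ (x * g))⁻¹ * u⁻¹ * (u * κ (x * (g * h))) = (κ (x * g))⁻¹ * κ (x * (g * h)) := by
      group
    rw [e1, e2, mul_smul]⟩ with hF
  have hFc : 𝓛.Const2 F := by
    refine ⟨N, hN, fun g h s hs t ht => CoInd.ext fun x => ?_⟩
    change κ x • φ.1 ((κ x)⁻¹ * κ (x * (g * s))) ((κ (x * (g * s)))⁻¹ * κ (x * (g * s * (h * t)))) =
      κ x • φ.1 ((κ x)⁻¹ * κ (x * g)) ((κ (x * g))⁻¹ * κ (x * (g * h)))
    obtain ⟨s', hs', hks⟩ := hκN N hNn hNH (x * g) s hs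
    have hst : h⁻¹ * s * h * t ∈ N := by
      refine N.mul_mem ?_ ht
      have := hNn.conj_mem s hs h⁻¹
      simpa using this
    obtain ⟨s'', hs'', hks'⟩ := hκN N hNn hNH (x * (g * h)) (h⁻¹ * s * h * t) hst
    have e0 : x * (g * s * (h * t)) = x * (g * h) * (h⁻¹ * s * h * t) := by group
    have e1 : (κ x)⁻¹ * κ (x * (g * s)) = (κ x)⁻¹ * κ (x * g) * ⟨s', hNH hs'⟩ := by
      apply Subtype.ext
      push_cast
      rw [← mul_assoc x g s, hks]
      group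
    set c : H := (κ (x * g))⁻¹ * κ (x * (g * h)) with hc
    have hc' : (c : G)⁻¹ * s'⁻¹ * c * s'' ∈ N := by
      refine N.mul_mem ?_ hs''
      have := hNn.conj_mem s'⁻¹ (N.inv_mem hs') (c : G)⁻¹
      simpa using this
    have e2 : (κ (x * (g * s)))⁻¹ * κ (x * (g * s * (h * t))) = c * ⟨_, hNH hc'⟩ := by
      apply Subtype.ext
      push_cast
      rw [e0, hks', ← mul_assoc x g s, hks, hc]
      push_cast
      group
    rw [e1, e2, hU _ _ _ (hVU (hNV hs')) _ (hVU (hNV hc'))]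
  refine ⟨H2.mk 𝓛 _ ⟨F, hFc, fun g h k => CoInd.ext fun x => ?_⟩, ?_⟩
  · rw [CoInd.add_apply, CoInd.add_apply, CoInd.smul_apply]
    change κ (x * g) • φ.1 ((κ (x * g))⁻¹ * κ (x * g * h)) ((κ (x * g * h))⁻¹ * κ (x * g * (h * k))) +
      κ x • φ.1 ((κ x)⁻¹ * κ (x * g)) ((κ (x * g))⁻¹ * κ (x * (g * (h * k)))) =
      κ x • φ.1 ((κ x)⁻¹ * κ (x * (g * h))) ((κ (x * (g * h)))⁻¹ * κ (x * (g * h * k))) +
      κ x • φ.1 ((κ x)⁻¹ * κ (x * g)) ((κ (x * g))⁻¹ * κ (x * (g * h)))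
    have h1 := φ.2.2 ((κ x)⁻¹ * κ (x * g)) ((κ (x * g))⁻¹ * κ (x * (g * h)))
      ((κ (x * (g * h)))⁻¹ * κ (x * (g * h * k)))
    have h2 := congrArg (fun t => κ x • t) h1
    simp only [smul_add] at h2
    rw [← mul_smul, mul_inv_cancel_left] at h2
    have e1 : (κ (x * g))⁻¹ * κ (x * (g * h)) * ((κ (x * (g * h)))⁻¹ * κ (x * (g * h * k))) =
        (κ (x * g))⁻¹ * κ (x * (g * (h * k))) := by
      rw [mul_assoc g h k]; group
    have e2 : (κ x)⁻¹ * κ (x * g) * ((κ (x * g))⁻¹ * κ (x * (g * h))) =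
        (κ x)⁻¹ * κ (x * (g * h)) := by group
    rw [e1, e2] at h2
    have e3 : x * g * h = x * (g * h) := mul_assoc _ _ _
    have e4 : x * g * (h * k) = x * (g * h * k) := by group
    rw [e3, e4]
    exact h2
  · change H2.mk _ _ _ = H2.mk _ _ φ
    congr 1
    apply Subtype.ext
    funext u v
    change κ 1 • φ.1 ((κ 1)⁻¹ * κ (1 * u)) ((κ (1 * u))⁻¹ * κ (1 * (u * v))) = φ.1 u v
    have e : ∀ w : H, κ (w : G) = w := fun w => by
      rw [← mul_one (w : G), hκ, hκ1, mul_one]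
    have e2 : κ ((u : G) * v) = u * v := by
      rw [← Subgroup.coe_mul, e]
    rw [one_mul, one_mul, e, e2, hκ1, inv_one, one_mul, one_smul, inv_mul_cancel_left]

theorem sh2_injective (hH : 𝓛.isOpen H) : Function.Injective (sh2 𝓛 H A) := by
  rw [injective_iff_map_eq_zero]
  intro x hx
  obtain ⟨F, rfl⟩ := H2.mk_surjective x
  obtain ⟨ψ, hψc, hψ⟩ := H2.mk_eq_zero.mp hx
  have hψ' : ∀ u v : H, (F.1 u v).1 1 = d1 ψ u v := hψ
  obtain ⟨κ, hκ, hκ1, hκN⟩ := exists_kappa H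
  -- homogeneous form
  set Ft : G → G → G → A := fun x y z => (F.1 (x⁻¹ * y) (y⁻¹ * z)).1 x with hFt
  have hcoc : ∀ x y z w, Ft y z w + Ft x y w = Ft x z w + Ft x y z := by
    intro x y z w
    have h1 := F.2.2 (x⁻¹ * y) (y⁻¹ * z) (z⁻¹ * w)
    have h2 := congrArg (fun f : CoInd H A => f.1 x) h1
    simp only [CoInd.add_apply, CoInd.smul_apply, mul_inv_cancel_left] at h2
    have e1 : y⁻¹ * z * (z⁻¹ * w) = y⁻¹ * w := by group
    have e2 : x⁻¹ * y * (y⁻¹ * z) = x⁻¹ * z := by group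
    rw [e1, e2] at h2
    exact h2
  have heq : ∀ (u : H) x y z, Ft (u * x) (u * y) (u * z) = u • Ft x y z := by
    intro u x y z
    simp only [hFt]
    have e1 : ((u : G) * x)⁻¹ * (u * y) = x⁻¹ * y := by group
    have e2 : ((u : G) * y)⁻¹ * (u * z) = y⁻¹ * z := by group
    rw [e1, e2]
    exact (F.1 _ _).2 u x
  have hH' : ∀ u v w : H, Ft u v w = v • ψ (v⁻¹ * w) - u • ψ (u⁻¹ * w) + u • ψ (u⁻¹ * v) := by
    intro u v w
    have h1 := heq u 1 ((u : G)⁻¹ * v) ((u : G)⁻¹ * w)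
    rw [mul_one, mul_inv_cancel_left, mul_inv_cancel_left] at h1
    rw [h1]
    simp only [hFt, inv_one, one_mul]
    have h2 : ((u : G)⁻¹ * v) = ((u⁻¹ * v : H) : G) := by simp
    have h3 : ((u : G)⁻¹ * v)⁻¹ * ((u : G)⁻¹ * w) = ((v⁻¹ * w : H) : G) := by push_cast; group
    rw [h3, h2, hψ']
    simp only [d1, smul_add, smul_sub, ← mul_smul, mul_inv_cancel_left]
    have e1 : u⁻¹ * v * (v⁻¹ * w) = u⁻¹ * w := by group
    rw [e1]
  -- the primitive
  set Pt : G → G → A := fun x y => Ft (κ x) x y - Ft (κ x) (κ y) y + κ x • ψ ((κ x)⁻¹ * κ y) with hPt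
  have hPeq : ∀ (u : H) x y, Pt (u * x) (u * y) = u • Pt x y := by
    intro u x y
    simp only [hPt]
    rw [hκ, hκ]
    push_cast
    rw [heq, heq, mul_smul, smul_add, smul_sub]
    have e1 : (u * κ x)⁻¹ * (u * κ y) = (κ x)⁻¹ * κ y := by group
    rw [e1]
  have hdP : ∀ x y z, Pt y z - Pt x z + Pt x y = Ft x y z := by
    intro x y z
    have h1 := hcoc (κ x) x y z
    have h2 := hcoc (κ x) (κ y) y z
    have h3 := hcoc (κ x) (κ y) (κ z) z
    have h4 := hH' (κ x) (κ y) (κ z)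
    simp only [hPt]
    have h5 : Ft x y z = Ft (κ x) y z + Ft (κ x) x y - Ft (κ x) x z := by rw [← h1]; abel
    have h6 : Ft (κ x) y z = Ft (κ y) y z + Ft (κ x) (κ y) z - Ft (κ x) (κ y) y := by
      rw [h2]; abel
    have h7 : Ft (κ x) (κ y) z = Ft (κ x) (κ z) z + Ft (κ x) (κ y) (κ z) - Ft (κ y) (κ z) z := by
      rw [← h3]; abel
    rw [h5, h6, h7, h4]
    abel
  refine H2.mk_eq_zero.mpr ⟨fun g => ⟨fun x => Pt x (x * g), fun u x => by
    beta_reduce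
    rw [mul_assoc, hPeq]⟩, ?_, fun g h => CoInd.ext fun x => ?_⟩
  · -- level-constancy
    obtain ⟨U, hU, hUF⟩ := F.2.1
    obtain ⟨V, ⟨V', hV', hVV'⟩, hVψ⟩ := hψc
    obtain ⟨N₀, hN₀n, hN₀, hN₀U, hN₀V⟩ := 𝓛.exists_normal_le hU hV'
    obtain ⟨N, hNn, hN, hNN₀, hNH⟩ := 𝓛.exists_normal_le hN₀ hH
    refine ⟨N, hN, fun g s hs => CoInd.ext fun x => ?_⟩
    change Pt x (x * (g * s)) = Pt x (x * g)
    simp only [hPt, hFt]
    obtain ⟨s', hs', hks⟩ := hκN N hNn hNH (x * g) s hs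
    have hNU : ∀ t ∈ N, t ∈ U := fun t ht => hN₀U (hNN₀ ht)
    have hks' : (κ (x * (g * s)) : G) = κ (x * g) * s' := by rw [← mul_assoc x g s, hks]
    have a1 : x⁻¹ * (x * (g * s)) = x⁻¹ * (x * g) * s := by group
    have a2 : ((κ x : G))⁻¹ * (κ (x * (g * s)) : G) = (κ x : G)⁻¹ * κ (x * g) * s' := by
      rw [hks']; group
    set c : G := (κ (x * g) : G)⁻¹ * (x * g) with hc
    have a3 : (κ (x * (g * s)) : G)⁻¹ * (x * (g * s)) = c * (c⁻¹ * s'⁻¹ * c * s) := by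
      rw [hks', hc]; group
    have hmem : c⁻¹ * s'⁻¹ * c * s ∈ N := by
      refine N.mul_mem ?_ hs
      have := hNn.conj_mem s'⁻¹ (N.inv_mem hs') c⁻¹
      simpa using this
    have a4 : (κ x)⁻¹ * κ (x * (g * s)) = (κ x)⁻¹ * κ (x * g) * ⟨s', hNH hs'⟩ := by
      apply Subtype.ext
      push_cast
      rw [hks']
      group
    have b1 : F.1 ((κ x : G)⁻¹ * x) (x⁻¹ * (x * (g * s))) = F.1 ((κ x : G)⁻¹ * x) (x⁻¹ * (x * g)) := by
      rw [a1]
      have := hUF ((κ x : G)⁻¹ * x) (x⁻¹ * (x * g)) 1 U.one_mem s (hNU s hs)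
      rwa [mul_one] at this
    have b2 : F.1 ((κ x : G)⁻¹ * (κ (x * (g * s)) : G)) ((κ (x * (g * s)) : G)⁻¹ * (x * (g * s))) =
        F.1 ((κ x : G)⁻¹ * κ (x * g)) c := by
      rw [a2, a3]
      exact hUF _ _ _ (hNU _ hs') _ (hNU _ hmem)
    rw [b1, b2, a4, hVψ _ _ (hVV' (hN₀V (hNN₀ hs')))]
  · change (F.1 g h).1 x = _
    simp only [d1, CoInd.add_apply, CoInd.sub_apply, CoInd.smul_apply]
    have := hdP x (x * g) (x * (g * h))
    rw [mul_assoc x g h, this]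
    simp only [hFt, inv_mul_cancel_left]
    congr 2
    group

end Shapiro

end Fermat.Agent.CC
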